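/-
N4-FULL, row F6a: the ABSTRACT OCCURRENCE LEMMA (commutative-algebra half of F6-OUT2, also for P1).

Mathlib only.  `K ⊆ 𝔽` fields, `V` a finite-dimensional `K`-space with a commutative ring `𝕋`
of operators, and `Λ : 𝕋 → 𝔽` a character which kills every operator acting as `0` on `V`.
Then `Λ` OCCURS in `𝔽 ⊗[K] V`: there is a nonzero common eigenvector with eigenvalues `Λ P`.
No algebraic closedness of `𝔽`, no semisimplicity, no separability.

* `exists_eigenvector_of_character` : the core lemma (Artinian ring + Nakayama).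
* `exists_eigenvector_baseChange`   : general `K ⊆ 𝔽`, `𝕋` a commutative `K`-algebra.
* `exists_eigenvector_zmod`         : `K = ZMod p`, `𝕋` ANY commutative ring, ring homs.
* `polyAct`                         : evaluation of `MvPolynomial I R` at a commuting family.
* `exists_common_eigenvector`, `exists_common_eigenvector_zmod` : the commuting-family forms,
  with the hypothesis in polynomial form (`K`-coefficients, resp. `ℤ`-coefficients).
-/
import Mathlib

set_option autoImplicit false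

open scoped TensorProduct

namespace Fermat.Agent.N4F.Tors.Occurrence

/-- **Core lemma.** A commutative finite-dimensional algebra `C` over a field `𝔽` acting
faithfully on an `𝔽`-vector space `W`: every character `Λ : C → 𝔽` occurs, i.e. there is a
nonzero common eigenvector with eigenvalues `Λ c`. -/
theorem exists_eigenvector_of_character {𝔽 C W : Type*} [Field 𝔽] [CommRing C] [Algebra 𝔽 C]
    [Module.Finite 𝔽 C] [AddCommGroup W] [Module 𝔽 W]
    (ι : C →ₐ[𝔽] Module.End 𝔽 W) (hι : Function.Injective ι) (Λ : C →ₐ[𝔽] 𝔽) :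
    ∃ v : W, v ≠ 0 ∧ ∀ c : C, ι c v = Λ c • v := by
  classical
  have : IsArtinianRing C := IsArtinianRing.of_finite 𝔽 C
  have : IsNoetherianRing C := inferInstance
  set 𝔫 : Ideal C := RingHom.ker (Λ : C →+* 𝔽) with h𝔫
  -- the powers of `𝔫` stabilise
  obtain ⟨n, hn⟩ : ∃ n, ∀ m, n ≤ m → 𝔫 ^ n = 𝔫 ^ m := by
    have := IsArtinian.monotone_stabilizes (R := C) (M := C)
      ⟨fun n => OrderDual.toDual (𝔫 ^ n), fun a b hab => Ideal.pow_le_pow_right hab⟩
    obtain ⟨n, hn⟩ := this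
    exact ⟨n, fun m hm => congrArg OrderDual.ofDual (hn m hm)⟩
  set I : Ideal C := 𝔫 ^ (n + 1) with hI
  have hII : I * I = I := by
    rw [hI, ← pow_add, ← hn (n + 1 + (n + 1)) (by omega), ← hn (n + 1) (by omega)]
  have hI𝔫 : I ≤ 𝔫 := by
    rw [hI]
    exact Ideal.pow_le_self (by omega)
  have hfg : I.FG := IsNoetherian.noetherian I
  obtain ⟨r, hr1, hr0⟩ := Submodule.exists_sub_one_mem_and_smul_eq_zero_of_fg_of_le_smul I I hfg
    (by rw [smul_eq_mul, hII])
  have hΛr : Λ r = 1 := by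
    have h1 : r - 1 ∈ 𝔫 := hI𝔫 hr1
    rw [h𝔫, RingHom.mem_ker] at h1
    have h2 : Λ r - 1 = 0 := by simpa using h1
    exact sub_eq_zero.mp h2
  have hr : r ≠ 0 := by
    rintro rfl
    rw [map_zero] at hΛr
    exact zero_ne_one hΛr
  have hιr : ι r ≠ 0 := (map_ne_zero_iff ι hι).2 hr
  obtain ⟨w₀, hw₀⟩ : ∃ w₀, ι r w₀ ≠ 0 := by
    by_contra hcon
    push Not at hcon
    exact hιr (LinearMap.ext hcon)
  set w := ι r w₀ with hw
  have hkill : ∀ x ∈ I, ι x w = 0 := by
    intro x hx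
    have h1 : r * x = 0 := by simpa [smul_eq_mul] using hr0 x hx
    rw [hw, ← Module.End.mul_apply, ← map_mul, mul_comm, h1, map_zero, LinearMap.zero_apply]
  have hex : ∃ j, ∀ x ∈ 𝔫 ^ j, ι x w = 0 := ⟨n + 1, hkill⟩
  have hj₀ : Nat.find hex ≠ 0 := by
    intro h0
    have h1 := Nat.find_spec hex
    rw [h0, pow_zero] at h1
    have h2 := h1 1 (by simp)
    rw [map_one, Module.End.one_apply] at h2
    exact hw₀ h2
  obtain ⟨j, hj⟩ := Nat.exists_eq_succ_of_ne_zero hj₀
  have hmin := Nat.find_min hex (m := j) (by omega)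
  push Not at hmin
  obtain ⟨y, hy, hyw⟩ := hmin
  refine ⟨ι y w, hyw, fun c => ?_⟩
  have hc : c - algebraMap 𝔽 C (Λ c) ∈ 𝔫 := by
    rw [h𝔫, RingHom.mem_ker]
    simp
  have hmem : (c - algebraMap 𝔽 C (Λ c)) * y ∈ 𝔫 ^ (Nat.find hex) := by
    rw [hj, Nat.succ_eq_add_one, pow_succ']
    exact Ideal.mul_mem_mul hc hy
  have h0 := Nat.find_spec hex _ hmem
  rw [map_mul, map_sub, AlgHom.commutes, Module.End.mul_apply, LinearMap.sub_apply,
    Module.algebraMap_end_apply, sub_eq_zero] at h0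
  exact h0

section BaseChange

variable {K 𝔽 V C₀ : Type*} [Field K] [Field 𝔽] [Algebra K 𝔽]
  [AddCommGroup V] [Module K V] [CommRing C₀] [Algebra K C₀]

/-- The base-changed action `𝔽 ⊗ C₀ → End_𝔽 (𝔽 ⊗ V)`. -/
noncomputable def bcAct (ι₀ : C₀ →ₐ[K] Module.End K V) :
    (𝔽 ⊗[K] C₀) →ₐ[𝔽] Module.End 𝔽 (𝔽 ⊗[K] V) :=
  (LinearMap.tensorProductEnd K 𝔽 V).comp (Algebra.TensorProduct.map (AlgHom.id 𝔽 𝔽) ι₀)

theorem bcAct_tmul (ι₀ : C₀ →ₐ[K] Module.End K V) (a : 𝔽) (c : C₀) :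
    bcAct (𝔽 := 𝔽) ι₀ (a ⊗ₜ c) = a • (ι₀ c).baseChange 𝔽 := by
  simp only [bcAct, AlgHom.comp_apply, Algebra.TensorProduct.map_tmul, AlgHom.id_apply]
  rw [LinearMap.tensorProductEnd_apply]
  rfl

theorem bcAct_injective (ι₀ : C₀ →ₐ[K] Module.End K V) (hι₀ : Function.Injective ι₀) :
    Function.Injective (bcAct (𝔽 := 𝔽) ι₀) := by
  classical
  rw [injective_iff_map_eq_zero]
  intro z hz
  let b := Module.Basis.ofVectorSpace K 𝔽
  obtain ⟨c, rfl⟩ := TensorProduct.eq_repr_basis_left b z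
  have hc : c = 0 := by
    ext i
    apply hι₀
    rw [Finsupp.zero_apply, map_zero]
    ext v
    have h1 : bcAct (𝔽 := 𝔽) ι₀ (c.sum fun i n => b i ⊗ₜ[K] n) ((1 : 𝔽) ⊗ₜ[K] v) = 0 := by
      rw [hz, LinearMap.zero_apply]
    rw [Finsupp.sum, map_sum, LinearMap.sum_apply] at h1
    have h2 : ∀ i ∈ c.support, bcAct (𝔽 := 𝔽) ι₀ (b i ⊗ₜ[K] c i) ((1 : 𝔽) ⊗ₜ[K] v)
        = b i ⊗ₜ[K] (ι₀ (c i) v) := by
      intro i _
      rw [bcAct_tmul, LinearMap.smul_apply, LinearMap.baseChange_tmul, TensorProduct.smul_tmul',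
        smul_eq_mul, mul_one]
    rw [Finset.sum_congr rfl h2] at h1
    have h3 : ((c.mapRange (fun n => ι₀ n v) (by simp)).sum fun i m => b i ⊗ₜ[K] m) = 0 := by
      rw [Finsupp.sum_mapRange_index (by simp)]
      exact h1
    have h4 := TensorProduct.sum_tmul_basis_left_eq_zero b _ h3
    have h5 := DFunLike.congr_fun h4 i
    simpa using h5
  rw [hc, Finsupp.sum_zero_index]

/-- The base-changed character `𝔽 ⊗ C₀ → 𝔽`. -/
noncomputable def bcChar (Λ₀ : C₀ →ₐ[K] 𝔽) : (𝔽 ⊗[K] C₀) →ₐ[𝔽] 𝔽 :=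
  Algebra.TensorProduct.lift (Algebra.ofId 𝔽 𝔽) Λ₀ (fun _ _ => Commute.all _ _)

theorem bcChar_tmul (Λ₀ : C₀ →ₐ[K] 𝔽) (a : 𝔽) (c : C₀) :
    bcChar Λ₀ (a ⊗ₜ c) = a * Λ₀ c := by
  simp [bcChar]

/-- **Occurrence, general form.**  `K ⊆ 𝔽` fields, `V` a finite-dimensional `K`-space, `𝕋` a
commutative `K`-algebra acting on `V` through `act`, and `Λ : 𝕋 → 𝔽` a `K`-algebra map which
kills every element acting as `0` on `V`.  Then `Λ` occurs in `𝔽 ⊗ V`: there is a nonzero `v`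
with `(act P ⊗ 1) v = Λ P • v` for all `P`.  No algebraic closedness. -/
theorem exists_eigenvector_baseChange {𝕋 : Type*} [CommRing 𝕋] [Algebra K 𝕋] [Module.Finite K V]
    (act : 𝕋 →ₐ[K] Module.End K V) (Λ : 𝕋 →ₐ[K] 𝔽) (H : ∀ P : 𝕋, act P = 0 → Λ P = 0) :
    ∃ v : 𝔽 ⊗[K] V, v ≠ 0 ∧ ∀ P : 𝕋, (act P).baseChange 𝔽 v = Λ P • v := by
  classical
  let ι₀ : (𝕋 ⧸ RingHom.ker act) →ₐ[K] Module.End K V := Ideal.kerLiftAlg act
  have hι₀ : Function.Injective ι₀ := Ideal.kerLiftAlg_injective act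
  let Λ₀ : (𝕋 ⧸ RingHom.ker act) →ₐ[K] 𝔽 :=
    Ideal.Quotient.liftₐ (RingHom.ker act) Λ (fun a ha => H a ha)
  have : Module.Finite K (𝕋 ⧸ RingHom.ker act) :=
    Module.Finite.of_injective ι₀.toLinearMap hι₀
  obtain ⟨v, hv, hev⟩ := exists_eigenvector_of_character (bcAct (𝔽 := 𝔽) ι₀)
    (bcAct_injective ι₀ hι₀) (bcChar Λ₀)
  refine ⟨v, hv, fun P => ?_⟩
  have h1 := hev ((1 : 𝔽) ⊗ₜ[K] (Ideal.Quotient.mk (RingHom.ker act) P))
  rw [bcAct_tmul, bcChar_tmul, one_smul, one_mul] at h1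
  exact h1

end BaseChange

section PolyAct

variable {R A I : Type*} [CommRing R] [Ring A] [Algebra R A]

open scoped IsMulCommutative in
/-- Evaluation of polynomials at a commuting family of elements of a (noncommutative) algebra. -/
noncomputable def polyAct (a : I → A) (hcomm : ∀ i j, Commute (a i) (a j)) :
    MvPolynomial I R →ₐ[R] A :=
  haveI : IsMulCommutative (Algebra.adjoin R (Set.range a)) :=
    Algebra.isMulCommutative_adjoin R (by
      rintro _ ⟨i, rfl⟩ _ ⟨j, rfl⟩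
      exact hcomm i j)
  (Algebra.adjoin R (Set.range a)).val.comp
    (MvPolynomial.aeval fun i => ⟨a i, Algebra.subset_adjoin ⟨i, rfl⟩⟩)

@[simp]
theorem polyAct_X (a : I → A) (hcomm : ∀ i j, Commute (a i) (a j)) (i : I) :
    polyAct (R := R) a hcomm (MvPolynomial.X i) = a i := by
  simp [polyAct]

theorem polyAct_unique (a : I → A) (hcomm : ∀ i j, Commute (a i) (a j))
    (f : MvPolynomial I R →ₐ[R] A) (hf : ∀ i, f (MvPolynomial.X i) = a i) :
    f = polyAct a hcomm := by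
  apply MvPolynomial.algHom_ext
  intro i
  rw [hf, polyAct_X]

/-- For `ℤ`-coefficients `polyAct` is the unique RING homomorphism `X i ↦ a i`. -/
theorem polyAct_int_unique {A I : Type*} [Ring A] (a : I → A)
    (hcomm : ∀ i j, Commute (a i) (a j)) (f : MvPolynomial I ℤ →+* A)
    (hf : ∀ i, f (MvPolynomial.X i) = a i) :
    f = (polyAct (R := ℤ) a hcomm).toRingHom := by
  apply MvPolynomial.ringHom_ext
  · intro r
    have h1 : (MvPolynomial.C r : MvPolynomial I ℤ) = (r : MvPolynomial I ℤ) := by simp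
    rw [h1, map_intCast, map_intCast]
  · intro i
    rw [hf]
    simp

end PolyAct

section ZModForm

variable (p : ℕ) [Fact p.Prime] {𝔽 V 𝕋 : Type*} [Field 𝔽] [Algebra (ZMod p) 𝔽]
  [AddCommGroup V] [Module (ZMod p) V] [Module.Finite (ZMod p) V] [CommRing 𝕋]

/-- A ring homomorphism between `ZMod p`-algebras is an algebra homomorphism. -/
def zmodAlgHom {A B : Type*} [Ring A] [Ring B] [Algebra (ZMod p) A] [Algebra (ZMod p) B]
    (f : A →+* B) : A →ₐ[ZMod p] B :=
  { f with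
    commutes' := fun a =>
      RingHom.congr_fun (Subsingleton.elim (f.comp (algebraMap (ZMod p) A))
        (algebraMap (ZMod p) B)) a }

@[simp]
theorem zmodAlgHom_apply {A B : Type*} [Ring A] [Ring B] [Algebra (ZMod p) A]
    [Algebra (ZMod p) B] (f : A →+* B) (x : A) : zmodAlgHom p f x = f x := rfl

/-- **Occurrence over the prime field.**  `V` a finite-dimensional `𝔽_p`-space, `𝕋` ANY
commutative ring acting on `V` through a ring homomorphism `act`, `𝔽` a field of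
characteristic `p` and `Λ : 𝕋 → 𝔽` a ring homomorphism killing every element which acts as `0`
on `V`.  Then `Λ` occurs in `𝔽 ⊗ V`. -/
theorem exists_eigenvector_zmod (act : 𝕋 →+* Module.End (ZMod p) V) (Λ : 𝕋 →+* 𝔽)
    (H : ∀ P : 𝕋, act P = 0 → Λ P = 0) :
    ∃ v : 𝔽 ⊗[ZMod p] V, v ≠ 0 ∧ ∀ P : 𝕋, (act P).baseChange 𝔽 v = Λ P • v := by
  classical
  have hV : Nontrivial V := by
    by_contra hcon
    rw [not_nontrivial_iff_subsingleton] at hcon
    have h1 : act 1 = 0 := Subsingleton.elim _ _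
    have h2 := H 1 h1
    rw [map_one] at h2
    exact one_ne_zero h2
  have hchE : CharP (Module.End (ZMod p) V) p :=
    charP_of_injective_algebraMap (algebraMap (ZMod p) (Module.End (ZMod p) V)).injective p
  have hinj : Function.Injective (RingHom.kerLift act) := RingHom.kerLift_injective act
  have hchC : CharP (𝕋 ⧸ RingHom.ker act) p := RingHom.charP (RingHom.kerLift act) hinj p
  let _ : Algebra (ZMod p) (𝕋 ⧸ RingHom.ker act) := ZMod.algebra _ p
  let ι₀ : (𝕋 ⧸ RingHom.ker act) →ₐ[ZMod p] Module.End (ZMod p) V :=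
    zmodAlgHom p (RingHom.kerLift act)
  let Λ₀ : (𝕋 ⧸ RingHom.ker act) →ₐ[ZMod p] 𝔽 :=
    zmodAlgHom p (Ideal.Quotient.lift (RingHom.ker act) Λ (fun a ha => H a ha))
  have H₀ : ∀ c, ι₀ c = 0 → Λ₀ c = 0 := by
    intro c hc
    have : c = 0 := hinj (by rw [map_zero]; exact hc)
    rw [this, map_zero]
  obtain ⟨v, hv, hev⟩ := exists_eigenvector_baseChange (𝔽 := 𝔽) ι₀ Λ₀ H₀
  refine ⟨v, hv, fun P => ?_⟩
  exact hev (Ideal.Quotient.mk (RingHom.ker act) P)

end ZModForm

section Families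

/-- **Occurrence for a commuting family, `K`-coefficient form.**  `t i` commuting endomorphisms of
the finite-dimensional `K`-space `V`, `lam i ∈ 𝔽 ⊇ K`; if every polynomial relation
`P(t) = 0` (`P ∈ K[X_i]`) implies `P(lam) = 0`, then the `t i ⊗ 1` have a nonzero common
eigenvector in `𝔽 ⊗ V` with eigenvalues `lam i`. -/
theorem exists_common_eigenvector {K 𝔽 V I : Type*} [Field K] [Field 𝔽] [Algebra K 𝔽]
    [AddCommGroup V] [Module K V] [Module.Finite K V] (t : I → Module.End K V)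
    (hcomm : ∀ i j, Commute (t i) (t j)) (lam : I → 𝔽)
    (H : ∀ P : MvPolynomial I K, polyAct t hcomm P = 0 → MvPolynomial.aeval lam P = 0) :
    ∃ v : 𝔽 ⊗[K] V, v ≠ 0 ∧ ∀ i, (t i).baseChange 𝔽 v = lam i • v := by
  obtain ⟨v, hv, hev⟩ := exists_eigenvector_baseChange (𝔽 := 𝔽) (polyAct t hcomm)
    (MvPolynomial.aeval lam) H
  refine ⟨v, hv, fun i => ?_⟩
  have h1 := hev (MvPolynomial.X i)
  rwa [polyAct_X, MvPolynomial.aeval_X] at h1

/-- **Occurrence for a commuting family over the prime field, `ℤ`-coefficient form.**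
`t i` commuting endomorphisms of the finite-dimensional `𝔽_p`-space `V`, `lam i ∈ 𝔽` a field
of characteristic `p`; if every INTEGRAL polynomial relation `P(t) = 0` (`P ∈ ℤ[X_i]`) implies
`P(lam) = 0` in `𝔽`, then the `t i ⊗ 1` have a nonzero common eigenvector in `𝔽 ⊗ V` with
eigenvalues `lam i`. -/
theorem exists_common_eigenvector_zmod (p : ℕ) [Fact p.Prime] {𝔽 V I : Type*} [Field 𝔽]
    [Algebra (ZMod p) 𝔽] [AddCommGroup V] [Module (ZMod p) V] [Module.Finite (ZMod p) V]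
    (t : I → Module.End (ZMod p) V) (hcomm : ∀ i j, Commute (t i) (t j)) (lam : I → 𝔽)
    (H : ∀ P : MvPolynomial I ℤ,
      polyAct (R := ℤ) t hcomm P = 0 → MvPolynomial.aeval lam P = 0) :
    ∃ v : 𝔽 ⊗[ZMod p] V, v ≠ 0 ∧ ∀ i, (t i).baseChange 𝔽 v = lam i • v := by
  obtain ⟨v, hv, hev⟩ := exists_eigenvector_zmod p (𝔽 := 𝔽)
    (polyAct (R := ℤ) t hcomm).toRingHom
    (MvPolynomial.aeval (R := ℤ) lam).toRingHom (fun P hP => H P hP)
  refine ⟨v, hv, fun i => ?_⟩
  have h1 := hev (MvPolynomial.X i)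
  simpa using h1

end Families

end Fermat.Agent.N4F.Tors.Occurrence
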