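/-
N4-FULL, block F, node F4alg ("EigenAlg"): OCCURRENCE IN A LATTICE.

`M` a finite free `ℤ`-module with a commutative ring `𝕋` of operators, `𝔽` ANY field of
characteristic `p` (no algebraic closedness), `Λ : 𝕋 → 𝔽` a ring homomorphism killing every
operator which is `0` on `M`.  Then `Λ` occurs in `𝔽 ⊗[ℤ] M`.

Proof: `V := ZMod p ⊗[ℤ] M`; if `P` acts as `0` on `V` then `act P = p • Q`, and Cayley–Hamilton
for `Q` gives a monic integer polynomial `g ≡ X ^ d (mod p)` with `g (act P) = 0`, hence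
`Λ P ^ d = 0`; so `Occurrence.exists_eigenvector_zmod` applies to `V`, and
`𝔽 ⊗[ZMod p] (ZMod p ⊗[ℤ] M) ≃ 𝔽 ⊗[ℤ] M`.
-/
import Mathlib
import Fermat.Agent.N4F.Tors.Occurrence

set_option autoImplicit false

open scoped TensorProduct

namespace Fermat.Agent.N4F.Tors.EigenLattice

open Fermat.Agent.N4F.Tors.Occurrence

section Divide

variable {M : Type*} [AddCommGroup M] [Module.Finite ℤ M] [Module.Free ℤ M]

/-- An endomorphism of a finite free `ℤ`-module which vanishes mod `p` is `p` times an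
endomorphism. -/
theorem exists_eq_smul_of_baseChange_eq_zero (p : ℕ) (f : Module.End ℤ M)
    (hf : f.baseChange (ZMod p) = 0) : ∃ Q : Module.End ℤ M, f = (p : ℤ) • Q := by
  classical
  let b := Module.Free.chooseBasis ℤ M
  have hdvd : ∀ m : M, ∀ i, (p : ℤ) ∣ b.repr (f m) i := by
    intro m i
    have h1 : f.baseChange (ZMod p) ((1 : ZMod p) ⊗ₜ[ℤ] m) = 0 := by
      rw [hf, LinearMap.zero_apply]
    rw [LinearMap.baseChange_tmul] at h1
    have h2 := congrArg (fun x => (b.baseChange (ZMod p)).repr x i) h1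
    simp only [Module.Basis.baseChange_repr_tmul, map_zero, Finsupp.zero_apply] at h2
    rw [← ZMod.intCast_zmod_eq_zero_iff_dvd]
    simpa using h2
  choose c hc using hdvd
  refine ⟨b.constr ℤ (fun j => ∑ i, c (b j) i • b i), ?_⟩
  apply b.ext
  intro j
  rw [LinearMap.smul_apply, Module.Basis.constr_basis, Finset.smul_sum]
  conv_lhs => rw [← b.sum_repr (f (b j))]
  refine Finset.sum_congr rfl fun i _ => ?_
  rw [hc (b j) i, mul_smul]

/-- If `f = p • Q` in `End_ℤ M` then the monic integer polynomial `g := scaleRoots χ_Q p`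
kills `f`, and `g ≡ X ^ d` mod `p`. -/
theorem exists_monic_aeval_eq_zero (p : ℕ) (f Q : Module.End ℤ M) (hf : f = (p : ℤ) • Q) :
    ∃ g : Polynomial ℤ, Polynomial.aeval f g = 0 ∧
      ∀ (𝔽 : Type*) [Field 𝔽] [CharP 𝔽 p] (y : 𝔽),
        Polynomial.aeval y g = y ^ g.natDegree := by
  refine ⟨Polynomial.scaleRoots Q.charpoly (p : ℤ), ?_, ?_⟩
  · have h1 := Polynomial.scaleRoots_aeval_eq_zero (r := (p : ℤ)) (LinearMap.aeval_self_charpoly Q)
    have h2 : algebraMap ℤ (Module.End ℤ M) (p : ℤ) * Q = f := by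
      rw [hf, Algebra.algebraMap_eq_smul_one, smul_mul_assoc, one_mul]
    rwa [h2] at h1
  · intro 𝔽 _ _ y
    rw [Polynomial.aeval_def, Polynomial.eval₂_eq_eval_map,
      Polynomial.map_scaleRoots _ _ _ (by
        rw [(LinearMap.charpoly_monic Q).leadingCoeff]; simp)]
    have hp0 : (algebraMap ℤ 𝔽) (p : ℤ) = 0 := by simp
    rw [hp0, Polynomial.scaleRoots_zero,
      ((LinearMap.charpoly_monic Q).map (algebraMap ℤ 𝔽)).leadingCoeff, one_smul,
      Polynomial.eval_pow, Polynomial.eval_X, Polynomial.natDegree_scaleRoots,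
      (LinearMap.charpoly_monic Q).natDegree_map]

end Divide

section Main

/-- Naturality of `cancelBaseChange` with respect to base-changed endomorphisms. -/
theorem cancelBaseChange_baseChange (M : Type*) [AddCommGroup M] (p : ℕ) (𝔽 : Type*) [Field 𝔽]
    [Algebra (ZMod p) 𝔽] (f : Module.End ℤ M)
    (x : 𝔽 ⊗[ZMod p] (ZMod p ⊗[ℤ] M)) :
    TensorProduct.AlgebraTensorModule.cancelBaseChange ℤ (ZMod p) 𝔽 𝔽 M
        ((f.baseChange (ZMod p)).baseChange 𝔽 x) =
      f.baseChange 𝔽 (TensorProduct.AlgebraTensorModule.cancelBaseChange ℤ (ZMod p) 𝔽 𝔽 M x) := by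
  induction x with
  | zero => simp
  | add x y hx hy => rw [map_add, map_add, hx, hy, map_add, map_add]
  | tmul a y =>
    induction y with
    | zero => simp
    | add y z hy hz =>
      rw [TensorProduct.tmul_add, map_add, map_add, hy, hz, map_add, map_add]
    | tmul c m =>
      rw [LinearMap.baseChange_tmul, LinearMap.baseChange_tmul,
        TensorProduct.AlgebraTensorModule.cancelBaseChange_tmul,
        TensorProduct.AlgebraTensorModule.cancelBaseChange_tmul, LinearMap.baseChange_tmul]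

/-- **Occurrence in a lattice, ring-homomorphism form.**  `M` a finite free `ℤ`-module, `𝕋` a
commutative ring acting on `M` through `act`, `𝔽` ANY field of characteristic `p`, and
`Λ : 𝕋 → 𝔽` a ring homomorphism which kills every element acting as `0` on `M`.  Then `Λ`
occurs in `𝔽 ⊗[ℤ] M`. -/
theorem exists_eigenvector_lattice_ringHom (M : Type*) [AddCommGroup M] [Module.Finite ℤ M]
    [Module.Free ℤ M] (p : ℕ) [Fact p.Prime] (𝔽 : Type*) [Field 𝔽] [CharP 𝔽 p]
    {𝕋 : Type*} [CommRing 𝕋]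
    (act : 𝕋 →+* Module.End ℤ M) (Λ : 𝕋 →+* 𝔽) (H : ∀ P : 𝕋, act P = 0 → Λ P = 0) :
    ∃ v : 𝔽 ⊗[ℤ] M, v ≠ 0 ∧ ∀ P : 𝕋, (act P).baseChange 𝔽 v = Λ P • v := by
  classical
  let _ : Algebra (ZMod p) 𝔽 := ZMod.algebra 𝔽 p
  let bc : Module.End ℤ M →+* Module.End (ZMod p) (ZMod p ⊗[ℤ] M) :=
    (Module.End.baseChangeHom ℤ (ZMod p) M).toRingHom
  have hbc : ∀ f, bc f = f.baseChange (ZMod p) := fun f => rfl
  have H' : ∀ P : 𝕋, (bc.comp act) P = 0 → Λ P = 0 := by
    intro P hP
    have hP' : (act P).baseChange (ZMod p) = 0 := hP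
    obtain ⟨Q, hQ⟩ := exists_eq_smul_of_baseChange_eq_zero p (act P) hP'
    obtain ⟨g, hg0, hgy⟩ := exists_monic_aeval_eq_zero p (act P) Q hQ
    have h1 : act (Polynomial.aeval P g) = 0 := by
      rw [← hg0]
      exact (Polynomial.aeval_algHom_apply act.toIntAlgHom P g).symm
    have h2 := H _ h1
    have h3 : Polynomial.aeval (Λ P) g = 0 := by
      rw [← h2]
      exact Polynomial.aeval_algHom_apply Λ.toIntAlgHom P g
    rw [hgy 𝔽 (Λ P)] at h3
    exact eq_zero_of_pow_eq_zero h3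
  obtain ⟨v, hv, hev⟩ := exists_eigenvector_zmod p (𝔽 := 𝔽) (bc.comp act) Λ H'
  refine ⟨TensorProduct.AlgebraTensorModule.cancelBaseChange ℤ (ZMod p) 𝔽 𝔽 M v,
    (LinearEquiv.map_ne_zero_iff _).2 hv, fun P => ?_⟩
  have h1 := hev P
  rw [RingHom.comp_apply, hbc] at h1
  rw [← cancelBaseChange_baseChange, h1, map_smul]


/-- **Occurrence in a lattice, commuting-family form** (block F node `EigenAlg`, without
`IsAlgClosed`): `T i` commuting endomorphisms of the finite free `ℤ`-module `M`, `lam i ∈ 𝔽`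
(a field of characteristic `p`) such that every integral polynomial relation `P(T) = 0` implies
`P(lam) = 0`; then the `T i ⊗ 1` have a nonzero common eigenvector in `𝔽 ⊗[ℤ] M` with eigenvalues
`lam i`. -/
theorem exists_eigenvector_lattice {I : Type*} (M : Type*) [AddCommGroup M] [Module.Finite ℤ M]
    [Module.Free ℤ M] (T : I → Module.End ℤ M) (hcomm : ∀ i j, Commute (T i) (T j))
    (p : ℕ) [Fact p.Prime] (𝔽 : Type*) [Field 𝔽] [CharP 𝔽 p] (lam : I → 𝔽)
    (hχ : ∀ P : MvPolynomial I ℤ, polyAct (R := ℤ) T hcomm P = 0 → MvPolynomial.aeval lam P = 0) :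
    ∃ v : 𝔽 ⊗[ℤ] M, v ≠ 0 ∧ ∀ i, (T i).baseChange 𝔽 v = lam i • v := by
  obtain ⟨v, hv, hev⟩ := exists_eigenvector_lattice_ringHom M p 𝔽
    (polyAct (R := ℤ) T hcomm).toRingHom (MvPolynomial.aeval (R := ℤ) lam).toRingHom
    (fun P hP => hχ P hP)
  refine ⟨v, hv, fun i => ?_⟩
  have h1 := hev (MvPolynomial.X i)
  simpa using h1

end Main

end Fermat.Agent.N4F.Tors.EigenLattice
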