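/-
N4-FULL, block F, pure-algebra preparation of node F4b: FROM A CHARACTERISTIC-ZERO EIGENVECTOR TO
OCCURRENCE MOD `p`.

`M` a finite free `ℤ`-module, `T i` commuting endomorphisms, `k` a field and `w ≠ 0` in
`k ⊗[ℤ] M` a common eigenvector of the `T i ⊗ 1` with eigenvalues `a i ∈ k`.  Then

* every integral polynomial relation `P(T) = 0` gives `P(a) = 0` (`relation_of_eigenvector`);
* the `a i` are integral over `ℤ` (`isIntegral_of_eigenvector`);
* for every prime `p`, every field `𝔽` of characteristic `p` and every ring homomorphism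
  `φ : integralClosure ℤ k → 𝔽` the system `φ (a i)` occurs in `𝔽 ⊗[ℤ] M`
  (`exists_eigenvector_mod_p`).

Mathlib + `Tors/Occurrence` + `Tors/EigenLattice` only.
-/
import Mathlib
import Fermat.Agent.N4F.Tors.EigenLattice

set_option autoImplicit false

open scoped TensorProduct

namespace Fermat.Agent.N4F.Tors.EigenIntegral

open Fermat.Agent.N4F.Tors.Occurrence Fermat.Agent.N4F.Tors.EigenLattice

section PolyActEigen

variable {I : Type*} {k V : Type*} [Field k] [AddCommGroup V] [Module k V]

/-- On a common eigenvector, an integral polynomial in commuting operators acts through the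
value of the polynomial at the eigenvalues. -/
theorem polyAct_apply_eigenvector (t : I → Module.End k V) (hcomm : ∀ i j, Commute (t i) (t j))
    (w : V) (a : I → k) (ha : ∀ i, t i w = a i • w) (P : MvPolynomial I ℤ) :
    polyAct (R := ℤ) t hcomm P w = (MvPolynomial.aeval a P : k) • w := by
  induction P using MvPolynomial.induction_on with
  | C n =>
    rw [← MvPolynomial.algebraMap_eq, AlgHom.commutes, AlgHom.commutes]
    simp only [algebraMap_int_eq, eq_intCast, Module.End.intCast_apply]
    exact (Int.cast_smul_eq_zsmul k n w).symm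
  | add P Q hP hQ => rw [map_add, map_add, LinearMap.add_apply, hP, hQ, add_smul]
  | mul_X P i hP =>
    rw [map_mul, map_mul, polyAct_X, MvPolynomial.aeval_X, Module.End.mul_apply, ha, map_smul, hP,
      smul_smul, mul_comm]

end PolyActEigen

section Lattice

variable {I : Type*} {M : Type*} [AddCommGroup M] (T : I → Module.End ℤ M)
  (k : Type*) [Field k]

/-- The base-changed operators commute. -/
theorem commute_baseChange (hcomm : ∀ i j, Commute (T i) (T j)) (i j : I) : Commute ((T i).baseChange k) ((T j).baseChange k) :=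
  (hcomm i j).map (Module.End.baseChangeHom ℤ k M)

/-- `polyAct` commutes with base change. -/
theorem baseChange_polyAct (hcomm : ∀ i j, Commute (T i) (T j)) (P : MvPolynomial I ℤ) :
    (polyAct (R := ℤ) T hcomm P).baseChange k =
      polyAct (R := ℤ) (fun i => (T i).baseChange k) (commute_baseChange T k hcomm) P := by
  have h := polyAct_int_unique (fun i => (T i).baseChange k) (commute_baseChange T k hcomm)
    ((Module.End.baseChangeHom ℤ k M).toRingHom.comp (polyAct (R := ℤ) T hcomm).toRingHom)
    (fun i => by
      rw [RingHom.comp_apply]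
      simp only [AlgHom.toRingHom_eq_coe, RingHom.coe_coe, polyAct_X]
      rfl)
  exact RingHom.congr_fun h P

variable {k}

/-- **Relations.**  If `w ≠ 0` in `k ⊗[ℤ] M` is a common eigenvector of the `T i ⊗ 1` with
eigenvalues `a i`, then every integral polynomial relation among the `T i` holds for the `a i`. -/
theorem relation_of_eigenvector (hcomm : ∀ i j, Commute (T i) (T j)) (w : k ⊗[ℤ] M)
    (hw : w ≠ 0) (a : I → k)
    (ha : ∀ i, (T i).baseChange k w = a i • w) (P : MvPolynomial I ℤ)
    (hP : polyAct (R := ℤ) T hcomm P = 0) : MvPolynomial.aeval a P = 0 := by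
  have h1 : (polyAct (R := ℤ) T hcomm P).baseChange k w = 0 := by
    rw [hP, LinearMap.baseChange_zero, LinearMap.zero_apply]
  rw [baseChange_polyAct, polyAct_apply_eigenvector _ _ w a ha P] at h1
  exact (smul_eq_zero.mp h1).resolve_right hw

/-- **Integrality.**  An eigenvalue on `k ⊗[ℤ] M` of (the base change of) an endomorphism of a
finite free `ℤ`-module is integral over `ℤ`. -/
theorem isIntegral_of_eigenvector [Module.Finite ℤ M] [Module.Free ℤ M] (f : Module.End ℤ M)
    (w : k ⊗[ℤ] M) (hw : w ≠ 0) (μ : k) (h : f.baseChange k w = μ • w) : IsIntegral ℤ μ := by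
  refine ⟨f.charpoly, LinearMap.charpoly_monic f, ?_⟩
  have h1 : Polynomial.aeval (f.baseChange k) ((f.baseChange k).charpoly) w = 0 := by
    rw [LinearMap.aeval_self_charpoly, LinearMap.zero_apply]
  rw [Module.End.aeval_apply_of_mem_apply_eq_smul h, LinearMap.charpoly_baseChange] at h1
  have h2 := (smul_eq_zero.mp h1).resolve_right hw
  rwa [Polynomial.eval_map] at h2

/-- **From characteristic zero to characteristic `p`.**  If the commuting family `T i` on the
finite free `ℤ`-module `M` has a common eigenvector `w ≠ 0` in `k ⊗[ℤ] M` with eigenvalues `a i`,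
then the `a i` are algebraic integers `a' i`, and for every prime `p`, every field `𝔽` of
characteristic `p` and every ring homomorphism `φ : integralClosure ℤ k → 𝔽` there is a nonzero
common eigenvector in `𝔽 ⊗[ℤ] M` with eigenvalues `φ (a' i)`. -/
theorem exists_eigenvector_mod_p [Module.Finite ℤ M] [Module.Free ℤ M]
    (hcomm : ∀ i j, Commute (T i) (T j)) (w : k ⊗[ℤ] M) (hw : w ≠ 0) (a : I → k) (ha : ∀ i, (T i).baseChange k w = a i • w) :
    ∃ a' : I → integralClosure ℤ k, (∀ i, (a' i : k) = a i) ∧
      ∀ (p : ℕ) [Fact p.Prime] (𝔽 : Type*) [Field 𝔽] [CharP 𝔽 p]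
        (φ : integralClosure ℤ k →+* 𝔽),
        ∃ v : 𝔽 ⊗[ℤ] M, v ≠ 0 ∧ ∀ i, (T i).baseChange 𝔽 v = φ (a' i) • v := by
  refine ⟨fun i => ⟨a i, isIntegral_of_eigenvector (T i) w hw (a i) (ha i)⟩, fun i => rfl, ?_⟩
  intro p _ 𝔽 _ _ φ
  apply exists_eigenvector_lattice M T hcomm p 𝔽
  intro P hP
  have h0 := relation_of_eigenvector T hcomm w hw a ha P hP
  set a' : I → integralClosure ℤ k :=
    fun i => ⟨a i, isIntegral_of_eigenvector (T i) w hw (a i) (ha i)⟩ with ha'
  have h1 : (MvPolynomial.aeval a' P : integralClosure ℤ k) = 0 := by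
    apply Subtype.ext
    have h2 := MvPolynomial.comp_aeval_apply (f := a') (integralClosure ℤ k).val P
    rw [Subalgebra.coe_val] at h2
    rw [h2]
    exact h0
  have h3 := MvPolynomial.comp_aeval_apply (f := a') φ.toIntAlgHom P
  rw [h1, map_zero] at h3
  exact h3.symm

end Lattice

end Fermat.Agent.N4F.Tors.EigenIntegral
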