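/-
N4-FULL, block F, generic algebra for nodes F4b / F6: THE LATTICE OF INTEGRAL HOMOMORPHISMS.

`X` a finitely generated additive group (e.g. `Additive ↥(Gamma0 N)`), `S : Set X` (e.g. the
parabolic and the finite-order elements), `killing X S R A` the `R`-module of homomorphisms
`X →+ A` vanishing on `S`.  Write `Λ_A := killing X S _ A`.

* `Λ_ℤ` is a finite free `ℤ`-module (instances `instFiniteKilling`, `instFreeKilling`);
* `J k S : k ⊗[ℤ] Λ_ℤ →ₗ[k] (X →+ k)`, `c ⊗ ψ ↦ c • ψ`, is injective for `k` flat over `ℤ`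
  (`J_injective`) with range `Λ_k` for `k` torsion-free (`range_J`, `exists_J_eq`);
* `J_baseChange`, `exists_eigenvector_tensor`: eigenvectors in `Λ_k` come from eigenvectors in
  `k ⊗[ℤ] Λ_ℤ`;
* `redHom p : Λ_ℤ →+ Λ_{ZMod p}` has kernel `p • Λ_ℤ` (`redHom_eq_zero`).

Mathlib only.
-/
import Mathlib

set_option autoImplicit false

open scoped TensorProduct

namespace Fermat.Agent.N4F.Tors.HomLattice

variable (X : Type*) [AddGroup X] (S : Set X)

/-- The additive homomorphisms `X →+ A` which vanish on `S`, as an `R`-submodule. -/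
def killing (R : Type*) [Ring R] (A : Type*) [AddCommGroup A] [Module R A] :
    Submodule R (X →+ A) where
  carrier := {ψ | ∀ s ∈ S, ψ s = 0}
  zero_mem' := fun _ _ => rfl
  add_mem' := fun {a b} ha hb s hs => by
    rw [AddMonoidHom.add_apply, ha s hs, hb s hs, add_zero]
  smul_mem' := fun c ψ hψ s hs => by
    rw [AddMonoidHom.smul_apply, hψ s hs, smul_zero]

variable {X S}

@[simp]
theorem mem_killing {R : Type*} [Ring R] {A : Type*} [AddCommGroup A] [Module R A]
    {ψ : X →+ A} : ψ ∈ killing X S R A ↔ ∀ s ∈ S, ψ s = 0 := Iff.rfl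

section Eval

variable (R : Type*) [Ring R] (A : Type*) [AddCommGroup A] [Module R A]

/-- Evaluation of homomorphisms at the points of a finite set. -/
def evalAt (G : Finset X) : (X →+ A) →ₗ[R] (G → A) where
  toFun ψ g := ψ g
  map_add' _ _ := rfl
  map_smul' _ _ := rfl

@[simp]
theorem evalAt_apply (G : Finset X) (ψ : X →+ A) (g : G) : evalAt R A G ψ g = ψ g := rfl

theorem evalAt_injective {G : Finset X} (hG : AddSubgroup.closure (G : Set X) = ⊤) :
    Function.Injective (evalAt (X := X) R A G) := by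
  intro ψ ψ' h
  apply AddMonoidHom.eq_of_eqOn_dense hG
  intro g hg
  exact congrFun h ⟨g, hg⟩

end Eval

section Free

variable [AddGroup.FG X]

instance instIsAddTorsionFreeHom (A : Type*) [AddCommGroup A] [IsAddTorsionFree A] :
    IsAddTorsionFree (X →+ A) where
  nsmul_right_injective n hn ψ ψ' h := by
    ext x
    have := DFunLike.congr_fun h x
    simp only [AddMonoidHom.nsmul_apply] at this
    exact nsmul_right_injective hn this

instance instFiniteHomInt : Module.Finite ℤ (X →+ ℤ) := by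
  obtain ⟨G, hG⟩ := (AddGroup.fg_def.1 (inferInstance : AddGroup.FG X))
  exact Module.Finite.of_injective (evalAt ℤ ℤ G) (evalAt_injective ℤ ℤ hG)

instance instFiniteKilling : Module.Finite ℤ (killing X S ℤ ℤ) := inferInstance

instance instFreeKilling : Module.Free ℤ (killing X S ℤ ℤ) := inferInstance

end Free

section Cast

variable (k : Type*) [CommRing k]

/-- Push-forward of integral homomorphisms along `ℤ → k`. -/
def castHom : (X →+ ℤ) →ₗ[ℤ] (X →+ k) where
  toFun ψ := (Int.castAddHom k).comp ψ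
  map_add' ψ ψ' := by ext x; simp
  map_smul' n ψ := by ext x; simp

@[simp]
theorem castHom_apply (ψ : X →+ ℤ) (x : X) : castHom k ψ x = (ψ x : k) := rfl

/-- The comparison map `k ⊗[ℤ] Λ_ℤ → (X →+ k)`, `c ⊗ ψ ↦ c • ψ`. -/
noncomputable def J (S : Set X) : (k ⊗[ℤ] (killing X S ℤ ℤ)) →ₗ[k] (X →+ k) :=
  LinearMap.liftBaseChange k ((castHom k).comp (killing X S ℤ ℤ).subtype)

@[simp]
theorem J_tmul_apply (c : k) (ψ : killing X S ℤ ℤ) (x : X) :
    J k S (c ⊗ₜ[ℤ] ψ) x = c * ((ψ : X →+ ℤ) x : k) := by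
  simp [J]

theorem J_mem_killing (y : k ⊗[ℤ] (killing X S ℤ ℤ)) : J k S y ∈ killing X S k k := by
  induction y with
  | zero => simp
  | tmul c ψ =>
    intro s hs
    rw [J_tmul_apply, ψ.2 s hs, Int.cast_zero, mul_zero]
  | add y z hy hz => rw [map_add]; exact Submodule.add_mem _ hy hz

/-- `J` is injective as soon as `k` is flat over `ℤ` (e.g. a field of characteristic zero, or
any torsion-free commutative ring). -/
theorem J_injective [AddGroup.FG X] [Module.Flat ℤ k] : Function.Injective (J k S) := by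
  classical
  obtain ⟨G, hG⟩ := (AddGroup.fg_def.1 (inferInstance : AddGroup.FG X))
  let evΛ : killing X S ℤ ℤ →ₗ[ℤ] (G → ℤ) := (evalAt ℤ ℤ G).comp (killing X S ℤ ℤ).subtype
  have hevΛ : Function.Injective evΛ :=
    (evalAt_injective ℤ ℤ hG).comp Subtype.val_injective
  have h1 : Function.Injective (evΛ.lTensor k) :=
    Module.Flat.lTensor_preserves_injective_linearMap _ hevΛ
  have h2 : ∀ y : k ⊗[ℤ] (killing X S ℤ ℤ),
      TensorProduct.piScalarRight ℤ k k G (evΛ.lTensor k y) = evalAt k k G (J k S y) := by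
    intro y
    induction y with
    | zero => simp
    | tmul c ψ =>
      ext g
      rw [LinearMap.lTensor_tmul, TensorProduct.piScalarRight_apply,
        TensorProduct.piScalarRightHom_tmul, evalAt_apply, J_tmul_apply]
      simp [evΛ, mul_comm]
    | add y z hy hz => rw [map_add, map_add, hy, hz, map_add, map_add]
  intro y z hyz
  apply h1
  apply (TensorProduct.piScalarRight ℤ k k G).injective
  rw [h2, h2, hyz]

/-- Every `k`-valued homomorphism killing `S` is a `k`-linear combination of integral ones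
(`k` torsion-free, e.g. of characteristic zero). -/
theorem exists_J_eq [AddGroup.FG X] [IsAddTorsionFree k] (ψ : X →+ k)
    (hψ : ψ ∈ killing X S k k) : ∃ y, J k S y = ψ := by
  classical
  have hfg : AddGroup.FG ψ.range := AddGroup.fg_range ψ
  have hfin : Module.Finite ℤ ψ.range := Module.Finite.iff_addGroup_fg.2 hfg
  let e := Module.Free.chooseBasis ℤ ψ.range
  let ψ' : X →+ ψ.range := ψ.rangeRestrict
  have hψ' : ∀ s ∈ S, ψ' s = 0 := fun s hs => Subtype.ext (hψ s hs)
  let ψj : Module.Free.ChooseBasisIndex ℤ ψ.range → killing X S ℤ ℤ := fun j =>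
    ⟨(e.coord j).toAddMonoidHom.comp ψ', fun s hs => by
      simp only [AddMonoidHom.coe_comp, Function.comp_apply, hψ' s hs, map_zero]⟩
  refine ⟨∑ j, ((e j : ψ.range) : k) ⊗ₜ[ℤ] ψj j, ?_⟩
  ext x
  rw [map_sum, AddMonoidHom.finsetSum_apply]
  have h1 : ∀ j, J k S (((e j : ψ.range) : k) ⊗ₜ[ℤ] ψj j) x
      = (((e.repr (ψ' x) j) • (e j : ψ.range) : ψ.range) : k) := by
    intro j
    rw [J_tmul_apply]
    simp [ψj, mul_comm]
  rw [Finset.sum_congr rfl fun j _ => h1 j]
  have h2 := e.sum_repr (ψ' x)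
  have h3 := congrArg (fun z : ψ.range => (z : k)) h2
  simp only [AddSubgroup.val_finsetSum] at h3
  rw [h3]
  rfl

/-- The range of `J` is exactly the module of `k`-valued homomorphisms killing `S`. -/
theorem range_J [AddGroup.FG X] [IsAddTorsionFree k] :
    LinearMap.range (J k S) = killing X S k k := by
  ext ψ
  constructor
  · rintro ⟨y, rfl⟩
    exact J_mem_killing k y
  · intro hψ
    exact exists_J_eq k ψ hψ

/-- `J` intertwines an operator on the lattice with an operator on `X →+ k` as soon as they are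
compatible on integral homomorphisms. -/
theorem J_baseChange (TZ : Module.End ℤ (killing X S ℤ ℤ)) (Tk : Module.End k (X →+ k))
    (h : ∀ ψ : killing X S ℤ ℤ, Tk (castHom k ψ) = castHom k (TZ ψ : killing X S ℤ ℤ))
    (y : k ⊗[ℤ] (killing X S ℤ ℤ)) : J k S (TZ.baseChange k y) = Tk (J k S y) := by
  induction y with
  | zero => simp
  | tmul c ψ =>
    rw [LinearMap.baseChange_tmul]
    have h1 : ∀ φ : killing X S ℤ ℤ, J k S (c ⊗ₜ[ℤ] φ) = c • castHom k φ := by
      intro φ
      ext x
      rw [J_tmul_apply, AddMonoidHom.smul_apply, castHom_apply, smul_eq_mul]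
    rw [h1, h1, map_smul, h]
  | add y z hy hz => rw [map_add, map_add, hy, hz, map_add, map_add]

/-- **Pull-back of eigenvectors to the lattice.**  A nonzero common eigenvector `w` in
`Λ_k = {ψ : X →+ k | ψ kills S}` of operators `Tk i` on `X →+ k` which are compatible with
operators `TZ i` of the lattice `Λ_ℤ` comes from a nonzero common eigenvector in `k ⊗[ℤ] Λ_ℤ`
with the same eigenvalues. -/
theorem exists_eigenvector_tensor [AddGroup.FG X] [IsAddTorsionFree k] [Module.Flat ℤ k]
    {I : Type*} (TZ : I → Module.End ℤ (killing X S ℤ ℤ)) (Tk : I → Module.End k (X →+ k))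
    (h : ∀ i (ψ : killing X S ℤ ℤ),
      Tk i (castHom k ψ) = castHom k (TZ i ψ : killing X S ℤ ℤ))
    (w : X →+ k) (hw : w ∈ killing X S k k) (hw0 : w ≠ 0) (a : I → k)
    (ha : ∀ i, Tk i w = a i • w) :
    ∃ y : k ⊗[ℤ] (killing X S ℤ ℤ), y ≠ 0 ∧ J k S y = w ∧
      ∀ i, (TZ i).baseChange k y = a i • y := by
  obtain ⟨y, rfl⟩ := exists_J_eq k w hw
  refine ⟨y, ?_, rfl, fun i => ?_⟩
  · rintro rfl
    exact hw0 (map_zero _)
  · apply J_injective k (S := S)
    rw [J_baseChange k (TZ i) (Tk i) (h i), ha i, map_smul]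

end Cast

section ModP

variable (p : ℕ) [Fact p.Prime]

/-- An integral homomorphism killing `S` all of whose values are divisible by `p` is `p` times
an integral homomorphism killing `S`. -/
theorem exists_eq_smul_of_forall_dvd (ψ : killing X S ℤ ℤ)
    (h : ∀ x, (p : ℤ) ∣ (ψ : X →+ ℤ) x) : ∃ ψ' : killing X S ℤ ℤ, ψ = (p : ℤ) • ψ' := by
  have hp0 : (p : ℤ) ≠ 0 := by exact_mod_cast (Fact.out : p.Prime).ne_zero
  let φ : X →+ ℤ := AddMonoidHom.mk' (fun x => (ψ : X →+ ℤ) x / (p : ℤ)) (fun a b => by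
    change (ψ : X →+ ℤ) (a + b) / (p : ℤ) = _
    rw [map_add, Int.add_ediv_of_dvd_left (h a)])
  have hφ : ∀ x, (p : ℤ) * φ x = (ψ : X →+ ℤ) x := fun x => Int.mul_ediv_cancel' (h x)
  refine ⟨⟨φ, fun s hs => ?_⟩, ?_⟩
  · have h1 := hφ s
    rw [ψ.2 s hs] at h1
    exact (mul_eq_zero.mp h1).resolve_left hp0
  · apply Subtype.ext
    ext x
    simp only [Submodule.coe_smul, AddMonoidHom.smul_apply, smul_eq_mul]
    exact (hφ x).symm

/-- Reduction mod `p` of integral homomorphisms killing `S`. -/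
def redHom : killing X S ℤ ℤ →+ killing X S (ZMod p) (ZMod p) where
  toFun ψ := ⟨castHom (ZMod p) ψ, fun s hs => by rw [castHom_apply, ψ.2 s hs, Int.cast_zero]⟩
  map_zero' := by apply Subtype.ext; ext x; simp
  map_add' ψ ψ' := by apply Subtype.ext; ext x; simp

@[simp]
theorem redHom_apply (ψ : killing X S ℤ ℤ) (x : X) :
    ((redHom p ψ : killing X S (ZMod p) (ZMod p)) : X →+ ZMod p) x = (((ψ : X →+ ℤ) x : ℤ) : ZMod p) :=
  rfl

/-- The kernel of reduction mod `p` is `p • Λ_ℤ` (so `Λ_ℤ / p ↪ Λ_{ZMod p}`); this is the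
hypothesis `hθ` of `Transport.exists_eigenvector_transport`. -/
theorem redHom_eq_zero (ψ : killing X S ℤ ℤ) (h : redHom p ψ = 0) :
    ∃ ψ' : killing X S ℤ ℤ, ψ = (p : ℤ) • ψ' := by
  apply exists_eq_smul_of_forall_dvd p ψ
  intro x
  have h1 := congrArg (fun φ : killing X S (ZMod p) (ZMod p) => (φ : X →+ ZMod p) x) h
  simp only [redHom_apply, ZeroMemClass.coe_zero, AddMonoidHom.zero_apply] at h1
  exact (ZMod.intCast_zmod_eq_zero_iff_dvd _ p).1 h1

end ModP

end Fermat.Agent.N4F.Tors.HomLattice
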