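/-
N4-FULL, block F, generic algebra for node F6: TRANSPORT OF AN EIGENVECTOR FROM A LATTICE TO
A `ZMod p`-MODULE.

`M` a `ℤ`-module, `V` a `ZMod p`-module, `θ : M →+ V` an additive map whose kernel is contained in
`p • M`, intertwining operators `T i` on `M` and `t i` on `V`; `𝔽` a field of characteristic `p`.
Then a nonzero common eigenvector of the `T i ⊗ 1` in `𝔽 ⊗[ℤ] M` is mapped to a nonzero common
eigenvector of the `t i ⊗ 1` in `𝔽 ⊗[ZMod p] V` with the same eigenvalues.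

(In block F: `M = Λ` the lattice of parabolic homomorphisms `Γ₀(N) → ℤ`, `V = J₀(N)[p]`,
`θ` = reduction mod `p` followed by the inverse of the Kummer isomorphism.)  Mathlib only.
-/
import Mathlib

set_option autoImplicit false

open scoped TensorProduct

namespace Fermat.Agent.N4F.Tors.Transport

variable (p : ℕ) [Fact p.Prime] {M V : Type*} [AddCommGroup M] [AddCommGroup V]
  [Module (ZMod p) V]

/-- The `ZMod p`-linear map `ZMod p ⊗[ℤ] M → V` induced by an additive map `θ : M →+ V`. -/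
noncomputable def redMap (θ : M →+ V) : (ZMod p ⊗[ℤ] M) →ₗ[ZMod p] V :=
  LinearMap.liftBaseChange (ZMod p) θ.toIntLinearMap

@[simp]
theorem redMap_tmul (θ : M →+ V) (a : ZMod p) (m : M) : redMap p θ (a ⊗ₜ[ℤ] m) = a • θ m := by
  simp [redMap]

/-- Every element of `ZMod p ⊗[ℤ] M` is of the form `1 ⊗ m`. -/
theorem exists_eq_one_tmul (x : ZMod p ⊗[ℤ] M) : ∃ m : M, x = (1 : ZMod p) ⊗ₜ[ℤ] m := by
  induction x with
  | zero => exact ⟨0, by simp⟩
  | tmul a m =>
    refine ⟨(a.val : ℤ) • m, ?_⟩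
    rw [TensorProduct.tmul_smul, TensorProduct.smul_tmul', zsmul_eq_mul, mul_one]
    simp
  | add x y hx hy =>
    obtain ⟨m, rfl⟩ := hx
    obtain ⟨n, rfl⟩ := hy
    exact ⟨m + n, by rw [TensorProduct.tmul_add]⟩

/-- If the kernel of `θ` is contained in `p • M` then `redMap p θ` is injective. -/
theorem redMap_injective (θ : M →+ V) (hθ : ∀ m, θ m = 0 → ∃ m', m = (p : ℤ) • m') :
    Function.Injective (redMap p θ) := by
  rw [injective_iff_map_eq_zero]
  intro x hx
  obtain ⟨m, rfl⟩ := exists_eq_one_tmul p x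
  rw [redMap_tmul, one_smul] at hx
  obtain ⟨m', rfl⟩ := hθ m hx
  rw [TensorProduct.tmul_smul, TensorProduct.smul_tmul', zsmul_eq_mul, mul_one]
  simp

variable (𝔽 : Type*) [Field 𝔽] [Algebra (ZMod p) 𝔽]

/-- The `𝔽`-linear map `𝔽 ⊗[ℤ] M → 𝔽 ⊗[ZMod p] V`, `a ⊗ m ↦ a ⊗ θ m`. -/
noncomputable def transport (θ : M →+ V) : (𝔽 ⊗[ℤ] M) →ₗ[𝔽] (𝔽 ⊗[ZMod p] V) :=
  ((redMap p θ).baseChange 𝔽).comp
    (TensorProduct.AlgebraTensorModule.cancelBaseChange ℤ (ZMod p) 𝔽 𝔽 M).symm.toLinearMap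

@[simp]
theorem transport_tmul (θ : M →+ V) (a : 𝔽) (m : M) :
    transport p 𝔽 θ (a ⊗ₜ[ℤ] m) = a ⊗ₜ[ZMod p] θ m := by
  simp [transport]

theorem transport_injective (θ : M →+ V) (hθ : ∀ m, θ m = 0 → ∃ m', m = (p : ℤ) • m') :
    Function.Injective (transport p 𝔽 θ) := by
  have h1 : Function.Injective ((redMap p θ).baseChange 𝔽) := by
    rw [LinearMap.baseChange_eq_ltensor]
    exact Module.Flat.lTensor_preserves_injective_linearMap _ (redMap_injective p θ hθ)
  exact h1.comp (LinearEquiv.injective _)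

/-- `transport` intertwines base-changed operators. -/
theorem transport_baseChange (θ : M →+ V) (T : Module.End ℤ M) (t : Module.End (ZMod p) V)
    (hTt : ∀ m, θ (T m) = t (θ m)) (x : 𝔽 ⊗[ℤ] M) :
    transport p 𝔽 θ (T.baseChange 𝔽 x) = t.baseChange 𝔽 (transport p 𝔽 θ x) := by
  induction x with
  | zero => simp
  | tmul a m =>
    rw [LinearMap.baseChange_tmul, transport_tmul, transport_tmul, LinearMap.baseChange_tmul, hTt]
  | add x y hx hy => rw [map_add, map_add, hx, hy, map_add, map_add]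

/-- **Transport of eigenvectors.** -/
theorem exists_eigenvector_transport (θ : M →+ V)
    (hθ : ∀ m, θ m = 0 → ∃ m', m = (p : ℤ) • m') {I : Type*} (T : I → Module.End ℤ M)
    (t : I → Module.End (ZMod p) V) (hTt : ∀ i m, θ (T i m) = t i (θ m)) (lam : I → 𝔽)
    (v : 𝔽 ⊗[ℤ] M) (hv : v ≠ 0) (hev : ∀ i, (T i).baseChange 𝔽 v = lam i • v) :
    ∃ v' : 𝔽 ⊗[ZMod p] V, v' ≠ 0 ∧ ∀ i, (t i).baseChange 𝔽 v' = lam i • v' := by
  refine ⟨transport p 𝔽 θ v, ?_, fun i => ?_⟩
  · intro h0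
    exact hv (transport_injective p 𝔽 θ hθ (by rw [h0, map_zero]))
  · rw [← transport_baseChange p 𝔽 θ (T i) (t i) (hTt i), hev i, map_smul]

end Fermat.Agent.N4F.Tors.Transport
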