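/-
N4-FULL, block F, nodes F4b → F6 as ONE abstract theorem.

`X` a finitely generated additive group, `S : Set X`, `Λ_A := killing X S _ A`.  Given

* commuting operators `TZ i` on the lattice `Λ_ℤ`, operators `Tk i` on `X →+ k` (`k` a field of
  characteristic `0`) compatible with them on integral homomorphisms, and ONE nonzero common
  eigenvector `w ∈ Λ_k` of the `Tk i` with eigenvalues `a i`;
* a prime `p`, a `ZMod p`-module `V` with operators `t i`, and an additive map `θ : Λ_ℤ →+ V`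
  with kernel inside `p • Λ_ℤ` intertwining `TZ i` and `t i`;

the `a i` are algebraic integers `a' i`, and for every field `𝔽 ⊇ ZMod p` and every ring
homomorphism `φ : integralClosure ℤ k → 𝔽` there is a nonzero common eigenvector of the `t i ⊗ 1`
in `𝔽 ⊗[ZMod p] V` with eigenvalues `φ (a' i)`.

(Block F: `X = Additive Γ₀(N)`, `S` = parabolic ∪ finite order, `TZ`, `Tk` = `heckeHom`,
`w = periodMap g`, `V = J₀(N)[p]`, `θ` = reduction mod `p` followed by the inverse Kummer map.)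
-/
import Mathlib
import Fermat.Agent.N4F.Tors.EigenIntegral
import Fermat.Agent.N4F.Tors.HomLattice
import Fermat.Agent.N4F.Tors.Transport

set_option autoImplicit false

open scoped TensorProduct

namespace Fermat.Agent.N4F.Tors.LatticeChain

open Fermat.Agent.N4F.Tors.HomLattice

variable {X : Type*} [AddGroup X] [AddGroup.FG X] {S : Set X} {k : Type*} [Field k] [CharZero k]
  {I : Type*}

/-- The characteristic-zero half: integrality of the eigenvalues and occurrence in `𝔽 ⊗[ℤ] Λ_ℤ`. -/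
theorem exists_eigenvector_lattice_of_eigen
    (TZ : I → Module.End ℤ (killing X S ℤ ℤ)) (hcomm : ∀ i j, Commute (TZ i) (TZ j))
    (Tk : I → Module.End k (X →+ k))
    (h : ∀ i (ψ : killing X S ℤ ℤ),
      Tk i (castHom k ψ) = castHom k (TZ i ψ : killing X S ℤ ℤ))
    (w : X →+ k) (hw : w ∈ killing X S k k) (hw0 : w ≠ 0) (a : I → k)
    (ha : ∀ i, Tk i w = a i • w) :
    ∃ a' : I → integralClosure ℤ k, (∀ i, (a' i : k) = a i) ∧
      ∀ (p : ℕ) [Fact p.Prime] (𝔽 : Type*) [Field 𝔽] [CharP 𝔽 p]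
        (φ : integralClosure ℤ k →+* 𝔽),
        ∃ v : 𝔽 ⊗[ℤ] (killing X S ℤ ℤ), v ≠ 0 ∧
          ∀ i, (TZ i).baseChange 𝔽 v = φ (a' i) • v := by
  obtain ⟨y, hy0, -, hy⟩ := exists_eigenvector_tensor k TZ Tk h w hw hw0 a ha
  exact EigenIntegral.exists_eigenvector_mod_p TZ hcomm y hy0 a hy

/-- **The chain F4b → F6.** -/
theorem exists_eigenvector_of_eigen
    (TZ : I → Module.End ℤ (killing X S ℤ ℤ)) (hcomm : ∀ i j, Commute (TZ i) (TZ j))
    (Tk : I → Module.End k (X →+ k))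
    (h : ∀ i (ψ : killing X S ℤ ℤ),
      Tk i (castHom k ψ) = castHom k (TZ i ψ : killing X S ℤ ℤ))
    (w : X →+ k) (hw : w ∈ killing X S k k) (hw0 : w ≠ 0) (a : I → k)
    (ha : ∀ i, Tk i w = a i • w) :
    ∃ a' : I → integralClosure ℤ k, (∀ i, (a' i : k) = a i) ∧
      ∀ (p : ℕ) [Fact p.Prime] (𝔽 : Type*) [Field 𝔽] [Algebra (ZMod p) 𝔽]
        (φ : integralClosure ℤ k →+* 𝔽) (V : Type*) [AddCommGroup V] [Module (ZMod p) V]
        (θ : killing X S ℤ ℤ →+ V) (_hθ : ∀ m, θ m = 0 → ∃ m', m = (p : ℤ) • m')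
        (t : I → Module.End (ZMod p) V) (_hTt : ∀ i m, θ (TZ i m) = t i (θ m)),
        ∃ v : 𝔽 ⊗[ZMod p] V, v ≠ 0 ∧ ∀ i, (t i).baseChange 𝔽 v = φ (a' i) • v := by
  obtain ⟨a', ha', hocc⟩ := exists_eigenvector_lattice_of_eigen TZ hcomm Tk h w hw hw0 a ha
  refine ⟨a', ha', ?_⟩
  intro p _ 𝔽 _ _ φ V _ _ θ hθ t hTt
  have : CharP 𝔽 p := by
    have := (algebraMap (ZMod p) 𝔽).injective
    exact charP_of_injective_algebraMap this p
  obtain ⟨v, hv0, hv⟩ := hocc p 𝔽 φ
  exact Transport.exists_eigenvector_transport p 𝔽 θ hθ TZ t hTt (fun i => φ (a' i)) v hv0 hv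

end Fermat.Agent.N4F.Tors.LatticeChain
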