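/-
N4-FULL, block F, rows F3/F4 (shared): the Hecke operator `T_p` on `Hom(Γ₀(N), M)`.

Part 1 (abstract, any group): a *coset system* `rep i * j g = j (coc g i) * rep (perm g i)` and the
attached transfer `φ ↦ (g ↦ ∏ i, φ (coc g i))`.
Part 2: the coset system of `T_p` (`p ∤ N`) on `Γ₀(N)` from the prelude's `heckeRep`, the
predicate `IsParEll`, the subgroup `parHom` and the operators `heckeHom`, `heckeAdd`.
-/
import Mathlib
import Fermat.Prelude.Thm_ModularForm_heckeT_slash_eq_self_of_mem_Gamma0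

set_option autoImplicit false

open scoped MatrixGroups

namespace Fermat.Agent.N4F.Tors.HeckeHom

/-! ### A lemma on products over the orbits of a permutation -/

section PermProd

variable {ι : Type*} [Fintype ι] {M : Type*} [CommMonoid M]

theorem prod_eq_one_of_invariant (σ : Equiv.Perm ι) (F : ι → M)
    (h : ∀ (i : ι) (r : ℕ), 0 < r → (σ ^ r) i = i →
      ∏ k ∈ Finset.range r, F ((σ ^ k) i) = 1) :
    ∀ (n : ℕ) (s : Finset ι), s.card = n → (∀ i ∈ s, σ i ∈ s) → ∏ i ∈ s, F i = 1 := by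
  classical
  intro n
  induction n using Nat.strong_induction_on with
  | _ n ih =>
    intro s hs hinv
    rcases s.eq_empty_or_nonempty with rfl | ⟨i, hi⟩
    · simp
    -- the orbit of `i`
    have hper : i ∈ Function.periodicPts σ := by
      refine Function.mk_mem_periodicPts (orderOf_pos σ) ?_
      have h1 : (σ ^ orderOf σ) i = i := by rw [pow_orderOf_eq_one]; rfl
      rw [Function.IsPeriodicPt, Function.IsFixedPt, ← Equiv.Perm.coe_pow]
      exact h1
    set r := Function.minimalPeriod σ i with hr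
    have hr0 : 0 < r := Function.minimalPeriod_pos_of_mem_periodicPts hper
    have hri : (σ ^ r) i = i := by
      have := Function.isPeriodicPt_minimalPeriod σ i
      rw [Function.IsPeriodicPt, Function.IsFixedPt, ← Equiv.Perm.coe_pow] at this
      exact this
    set O : Finset ι := (Finset.range r).image (fun k => (σ ^ k) i) with hO
    have hpow_mem : ∀ k : ℕ, (σ ^ k) i ∈ s := by
      intro k
      induction k with
      | zero => simpa using hi
      | succ k ihk =>
        rw [pow_succ', Equiv.Perm.mul_apply]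
        exact hinv _ ihk
    have hOs : O ⊆ s := by
      intro x hx
      rw [hO, Finset.mem_image] at hx
      obtain ⟨k, -, rfl⟩ := hx
      exact hpow_mem k
    have hOinv : ∀ x ∈ O, σ x ∈ O := by
      intro x hx
      rw [hO, Finset.mem_image] at hx ⊢
      obtain ⟨k, hk, rfl⟩ := hx
      rw [Finset.mem_range] at hk
      by_cases hk' : k + 1 < r
      · exact ⟨k + 1, Finset.mem_range.mpr hk', by rw [pow_succ', Equiv.Perm.mul_apply]⟩
      · have hkr : k + 1 = r := by omega
        refine ⟨0, Finset.mem_range.mpr hr0, ?_⟩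
        rw [pow_zero, Equiv.Perm.one_apply, ← Equiv.Perm.mul_apply, ← pow_succ', hkr, hri]
    have hOprod : ∏ x ∈ O, F x = 1 := by
      rw [hO, Finset.prod_image]
      · exact h i r hr0 hri
      · intro a ha b hb hab
        have ha' : a ∈ Set.Iio (Function.minimalPeriod σ i) := by
          simpa [hr] using ha
        have hb' : b ∈ Set.Iio (Function.minimalPeriod σ i) := by
          simpa [hr] using hb
        refine Function.iterate_injOn_Iio_minimalPeriod ha' hb' ?_
        simpa [Equiv.Perm.coe_pow] using hab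
    -- the image of `O` under `σ` is `O`
    have hOsurj : ∀ x ∈ O, ∃ y ∈ O, σ y = x := by
      have hcard : (O.image σ).card = O.card :=
        Finset.card_image_of_injective _ σ.injective
      have hsub : O.image σ ⊆ O := by
        intro x hx
        rw [Finset.mem_image] at hx
        obtain ⟨y, hy, rfl⟩ := hx
        exact hOinv y hy
      have heq : O.image σ = O := Finset.eq_of_subset_of_card_le hsub (le_of_eq hcard.symm)
      intro x hx
      rw [← heq, Finset.mem_image] at hx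
      obtain ⟨y, hy, rfl⟩ := hx
      exact ⟨y, hy, rfl⟩
    have hdiffinv : ∀ x ∈ s \ O, σ x ∈ s \ O := by
      intro x hx
      rw [Finset.mem_sdiff] at hx ⊢
      refine ⟨hinv x hx.1, fun hσx => hx.2 ?_⟩
      obtain ⟨y, hy, hyx⟩ := hOsurj _ hσx
      rwa [← σ.injective hyx]
    have hiO : i ∈ O := by
      rw [hO, Finset.mem_image]
      exact ⟨0, Finset.mem_range.mpr hr0, by simp⟩
    have hlt : (s \ O).card < n := by
      rw [← hs]
      exact Finset.card_lt_card (Finset.sdiff_ssubset hOs ⟨i, hiO⟩)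
    rw [← Finset.prod_sdiff hOs, hOprod, mul_one]
    exact ih _ hlt _ rfl hdiffinv

theorem prod_univ_eq_one_of_orbits (σ : Equiv.Perm ι) (F : ι → M)
    (h : ∀ (i : ι) (r : ℕ), 0 < r → (σ ^ r) i = i →
      ∏ k ∈ Finset.range r, F ((σ ^ k) i) = 1) :
    ∏ i, F i = 1 :=
  prod_eq_one_of_invariant σ F h _ Finset.univ rfl fun _ _ => Finset.mem_univ _

end PermProd

/-! ### Coset systems and their transfer -/

section Abstract

variable {G Gam : Type*} [Group G] [Group Gam]

/-- A coset system for `j : Gam →* G`: elements `rep i` of `G` representing distinct cosets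
`j(Gam) * rep i`, whose union is stable under right multiplication by `j(Gam)`. -/
structure CosetSys (j : Gam →* G) (ι : Type*) where
  /-- the representatives -/
  rep : ι → G
  /-- the permutation of the cosets induced by right multiplication -/
  perm : Gam → ι → ι
  /-- the cocycle -/
  coc : Gam → ι → Gam
  rep_mul : ∀ (g : Gam) (i : ι), rep i * j g = j (coc g i) * rep (perm g i)
  rep_inj : ∀ (i i' : ι) (g : Gam), rep i = j g * rep i' → i = i'

namespace CosetSys

variable {j : Gam →* G} {ι : Type*} (S : CosetSys j ι)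

theorem perm_eq_of_eq {g : Gam} {i i' : ι} {c : Gam} (h : S.rep i * j g = j c * S.rep i') :
    S.perm g i = i' := by
  have h1 := S.rep_mul g i
  rw [h] at h1
  refine (S.rep_inj i' (S.perm g i) (c⁻¹ * S.coc g i) ?_).symm
  rw [map_mul, map_inv, mul_assoc, ← h1, inv_mul_cancel_left]

theorem coc_eq_of_eq (hj : Function.Injective j) {g : Gam} {i i' : ι} {c : Gam}
    (h : S.rep i * j g = j c * S.rep i') : S.coc g i = c := by
  have hp := S.perm_eq_of_eq h
  have h1 := S.rep_mul g i
  rw [h, hp] at h1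
  exact (hj (mul_right_cancel h1)).symm

theorem perm_one (i : ι) : S.perm 1 i = i :=
  S.perm_eq_of_eq (c := 1) (by simp)

theorem coc_one (hj : Function.Injective j) (i : ι) : S.coc 1 i = 1 :=
  S.coc_eq_of_eq hj (i' := i) (by simp)

theorem rep_mul_mul (g h : Gam) (i : ι) :
    S.rep i * j (g * h) =
      j (S.coc g i * S.coc h (S.perm g i)) * S.rep (S.perm h (S.perm g i)) := by
  rw [map_mul, ← mul_assoc, S.rep_mul g i, mul_assoc, S.rep_mul h, ← mul_assoc, map_mul]

theorem perm_mul (g h : Gam) (i : ι) : S.perm (g * h) i = S.perm h (S.perm g i) :=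
  S.perm_eq_of_eq (S.rep_mul_mul g h i)

theorem coc_mul (hj : Function.Injective j) (g h : Gam) (i : ι) :
    S.coc (g * h) i = S.coc g i * S.coc h (S.perm g i) :=
  S.coc_eq_of_eq hj (S.rep_mul_mul g h i)

/-- the permutation attached to `g`, as an equivalence -/
def permEquiv (g : Gam) : Equiv.Perm ι where
  toFun := S.perm g
  invFun := S.perm g⁻¹
  left_inv i := by rw [← S.perm_mul, mul_inv_cancel, S.perm_one]
  right_inv i := by rw [← S.perm_mul, inv_mul_cancel, S.perm_one]

@[simp] theorem permEquiv_apply (g : Gam) (i : ι) : S.permEquiv g i = S.perm g i := rfl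

theorem perm_pow (g : Gam) (n : ℕ) (i : ι) : S.perm (g ^ n) i = ((S.permEquiv g) ^ n) i := by
  induction n generalizing i with
  | zero => simp [S.perm_one]
  | succ n ih =>
    rw [pow_succ, S.perm_mul, ih, pow_succ', Equiv.Perm.mul_apply, permEquiv_apply]

variable {M : Type*} [CommGroup M]

theorem map_coc_pow (hj : Function.Injective j) (φ : Gam →* M) (g : Gam) (n : ℕ) (i : ι) :
    φ (S.coc (g ^ n) i) = ∏ k ∈ Finset.range n, φ (S.coc g (((S.permEquiv g) ^ k) i)) := by
  induction n with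
  | zero => simp [S.coc_one hj]
  | succ n ih =>
    rw [pow_succ, S.coc_mul hj, map_mul, ih, Finset.prod_range_succ, S.perm_pow]

variable [Fintype ι]

/-- The transfer of a homomorphism along a coset system: `g ↦ ∏ i, φ (coc g i)`. -/
def transferHom (hj : Function.Injective j) (φ : Gam →* M) : Gam →* M where
  toFun g := ∏ i, φ (S.coc g i)
  map_one' := by simp [S.coc_one hj]
  map_mul' g h := by
    have h1 : ∏ i, φ (S.coc h (S.perm g i)) = ∏ i, φ (S.coc h i) :=
      Equiv.prod_comp (S.permEquiv g) (fun i => φ (S.coc h i))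
    simp only [S.coc_mul hj, map_mul, Finset.prod_mul_distrib, h1]

theorem transferHom_apply (hj : Function.Injective j) (φ : Gam →* M) (g : Gam) :
    S.transferHom hj φ g = ∏ i, φ (S.coc g i) := rfl

theorem transferHom_one (hj : Function.Injective j) :
    S.transferHom hj (1 : Gam →* M) = 1 := by
  ext g; simp [transferHom_apply]

theorem transferHom_mul (hj : Function.Injective j) (φ ψ : Gam →* M) :
    S.transferHom hj (φ * ψ) = S.transferHom hj φ * S.transferHom hj ψ := by
  ext g; simp [transferHom_apply, Finset.prod_mul_distrib]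

theorem transferHom_comp (hj : Function.Injective j) {M' : Type*} [CommGroup M']
    (f : M →* M') (φ : Gam →* M) :
    S.transferHom hj (f.comp φ) = f.comp (S.transferHom hj φ) := by
  ext g; simp [transferHom_apply]

/-- the transfer as an endomorphism of the group of homomorphisms -/
def transferEnd (hj : Function.Injective j) : (Gam →* M) →* (Gam →* M) where
  toFun := S.transferHom hj
  map_one' := S.transferHom_one hj
  map_mul' := S.transferHom_mul hj

@[simp] theorem transferEnd_apply (hj : Function.Injective j) (φ : Gam →* M) :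
    S.transferEnd hj φ = S.transferHom hj φ := rfl

/-- **Kill lemma.** If `T` is stable under "conjugates of powers" and `φ` kills `T`, then so
does its transfer. -/
theorem transferHom_eq_one_of_mem (hj : Function.Injective j) (T : Set Gam)
    (hT : ∀ g ∈ T, ∀ (n : ℕ) (a : G) (g' : Gam), j g' = a * j g ^ n * a⁻¹ → g' ∈ T)
    (φ : Gam →* M) (hφ : ∀ g ∈ T, φ g = 1) {g : Gam} (hg : g ∈ T) :
    S.transferHom hj φ g = 1 := by
  rw [transferHom_apply]
  refine prod_univ_eq_one_of_orbits (S.permEquiv g) (fun i => φ (S.coc g i)) ?_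
  intro i r _ hri
  rw [← S.map_coc_pow hj]
  refine hφ _ (hT g hg r (S.rep i) _ ?_)
  have h1 := S.rep_mul (g ^ r) i
  rw [S.perm_pow, hri, map_pow] at h1
  rw [h1, mul_inv_cancel_right]

end CosetSys

end Abstract

/-! ### The coset system of `T_p` on `Γ₀(N)`, `p ∤ N` -/

section Concrete

open Matrix.SpecialLinearGroup CongruenceSubgroup ModularForm
open P2MW.S_ModularForm_heckeT_slash_eq_self_of_mem_Gamma0.ModularForm.HeckeSlashInvariance
open scoped OnePoint

/-- the inclusion `Γ₀(N) → GL₂(ℝ)` -/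
noncomputable def jGL (N : ℕ) : ↥(Gamma0 N) →* GL (Fin 2) ℝ :=
  (mapGL ℝ).comp (Gamma0 N).subtype

@[simp] theorem jGL_apply (N : ℕ) (g : ↥(Gamma0 N)) : jGL N g = mapGL ℝ (g : SL(2, ℤ)) := rfl

theorem jGL_injective (N : ℕ) : Function.Injective (jGL N) :=
  (mapGL_injective (R := ℤ) (S := ℝ)).comp Subtype.val_injective

theorem entry_eq {A B : GL (Fin 2) ℝ} (h : A = B) (i k : Fin 2) : A i k = B i k := by rw [h]

theorem mul_entry (A B : GL (Fin 2) ℝ) (i k : Fin 2) :
    (A * B) i k = A i 0 * B 0 k + A i 1 * B 1 k := by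
  rw [Matrix.GeneralLinearGroup.coe_mul, Matrix.mul_apply, Fin.sum_univ_two]

/-- the cosets `Γ₀(N) * heckeRep p x` are pairwise distinct -/
theorem heckeRep_inj {p : ℕ} [Fact p.Prime] (x x' : OnePoint (ZMod p)) (g : SL(2, ℤ))
    (h : heckeRep p x = mapGL ℝ g * heckeRep p x') : x = x' := by
  have hp : p ≠ 0 := (Fact.out : p.Prime).ne_zero
  have hpR : (p : ℝ) ≠ 0 := by exact_mod_cast hp
  induction x using OnePoint.rec with
  | infty =>
    induction x' using OnePoint.rec with
    | infty => rfl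
    | coe j' =>
      exfalso
      rw [heckeRep_infty, heckeRep_coe] at h
      have h00 := entry_eq h 0 0
      have h10 := entry_eq h 1 0
      rw [mul_entry, mapGL_apply, mapGL_apply] at h00 h10
      simp only [val_heckeDiagMatrix hp, val_heckeMatrix hp, Matrix.of_apply, Matrix.cons_val',
        Matrix.cons_val_zero, Matrix.cons_val_one, Matrix.cons_val_fin_one, mul_one, mul_zero,
        add_zero] at h00 h10
      have hdet := det_eq g
      have h00' : g 0 0 = (p : ℤ) := by exact_mod_cast h00.symm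
      have h10' : g 1 0 = 0 := by exact_mod_cast h10.symm
      rw [h00', h10', mul_zero, sub_zero] at hdet
      have hdvd : (p : ℤ) ∣ 1 := ⟨_, hdet.symm⟩
      have := Int.eq_one_of_dvd_one (by positivity) hdvd
      have hp1 : p = 1 := by exact_mod_cast this
      exact (Fact.out : p.Prime).ne_one hp1
  | coe j =>
    induction x' using OnePoint.rec with
    | infty =>
      exfalso
      rw [heckeRep_infty, heckeRep_coe] at h
      have h00 := entry_eq h 0 0
      rw [mul_entry, mapGL_apply, mapGL_apply] at h00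
      simp only [val_heckeDiagMatrix hp, val_heckeMatrix hp, Matrix.of_apply, Matrix.cons_val',
        Matrix.cons_val_zero, Matrix.cons_val_one, Matrix.cons_val_fin_one, mul_zero,
        add_zero] at h00
      have h00' : (1 : ℤ) = g 0 0 * (p : ℤ) := by exact_mod_cast h00
      have hdvd : (p : ℤ) ∣ 1 := ⟨g 0 0, by linarith⟩
      have := Int.eq_one_of_dvd_one (by positivity) hdvd
      have hp1 : p = 1 := by exact_mod_cast this
      exact (Fact.out : p.Prime).ne_one hp1
    | coe j' =>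
      rw [heckeRep_coe, heckeRep_coe] at h
      have h00 := entry_eq h 0 0
      have h01 := entry_eq h 0 1
      rw [mul_entry, mapGL_apply, mapGL_apply] at h00 h01
      simp only [val_heckeMatrix hp, Matrix.of_apply, Matrix.cons_val',
        Matrix.cons_val_zero, Matrix.cons_val_one, Matrix.cons_val_fin_one, mul_one, mul_zero,
        add_zero] at h00 h01
      have h00' : g 0 0 = 1 := by exact_mod_cast h00.symm
      rw [← h00] at h01
      have h01' : ((j.val : ℕ) : ℤ) = (j'.val : ℤ) + g 0 1 * (p : ℤ) := by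
        have : ((j.val : ℕ) : ℝ) = 1 * (j'.val : ℝ) + ((g 0 1 : ℤ) : ℝ) * (p : ℝ) := h01
        rw [one_mul] at this
        exact_mod_cast this
      have h3 := congrArg (Int.cast : ℤ → ZMod p) h01'
      push_cast at h3
      rw [ZMod.natCast_zmod_val, ZMod.natCast_zmod_val, ZMod.natCast_self, mul_zero,
        add_zero] at h3
      rw [h3]

variable (N : ℕ) (p : ℕ) [Fact p.Prime]

theorem exists_heckeCoc (hpN : ¬ p ∣ N) (g : ↥(Gamma0 N)) (x : OnePoint (ZMod p)) :
    ∃ c : ↥(Gamma0 N), heckeRep p x * jGL N g =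
      jGL N c * heckeRep p (redMatrix p (g : SL(2, ℤ)) • x) := by
  have hcN : (N : ℤ) ∣ (g : SL(2, ℤ)) 1 0 :=
    (ZMod.intCast_zmod_eq_zero_iff_dvd _ _).mp (Gamma0_mem.mp g.2)
  obtain ⟨g', hg', h⟩ := heckeRep_mul hpN (g : SL(2, ℤ)) hcN x
  exact ⟨⟨g', Gamma0_mem.mpr ((ZMod.intCast_zmod_eq_zero_iff_dvd _ _).mpr hg')⟩, h⟩

/-- the cocycle of the Hecke coset system -/
noncomputable def heckeCoc (hpN : ¬ p ∣ N) (g : ↥(Gamma0 N)) (x : OnePoint (ZMod p)) :
    ↥(Gamma0 N) :=
  (exists_heckeCoc N p hpN g x).choose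

theorem heckeRep_mul_eq (hpN : ¬ p ∣ N) (g : ↥(Gamma0 N)) (x : OnePoint (ZMod p)) :
    heckeRep p x * mapGL ℝ (g : SL(2, ℤ)) =
      mapGL ℝ (heckeCoc N p hpN g x : SL(2, ℤ)) * heckeRep p (redMatrix p (g : SL(2, ℤ)) • x) :=
  (exists_heckeCoc N p hpN g x).choose_spec

/-- **The coset system of `T_p`** on `Γ₀(N)`, `p ∤ N`. -/
noncomputable def heckeSys (hpN : ¬ p ∣ N) : CosetSys (jGL N) (OnePoint (ZMod p)) where
  rep := heckeRep p
  perm g x := redMatrix p (g : SL(2, ℤ)) • x
  coc := heckeCoc N p hpN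
  rep_mul := heckeRep_mul_eq N p hpN
  rep_inj x x' g h := heckeRep_inj x x' (g : SL(2, ℤ)) h

@[simp] theorem heckeSys_rep (hpN : ¬ p ∣ N) (x : OnePoint (ZMod p)) :
    (heckeSys N p hpN).rep x = heckeRep p x := rfl

@[simp] theorem heckeSys_perm (hpN : ¬ p ∣ N) (g : ↥(Gamma0 N)) (x : OnePoint (ZMod p)) :
    (heckeSys N p hpN).perm g x = redMatrix p (g : SL(2, ℤ)) • x := rfl

@[simp] theorem heckeSys_coc (hpN : ¬ p ∣ N) (g : ↥(Gamma0 N)) (x : OnePoint (ZMod p)) :
    (heckeSys N p hpN).coc g x = heckeCoc N p hpN g x := rfl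

/-! ### Parabolic and elliptic elements -/

/-- The elements of `SL(2, ℤ)` which a parabolic homomorphism must kill: `trace ^ 2 = 4`
(`± unipotent`, including `± 1`) or finite order (elliptic elements). -/
def IsParEll (g : SL(2, ℤ)) : Prop :=
  (g : Matrix (Fin 2) (Fin 2) ℤ).trace ^ 2 = 4 ∨ IsOfFinOrder g

theorem sq_eq_trace_smul_sub_one (g : SL(2, ℤ)) :
    (g : Matrix (Fin 2) (Fin 2) ℤ) * (g : Matrix (Fin 2) (Fin 2) ℤ) =
      (g : Matrix (Fin 2) (Fin 2) ℤ).trace • (g : Matrix (Fin 2) (Fin 2) ℤ) - 1 := by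
  have hdet := det_eq g
  ext i k
  rw [Matrix.mul_apply, Fin.sum_univ_two, Matrix.sub_apply, Matrix.smul_apply, smul_eq_mul,
    Matrix.trace_fin_two]
  fin_cases i <;> fin_cases k
  · simp only [Fin.zero_eta, Fin.isValue, Matrix.one_apply_eq]
    linear_combination (-1 : ℤ) * hdet
  · simp only [Fin.zero_eta, Fin.isValue, Fin.mk_one, ne_eq, zero_ne_one, not_false_eq_true,
      Matrix.one_apply_ne]
    ring
  · simp only [Fin.zero_eta, Fin.isValue, Fin.mk_one, ne_eq, one_ne_zero, not_false_eq_true,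
      Matrix.one_apply_ne]
    ring
  · simp only [Fin.isValue, Fin.mk_one, Matrix.one_apply_eq]
    linear_combination (-1 : ℤ) * hdet

theorem trace_pow_succ_succ (g : SL(2, ℤ)) (n : ℕ) :
    ((g : Matrix (Fin 2) (Fin 2) ℤ) ^ (n + 2)).trace =
      (g : Matrix (Fin 2) (Fin 2) ℤ).trace * ((g : Matrix (Fin 2) (Fin 2) ℤ) ^ (n + 1)).trace -
        ((g : Matrix (Fin 2) (Fin 2) ℤ) ^ n).trace := by
  have h : (g : Matrix (Fin 2) (Fin 2) ℤ) ^ (n + 2) =
      (g : Matrix (Fin 2) (Fin 2) ℤ).trace • (g : Matrix (Fin 2) (Fin 2) ℤ) ^ (n + 1) -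
        (g : Matrix (Fin 2) (Fin 2) ℤ) ^ n := by
    rw [pow_add, pow_two, sq_eq_trace_smul_sub_one, mul_sub, mul_one, Matrix.mul_smul,
      ← pow_succ]
  rw [h, Matrix.trace_sub, Matrix.trace_smul, smul_eq_mul]

theorem trace_pow_sq_eq_four {g : SL(2, ℤ)}
    (hg : (g : Matrix (Fin 2) (Fin 2) ℤ).trace ^ 2 = 4) (n : ℕ) :
    ((g : Matrix (Fin 2) (Fin 2) ℤ) ^ n).trace ^ 2 = 4 := by
  set t := (g : Matrix (Fin 2) (Fin 2) ℤ).trace with ht
  -- `t = 2 ε`, `ε = ± 1`
  have hε : ∃ ε : ℤ, ε ^ 2 = 1 ∧ t = 2 * ε := by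
    have h2 : (t - 2) * (t + 2) = 0 := by linear_combination hg
    rcases mul_eq_zero.mp h2 with h | h
    · exact ⟨1, by norm_num, by linarith⟩
    · exact ⟨-1, by norm_num, by linarith⟩
  obtain ⟨ε, hε2, htε⟩ := hε
  have key : ∀ n : ℕ, ((g : Matrix (Fin 2) (Fin 2) ℤ) ^ n).trace = 2 * ε ^ n ∧
      ((g : Matrix (Fin 2) (Fin 2) ℤ) ^ (n + 1)).trace = 2 * ε ^ (n + 1) := by
    intro n
    induction n with
    | zero =>
      refine ⟨by simp, ?_⟩
      rw [zero_add, pow_one, pow_one, ← ht, htε]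
    | succ n ih =>
      refine ⟨ih.2, ?_⟩
      rw [trace_pow_succ_succ, ih.1, ih.2, ← ht, htε]
      have : ε ^ (n + 1 + 1) = ε ^ n := by rw [pow_add, pow_add, pow_one, mul_assoc, ← pow_two,
        hε2, mul_one]
      rw [this, pow_succ]
      linear_combination (4 * ε ^ n) * hε2
  rw [(key n).1, mul_pow, ← pow_mul, mul_comm n 2, pow_mul, hε2, one_pow]
  norm_num

theorem trace_mapGL (g : SL(2, ℤ)) :
    ((mapGL ℝ g : GL (Fin 2) ℝ) : Matrix (Fin 2) (Fin 2) ℝ).trace =
      (((g : Matrix (Fin 2) (Fin 2) ℤ).trace : ℤ) : ℝ) := by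
  rw [Matrix.trace_fin_two, Matrix.trace_fin_two]
  have h0 := mapGL_apply g 0 0
  have h1 := mapGL_apply g 1 1
  rw [h0, h1]
  push_cast
  rfl

/-- `IsParEll` is stable under "integral conjugates of powers". -/
theorem isParEll_of_conj_pow {g g' : SL(2, ℤ)} (hg : IsParEll g) (n : ℕ) (a : GL (Fin 2) ℝ)
    (h : mapGL ℝ g' = a * mapGL ℝ g ^ n * a⁻¹) : IsParEll g' := by
  rcases hg with hg | hg
  · left
    have h1 : ((mapGL ℝ g' : GL (Fin 2) ℝ) : Matrix (Fin 2) (Fin 2) ℝ).trace =
        ((mapGL ℝ (g ^ n) : GL (Fin 2) ℝ) : Matrix (Fin 2) (Fin 2) ℝ).trace := by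
      rw [h, map_pow]
      exact Matrix.trace_units_conj a _
    rw [trace_mapGL, trace_mapGL] at h1
    have h2 : (g' : Matrix (Fin 2) (Fin 2) ℤ).trace =
        ((g ^ n : SL(2, ℤ)) : Matrix (Fin 2) (Fin 2) ℤ).trace := by exact_mod_cast h1
    rw [h2, Matrix.SpecialLinearGroup.coe_pow]
    exact trace_pow_sq_eq_four hg n
  · right
    obtain ⟨k, hk, hgk⟩ := hg.exists_pow_eq_one
    refine isOfFinOrder_iff_pow_eq_one.mpr ⟨k, hk, ?_⟩
    apply mapGL_injective (R := ℤ) (S := ℝ)
    rw [map_pow, h, conj_pow, ← pow_mul, mul_comm n k, pow_mul, ← map_pow, hgk, map_one, one_pow,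
      mul_one, mul_inv_cancel]

variable (N : ℕ)

/-- the set of parabolic or elliptic elements of `Γ₀(N)` -/
def parEllSet : Set ↥(Gamma0 N) := {g | IsParEll (g : SL(2, ℤ))}

theorem parEllSet_stable (g : ↥(Gamma0 N)) (hg : g ∈ parEllSet N) (n : ℕ) (a : GL (Fin 2) ℝ)
    (g' : ↥(Gamma0 N)) (h : jGL N g' = a * jGL N g ^ n * a⁻¹) : g' ∈ parEllSet N :=
  isParEll_of_conj_pow hg n a h

/-- Homomorphisms `Γ₀(N) →* M` which are trivial on parabolic and elliptic elements. -/
def parHom (M : Type*) [CommGroup M] : Subgroup (↥(Gamma0 N) →* M) where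
  carrier := {φ | ∀ g : ↥(Gamma0 N), IsParEll (g : SL(2, ℤ)) → φ g = 1}
  one_mem' := fun _ _ => rfl
  mul_mem' := by
    intro φ ψ hφ hψ g hg
    rw [MonoidHom.mul_apply, hφ g hg, hψ g hg, one_mul]
  inv_mem' := by
    intro φ hφ g hg
    rw [MonoidHom.inv_apply, hφ g hg, inv_one]

theorem mem_parHom {M : Type*} [CommGroup M] {φ : ↥(Gamma0 N) →* M} :
    φ ∈ parHom N M ↔ ∀ g : ↥(Gamma0 N), IsParEll (g : SL(2, ℤ)) → φ g = 1 := Iff.rfl

variable (p : ℕ) [Fact p.Prime]

/-- **The Hecke operator `T_p`, `p ∤ N`, on `Hom(Γ₀(N), M)`**: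
`(T_p φ)(g) = ∏ x, φ (heckeCoc g x)`. -/
noncomputable def heckeHom (hpN : ¬ p ∣ N) {M : Type*} [CommGroup M] :
    (↥(Gamma0 N) →* M) →* (↥(Gamma0 N) →* M) :=
  (heckeSys N p hpN).transferEnd (jGL_injective N)

theorem heckeHom_apply (hpN : ¬ p ∣ N) {M : Type*} [CommGroup M] (φ : ↥(Gamma0 N) →* M)
    (g : ↥(Gamma0 N)) :
    heckeHom N p hpN φ g = ∏ x : OnePoint (ZMod p), φ (heckeCoc N p hpN g x) := rfl

theorem heckeHom_comp (hpN : ¬ p ∣ N) {M M' : Type*} [CommGroup M] [CommGroup M']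
    (f : M →* M') (φ : ↥(Gamma0 N) →* M) :
    heckeHom N p hpN (f.comp φ) = f.comp (heckeHom N p hpN φ) :=
  (heckeSys N p hpN).transferHom_comp (jGL_injective N) f φ

theorem heckeHom_mem_parHom (hpN : ¬ p ∣ N) {M : Type*} [CommGroup M] {φ : ↥(Gamma0 N) →* M}
    (hφ : φ ∈ parHom N M) : heckeHom N p hpN φ ∈ parHom N M := by
  intro g hg
  exact (heckeSys N p hpN).transferHom_eq_one_of_mem (jGL_injective N) (parEllSet N)
    (parEllSet_stable N) φ (fun g hg => hφ g hg) hg

/-- cocycle identity of the Hecke coset system -/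
theorem heckeCoc_mul (hpN : ¬ p ∣ N) (g h : ↥(Gamma0 N)) (x : OnePoint (ZMod p)) :
    heckeCoc N p hpN (g * h) x =
      heckeCoc N p hpN g x * heckeCoc N p hpN h (redMatrix p (g : SL(2, ℤ)) • x) :=
  (heckeSys N p hpN).coc_mul (jGL_injective N) g h x

theorem heckeCoc_one (hpN : ¬ p ∣ N) (x : OnePoint (ZMod p)) : heckeCoc N p hpN 1 x = 1 :=
  (heckeSys N p hpN).coc_one (jGL_injective N) x

theorem redMatrix_mul_smul (hpN : ¬ p ∣ N) (g h : ↥(Gamma0 N)) (x : OnePoint (ZMod p)) :
    redMatrix p ((g * h : ↥(Gamma0 N)) : SL(2, ℤ)) • x =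
      redMatrix p (h : SL(2, ℤ)) • redMatrix p (g : SL(2, ℤ)) • x :=
  (heckeSys N p hpN).perm_mul g h x

/-- uniqueness of the cocycle -/
theorem heckeCoc_eq_of_eq (hpN : ¬ p ∣ N) {g c : ↥(Gamma0 N)} {x x' : OnePoint (ZMod p)}
    (h : heckeRep p x * mapGL ℝ (g : SL(2, ℤ)) = mapGL ℝ (c : SL(2, ℤ)) * heckeRep p x') :
    heckeCoc N p hpN g x = c ∧ redMatrix p (g : SL(2, ℤ)) • x = x' :=
  ⟨(heckeSys N p hpN).coc_eq_of_eq (jGL_injective N) h, (heckeSys N p hpN).perm_eq_of_eq h⟩

/-! ### Additive twins: `Additive Γ₀(N) →+ A` -/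

section AdditiveTwin

variable (N : ℕ) (p : ℕ) [Fact p.Prime]

/-- Additive homomorphisms `Γ₀(N) → A` which vanish on parabolic and elliptic elements. -/
def parHomAdd (A : Type*) [AddCommGroup A] : AddSubgroup (Additive ↥(Gamma0 N) →+ A) where
  carrier := {φ | ∀ g : ↥(Gamma0 N), IsParEll (g : SL(2, ℤ)) → φ (Additive.ofMul g) = 0}
  zero_mem' := fun _ _ => rfl
  add_mem' := by
    intro φ ψ hφ hψ g hg
    rw [AddMonoidHom.add_apply, hφ g hg, hψ g hg, add_zero]
  neg_mem' := by
    intro φ hφ g hg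
    rw [AddMonoidHom.neg_apply, hφ g hg, neg_zero]

theorem mem_parHomAdd {A : Type*} [AddCommGroup A] {φ : Additive ↥(Gamma0 N) →+ A} :
    φ ∈ parHomAdd N A ↔
      ∀ g : ↥(Gamma0 N), IsParEll (g : SL(2, ℤ)) → φ (Additive.ofMul g) = 0 := Iff.rfl

theorem toMultiplicativeRight_mem_parHom {A : Type*} [AddCommGroup A]
    {φ : Additive ↥(Gamma0 N) →+ A} :
    AddMonoidHom.toMultiplicativeRight φ ∈ parHom N (Multiplicative A) ↔ φ ∈ parHomAdd N A :=
  Iff.rfl

/-- **The Hecke operator `T_p`, `p ∤ N`, on `Hom(Γ₀(N), A)`**, additive form: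
`(T_p φ)(g) = ∑ x, φ (heckeCoc g x)`. -/
noncomputable def heckeAdd (hpN : ¬ p ∣ N) {A : Type*} [AddCommGroup A] :
    (Additive ↥(Gamma0 N) →+ A) →+ (Additive ↥(Gamma0 N) →+ A) where
  toFun φ := MonoidHom.toAdditiveLeft (heckeHom N p hpN (AddMonoidHom.toMultiplicativeRight φ))
  map_zero' := by
    have h : AddMonoidHom.toMultiplicativeRight (0 : Additive ↥(Gamma0 N) →+ A) =
        (1 : ↥(Gamma0 N) →* Multiplicative A) := rfl
    rw [h, map_one]
    rfl
  map_add' φ ψ := by
    have h : AddMonoidHom.toMultiplicativeRight (φ + ψ) =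
        AddMonoidHom.toMultiplicativeRight φ * AddMonoidHom.toMultiplicativeRight ψ := rfl
    rw [h, map_mul]
    rfl

theorem heckeAdd_apply (hpN : ¬ p ∣ N) {A : Type*} [AddCommGroup A]
    (φ : Additive ↥(Gamma0 N) →+ A) (g : ↥(Gamma0 N)) :
    heckeAdd N p hpN φ (Additive.ofMul g) =
      ∑ x : OnePoint (ZMod p), φ (Additive.ofMul (heckeCoc N p hpN g x)) := by
  show Multiplicative.toAdd (heckeHom N p hpN (AddMonoidHom.toMultiplicativeRight φ) g) = _
  rw [heckeHom_apply, toAdd_prod]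
  rfl

theorem heckeAdd_comp (hpN : ¬ p ∣ N) {A B : Type*} [AddCommGroup A] [AddCommGroup B]
    (f : A →+ B) (φ : Additive ↥(Gamma0 N) →+ A) :
    heckeAdd N p hpN (f.comp φ) = f.comp (heckeAdd N p hpN φ) := by
  refine AddMonoidHom.ext fun g => ?_
  obtain ⟨g, rfl⟩ := Additive.ofMul.surjective g
  rw [heckeAdd_apply, AddMonoidHom.comp_apply, heckeAdd_apply, map_sum]
  rfl

theorem heckeAdd_mem_parHomAdd (hpN : ¬ p ∣ N) {A : Type*} [AddCommGroup A]
    {φ : Additive ↥(Gamma0 N) →+ A} (hφ : φ ∈ parHomAdd N A) :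
    heckeAdd N p hpN φ ∈ parHomAdd N A := by
  rw [← toMultiplicativeRight_mem_parHom] at hφ ⊢
  exact heckeHom_mem_parHom N p hpN hφ

/-- `T_p` on parabolic homomorphisms. -/
noncomputable def heckePar (hpN : ¬ p ∣ N) (A : Type*) [AddCommGroup A] :
    parHomAdd N A →+ parHomAdd N A where
  toFun φ := ⟨heckeAdd N p hpN φ.1, heckeAdd_mem_parHomAdd N p hpN φ.2⟩
  map_zero' := Subtype.ext (map_zero _)
  map_add' _ _ := Subtype.ext (map_add _ _ _)

@[simp] theorem coe_heckePar (hpN : ¬ p ∣ N) {A : Type*} [AddCommGroup A] (φ : parHomAdd N A) :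
    ((heckePar N p hpN A φ : parHomAdd N A) : Additive ↥(Gamma0 N) →+ A) =
      heckeAdd N p hpN φ.1 := rfl

/-- functoriality of `parHomAdd` in the coefficient group -/
def parHomAddMap {A B : Type*} [AddCommGroup A] [AddCommGroup B] (f : A →+ B) :
    parHomAdd N A →+ parHomAdd N B where
  toFun φ := ⟨f.comp φ.1, fun g hg => by
    rw [AddMonoidHom.comp_apply, φ.2 g hg, map_zero]⟩
  map_zero' := Subtype.ext (by simp)
  map_add' φ ψ := Subtype.ext (by
    show f.comp (φ.1 + ψ.1) = f.comp φ.1 + f.comp ψ.1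
    exact AddMonoidHom.comp_add f φ.1 ψ.1)

@[simp] theorem coe_parHomAddMap {A B : Type*} [AddCommGroup A] [AddCommGroup B] (f : A →+ B)
    (φ : parHomAdd N A) :
    ((parHomAddMap N f φ : parHomAdd N B) : Additive ↥(Gamma0 N) →+ B) = f.comp φ.1 := rfl

theorem parHomAddMap_heckePar (hpN : ¬ p ∣ N) {A B : Type*} [AddCommGroup A] [AddCommGroup B]
    (f : A →+ B) (φ : parHomAdd N A) :
    parHomAddMap N f (heckePar N p hpN A φ) = heckePar N p hpN B (parHomAddMap N f φ) :=
  Subtype.ext (heckeAdd_comp N p hpN f φ.1).symm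

end AdditiveTwin

end Concrete

end Fermat.Agent.N4F.Tors.HeckeHom
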