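/-
N4-FULL, block F, node F4a: the period map intertwines the Hecke operators `T_p` (`p ∤ N`) on
weight-2 cusp forms with `heckeAdd` on `Hom(Γ₀(N), ℂ)`.
-/
import Fermat.Agent.N4F.Tors.HeckeHom
import Fermat.Agent.M2.ES.Prim
import Fermat.Agent.S22.HeckeLattice
import Fermat.Agent.S49.EigenToNormalized
import Fermat.Agent.S21
import Fermat.Prelude.Thm_CuspForm_heckeTLin_comm

set_option autoImplicit false

open UpperHalfPlane hiding I
open Matrix.SpecialLinearGroup ModularForm CongruenceSubgroup Complex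
open scoped MatrixGroups ModularForm OnePoint Real

namespace Fermat.Agent.N4F.Tors.PeriodHecke

open P2MW.S_ModularForm_heckeT_slash_eq_self_of_mem_Gamma0.ModularForm.HeckeSlashInvariance
open Fermat.Agent.N4F.Tors.HeckeHom Fermat.Agent.M2.ES Fermat.Agent.S22

section Prim

variable (N : ℕ) [NeZero N] {p : ℕ} [Fact p.Prime]

local notation "S₂" => CuspForm (Gamma0 N) 2

omit [Fact p.Prime] in
theorem det_heckeRep_pos' (x : OnePoint (ZMod p)) : 0 < ((heckeRep p x).det : ℝ) := by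
  induction x using OnePoint.rec with
  | infty => exact det_heckeDiagMatrix_pos p
  | coe j => exact det_heckeMatrix_pos p j.val

/-- weight-`0` slash by a Hecke representative is `p⁻¹` times composition -/
theorem slash_zero_heckeRep (E : ℍ → ℂ) (x : OnePoint (ZMod p)) (z : ℍ) :
    (E ∣[(0 : ℤ)] heckeRep p x) z = (p : ℂ)⁻¹ * E (heckeRep p x • z) := by
  have hp : p ≠ 0 := (Fact.out : p.Prime).ne_zero
  induction x using OnePoint.rec with
  | infty =>
    rw [heckeRep_infty, slash_heckeDiagMatrix_apply 0 hp]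
    norm_num
  | coe j =>
    rw [heckeRep_coe, slash_heckeMatrix_apply 0 hp]

/-- the primitive of `T_p f` is `z ↦ ∑ x, (prim f) (heckeRep p x • z)` -/
theorem prim_heckeTLin (hp : p.Prime) (hpN : ¬ p ∣ N) (f : S₂) (z : ℍ) :
    prim N (CuspForm.heckeTLin 2 hp hpN f) z =
      ∑ x : OnePoint (ZMod p), prim N f (heckeRep p x • z) := by
  have hp0 : (p : ℂ) ≠ 0 := by exact_mod_cast hp.ne_zero
  have h := Hecke.eichlerFun_heckeTLin N 0 hp hpN f
  have h' : prim N (CuspForm.heckeTLin 2 hp hpN f) =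
      ((p : ℂ) ^ (0 + 1)) • heckeT (-((0 : ℕ) : ℤ)) p (prim N f) := h
  rw [h', zero_add, pow_one, Nat.cast_zero, neg_zero, heckeT_eq_sum_onePoint (0 : ℤ) (prim N f)]
  simp only [Pi.smul_apply, Finset.sum_apply, smul_eq_mul, slash_zero_heckeRep, Finset.mul_sum]
  refine Finset.sum_congr rfl fun x _ => ?_
  rw [← mul_assoc, mul_inv_cancel₀ hp0, one_mul]

omit [NeZero N] in
/-- the action on `ℍ` of the coset identity -/
theorem heckeRep_smul_smul (hpN : ¬ p ∣ N) (g : ↥(Gamma0 N)) (x : OnePoint (ZMod p)) (z : ℍ) :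
    heckeRep p x • ((g : SL(2, ℤ)) • z) =
      (heckeCoc N p hpN g x : SL(2, ℤ)) • (heckeRep p (redMatrix p (g : SL(2, ℤ)) • x) • z) := by
  have h := heckeRep_mul_eq N p hpN g x
  calc heckeRep p x • ((g : SL(2, ℤ)) • z)
      = heckeRep p x • (mapGL ℝ (g : SL(2, ℤ)) • z) := rfl
    _ = (heckeRep p x * mapGL ℝ (g : SL(2, ℤ))) • z := (mul_smul _ _ _).symm
    _ = (mapGL ℝ (heckeCoc N p hpN g x : SL(2, ℤ)) *
          heckeRep p (redMatrix p (g : SL(2, ℤ)) • x)) • z := by rw [h]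
    _ = mapGL ℝ (heckeCoc N p hpN g x : SL(2, ℤ)) •
          (heckeRep p (redMatrix p (g : SL(2, ℤ)) • x) • z) := mul_smul _ _ _
    _ = _ := rfl

/-- **The period map is Hecke equivariant**: `pml (T_p f) = heckeAdd (pml f)`. -/
theorem pml_heckeTLin (hp : p.Prime) (hpN : ¬ p ∣ N) (f : S₂) :
    pml N (CuspForm.heckeTLin 2 hp hpN f) = heckeAdd N p hpN (pml N f) := by
  refine AddMonoidHom.ext fun g => ?_
  obtain ⟨g, rfl⟩ := Additive.ofMul.surjective g
  rw [heckeAdd_apply, pml_apply N _ g UpperHalfPlane.I, prim_heckeTLin, prim_heckeTLin,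
    ← Finset.sum_sub_distrib]
  set z : ℍ := UpperHalfPlane.I with hz
  have h1 : ∀ x : OnePoint (ZMod p),
      prim N f (heckeRep p x • ((g : SL(2, ℤ)) • z)) - prim N f (heckeRep p x • z) =
        pml N f (Additive.ofMul (heckeCoc N p hpN g x)) +
          (prim N f (heckeRep p (redMatrix p (g : SL(2, ℤ)) • x) • z) -
            prim N f (heckeRep p x • z)) := by
    intro x
    rw [heckeRep_smul_smul N hpN g x z,
      pml_apply N f (heckeCoc N p hpN g x) (heckeRep p (redMatrix p (g : SL(2, ℤ)) • x) • z)]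
    ring
  rw [Finset.sum_congr rfl fun x _ => h1 x, Finset.sum_add_distrib, Finset.sum_sub_distrib]
  have h2 : ∑ x : OnePoint (ZMod p), prim N f (heckeRep p (redMatrix p (g : SL(2, ℤ)) • x) • z) =
      ∑ x : OnePoint (ZMod p), prim N f (heckeRep p x • z) :=
    Equiv.sum_comp (MulAction.toPerm (redMatrix p (g : SL(2, ℤ))))
      (fun x => prim N f (heckeRep p x • z))
  rw [h2, sub_self, add_zero]

end Prim

/-! ### `heckeAdd` commutes with the prelude's `charInvolution` on parabolic homomorphisms -/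

section Involution

open ModularCurve ModularCurve.Period

variable (N : ℕ) {p : ℕ} [Fact p.Prime]

/-- `diag(1, -1)` -/
noncomputable def deltaGL : GL (Fin 2) ℝ :=
  Matrix.GeneralLinearGroup.mkOfDetNeZero !![1, 0; 0, -1] (by simp)

@[simp] theorem val_deltaGL :
    ((deltaGL : GL (Fin 2) ℝ) : Matrix (Fin 2) (Fin 2) ℝ) = !![1, 0; 0, -1] := rfl

theorem mapGL_jConjSL_mul_delta (g : SL(2, ℤ)) :
    mapGL ℝ (jConjSL g) * deltaGL = deltaGL * mapGL ℝ g := by
  ext i k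
  rw [mul_entry, mul_entry, mapGL_apply, mapGL_apply, mapGL_apply, mapGL_apply]
  fin_cases i <;> fin_cases k <;> simp [jConjMat]

/-- negation on `ℙ¹(𝔽_p)` -/
def negOP : OnePoint (ZMod p) → OnePoint (ZMod p) := fun x => x.elim ∞ (fun j => ((-j : ZMod p) :
  OnePoint (ZMod p)))

@[simp] theorem negOP_infty : negOP (∞ : OnePoint (ZMod p)) = ∞ := rfl

@[simp] theorem negOP_coe (j : ZMod p) : negOP (j : OnePoint (ZMod p)) = ((-j : ZMod p) :
    OnePoint (ZMod p)) := rfl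

theorem negOP_involutive : Function.Involutive (negOP (p := p)) := by
  intro x
  induction x using OnePoint.rec with
  | infty => rfl
  | coe j => simp

/-- conjugating a Hecke representative by `diag(1,-1)` gives the representative of the negated
point, up to a translation -/
theorem exists_conj_heckeRep (x : OnePoint (ZMod p)) :
    ∃ τ : ↥(Gamma0 N), (((τ : SL(2, ℤ)) : Matrix (Fin 2) (Fin 2) ℤ).trace ^ 2 = 4) ∧
      mapGL ℝ (τ : SL(2, ℤ)) * heckeRep p (negOP x) * deltaGL = deltaGL * heckeRep p x := by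
  have hp : p ≠ 0 := (Fact.out : p.Prime).ne_zero
  induction x using OnePoint.rec with
  | infty =>
    refine ⟨1, by simp, ?_⟩
    rw [negOP_infty, heckeRep_infty, OneMemClass.coe_one, map_one, one_mul]
    ext i k
    rw [mul_entry, mul_entry]
    fin_cases i <;> fin_cases k <;> simp [val_heckeDiagMatrix hp]
  | coe j =>
    -- `-(j.val) = (-j).val + t * p`
    obtain ⟨t, ht⟩ : ∃ t : ℤ, -((j.val : ℕ) : ℤ) = (((-j : ZMod p).val : ℕ) : ℤ) + t * p := by
      have h0 : (((j.val + (-j : ZMod p).val : ℕ)) : ZMod p) = 0 := by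
        push_cast
        rw [ZMod.natCast_zmod_val, ZMod.natCast_zmod_val, add_neg_cancel]
      obtain ⟨k, hk⟩ := (ZMod.natCast_eq_zero_iff _ _).mp h0
      refine ⟨-(k : ℤ), ?_⟩
      have hk' : ((j.val : ℕ) : ℤ) + (((-j : ZMod p).val : ℕ) : ℤ) = (p : ℤ) * k := by
        exact_mod_cast hk
      linarith
    have hdet : (!![1, t; 0, 1] : Matrix (Fin 2) (Fin 2) ℤ).det = 1 := by
      rw [Matrix.det_fin_two_of]; ring
    have hmem : (⟨!![1, t; 0, 1], hdet⟩ : SL(2, ℤ)) ∈ Gamma0 N := by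
      refine Gamma0_mem.mpr ?_
      simp
    refine ⟨⟨⟨!![1, t; 0, 1], hdet⟩, hmem⟩, by simp [Matrix.trace_fin_two], ?_⟩
    rw [negOP_coe, heckeRep_coe, heckeRep_coe]
    have htR : -((j.val : ℕ) : ℝ) = (((-j : ZMod p).val : ℕ) : ℝ) + (t : ℝ) * (p : ℝ) := by
      exact_mod_cast ht
    simp only [ZMod.natCast_val] at htR
    ext i k
    rw [mul_entry, mul_entry, mul_entry, mapGL_apply, mapGL_apply]
    fin_cases i <;> fin_cases k <;> simp [val_heckeMatrix hp]
    linarith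

theorem isParabolicHom_trace {A : Type*} [AddCommGroup A] {ψ : Additive ↥(Gamma0 N) →+ A}
    (hψ : IsParabolicHom (Gamma0 N) ψ) {τ : ↥(Gamma0 N)}
    (hτ : ((τ : SL(2, ℤ)) : Matrix (Fin 2) (Fin 2) ℤ).trace ^ 2 = 4) :
    ψ (Additive.ofMul τ) = 0 := hψ τ hτ

/-- the cocycle of the conjugate -/
theorem heckeCoc_jConj (hpN : ¬ p ∣ N) (g : ↥(Gamma0 N)) (x : OnePoint (ZMod p)) :
    ∃ τ τ' : ↥(Gamma0 N), (((τ : SL(2, ℤ)) : Matrix (Fin 2) (Fin 2) ℤ).trace ^ 2 = 4) ∧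
      (((τ' : SL(2, ℤ)) : Matrix (Fin 2) (Fin 2) ℤ).trace ^ 2 = 4) ∧
      heckeCoc N p hpN (jConjGamma0 N g) (negOP x) =
        τ⁻¹ * jConjGamma0 N (heckeCoc N p hpN g x) * τ' := by
  obtain ⟨τ, hτ, hx⟩ := exists_conj_heckeRep N x
  obtain ⟨τ', hτ', hy⟩ := exists_conj_heckeRep N (redMatrix p (g : SL(2, ℤ)) • x)
  refine ⟨τ, τ', hτ, hτ', ?_⟩
  set c := heckeCoc N p hpN g x with hc
  set y := redMatrix p (g : SL(2, ℤ)) • x with hy'
  have hcm := heckeRep_mul_eq N p hpN g x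
  rw [← hc, ← hy'] at hcm
  have hδg := mapGL_jConjSL_mul_delta (g : SL(2, ℤ))
  have hδc := mapGL_jConjSL_mul_delta (c : SL(2, ℤ))
  have hA : mapGL ℝ (τ : SL(2, ℤ)) * (heckeRep p (negOP x) * mapGL ℝ (jConjSL (g : SL(2, ℤ)))) *
      deltaGL = mapGL ℝ (jConjSL (c : SL(2, ℤ))) * mapGL ℝ (τ' : SL(2, ℤ)) *
        heckeRep p (negOP y) * deltaGL := by
    calc mapGL ℝ (τ : SL(2, ℤ)) * (heckeRep p (negOP x) * mapGL ℝ (jConjSL (g : SL(2, ℤ)))) *
          deltaGL
        = mapGL ℝ (τ : SL(2, ℤ)) * heckeRep p (negOP x) *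
            (mapGL ℝ (jConjSL (g : SL(2, ℤ))) * deltaGL) := by group
      _ = mapGL ℝ (τ : SL(2, ℤ)) * heckeRep p (negOP x) *
            (deltaGL * mapGL ℝ (g : SL(2, ℤ))) := by rw [hδg]
      _ = (mapGL ℝ (τ : SL(2, ℤ)) * heckeRep p (negOP x) * deltaGL) *
            mapGL ℝ (g : SL(2, ℤ)) := by group
      _ = (deltaGL * heckeRep p x) * mapGL ℝ (g : SL(2, ℤ)) := by rw [hx]
      _ = deltaGL * (heckeRep p x * mapGL ℝ (g : SL(2, ℤ))) := by group
      _ = deltaGL * (mapGL ℝ (c : SL(2, ℤ)) * heckeRep p y) := by rw [hcm]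
      _ = (deltaGL * mapGL ℝ (c : SL(2, ℤ))) * heckeRep p y := by group
      _ = (mapGL ℝ (jConjSL (c : SL(2, ℤ))) * deltaGL) * heckeRep p y := by rw [hδc]
      _ = mapGL ℝ (jConjSL (c : SL(2, ℤ))) * (deltaGL * heckeRep p y) := by group
      _ = mapGL ℝ (jConjSL (c : SL(2, ℤ))) *
            (mapGL ℝ (τ' : SL(2, ℤ)) * heckeRep p (negOP y) * deltaGL) := by rw [hy]
      _ = _ := by group
  have hB := mul_right_cancel hA
  have hC : heckeRep p (negOP x) * mapGL ℝ ((jConjGamma0 N g : ↥(Gamma0 N)) : SL(2, ℤ)) =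
      mapGL ℝ ((τ⁻¹ * jConjGamma0 N c * τ' : ↥(Gamma0 N)) : SL(2, ℤ)) * heckeRep p (negOP y) := by
    have h1 : ((τ⁻¹ * jConjGamma0 N c * τ' : ↥(Gamma0 N)) : SL(2, ℤ)) =
        (τ : SL(2, ℤ))⁻¹ * jConjSL (c : SL(2, ℤ)) * (τ' : SL(2, ℤ)) := rfl
    rw [h1, map_mul, map_mul, map_inv, jConjGamma0_coe]
    rw [mul_assoc, mul_assoc, eq_inv_mul_iff_mul_eq, hB]
    group
  exact (heckeCoc_eq_of_eq N p hpN hC).1

/-- **`heckeAdd` commutes with `charInvolution`** on parabolic homomorphisms. -/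
theorem heckeAdd_charInvolution (hpN : ¬ p ∣ N) (R : Type*) [Semiring R] {A : Type*}
    [AddCommGroup A] [Module R A] {ψ : Additive ↥(Gamma0 N) →+ A}
    (hψ : IsParabolicHom (Gamma0 N) ψ) :
    heckeAdd N p hpN (charInvolution N R A ψ) = charInvolution N R A (heckeAdd N p hpN ψ) := by
  refine AddMonoidHom.ext fun g => ?_
  obtain ⟨g, rfl⟩ := Additive.ofMul.surjective g
  rw [heckeAdd_apply, charInvolution_apply, toMul_ofMul, heckeAdd_apply]
  rw [← Equiv.sum_comp (negOP_involutive (p := p)).toPerm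
    (fun x => ψ (Additive.ofMul (heckeCoc N p hpN (jConjGamma0 N g) x)))]
  refine Finset.sum_congr rfl fun x _ => ?_
  rw [charInvolution_apply, toMul_ofMul]
  obtain ⟨τ, τ', hτ, hτ', h⟩ := heckeCoc_jConj N hpN g x
  show ψ (Additive.ofMul (jConjGamma0 N (heckeCoc N p hpN g x))) =
    ψ (Additive.ofMul (heckeCoc N p hpN (jConjGamma0 N g) (negOP x)))
  rw [h, ofMul_mul, ofMul_mul, ofMul_inv, map_add, map_add, map_neg,
    isParabolicHom_trace N hψ hτ, isParabolicHom_trace N hψ hτ', neg_zero, zero_add, add_zero]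

/-- `heckeAdd` on the image of the Eichler–Shimura map `periodHomPair`. -/
theorem heckeAdd_periodHomPair [NeZero N] (hp : p.Prime) (hpN : ¬ p ∣ N)
    (f g : CuspForm (Gamma0 N) 2) :
    heckeAdd N p hpN (periodHomPair N (f, g)) =
      periodHomPair N (CuspForm.heckeTLin 2 hp hpN f, CuspForm.heckeTLin 2 hp hpN g) := by
  rw [periodHomPair_eq, LinearMap.coprod_apply, LinearMap.coprod_apply]
  simp only [LinearMap.comp_apply, LinearMap.add_apply, LinearMap.sub_apply, LinearMap.id_apply]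
  rw [map_add, map_add, map_sub,
    heckeAdd_charInvolution N hpN ℂ (pml_mem_parabolicHoms N f),
    heckeAdd_charInvolution N hpN ℂ (pml_mem_parabolicHoms N g),
    pml_heckeTLin, pml_heckeTLin]

/-- **The Hecke operators commute on `parabolicHoms ℂ Γ₀(N) ℂ`** (through S21 and the prelude's
commutation of the `T_p` on cusp forms). -/
theorem heckeAdd_comm_of_mem_parabolicHoms [NeZero N] {q : ℕ} [Fact q.Prime]
    (hpN : ¬ p ∣ N) (hqN : ¬ q ∣ N) {ψ : Additive ↥(Gamma0 N) →+ ℂ}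
    (hψ : ψ ∈ parabolicHoms ℂ (Gamma0 N) ℂ) :
    heckeAdd N p hpN (heckeAdd N q hqN ψ) = heckeAdd N q hqN (heckeAdd N p hpN ψ) := by
  have hp : p.Prime := Fact.out
  have hq : q.Prime := Fact.out
  rw [← (Fermat.Agent.S21.result N).2] at hψ
  obtain ⟨⟨f, g⟩, rfl⟩ := hψ
  rw [heckeAdd_periodHomPair N hq hqN, heckeAdd_periodHomPair N hp hpN,
    heckeAdd_periodHomPair N hp hpN, heckeAdd_periodHomPair N hq hqN]
  have hc := CuspForm.heckeTLin_comm (N := N) 2 hp hpN hq hqN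
  have hcf : ∀ v : CuspForm (Gamma0 N) 2, CuspForm.heckeTLin 2 hp hpN (CuspForm.heckeTLin 2 hq hqN v) =
      CuspForm.heckeTLin 2 hq hqN (CuspForm.heckeTLin 2 hp hpN v) := fun v => by
    have := congrArg (fun T : Module.End ℂ (CuspForm (Gamma0 N) 2) => T v) hc.eq
    exact this
  rw [hcf f, hcf g]

end Involution

/-! ### Normalized eigenforms are Hecke eigenvectors -/

section Eigen

open ModularFormClass Fermat.Agent.S49

variable {N : ℕ}

theorem qCoeff_mul_prime_of_isNormalizedEigenform {g : CuspForm (Gamma0 N) 2}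
    (hg : g.IsNormalizedEigenform) {ℓ : ℕ} (hℓ : ℓ.Prime) (hℓN : ¬ ℓ ∣ N) (n : ℕ) :
    ModularForm.coeffHeckeT 2 ℓ (qCoeff ⇑g) n = qCoeff g ℓ * qCoeff g n := by
  rcases Nat.eq_zero_or_pos n with rfl | hn
  · rw [ModularForm.coeffHeckeT_apply, zero_mul, Nat.zero_div, qCoeff_zero_cuspForm]
    simp
  obtain ⟨r, m, hm, rfl⟩ := Nat.exists_eq_pow_mul_and_not_dvd hn.ne' ℓ hℓ.ne_one
  have hcop : ∀ k : ℕ, (ℓ ^ k).Coprime m :=
    fun k => Nat.Coprime.pow_left k ((Nat.Prime.coprime_iff_not_dvd hℓ).mpr hm)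
  cases r with
  | zero =>
    rw [pow_zero, one_mul, ModularForm.coeffHeckeT_of_not_dvd 2 hm,
      hg.qCoeff_mul_of_coprime m ℓ ((Nat.Prime.coprime_iff_not_dvd hℓ).mpr hm).symm, mul_comm]
  | succ s =>
    have hdvd : ℓ ∣ ℓ ^ (s + 1) * m := Dvd.dvd.mul_right (dvd_pow_self ℓ (Nat.succ_ne_zero s)) m
    have h1 : ℓ ^ (s + 1) * m * ℓ = ℓ ^ (s + 2) * m := by ring
    have h2 : ℓ ^ (s + 1) * m / ℓ = ℓ ^ s * m := by
      rw [pow_succ, mul_comm (ℓ ^ s) ℓ, mul_assoc, Nat.mul_div_cancel_left _ hℓ.pos]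
    rw [ModularForm.coeffHeckeT_of_dvd 2 hdvd, h1, h2, hg.qCoeff_mul_of_coprime _ _ (hcop _),
      hg.qCoeff_mul_of_coprime _ _ (hcop _), hg.qCoeff_mul_of_coprime _ _ (hcop _),
      hg.qCoeff_prime_pow_of_not_dvd ℓ s hℓ hℓN]
    norm_num
    ring

/-- A normalized eigenform of level `N` is an eigenvector of `T_ℓ`, `ℓ ∤ N`, with eigenvalue its
`ℓ`-th `q`-coefficient. -/
theorem heckeTLin_eq_smul {g : CuspForm (Gamma0 N) 2} (hg : g.IsNormalizedEigenform) {ℓ : ℕ}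
    (hℓ : ℓ.Prime) (hℓN : ¬ ℓ ∣ N) :
    CuspForm.heckeTLin 2 hℓ hℓN g = qCoeff g ℓ • g := by
  have hsub : CuspForm.heckeTLin 2 hℓ hℓN g - qCoeff g ℓ • g = 0 := by
    apply cuspForm_eq_zero_of_qCoeff
    intro n
    have hΓ := one_mem_strictPeriods_Gamma0 N
    have hcoe : (⇑(CuspForm.heckeTLin 2 hℓ hℓN g - qCoeff g ℓ • g) : ℍ → ℂ) =
        ⇑(CuspForm.heckeTLin 2 hℓ hℓN g) - ⇑(qCoeff g ℓ • g) := rfl
    have hsubq := ModularForm.qExpansion_sub (h := 1) one_pos hΓ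
      (CuspForm.heckeTLin 2 hℓ hℓN g) (qCoeff g ℓ • g)
    rw [qCoeff, hcoe, hsubq, map_sub]
    have h1 := qCoeff_heckeTLin_cuspForm hℓ hℓN g n
    have h2 := qCoeff_smul_cuspForm (qCoeff g ℓ) g n
    rw [qCoeff] at h1 h2
    rw [h1, h2, qCoeff_mul_prime_of_isNormalizedEigenform hg hℓ hℓN, sub_self]
  exact sub_eq_zero.mp hsub

end Eigen

end Fermat.Agent.N4F.Tors.PeriodHecke
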