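/-
N4-FULL, block F, node F4b: the Eichler–Shimura lattice.

`X := Additive Γ₀(N)`, `S := ` parabolic-or-elliptic elements, `Λ_A := killing X S _ A`
(helper4's `HomLattice`).  We provide, in the shapes of `LatticeChain`:
* the Hecke operators `TZ ℓ` on `Λ_ℤ` (`ℓ ∤ N`), which COMMUTE, and `Tk ℓ` on `X →+ ℂ`,
  compatible on integral homomorphisms;
* the eigenvector `pml N g ∈ Λ_ℂ`, `≠ 0`, of a normalized eigenform `g`, with eigenvalues the
  `q`-coefficients of `g`;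
and the resulting occurrence statements.
-/
import Fermat.Agent.N4F.Tors.PeriodHecke
import Fermat.Agent.N4F.Tors.LatticeChain
import Fermat.Agent.S22.Gamma0FG
import Fermat.Prelude.Def_FLTPrelim_ModularRep

set_option autoImplicit false

open CongruenceSubgroup ModularFormClass
open scoped MatrixGroups TensorProduct

namespace Fermat.Agent.N4F.Tors.ESHecke

open Fermat.Agent.N4F.Tors.HeckeHom Fermat.Agent.N4F.Tors.HomLattice
  Fermat.Agent.N4F.Tors.PeriodHecke Fermat.Agent.M2.ES ModularCurve ModularCurve.Period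

variable (N : ℕ)

/-- the parabolic or elliptic elements of `Γ₀(N)`, additively -/
def parEll : Set (Additive ↥(Gamma0 N)) :=
  {x | IsParEll ((Additive.toMul x : ↥(Gamma0 N)) : SL(2, ℤ))}

theorem mem_parEll {x : Additive ↥(Gamma0 N)} :
    x ∈ parEll N ↔ IsParEll ((Additive.toMul x : ↥(Gamma0 N)) : SL(2, ℤ)) := Iff.rfl

theorem mem_killing_iff {R : Type*} [Ring R] {A : Type*} [AddCommGroup A] [Module R A]
    {ψ : Additive ↥(Gamma0 N) →+ A} :
    ψ ∈ killing (Additive ↥(Gamma0 N)) (parEll N) R A ↔ ψ ∈ parHomAdd N A := by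
  constructor
  · intro h g hg
    exact h (Additive.ofMul g) hg
  · intro h s hs
    obtain ⟨g, rfl⟩ := Additive.ofMul.surjective s
    exact h g hs

instance instFG [NeZero N] : AddGroup.FG (Additive ↥(Gamma0 N)) :=
  GroupFG.iff_add_fg.mp (Fermat.Agent.S22.gamma0_fg N)

/-- the primes not dividing the level -/
abbrev GoodPrime : Type := {ℓ : Nat.Primes // ¬ (ℓ : ℕ) ∣ N}

instance (ℓ : Nat.Primes) : Fact (ℓ : ℕ).Prime := ⟨ℓ.2⟩

/-- `T_ℓ` on `Hom(Γ₀(N), A)` for a good prime -/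
noncomputable def heckeG {A : Type*} [AddCommGroup A] (ℓ : GoodPrime N) :
    (Additive ↥(Gamma0 N) →+ A) →+ (Additive ↥(Gamma0 N) →+ A) :=
  heckeAdd N (ℓ.1 : ℕ) ℓ.2

theorem heckeG_comp {A B : Type*} [AddCommGroup A] [AddCommGroup B] (ℓ : GoodPrime N)
    (f : A →+ B) (ψ : Additive ↥(Gamma0 N) →+ A) :
    heckeG N ℓ (f.comp ψ) = f.comp (heckeG N ℓ ψ) :=
  heckeAdd_comp N (ℓ.1 : ℕ) ℓ.2 f ψ

theorem heckeG_smul {R : Type*} [Ring R] {A : Type*} [AddCommGroup A] [Module R A]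
    (ℓ : GoodPrime N) (c : R) (ψ : Additive ↥(Gamma0 N) →+ A) :
    heckeG N ℓ (c • ψ) = c • heckeG N ℓ ψ := by
  have h : c • ψ = (DistribSMul.toAddMonoidHom A c).comp ψ := rfl
  rw [h, heckeG_comp]
  rfl

theorem heckeG_mem_killing {R : Type*} [Ring R] {A : Type*} [AddCommGroup A] [Module R A]
    (ℓ : GoodPrime N) {ψ : Additive ↥(Gamma0 N) →+ A}
    (hψ : ψ ∈ killing (Additive ↥(Gamma0 N)) (parEll N) R A) :
    heckeG N ℓ ψ ∈ killing (Additive ↥(Gamma0 N)) (parEll N) R A :=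
  (mem_killing_iff N).mpr (heckeAdd_mem_parHomAdd N (ℓ.1 : ℕ) ℓ.2 ((mem_killing_iff N).mp hψ))

/-- `T_ℓ` as an `R`-linear endomorphism of `X →+ A` -/
noncomputable def Tk (R : Type*) [Ring R] (A : Type*) [AddCommGroup A] [Module R A]
    (ℓ : GoodPrime N) : Module.End R (Additive ↥(Gamma0 N) →+ A) where
  toFun := heckeG N ℓ
  map_add' := map_add _
  map_smul' c ψ := heckeG_smul N ℓ c ψ

@[simp] theorem Tk_apply (R : Type*) [Ring R] (A : Type*) [AddCommGroup A] [Module R A]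
    (ℓ : GoodPrime N) (ψ : Additive ↥(Gamma0 N) →+ A) : Tk N R A ℓ ψ = heckeG N ℓ ψ := rfl

/-- `T_ℓ` on the lattice `Λ_A` -/
noncomputable def TL (R : Type*) [Ring R] (A : Type*) [AddCommGroup A] [Module R A]
    (ℓ : GoodPrime N) : Module.End R (killing (Additive ↥(Gamma0 N)) (parEll N) R A) :=
  (Tk N R A ℓ).restrict fun _ hψ => heckeG_mem_killing N ℓ hψ

@[simp] theorem coe_TL_apply (R : Type*) [Ring R] (A : Type*) [AddCommGroup A] [Module R A]
    (ℓ : GoodPrime N) (ψ : killing (Additive ↥(Gamma0 N)) (parEll N) R A) :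
    ((TL N R A ℓ ψ : killing (Additive ↥(Gamma0 N)) (parEll N) R A) :
      Additive ↥(Gamma0 N) →+ A) = heckeG N ℓ ψ.1 := rfl

/-- compatibility of `Tk` over `k` with `TL` over `ℤ` on integral homomorphisms -/
theorem Tk_castHom (k : Type*) [CommRing k] (ℓ : GoodPrime N)
    (ψ : killing (Additive ↥(Gamma0 N)) (parEll N) ℤ ℤ) :
    Tk N k k ℓ (castHom k ψ) =
      castHom k (TL N ℤ ℤ ℓ ψ : killing (Additive ↥(Gamma0 N)) (parEll N) ℤ ℤ) := by
  show heckeG N ℓ ((Int.castAddHom k).comp ψ.1) = (Int.castAddHom k).comp (heckeG N ℓ ψ.1)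
  exact heckeG_comp N ℓ _ _

/-- reduction mod `p` intertwines the Hecke operators -/
theorem redHom_TL (p : ℕ) [Fact p.Prime] (ℓ : GoodPrime N)
    (ψ : killing (Additive ↥(Gamma0 N)) (parEll N) ℤ ℤ) :
    redHom p (TL N ℤ ℤ ℓ ψ) = TL N (ZMod p) (ZMod p) ℓ (redHom p ψ) := by
  apply Subtype.ext
  show (Int.castAddHom (ZMod p)).comp (heckeG N ℓ ψ.1) =
    heckeG N ℓ ((Int.castAddHom (ZMod p)).comp ψ.1)
  exact (heckeG_comp N ℓ _ _).symm

section Commute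

variable [NeZero N]

omit [NeZero N] in
theorem castHom_mem_parabolicHoms (ψ : killing (Additive ↥(Gamma0 N)) (parEll N) ℤ ℤ) :
    castHom ℂ (ψ : Additive ↥(Gamma0 N) →+ ℤ) ∈ parabolicHoms ℂ (Gamma0 N) ℂ := by
  rw [mem_parabolicHoms_iff]
  intro g hg
  have h := ψ.2 (Additive.ofMul g) (Or.inl hg)
  rw [castHom_apply, h, Int.cast_zero]

omit [NeZero N] in
theorem castHom_injective_complex :
    Function.Injective (castHom (X := Additive ↥(Gamma0 N)) ℂ) := by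
  intro ψ ψ' h
  refine AddMonoidHom.ext fun x => ?_
  have h1 : castHom ℂ ψ x = castHom ℂ ψ' x := DFunLike.congr_fun h x
  rw [castHom_apply, castHom_apply] at h1
  exact_mod_cast h1

/-- **The Hecke operators commute on the lattice `Λ_ℤ`.** -/
theorem TL_commute (ℓ ℓ' : GoodPrime N) : Commute (TL N ℤ ℤ ℓ) (TL N ℤ ℤ ℓ') := by
  refine LinearMap.ext fun ψ => Subtype.ext ?_
  show heckeG N ℓ (heckeG N ℓ' ψ.1) = heckeG N ℓ' (heckeG N ℓ ψ.1)
  apply castHom_injective_complex N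
  show (Int.castAddHom ℂ).comp (heckeG N ℓ (heckeG N ℓ' ψ.1)) =
    (Int.castAddHom ℂ).comp (heckeG N ℓ' (heckeG N ℓ ψ.1))
  rw [← heckeG_comp, ← heckeG_comp, ← heckeG_comp, ← heckeG_comp]
  exact heckeAdd_comm_of_mem_parabolicHoms N ℓ.2 ℓ'.2 (castHom_mem_parabolicHoms N ψ)

end Commute

section Eigen

variable [NeZero N] {g : CuspForm (Gamma0 N) 2}

theorem pml_mem_killing (f : CuspForm (Gamma0 N) 2) :
    pml N f ∈ killing (Additive ↥(Gamma0 N)) (parEll N) ℂ ℂ := by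
  intro s hs
  obtain ⟨γ, rfl⟩ := Additive.ofMul.surjective s
  rcases hs with hs | hs
  · exact (mem_parabolicHoms_iff.mp (pml_mem_parabolicHoms N f)) γ hs
  · have hs' : IsOfFinOrder γ := by
      obtain ⟨n, hn, h⟩ := hs.exists_pow_eq_one
      refine isOfFinOrder_iff_pow_eq_one.mpr ⟨n, hn, Subtype.ext ?_⟩
      rw [SubgroupClass.coe_pow]
      exact h
    obtain ⟨n, hn, h⟩ := hs'.exists_pow_eq_one
    have h1 : n • pml N f (Additive.ofMul γ) = 0 := by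
      rw [← map_nsmul, ← ofMul_pow, h, ofMul_one, map_zero]
    rcases smul_eq_zero.mp h1 with h2 | h2
    · exact absurd h2 hn.ne'
    · exact h2

theorem pml_ne_zero (hg : g.IsNormalizedEigenform) : pml N g ≠ 0 := by
  intro h0
  have h1 : periodHomPair N (g, g) = 0 := by
    rw [periodHomPair_eq, LinearMap.coprod_apply]
    simp [h0]
  have h2 : periodHomPair N (g, g) = periodHomPair N 0 := by rw [h1, map_zero]
  have h3 := (Fermat.Agent.S21.result N).1 h2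
  exact hg.ne_zero (congrArg Prod.fst h3)

theorem Tk_pml (hg : g.IsNormalizedEigenform) (ℓ : GoodPrime N) :
    Tk N ℂ ℂ ℓ (pml N g) = qCoeff g (ℓ.1 : ℕ) • pml N g := by
  show heckeAdd N (ℓ.1 : ℕ) ℓ.2 (pml N g) = _
  rw [← pml_heckeTLin N ℓ.1.2 ℓ.2, heckeTLin_eq_smul hg ℓ.1.2 ℓ.2, map_smul]

/-- **F4-out, lattice form** (helper10's (D2)): the eigensystem of a normalized eigenform is
integral and occurs in `𝔽 ⊗[ℤ] Λ_ℤ` for every field `𝔽` of positive characteristic. -/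
theorem exists_eigenvector_lattice (hg : g.IsNormalizedEigenform) :
    ∃ a : GoodPrime N → integralClosure ℤ ℂ, (∀ ℓ, (a ℓ : ℂ) = qCoeff g (ℓ.1 : ℕ)) ∧
      ∀ (p : ℕ) [Fact p.Prime] (𝔽 : Type*) [Field 𝔽] [CharP 𝔽 p]
        (φ : integralClosure ℤ ℂ →+* 𝔽),
        ∃ v : 𝔽 ⊗[ℤ] (killing (Additive ↥(Gamma0 N)) (parEll N) ℤ ℤ), v ≠ 0 ∧
          ∀ ℓ, (TL N ℤ ℤ ℓ).baseChange 𝔽 v = φ (a ℓ) • v :=
  LatticeChain.exists_eigenvector_lattice_of_eigen (TL N ℤ ℤ) (TL_commute N) (Tk N ℂ ℂ)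
    (Tk_castHom N ℂ) (pml N g) (pml_mem_killing N g) (pml_ne_zero N hg)
    (fun ℓ => qCoeff g (ℓ.1 : ℕ)) (Tk_pml N hg)

/-- **F4-out, transported form**: for every `ZMod p`-module `V` with operators `t ℓ` and every
additive `θ : Λ_ℤ →+ V` with kernel in `p • Λ_ℤ` intertwining `TL` and `t`, the eigensystem
occurs in `𝔽 ⊗[ZMod p] V`. -/
theorem exists_eigenvector_transport (hg : g.IsNormalizedEigenform) :
    ∃ a : GoodPrime N → integralClosure ℤ ℂ, (∀ ℓ, (a ℓ : ℂ) = qCoeff g (ℓ.1 : ℕ)) ∧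
      ∀ (p : ℕ) [Fact p.Prime] (𝔽 : Type*) [Field 𝔽] [Algebra (ZMod p) 𝔽]
        (φ : integralClosure ℤ ℂ →+* 𝔽) (V : Type*) [AddCommGroup V] [Module (ZMod p) V]
        (θ : killing (Additive ↥(Gamma0 N)) (parEll N) ℤ ℤ →+ V)
        (_hθ : ∀ m, θ m = 0 → ∃ m', m = (p : ℤ) • m')
        (t : GoodPrime N → Module.End (ZMod p) V)
        (_hTt : ∀ ℓ m, θ (TL N ℤ ℤ ℓ m) = t ℓ (θ m)),
        ∃ v : 𝔽 ⊗[ZMod p] V, v ≠ 0 ∧ ∀ ℓ, (t ℓ).baseChange 𝔽 v = φ (a ℓ) • v :=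
  LatticeChain.exists_eigenvector_of_eigen (TL N ℤ ℤ) (TL_commute N) (Tk N ℂ ℂ)
    (Tk_castHom N ℂ) (pml N g) (pml_mem_killing N g) (pml_ne_zero N hg)
    (fun ℓ => qCoeff g (ℓ.1 : ℕ)) (Tk_pml N hg)

end Eigen

end Fermat.Agent.N4F.Tors.ESHecke
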