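/-
N4-FULL, block F, row F6: THE OUTPUTS OF BLOCK F in the shapes of `N4F/Res/Interface.lean`,
from NAMED hypotheses.

* `KummerPackage N` : (F1e + F2b + F3c + F5) a Kummer map
  `κ n : J₀(N)[n] →+ (Additive Γ₀(N) →+ ZMod n)`, injective for every `n > 0`, and for primes `p`:
  onto the parabolic-elliptic homomorphisms and Hecke-equivariant (`heckeAdd` of `Tors/HeckeHom`).
* `LatticeOccurs N hg` : (F4b, helper10's (D2)) the eigensystem of `g` occurs in `𝔽 ⊗[ℤ] Λ`,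
  `Λ := parHomAdd N ℤ`.

Then `torsionFinite : KummerPackage N → TorsionFinite N` and
`eigenformOccurs : KummerPackage N → LatticeOccurs N hg → EigenformOccurs N hg` (VERBATIM the
Interface shapes).  Moreover `latticeOccurs_of_eigen` reduces `LatticeOccurs` to: the `T_ℓ` commute
on `Λ`, and ONE nonzero eigenvector `w ∈ parHomAdd N ℂ` with eigenvalues `a_ℓ(g)`.
-/
import Mathlib
import Fermat.Agent.N4F.Res.Interface
import Fermat.Agent.N4F.Tors.HeckeHom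
import Fermat.Agent.N4F.Tors.LatticeChain
import Fermat.Agent.S22.Gamma0FG

set_option autoImplicit false

open CongruenceSubgroup ModularCurve
open scoped TensorProduct MatrixGroups

noncomputable section

namespace Fermat.Agent.N4F.Tors.Outputs

open Fermat.Agent.N4F.Res Fermat.Agent.N4F.Tors.HeckeHom Fermat.Agent.N4F.Tors.HomLattice

variable (N : ℕ)

/-- `T_ℓ` on `Hom(Γ₀(N), A)` for `ℓ : Nat.Primes` (helper7's `heckeAdd`). -/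
def heckeAddP (ℓ : Nat.Primes) (hℓN : ¬ (ℓ : ℕ) ∣ N) {A : Type*} [AddCommGroup A] :
    (Additive ↥(Gamma0 N) →+ A) →+ (Additive ↥(Gamma0 N) →+ A) :=
  haveI : Fact (ℓ : ℕ).Prime := ⟨ℓ.2⟩
  heckeAdd N (ℓ : ℕ) hℓN

theorem heckeAddP_comp (ℓ : Nat.Primes) (hℓN : ¬ (ℓ : ℕ) ∣ N) {A B : Type*} [AddCommGroup A]
    [AddCommGroup B] (f : A →+ B) (φ : Additive ↥(Gamma0 N) →+ A) :
    heckeAddP N ℓ hℓN (f.comp φ) = f.comp (heckeAddP N ℓ hℓN φ) :=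
  haveI : Fact (ℓ : ℕ).Prime := ⟨ℓ.2⟩
  heckeAdd_comp N (ℓ : ℕ) hℓN f φ

theorem heckeAddP_mem (ℓ : Nat.Primes) (hℓN : ¬ (ℓ : ℕ) ∣ N) {A : Type*} [AddCommGroup A]
    {φ : Additive ↥(Gamma0 N) →+ A} (hφ : φ ∈ parHomAdd N A) :
    heckeAddP N ℓ hℓN φ ∈ parHomAdd N A :=
  haveI : Fact (ℓ : ℕ).Prime := ⟨ℓ.2⟩
  heckeAdd_mem_parHomAdd N (ℓ : ℕ) hℓN hφ

/-- `T_ℓ` on the lattice `Λ = parHomAdd N ℤ`, as a `ℤ`-linear endomorphism. -/
def heckeLattice (ℓ : Nat.Primes) (hℓN : ¬ (ℓ : ℕ) ∣ N) : Module.End ℤ (parHomAdd N ℤ) :=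
  haveI : Fact (ℓ : ℕ).Prime := ⟨ℓ.2⟩
  (heckePar N (ℓ : ℕ) hℓN ℤ).toIntLinearMap

@[simp]
theorem coe_heckeLattice (ℓ : Nat.Primes) (hℓN : ¬ (ℓ : ℕ) ∣ N) (ψ : parHomAdd N ℤ) :
    ((heckeLattice N ℓ hℓN ψ : parHomAdd N ℤ) : Additive ↥(Gamma0 N) →+ ℤ) =
      heckeAddP N ℓ hℓN ψ.1 := rfl

section Hypotheses

variable [NeZero N]

/-- **(F1e + F2b + F3c + F5)** the Kummer package. -/
def KummerPackage : Prop :=
  ∃ κ : ∀ n : ℕ, Jtors N n →+ (Additive ↥(Gamma0 N) →+ ZMod n),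
    (∀ n : ℕ, 0 < n → Function.Injective (κ n)) ∧
    (∀ p : ℕ, p.Prime → ∀ ψ : Additive ↥(Gamma0 N) →+ ZMod p, ψ ∈ parHomAdd N (ZMod p) →
      ∃ x, κ p x = ψ) ∧
    (∀ p : ℕ, p.Prime → ∀ (ℓ : Nat.Primes) (hℓN : ¬ (ℓ : ℕ) ∣ N) (x : Jtors N p),
      κ p (heckeTorsAdd N p ℓ x) = heckeAddP N ℓ hℓN (κ p x))

/-- **(F4b)** the eigensystem of `g` occurs in the lattice of integral parabolic homomorphisms,
mod every prime. -/
def LatticeOccurs {g : CuspForm (Gamma0 N) 2} (_hg : g.IsNormalizedEigenform) : Prop :=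
  ∃ a : Nat.Primes → integralClosure ℤ ℂ,
    (∀ ℓ : Nat.Primes, ¬ (ℓ : ℕ) ∣ N → (a ℓ : ℂ) = ModularFormClass.qCoeff g ℓ) ∧
    ∀ (p : ℕ) [Fact p.Prime] (𝔽 : Type) [Field 𝔽] [CharP 𝔽 p]
      (φ : integralClosure ℤ ℂ →+* 𝔽),
      ∃ v : 𝔽 ⊗[ℤ] (parHomAdd N ℤ), v ≠ 0 ∧
        ∀ (ℓ : Nat.Primes) (hℓN : ¬ (ℓ : ℕ) ∣ N),
          (heckeLattice N ℓ hℓN).baseChange 𝔽 v = φ (a ℓ) • v

end Hypotheses

section Finite

variable [NeZero N]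

instance instFGGamma0 : AddGroup.FG (Additive ↥(Gamma0 N)) :=
  haveI : Group.FG ↥(Gamma0 N) := Fermat.Agent.S22.gamma0_fg N
  inferInstance

omit [NeZero N] in
theorem finite_hom_zmod' (n : ℕ) (hn : 0 < n) [AddGroup.FG (Additive ↥(Gamma0 N))] :
    Finite (Additive ↥(Gamma0 N) →+ ZMod n) := by
  have : NeZero n := ⟨hn.ne'⟩
  obtain ⟨G, hG⟩ := (AddGroup.fg_def.1 (inferInstance : AddGroup.FG (Additive ↥(Gamma0 N))))
  exact Finite.of_injective (evalAt ℤ (ZMod n) G) (evalAt_injective ℤ (ZMod n) hG)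

theorem finite_hom_zmod (n : ℕ) (hn : 0 < n) : Finite (Additive ↥(Gamma0 N) →+ ZMod n) := by
  have : NeZero n := ⟨hn.ne'⟩
  obtain ⟨G, hG⟩ := (AddGroup.fg_def.1 (inferInstance : AddGroup.FG (Additive ↥(Gamma0 N))))
  exact Finite.of_injective (evalAt ℤ (ZMod n) G) (evalAt_injective ℤ (ZMod n) hG)

/-- **OUT1.** -/
theorem torsionFinite (hK : KummerPackage N) : TorsionFinite N := by
  obtain ⟨κ, hinj, -, -⟩ := hK
  intro n hn
  have := finite_hom_zmod N n hn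
  exact Finite.of_injective (κ n) (hinj n hn)

end Finite

section Occurs

variable [NeZero N]

/-- reduction mod `p` of integral parabolic homomorphisms -/
def redPar (p : ℕ) : parHomAdd N ℤ →+ parHomAdd N (ZMod p) :=
  parHomAddMap N (Int.castAddHom (ZMod p))

omit [NeZero N] in
theorem redPar_eq_zero (p : ℕ) (hp : p.Prime) (ψ : parHomAdd N ℤ) (h : redPar N p ψ = 0) :
    ∃ ψ' : parHomAdd N ℤ, ψ = (p : ℤ) • ψ' := by
  have hp0 : (p : ℤ) ≠ 0 := by exact_mod_cast hp.ne_zero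
  have hdvd : ∀ x, (p : ℤ) ∣ ψ.1 x := by
    intro x
    have h1 := congrArg (fun φ : parHomAdd N (ZMod p) => φ.1 x) h
    simp only [redPar, coe_parHomAddMap, AddMonoidHom.comp_apply, Int.coe_castAddHom,
      ZeroMemClass.coe_zero, AddMonoidHom.zero_apply] at h1
    exact (ZMod.intCast_zmod_eq_zero_iff_dvd _ p).1 h1
  let φ : Additive ↥(Gamma0 N) →+ ℤ := AddMonoidHom.mk' (fun x => ψ.1 x / (p : ℤ)) (fun a b => by
    change ψ.1 (a + b) / (p : ℤ) = _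
    rw [map_add, Int.add_ediv_of_dvd_left (hdvd a)])
  have hφ : ∀ x, (p : ℤ) * φ x = ψ.1 x := fun x => Int.mul_ediv_cancel' (hdvd x)
  refine ⟨⟨φ, fun g hg => ?_⟩, ?_⟩
  · have h1 := hφ (Additive.ofMul g)
    rw [ψ.2 g hg] at h1
    exact (mul_eq_zero.mp h1).resolve_left hp0
  · apply Subtype.ext
    refine AddMonoidHom.ext fun x => ?_
    rw [AddSubgroup.coe_zsmul, AddMonoidHom.smul_apply, smul_eq_mul]
    exact (hφ x).symm

/-- **OUT2.** -/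
theorem eigenformOccurs (hK : KummerPackage N) {g : CuspForm (Gamma0 N) 2}
    (hg : g.IsNormalizedEigenform) (hL : LatticeOccurs N hg) : EigenformOccurs N hg := by
  obtain ⟨κ, hinj, hsurj, hequiv⟩ := hK
  obtain ⟨a, ha, hocc⟩ := hL
  refine ⟨a, ha, ?_⟩
  intro p 𝔽 _ _ _ φ
  have hp : p.Prime := Fact.out
  have hchar : CharP 𝔽 p :=
    charP_of_injective_algebraMap (algebraMap (ZMod p) 𝔽).injective p
  obtain ⟨v, hv0, hv⟩ := hocc p 𝔽 φ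
  have hex : ∀ ψ : parHomAdd N ℤ, ∃ x, κ p x = (redPar N p ψ).1 :=
    fun ψ => hsurj p hp _ (redPar N p ψ).2
  choose θf hθf using hex
  let θ : parHomAdd N ℤ →+ Jtors N p := AddMonoidHom.mk' θf (fun a b => by
    apply hinj p hp.pos
    rw [map_add, hθf, hθf, hθf, map_add]
    rfl)
  have hθ' : ∀ ψ, κ p (θ ψ) = (redPar N p ψ).1 := hθf
  have hθ : ∀ m, θ m = 0 → ∃ m', m = (p : ℤ) • m' := by
    intro m hm
    apply redPar_eq_zero N p hp m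
    apply Subtype.ext
    rw [← hθ', hm, map_zero]
    rfl
  have hred : ∀ (ℓ : Nat.Primes) (hℓN : ¬ (ℓ : ℕ) ∣ N) (m : parHomAdd N ℤ),
      (redPar N p (heckeLattice N ℓ hℓN m)).1 = heckeAddP N ℓ hℓN (redPar N p m).1 := by
    intro ℓ hℓN m
    exact (heckeAddP_comp N ℓ hℓN (Int.castAddHom (ZMod p)) m.1).symm
  have hTt : ∀ (ℓ : {ℓ : Nat.Primes // ¬ (ℓ : ℕ) ∣ N}) (m : parHomAdd N ℤ),
      θ (heckeLattice N ℓ.1 ℓ.2 m) = heckeTors N p ℓ.1 (θ m) := by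
    intro ℓ m
    apply hinj p hp.pos
    have h1 : κ p (heckeTors N p ℓ.1 (θ m)) = heckeAddP N ℓ.1 ℓ.2 (κ p (θ m)) :=
      hequiv p hp ℓ.1 ℓ.2 (θ m)
    rw [h1, hθ', hθ']
    exact hred ℓ.1 ℓ.2 m
  obtain ⟨v', hv'0, hv'⟩ := Transport.exists_eigenvector_transport p 𝔽 θ hθ
    (fun ℓ : {ℓ : Nat.Primes // ¬ (ℓ : ℕ) ∣ N} => heckeLattice N ℓ.1 ℓ.2)
    (fun ℓ => heckeTors N p ℓ.1) hTt (fun ℓ => φ (a ℓ.1)) v hv0 (fun ℓ => hv ℓ.1 ℓ.2)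
  exact ⟨v', hv'0, fun ℓ hℓ => hv' ⟨ℓ, hℓ⟩⟩

end Occurs

section Lattice

variable [NeZero N]

/-- the parabolic and elliptic elements, as a subset of `Additive Γ₀(N)` -/
def parSet : Set (Additive ↥(Gamma0 N)) :=
  {x | IsParEll ((Additive.toMul x : ↥(Gamma0 N)) : SL(2, ℤ))}

omit [NeZero N] in
theorem mem_parHomAdd_iff_killing {A : Type*} [AddCommGroup A]
    (φ : Additive ↥(Gamma0 N) →+ A) :
    φ ∈ parHomAdd N A ↔ φ ∈ killing (Additive ↥(Gamma0 N)) (parSet N) ℤ A :=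
  ⟨fun h s hs => h (Additive.toMul s) hs, fun h g hg => h (Additive.ofMul g) hg⟩

/-- `parHomAdd N ℤ` is the lattice `killing … ℤ ℤ` of `Tors/HomLattice`. -/
def toKilling : parHomAdd N ℤ ≃ₗ[ℤ] killing (Additive ↥(Gamma0 N)) (parSet N) ℤ ℤ where
  toFun ψ := ⟨ψ.1, (mem_parHomAdd_iff_killing N ψ.1).1 ψ.2⟩
  invFun ψ := ⟨ψ.1, (mem_parHomAdd_iff_killing N ψ.1).2 ψ.2⟩
  map_add' _ _ := rfl
  map_smul' _ _ := rfl
  left_inv _ := rfl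
  right_inv _ := rfl

/-- `T_ℓ` on `Hom(Γ₀(N), ℂ)` as a `ℂ`-linear map. -/
def heckeC (ℓ : Nat.Primes) (hℓN : ¬ (ℓ : ℕ) ∣ N) :
    Module.End ℂ (Additive ↥(Gamma0 N) →+ ℂ) where
  toFun := heckeAddP N ℓ hℓN
  map_add' := map_add _
  map_smul' c φ := by
    have h1 : c • φ = (DistribSMul.toAddMonoidHom ℂ c).comp φ := rfl
    have h2 : c • heckeAddP N ℓ hℓN φ =
        (DistribSMul.toAddMonoidHom ℂ c).comp (heckeAddP N ℓ hℓN φ) := rfl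
    rw [RingHom.id_apply, h1, h2]
    exact heckeAddP_comp N ℓ hℓN _ φ

/-- **F4b reduced to its analytic content.**  If the `T_ℓ` (`ℓ ∤ N`) commute on the lattice
`Λ = parHomAdd N ℤ` and there is ONE nonzero `w ∈ parHomAdd N ℂ` (e.g. `periodMap N g`) with
`T_ℓ w = a_ℓ(g) • w` for all `ℓ ∤ N`, then `LatticeOccurs N hg`. -/
theorem latticeOccurs_of_eigen {g : CuspForm (Gamma0 N) 2} (hg : g.IsNormalizedEigenform)
    (hcomm : ∀ (ℓ ℓ' : Nat.Primes) (hℓ : ¬ (ℓ : ℕ) ∣ N) (hℓ' : ¬ (ℓ' : ℕ) ∣ N),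
      Commute (heckeLattice N ℓ hℓ) (heckeLattice N ℓ' hℓ'))
    (w : Additive ↥(Gamma0 N) →+ ℂ) (hw : w ∈ parHomAdd N ℂ) (hw0 : w ≠ 0)
    (heig : ∀ (ℓ : Nat.Primes) (hℓN : ¬ (ℓ : ℕ) ∣ N),
      heckeAddP N ℓ hℓN w = ModularFormClass.qCoeff g ℓ • w) :
    LatticeOccurs N hg := by
  classical
  let e := toKilling N
  let TZ : {ℓ : Nat.Primes // ¬ (ℓ : ℕ) ∣ N} →
      Module.End ℤ (killing (Additive ↥(Gamma0 N)) (parSet N) ℤ ℤ) :=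
    fun ℓ => e.toLinearMap ∘ₗ heckeLattice N ℓ.1 ℓ.2 ∘ₗ e.symm.toLinearMap
  have hcommZ : ∀ ℓ ℓ', Commute (TZ ℓ) (TZ ℓ') := by
    intro ℓ ℓ'
    have h := hcomm ℓ.1 ℓ'.1 ℓ.2 ℓ'.2
    apply LinearMap.ext
    intro ψ
    have h1 := LinearMap.congr_fun h.eq (e.symm ψ)
    apply Subtype.ext
    have h2 := congrArg (fun z : parHomAdd N ℤ => z.1) h1
    exact h2
  have hcompat : ∀ (ℓ : {ℓ : Nat.Primes // ¬ (ℓ : ℕ) ∣ N})
      (ψ : killing (Additive ↥(Gamma0 N)) (parSet N) ℤ ℤ),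
      heckeC N ℓ.1 ℓ.2 (castHom ℂ ψ) =
        castHom ℂ (TZ ℓ ψ : killing (Additive ↥(Gamma0 N)) (parSet N) ℤ ℤ) := by
    intro ℓ ψ
    exact heckeAddP_comp N ℓ.1 ℓ.2 (Int.castAddHom ℂ) ψ.1
  obtain ⟨a', ha', hocc⟩ := LatticeChain.exists_eigenvector_lattice_of_eigen TZ hcommZ
    (fun ℓ => heckeC N ℓ.1 ℓ.2) hcompat w ((mem_parHomAdd_iff_killing N w).1 hw) hw0
    (fun ℓ => ModularFormClass.qCoeff g ℓ.1) (fun ℓ => heig ℓ.1 ℓ.2)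
  let aN : Nat.Primes → integralClosure ℤ ℂ :=
    fun ℓ => if h : ¬ (ℓ : ℕ) ∣ N then a' ⟨ℓ, h⟩ else 0
  have haN : ∀ (ℓ : Nat.Primes) (hℓ : ¬ (ℓ : ℕ) ∣ N), aN ℓ = a' ⟨ℓ, hℓ⟩ :=
    fun ℓ hℓ => dif_pos hℓ
  refine ⟨aN, fun ℓ hℓ => ?_, ?_⟩
  · rw [haN ℓ hℓ]
    exact ha' ⟨ℓ, hℓ⟩
  · intro p _ 𝔽 _ _ φ
    obtain ⟨v, hv0, hv⟩ := hocc p 𝔽 φ
    have hinv : (e.toLinearMap.baseChange 𝔽) ∘ₗ (e.symm.toLinearMap.baseChange 𝔽) =
        LinearMap.id := by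
      rw [← LinearMap.baseChange_comp]
      have : e.toLinearMap ∘ₗ e.symm.toLinearMap = LinearMap.id :=
        LinearMap.ext fun x => e.apply_symm_apply x
      rw [this, LinearMap.baseChange_id]
    refine ⟨e.symm.toLinearMap.baseChange 𝔽 v, ?_, fun ℓ hℓN => ?_⟩
    · intro h0
      apply hv0
      have h1 := LinearMap.congr_fun hinv v
      rw [LinearMap.comp_apply, h0, map_zero] at h1
      exact h1.symm
    · rw [haN ℓ hℓN]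
      have h1 : (heckeLattice N ℓ hℓN).baseChange 𝔽 ∘ₗ e.symm.toLinearMap.baseChange 𝔽 =
          e.symm.toLinearMap.baseChange 𝔽 ∘ₗ (TZ ⟨ℓ, hℓN⟩).baseChange 𝔽 := by
        rw [← LinearMap.baseChange_comp, ← LinearMap.baseChange_comp]
        congr 1
      have h2 := LinearMap.congr_fun h1 v
      rw [LinearMap.comp_apply, LinearMap.comp_apply, hv ⟨ℓ, hℓN⟩, map_smul] at h2
      exact h2

/-- **OUT2 from the analytic content of F4b.** -/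
theorem eigenformOccurs_of_eigen (hK : KummerPackage N) {g : CuspForm (Gamma0 N) 2}
    (hg : g.IsNormalizedEigenform)
    (hcomm : ∀ (ℓ ℓ' : Nat.Primes) (hℓ : ¬ (ℓ : ℕ) ∣ N) (hℓ' : ¬ (ℓ' : ℕ) ∣ N),
      Commute (heckeLattice N ℓ hℓ) (heckeLattice N ℓ' hℓ'))
    (w : Additive ↥(Gamma0 N) →+ ℂ) (hw : w ∈ parHomAdd N ℂ) (hw0 : w ≠ 0)
    (heig : ∀ (ℓ : Nat.Primes) (hℓN : ¬ (ℓ : ℕ) ∣ N),
      heckeAddP N ℓ hℓN w = ModularFormClass.qCoeff g ℓ • w) :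
    EigenformOccurs N hg :=
  eigenformOccurs N hK hg (latticeOccurs_of_eigen N hg hcomm w hw hw0 heig)

end Lattice

end Fermat.Agent.N4F.Tors.Outputs
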