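/-
N4-FULL, block F, row F6 (final plug): `LatticeOccurs N hg` UNCONDITIONALLY (helper7's
`Tors/ESHecke`), hence `EigenformOccurs N hg` from the Kummer package alone.
-/
import Mathlib
import Fermat.Agent.N4F.Tors.Outputs
import Fermat.Agent.N4F.Tors.ESHecke

set_option autoImplicit false

open CongruenceSubgroup ModularCurve
open scoped TensorProduct MatrixGroups

noncomputable section

namespace Fermat.Agent.N4F.Tors.OutputsFinal

open Fermat.Agent.N4F.Res Fermat.Agent.N4F.Tors.HeckeHom Fermat.Agent.N4F.Tors.HomLattice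
  Fermat.Agent.N4F.Tors.Outputs Fermat.Agent.N4F.Tors.ESHecke

variable (N : ℕ) [NeZero N]

/-- the Hecke operators commute on the lattice `parHomAdd N ℤ` -/
theorem heckeLattice_commute (ℓ ℓ' : Nat.Primes) (hℓ : ¬ (ℓ : ℕ) ∣ N) (hℓ' : ¬ (ℓ' : ℕ) ∣ N) :
    Commute (heckeLattice N ℓ hℓ) (heckeLattice N ℓ' hℓ') := by
  refine LinearMap.ext fun ψ => Subtype.ext ?_
  have hψ : ψ.1 ∈ killing (Additive ↥(Gamma0 N)) (parEll N) ℤ ℤ := (mem_killing_iff N).2 ψ.2
  have h := LinearMap.congr_fun (TL_commute N ⟨ℓ, hℓ⟩ ⟨ℓ', hℓ'⟩).eq ⟨ψ.1, hψ⟩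
  exact congrArg Subtype.val h

/-- **F4b, in the `Outputs` shape, unconditionally.** -/
theorem latticeOccurs {g : CuspForm (Gamma0 N) 2} (hg : g.IsNormalizedEigenform) :
    LatticeOccurs N hg :=
  latticeOccurs_of_eigen N hg (heckeLattice_commute N) (Fermat.Agent.M2.ES.pml N g)
    ((mem_killing_iff N (R := ℂ)).1 (pml_mem_killing N g)) (pml_ne_zero N hg)
    (fun ℓ hℓN => Tk_pml N hg ⟨ℓ, hℓN⟩)

/-- **OUT2 from the Kummer package alone.** -/
theorem eigenformOccurs (hK : KummerPackage N) {g : CuspForm (Gamma0 N) 2}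
    (hg : g.IsNormalizedEigenform) : EigenformOccurs N hg :=
  Outputs.eigenformOccurs N hK hg (latticeOccurs N hg)

end Fermat.Agent.N4F.Tors.OutputsFinal
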