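import Mathlib
import Fermat.Agent.M2.HolDiv

/-!
# N4-FULL, block F, task F1a: holomorphic `n`-th roots

Pure complex analysis (Mathlib + the holomorphic division lemma `M2/HolDiv`).

* `exists_root_of_ne_zero_ball` : a nowhere vanishing holomorphic function on a ball is an
  `n`-th power (primitive of the logarithmic derivative).
* `eq_const_mul_of_pow_eq` : on a preconnected open set, `g₁ ^ n = g₂ ^ n` with `g₂ ≢ 0` forces
  `g₁ = ζ g₂` for a constant `ζ` with `ζ ^ n = 1`.
* `exists_root_closedBall` : if `A` is holomorphic and not identically zero on a preconnected open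
  set `U`, all of its orders of vanishing are divisible by `n`, and `closedBall c r ⊆ U`, then `A`
  is an `n`-th power on `ball c r`.
* `exists_root_of_balls` : the same on all of `U`, when any point of `U` can be joined to a base
  point by a ball whose closure stays inside `U`.
* `exists_mdiff_root` : the upper half plane version.
-/

set_option autoImplicit false

namespace Fermat.Agent.N4F.Tors.NthRoot

open Complex Metric Set Filter Topology

/-! ## Roots of nowhere vanishing functions on a ball -/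

/-- A nowhere vanishing holomorphic function on a ball is an exponential. -/
theorem exists_log_ball {u : ℂ → ℂ} {c : ℂ} {r : ℝ}
    (hu : DifferentiableOn ℂ u (ball c r)) (hu0 : ∀ z ∈ ball c r, u z ≠ 0) :
    ∃ L : ℂ → ℂ, DifferentiableOn ℂ L (ball c r) ∧ ∀ z ∈ ball c r, Complex.exp (L z) = u z := by
  by_cases hr : 0 < r
  swap
  · refine ⟨fun _ => 0, differentiableOn_const _, fun z hz => ?_⟩
    rw [ball_eq_empty.mpr (not_lt.mp hr)] at hz
    exact hz.elim
  have hc : c ∈ ball c r := mem_ball_self hr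
  have hu' : DifferentiableOn ℂ (deriv u) (ball c r) := hu.deriv isOpen_ball
  have hf : DifferentiableOn ℂ (fun z => deriv u z / u z) (ball c r) := hu'.div hu hu0
  obtain ⟨L, hLc, hL⟩ := hf.isExactOn_ball.with_val_at c (Complex.log (u c))
  have hLd : DifferentiableOn ℂ L (ball c r) := fun z hz =>
    (hL z hz).differentiableAt.differentiableWithinAt
  refine ⟨L, hLd, ?_⟩
  -- `G = u * exp (-L)` has zero derivative on the ball
  set G : ℂ → ℂ := fun z => u z * Complex.exp (-L z) with hG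
  have hGd : ∀ z ∈ ball c r, HasDerivAt G 0 z := by
    intro z hz
    have h1 : HasDerivAt u (deriv u z) z :=
      (hu.differentiableAt (isOpen_ball.mem_nhds hz)).hasDerivAt
    have h2 : HasDerivAt (fun z => Complex.exp (-L z))
        (Complex.exp (-L z) * (-(deriv u z / u z))) z := ((hL z hz).neg).cexp
    have h3 := h1.mul h2
    have hne := hu0 z hz
    have e : deriv u z * Complex.exp (-L z) +
        u z * (Complex.exp (-L z) * (-(deriv u z / u z))) = 0 := by
      field_simp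
      ring
    rw [e] at h3
    exact h3
  have hGdiff : DifferentiableOn ℂ G (ball c r) := fun z hz =>
    (hGd z hz).differentiableAt.differentiableWithinAt
  have hGconst : ∀ z ∈ ball c r, G z = G c := fun z hz =>
    isOpen_ball.is_const_of_deriv_eq_zero (convex_ball c r).isPreconnected hGdiff
      (fun w hw => (hGd w hw).deriv) hz hc
  have hGc : G c = 1 := by
    simp only [hG, hLc, Complex.exp_neg, Complex.exp_log (hu0 c hc)]
    exact mul_inv_cancel₀ (hu0 c hc)
  intro z hz
  have h := hGconst z hz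
  rw [hGc] at h
  simp only [hG, Complex.exp_neg] at h
  have hne : Complex.exp (L z) ≠ 0 := Complex.exp_ne_zero _
  field_simp at h
  exact h.symm

/-- A nowhere vanishing holomorphic function on a ball is an `n`-th power. -/
theorem exists_root_of_ne_zero_ball {u : ℂ → ℂ} {c : ℂ} {r : ℝ}
    (hu : DifferentiableOn ℂ u (ball c r)) (hu0 : ∀ z ∈ ball c r, u z ≠ 0) {n : ℕ} (hn : n ≠ 0) :
    ∃ v : ℂ → ℂ, DifferentiableOn ℂ v (ball c r) ∧ ∀ z ∈ ball c r, v z ^ n = u z := by
  obtain ⟨L, hLd, hL⟩ := exists_log_ball hu hu0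
  refine ⟨fun z => Complex.exp (L z / n), (hLd.div_const _).cexp, fun z hz => ?_⟩
  have hn' : (n : ℂ) ≠ 0 := Nat.cast_ne_zero.mpr hn
  rw [← Complex.exp_nat_mul, mul_div_cancel₀ _ hn', hL z hz]

/-! ## Uniqueness of roots up to roots of unity -/

lemma finite_setOf_pow_eq_one {n : ℕ} (hn : n ≠ 0) : {w : ℂ | w ^ n = 1}.Finite := by
  have : {w : ℂ | w ^ n = 1} = ((Polynomial.nthRoots n (1 : ℂ)).toFinset : Set ℂ) := by
    ext w
    simp [Polynomial.mem_nthRoots (Nat.pos_of_ne_zero hn)]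
  rw [this]
  exact Finset.finite_toSet _

/-- On a preconnected open set, two holomorphic functions with the same `n`-th power differ by a
constant factor (an `n`-th root of unity), provided the second one does not vanish at `z₀`. -/
theorem eq_const_mul_of_pow_eq {U : Set ℂ} (hU : IsOpen U) (hUc : IsPreconnected U)
    {g₁ g₂ : ℂ → ℂ} (h₁ : DifferentiableOn ℂ g₁ U) (h₂ : DifferentiableOn ℂ g₂ U)
    {z₀ : ℂ} (hz₀ : z₀ ∈ U) (hne : g₂ z₀ ≠ 0) {n : ℕ} (hn : n ≠ 0)
    (h : ∀ z ∈ U, g₁ z ^ n = g₂ z ^ n) :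
    ∀ z ∈ U, g₁ z = g₁ z₀ / g₂ z₀ * g₂ z := by
  set ζ : ℂ := g₁ z₀ / g₂ z₀ with hζ
  have hc₁ : ContinuousAt g₁ z₀ := (h₁.differentiableAt (hU.mem_nhds hz₀)).continuousAt
  have hc₂ : ContinuousAt g₂ z₀ := (h₂.differentiableAt (hU.mem_nhds hz₀)).continuousAt
  have hq : ContinuousAt (fun z => g₁ z / g₂ z) z₀ := hc₁.div hc₂ hne
  have hne' : ∀ᶠ z in 𝓝 z₀, g₂ z ≠ 0 := hc₂.eventually_ne hne
  -- the other roots of unity form a closed set not containing `ζ`
  have hfin : ({w : ℂ | w ^ n = 1} \ {ζ}).Finite := (finite_setOf_pow_eq_one hn).sdiff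
  have hopen : IsOpen ({w : ℂ | w ^ n = 1} \ {ζ})ᶜ := hfin.isClosed.isOpen_compl
  have hζmem : ζ ∈ ({w : ℂ | w ^ n = 1} \ {ζ})ᶜ := fun hmem => hmem.2 rfl
  have hev : ∀ᶠ z in 𝓝 z₀, g₁ z / g₂ z ∈ ({w : ℂ | w ^ n = 1} \ {ζ})ᶜ :=
    hq.eventually (hopen.mem_nhds hζmem)
  have hevU : ∀ᶠ z in 𝓝 z₀, z ∈ U := hU.mem_nhds hz₀
  have hloc : ∀ᶠ z in 𝓝 z₀, g₁ z = ζ * g₂ z := by
    filter_upwards [hev, hevU, hne'] with z hz hzU hz2
    have hpow : (g₁ z / g₂ z) ^ n = 1 := by
      rw [div_pow, h z hzU, div_self (pow_ne_zero _ hz2)]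
    have hzeta : g₁ z / g₂ z = ζ := by
      by_contra hcon
      exact hz ⟨hpow, hcon⟩
    rw [← hzeta, div_mul_cancel₀ _ hz2]
  have han₁ : AnalyticOnNhd ℂ g₁ U := h₁.analyticOnNhd hU
  have han₂ : AnalyticOnNhd ℂ (fun z => ζ * g₂ z) U :=
    (h₂.const_mul ζ).analyticOnNhd hU
  exact fun z hz => han₁.eqOn_of_preconnected_of_eventuallyEq han₂ hUc hz₀ hloc hz

/-! ## Finiteness of the zero set on compact subsets -/

/-- A holomorphic function which is not identically zero on a preconnected open set has only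
finitely many zeros on every compact subset. -/
theorem finite_zeros_of_isCompact {A : ℂ → ℂ} {U K : Set ℂ} (hU : IsOpen U)
    (hUc : IsPreconnected U) (hA : DifferentiableOn ℂ A U) (hA0 : ∃ z ∈ U, A z ≠ 0)
    (hK : IsCompact K) (hKU : K ⊆ U) : (K ∩ {z | A z = 0}).Finite := by
  by_contra hinf
  obtain ⟨x, hxK, hx⟩ :=
    Set.Infinite.exists_accPt_of_subset_isCompact (s := K ∩ {z | A z = 0}) hinf hK
      inter_subset_left
  rw [accPt_iff_frequently_nhdsNE] at hx
  have hfreq : ∃ᶠ z in 𝓝[≠] x, A z = 0 := hx.mono fun z hz => hz.2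
  have h0 := (hA.analyticOnNhd hU).eqOn_zero_of_preconnected_of_frequently_eq_zero hUc
    (hKU hxK) hfreq
  obtain ⟨z, hzU, hz⟩ := hA0
  exact hz (h0 hzU)

/-! ## Roots on balls with compact closure in the domain -/

lemma analyticAt_prod_monomial (Z : Finset ℂ) (k : ℂ → ℕ) (w : ℂ) :
    AnalyticAt ℂ (fun x => ∏ z ∈ Z, (x - z) ^ k z) w := by
  fun_prop

lemma analyticOrderAt_monomial (a : ℂ) (m : ℕ) (w : ℂ) :
    analyticOrderAt (fun x : ℂ => (x - a) ^ m) w = if w = a then (m : ℕ∞) else 0 := by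
  split_ifs with h
  · subst h
    exact analyticOrderAt_centeredMonomial
  · have han : AnalyticAt ℂ (fun x : ℂ => (x - a) ^ m) w := by fun_prop
    rw [han.analyticOrderAt_eq_zero]
    exact pow_ne_zero _ (sub_ne_zero.mpr h)

lemma analyticOrderAt_prod_monomial (Z : Finset ℂ) (k : ℂ → ℕ) (w : ℂ) :
    analyticOrderAt (fun x => ∏ z ∈ Z, (x - z) ^ k z) w = if w ∈ Z then (k w : ℕ∞) else 0 := by
  classical
  induction Z using Finset.induction_on with
  | empty =>
    simp only [Finset.prod_empty, Finset.notMem_empty, if_false]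
    rw [(analyticAt_const : AnalyticAt ℂ (fun _ : ℂ => (1 : ℂ)) w).analyticOrderAt_eq_zero]
    exact one_ne_zero
  | insert a Z ha ih =>
    have e : (fun x => ∏ z ∈ insert a Z, (x - z) ^ k z) =
        (fun x : ℂ => (x - a) ^ k a) * fun x => ∏ z ∈ Z, (x - z) ^ k z := by
      ext x
      rw [Finset.prod_insert ha, Pi.mul_apply]
    rw [e, analyticOrderAt_mul (by fun_prop) (analyticAt_prod_monomial Z k w), ih,
      analyticOrderAt_monomial]
    by_cases hwa : w = a
    · subst hwa
      simp [ha]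
    · simp [hwa]

/-- If `A` is holomorphic, not identically zero on the preconnected open set `U`, with all orders
of vanishing divisible by `n`, then `A` is an `n`-th power on every ball whose closure is
contained in `U`. -/
theorem exists_root_closedBall {A : ℂ → ℂ} {U : Set ℂ} (hU : IsOpen U) (hUc : IsPreconnected U)
    (hA : DifferentiableOn ℂ A U) (hA0 : ∃ z ∈ U, A z ≠ 0) {n : ℕ} (hn : n ≠ 0)
    (hord : ∀ z ∈ U, ∃ k : ℕ, analyticOrderAt A z = ((n * k : ℕ) : ℕ∞))
    {c : ℂ} {r : ℝ} (hK : closedBall c r ⊆ U) :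
    ∃ g : ℂ → ℂ, DifferentiableOn ℂ g (ball c r) ∧ ∀ z ∈ ball c r, g z ^ n = A z := by
  classical
  have hAan : AnalyticOnNhd ℂ A U := hA.analyticOnNhd hU
  -- the zeros in the closed ball
  have hfin := finite_zeros_of_isCompact hU hUc hA hA0 (isCompact_closedBall c r) hK
  set Z : Finset ℂ := hfin.toFinset with hZ
  have hZmem : ∀ w, w ∈ Z ↔ w ∈ closedBall c r ∧ A w = 0 := fun w => by
    rw [hZ, Set.Finite.mem_toFinset]; rfl
  -- the exponents
  choose! k hk using hord
  set P : ℂ → ℂ := fun x => ∏ z ∈ Z, (x - z) ^ k z with hP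
  have hPd : Differentiable ℂ P := fun x => (analyticAt_prod_monomial Z k x).differentiableAt
  have hPn : ∀ w, AnalyticAt ℂ (fun x => P x ^ n) w := fun w =>
    (analyticAt_prod_monomial Z k w).pow n
  -- orders of `P ^ n` and of `A` agree on the ball
  have hordP : ∀ w ∈ ball c r, analyticOrderAt (fun x => P x ^ n) w = analyticOrderAt A w := by
    intro w hw
    have hwK : w ∈ closedBall c r := ball_subset_closedBall hw
    have e : (fun x => P x ^ n) = P ^ n := rfl
    rw [e, analyticOrderAt_pow (analyticAt_prod_monomial Z k w),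
      analyticOrderAt_prod_monomial]
    by_cases hwZ : w ∈ Z
    · rw [if_pos hwZ, hk w (hK hwK)]
      push_cast
      rfl
    · rw [if_neg hwZ, smul_zero]
      have hAw : A w ≠ 0 := fun h0 => hwZ ((hZmem w).mpr ⟨hwK, h0⟩)
      exact (((hAan w (hK hwK)).analyticOrderAt_eq_zero).mpr hAw).symm
  -- divide
  obtain ⟨u, hud, hu⟩ := Fermat.Agent.M2.HolDiv.exists_holo_of_order_le isOpen_ball A
    (fun x => P x ^ n) (hA.mono (ball_subset_closedBall.trans hK))
    ((hPd.pow n).differentiableOn) (fun w hw => (hordP w hw).le)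
  -- `u` does not vanish on the ball
  have hu0 : ∀ w ∈ ball c r, u w ≠ 0 := by
    intro w hw
    have hwU : w ∈ U := hK (ball_subset_closedBall hw)
    have huan : AnalyticAt ℂ u w := hud.analyticAt (isOpen_ball.mem_nhds hw)
    have hev : A =ᶠ[𝓝 w] u * fun x => P x ^ n := by
      filter_upwards [isOpen_ball.mem_nhds hw] with x hx
      exact hu x hx
    have h1 : analyticOrderAt A w = analyticOrderAt u w + analyticOrderAt (fun x => P x ^ n) w := by
      rw [analyticOrderAt_congr hev, analyticOrderAt_mul huan (hPn w)]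
    rw [hordP w hw] at h1
    have hfinite : analyticOrderAt A w ≠ ⊤ := by
      obtain ⟨z, hzU, hz⟩ := hA0
      have hz' : analyticOrderAt A z ≠ ⊤ := by
        rw [((hAan z hzU).analyticOrderAt_eq_zero).mpr hz]
        exact ENat.zero_ne_top
      exact hAan.analyticOrderAt_ne_top_of_isPreconnected hUc hzU hwU hz'
    have h2 : analyticOrderAt u w = 0 := by
      have h3 : 0 + analyticOrderAt A w = analyticOrderAt u w + analyticOrderAt A w := by
        rw [zero_add]; exact h1
      exact ((ENat.add_left_injective_of_ne_top hfinite) h3).symm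
    exact (huan.analyticOrderAt_eq_zero).mp h2
  obtain ⟨v, hvd, hv⟩ := exists_root_of_ne_zero_ball hud hu0 hn
  refine ⟨fun x => v x * P x, hvd.mul hPd.differentiableOn, fun z hz => ?_⟩
  rw [mul_pow, hv z hz, hu z hz]

/-! ## Global roots -/

/-- Global `n`-th roots: `U` preconnected open, every point of `U` can be joined to the base
point `z₀` by a ball whose closure lies in `U`. -/
theorem exists_root_of_balls {A : ℂ → ℂ} {U : Set ℂ} (hU : IsOpen U) (hUc : IsPreconnected U)
    (hA : DifferentiableOn ℂ A U) {z₀ : ℂ} (hz₀ : z₀ ∈ U) (hAz₀ : A z₀ ≠ 0) {n : ℕ} (hn : n ≠ 0)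
    (hord : ∀ z ∈ U, ∃ k : ℕ, analyticOrderAt A z = ((n * k : ℕ) : ℕ∞))
    (hballs : ∀ z ∈ U, ∃ (c : ℂ) (r : ℝ), z ∈ ball c r ∧ z₀ ∈ ball c r ∧ closedBall c r ⊆ U) :
    ∃ g : ℂ → ℂ, DifferentiableOn ℂ g U ∧ ∀ z ∈ U, g z ^ n = A z := by
  obtain ⟨w₀, hw₀⟩ := IsAlgClosed.exists_pow_nat_eq (A z₀) (Nat.pos_of_ne_zero hn)
  have hw₀0 : w₀ ≠ 0 := by
    rintro rfl
    rw [zero_pow hn] at hw₀
    exact hAz₀ hw₀.symm
  -- normalised roots on admissible balls
  have key : ∀ (c : ℂ) (r : ℝ), z₀ ∈ ball c r → closedBall c r ⊆ U →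
      ∃ g : ℂ → ℂ, DifferentiableOn ℂ g (ball c r) ∧ (∀ z ∈ ball c r, g z ^ n = A z) ∧
        g z₀ = w₀ := by
    intro c r hz₀c hK
    obtain ⟨g, hgd, hg⟩ := exists_root_closedBall hU hUc hA ⟨z₀, hz₀, hAz₀⟩ hn hord hK
    have hg0 : g z₀ ≠ 0 := by
      intro h0
      have := hg z₀ hz₀c
      rw [h0, zero_pow hn] at this
      exact hAz₀ this.symm
    refine ⟨fun z => w₀ / g z₀ * g z, hgd.const_mul _, fun z hz => ?_, ?_⟩
    · rw [mul_pow, div_pow, hg z hz, hw₀, hg z₀ hz₀c, div_self hAz₀, one_mul]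
    · exact div_mul_cancel₀ _ hg0
  choose! cc rr hcr using hballs
  have key2 : ∀ z ∈ U, ∃ g : ℂ → ℂ, DifferentiableOn ℂ g (ball (cc z) (rr z)) ∧
      (∀ x ∈ ball (cc z) (rr z), g x ^ n = A x) ∧ g z₀ = w₀ :=
    fun z hz => key _ _ (hcr z hz).2.1 (hcr z hz).2.2
  choose! gg hgg using key2
  -- compatibility of the normalised roots
  have hagree : ∀ z ∈ U, ∀ z' ∈ U, z' ∈ ball (cc z) (rr z) → gg z' z' = gg z z' := by
    intro z hz z' hz' hz'z
    set V : Set ℂ := ball (cc z) (rr z) ∩ ball (cc z') (rr z') with hV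
    have hVo : IsOpen V := isOpen_ball.inter isOpen_ball
    have hVc : IsPreconnected V := ((convex_ball _ _).inter (convex_ball _ _)).isPreconnected
    have hz₀V : z₀ ∈ V := ⟨(hcr z hz).2.1, (hcr z' hz').2.1⟩
    have h := eq_const_mul_of_pow_eq hVo hVc ((hgg z' hz').1.mono inter_subset_right)
      ((hgg z hz).1.mono inter_subset_left) hz₀V (by rw [(hgg z hz).2.2]; exact hw₀0) hn
      (fun x hx => by rw [(hgg z' hz').2.1 x hx.2, (hgg z hz).2.1 x hx.1])
      z' ⟨hz'z, (hcr z' hz').1⟩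
    rw [h, (hgg z' hz').2.2, (hgg z hz).2.2, div_self hw₀0, one_mul]
  refine ⟨fun z => gg z z, fun z hz => ?_, fun z hz => (hgg z hz).2.1 z (hcr z hz).1⟩
  have hev : (fun x => gg x x) =ᶠ[𝓝 z] gg z := by
    filter_upwards [isOpen_ball.mem_nhds (hcr z hz).1] with x hx
    exact hagree z hz x ((hcr z hz).2.2 (ball_subset_closedBall hx)) hx
  have hd : DifferentiableAt ℂ (gg z) z :=
    (hgg z hz).1.differentiableAt (isOpen_ball.mem_nhds (hcr z hz).1)
  exact (hd.congr_of_eventuallyEq hev).differentiableWithinAt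

/-- Two points of the upper half plane lie in a common ball whose closure is contained in the
upper half plane. -/
lemma exists_ball_uhp {z z₀ : ℂ} (hz : 0 < z.im) (hz₀ : 0 < z₀.im) :
    ∃ (c : ℂ) (r : ℝ), z ∈ ball c r ∧ z₀ ∈ ball c r ∧ closedBall c r ⊆ {w : ℂ | 0 < w.im} := by
  set m : ℝ := min z.im z₀.im with hm
  have hm0 : 0 < m := lt_min hz hz₀
  set M : ℝ := max (Complex.normSq z) (Complex.normSq z₀) with hM
  have hM0 : 0 ≤ M := le_max_of_le_left (Complex.normSq_nonneg z)
  set R : ℝ := M / m + m + 1 with hR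
  have hRm : R * m = M + m ^ 2 + m := by
    rw [hR]; field_simp
  have hR0 : 0 < R := by
    have : 0 ≤ M / m := div_nonneg hM0 hm0.le
    linarith
  have hRm2 : m / 2 < R := by
    have : 0 ≤ M / m := div_nonneg hM0 hm0.le
    linarith
  have hin : ∀ x : ℂ, m ≤ x.im → Complex.normSq x ≤ M → x ∈ ball ((R : ℂ) * I) (R - m / 2) := by
    intro x hxm hxM
    rw [mem_ball, dist_eq_norm]
    have hr : 0 < R - m / 2 := by linarith
    rw [← abs_of_pos hr, ← abs_norm, ← sq_lt_sq, Complex.sq_norm, Complex.normSq_apply]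
    simp only [sub_re, mul_re, ofReal_re, I_re, mul_zero, ofReal_im, I_im, mul_one, sub_self,
      sub_zero, sub_im, mul_im, add_zero]
    rw [Complex.normSq_apply] at hxM
    have h1 : R * m ≤ R * x.im := mul_le_mul_of_nonneg_left hxm hR0.le
    nlinarith
  refine ⟨(R : ℂ) * I, R - m / 2, hin z (min_le_left _ _) (le_max_left _ _),
    hin z₀ (min_le_right _ _) (le_max_right _ _), fun w hw => ?_⟩
  rw [mem_closedBall, dist_eq_norm] at hw
  have h1 : |(w - (R : ℂ) * I).im| ≤ R - m / 2 := (Complex.abs_im_le_norm _).trans hw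
  simp only [sub_im, mul_im, ofReal_re, I_im, mul_one, ofReal_im, I_re, mul_zero, add_zero] at h1
  have h2 := (abs_le.mp h1).1
  show 0 < w.im
  linarith

/-! ## The upper half plane -/

section UHP

open UpperHalfPlane
open scoped Manifold

/-- **Holomorphic `n`-th roots on the upper half plane.** A holomorphic function on `ℍ`, not
identically zero, all of whose orders of vanishing are divisible by `n`, is the `n`-th power of a
holomorphic function. -/
theorem exists_mdiff_root {A : ℍ → ℂ} (hA : MDiff A) (hA0 : A ≠ 0) {n : ℕ} (hn : n ≠ 0)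
    (hord : ∀ z : ℍ, ∃ k : ℕ,
      analyticOrderAt (A ∘ ofComplex) (z : ℂ) = ((n * k : ℕ) : ℕ∞)) :
    ∃ c : ℍ → ℂ, MDiff c ∧ ∀ z, c z ^ n = A z := by
  obtain ⟨z₀, hz₀⟩ : ∃ z₀ : ℍ, A z₀ ≠ 0 := by
    by_contra h
    exact hA0 (funext fun z => not_not.mp fun hz => h ⟨z, hz⟩)
  have hAd : DifferentiableOn ℂ (A ∘ ofComplex) upperHalfPlaneSet :=
    UpperHalfPlane.mdifferentiable_iff.mp hA
  have hAz₀ : (A ∘ ofComplex) (z₀ : ℂ) ≠ 0 := by
    simpa [Function.comp_apply, ofComplex_apply] using hz₀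
  obtain ⟨g, hgd, hg⟩ := exists_root_of_balls isOpen_upperHalfPlaneSet
    (convex_halfSpace_im_gt 0).isPreconnected hAd (z₀ := (z₀ : ℂ)) z₀.im_pos hAz₀ hn
    (fun z hz => hord ⟨z, hz⟩) (fun z hz => exists_ball_uhp hz z₀.im_pos)
  refine ⟨fun z => g z, ?_, ?_⟩
  · rw [UpperHalfPlane.mdifferentiable_iff]
    refine hgd.congr fun z hz => ?_
    simp only [Function.comp_apply]
    rw [ofComplex_apply_of_im_pos hz]
  · intro z
    simpa [Function.comp_apply, ofComplex_apply] using hg (z : ℂ) z.im_pos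

/-- Uniqueness of holomorphic roots on `ℍ` up to a constant root of unity. -/
theorem eq_const_mul_of_pow_eq_uhp {c₁ c₂ : ℍ → ℂ} (h₁ : MDiff c₁) (h₂ : MDiff c₂)
    (z₀ : ℍ) (hne : c₂ z₀ ≠ 0) {n : ℕ} (hn : n ≠ 0) (h : ∀ z, c₁ z ^ n = c₂ z ^ n) :
    ∀ z, c₁ z = c₁ z₀ / c₂ z₀ * c₂ z := by
  have hd₁ := UpperHalfPlane.mdifferentiable_iff.mp h₁
  have hd₂ := UpperHalfPlane.mdifferentiable_iff.mp h₂
  have key := eq_const_mul_of_pow_eq isOpen_upperHalfPlaneSet
    (convex_halfSpace_im_gt 0).isPreconnected hd₁ hd₂ (z₀ := (z₀ : ℂ)) z₀.im_pos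
    (by simpa [Function.comp_apply, ofComplex_apply] using hne) hn
    (fun z hz => by
      simp only [Function.comp_apply]
      exact h _)
  intro z
  simpa [Function.comp_apply, ofComplex_apply] using key (z : ℂ) z.im_pos

end UHP

end Fermat.Agent.N4F.Tors.NthRoot
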