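import Mathlib
import Fermat.Agent.M2.DictFinite
import Fermat.Agent.N4F.Tors.NthRoot

/-!
# N4-FULL, block F, task F1b: the Kummer character of an `n`-divisible modular function

`Γ ≤ SL(2,ℤ)`, `WH Γ` the ring of weakly holomorphic modular functions (M2), `WHField Γ` its
fraction field, `vF Γ z` the point valuation at `z : ℍ`.

* `IsInvRoot Γ n h` : `h` is holomorphic on `ℍ`, not identically zero, and `h ^ n` is `Γ`-invariant.
  Then `h (γ • z) = mult γ * h z` for a unique constant `mult γ`, an `n`-th root of unity,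
  multiplicative in `γ ∈ Γ`.
* `NDiv Γ n u` : `u ≠ 0` and all point valuations of `u` are `n`-th powers.
* `IsRootDatum n u a b h` : `u = a / b` with `a b : WH Γ`, and `h ^ n = a * b ^ (n - 1)` with `h`
  holomorphic (so `h / b` is an `n`-th root of `u`).  Root data exist for `n`-divisible `u`
  (`NDiv.exists_rootDatum`, from the analytic root lemma `NthRoot.exists_mdiff_root`).
* `kummerChar hu : Additive Γ →+ ZMod n`, characterised by `kummerChar_spec`.
* `kummerChar_mul`, `kummerChar_pow`, `kummerChar_const`, and the kernel lemma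
  `exists_pow_eq_of_kummerChar_eq_zero`.
-/

set_option autoImplicit false

noncomputable section

namespace Fermat.Agent.N4F.Tors.Kummer

open UpperHalfPlane MatrixGroups Filter
open Fermat.Agent.M2 Fermat.Agent.M2.OrdVal Fermat.Agent.M2.Dict
open scoped Manifold

local notation "Δ" => ModularForm.discriminant

/-! ## Multipliers of roots of invariant functions -/

/-- `h` is holomorphic on `ℍ`, not identically zero, and `h ^ n` is invariant under `Γ`. -/
structure IsInvRoot (Γ : Subgroup SL(2, ℤ)) (n : ℕ) (h : ℍ → ℂ) : Prop where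
  mdiff : MDiff h
  ne_zero : h ≠ 0
  pow_inv : ∀ γ ∈ Γ, ∀ z : ℍ, h (γ • z) ^ n = h z ^ n

namespace IsInvRoot

variable {Γ : Subgroup SL(2, ℤ)} {n : ℕ} {h : ℍ → ℂ}

lemma exists_ne_zero (hh : IsInvRoot Γ n h) : ∃ z₀ : ℍ, h z₀ ≠ 0 := by
  by_contra hcon
  exact hh.ne_zero (funext fun z => not_not.mp fun hz => hcon ⟨z, hz⟩)

/-- A base point at which `h` does not vanish. -/
def base (hh : IsInvRoot Γ n h) : ℍ := Classical.choose hh.exists_ne_zero

lemma base_ne (hh : IsInvRoot Γ n h) : h hh.base ≠ 0 := Classical.choose_spec hh.exists_ne_zero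

/-- The multiplier of `h` at `γ`. -/
def mult (hh : IsInvRoot Γ n h) (γ : SL(2, ℤ)) : ℂ := h (γ • hh.base) / h hh.base

theorem smul_eq (hh : IsInvRoot Γ n h) (hn : n ≠ 0) {γ : SL(2, ℤ)} (hγ : γ ∈ Γ) (z : ℍ) :
    h (γ • z) = hh.mult γ * h z :=
  NthRoot.eq_const_mul_of_pow_eq_uhp (c₁ := fun z => h (γ • z)) (mdiff_comp_smul hh.mdiff γ)
    hh.mdiff hh.base hh.base_ne hn (hh.pow_inv γ hγ) z

/-- The multiplier is determined by the functional equation at a single point. -/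
theorem mult_unique (hh : IsInvRoot Γ n h) (hn : n ≠ 0) {γ : SL(2, ℤ)} (hγ : γ ∈ Γ) {ζ : ℂ}
    {z : ℍ} (hz : h z ≠ 0) (hζ : h (γ • z) = ζ * h z) : ζ = hh.mult γ := by
  rw [hh.smul_eq hn hγ z] at hζ
  exact (mul_right_cancel₀ hz hζ).symm

theorem mult_pow (hh : IsInvRoot Γ n h) {γ : SL(2, ℤ)} (hγ : γ ∈ Γ) : hh.mult γ ^ n = 1 := by
  rw [mult, div_pow, hh.pow_inv γ hγ, div_self (pow_ne_zero _ hh.base_ne)]

theorem mult_ne_zero (hh : IsInvRoot Γ n h) (hn : n ≠ 0) {γ : SL(2, ℤ)} (hγ : γ ∈ Γ) :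
    hh.mult γ ≠ 0 := by
  intro h0
  have := hh.mult_pow hγ
  rw [h0, zero_pow hn] at this
  exact zero_ne_one this

theorem mult_one (hh : IsInvRoot Γ n h) : hh.mult 1 = 1 := by
  rw [mult, one_smul, div_self hh.base_ne]

theorem mult_mul (hh : IsInvRoot Γ n h) (hn : n ≠ 0) {γ γ' : SL(2, ℤ)} (hγ : γ ∈ Γ)
    (hγ' : γ' ∈ Γ) : hh.mult (γ * γ') = hh.mult γ * hh.mult γ' := by
  have h1 : h ((γ * γ') • hh.base) = hh.mult γ * hh.mult γ' * h hh.base := by
    rw [mul_smul, hh.smul_eq hn hγ, hh.smul_eq hn hγ', mul_assoc]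
  exact (hh.mult_unique hn (Γ.mul_mem hγ hγ') hh.base_ne h1).symm

end IsInvRoot

/-! ## `n`-divisible functions and root data -/

section Datum

variable (Γ : Subgroup SL(2, ℤ)) (n : ℕ)

/-- `u ≠ 0` and every point valuation of `u` is an `n`-th power. -/
def NDiv (u : WHField Γ) : Prop :=
  u ≠ 0 ∧ ∀ z : ℍ, ∃ k : ℤ, vF Γ z u = WithZero.exp (-((n : ℤ) * k))

/-- `u = a / b` and `h` is a holomorphic `n`-th root of `a * b ^ (n - 1)`. -/
structure IsRootDatum (u : WHField Γ) (a b : WH Γ) (h : ℍ → ℂ) : Prop where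
  hb : b ≠ 0
  hu : u * algebraMap (WH Γ) (WHField Γ) b = algebraMap (WH Γ) (WHField Γ) a
  hh : MDiff h
  hpow : ∀ z, h z ^ n = (a : ℍ → ℂ) z * (b : ℍ → ℂ) z ^ (n - 1)

variable {Γ n}

lemma WH.smul_apply (f : WH Γ) {γ : SL(2, ℤ)} (hγ : γ ∈ Γ) (z : ℍ) :
    (f : ℍ → ℂ) (γ • z) = (f : ℍ → ℂ) z := f.2.2.1 γ hγ z

lemma algebraMap_WH_injective :
    Function.Injective (algebraMap (WH Γ) (WHField Γ)) := IsFractionRing.injective _ _

namespace IsRootDatum

variable {u : WHField Γ} {a b : WH Γ} {h : ℍ → ℂ}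

lemma a_ne_zero (D : IsRootDatum Γ n u a b h) (hu0 : u ≠ 0) : a ≠ 0 := by
  rintro rfl
  have h1 := D.hu
  rw [map_zero, mul_eq_zero] at h1
  rcases h1 with h1 | h1
  · exact hu0 h1
  · exact D.hb (algebraMap_WH_injective (by rw [h1, map_zero]))

lemma prod_ne_zero (D : IsRootDatum Γ n u a b h) (hu0 : u ≠ 0) : a * b ^ (n - 1) ≠ 0 :=
  mul_ne_zero (D.a_ne_zero hu0) (pow_ne_zero _ D.hb)

lemma isInvRoot (D : IsRootDatum Γ n u a b h) (hn : n ≠ 0) (hu0 : u ≠ 0) : IsInvRoot Γ n h where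
  mdiff := D.hh
  ne_zero := by
    intro h0
    apply D.prod_ne_zero hu0
    apply Subtype.ext
    funext z
    have := D.hpow z
    rw [h0, Pi.zero_apply, zero_pow hn] at this
    exact this.symm
  pow_inv γ hγ z := by
    rw [D.hpow, D.hpow, WH.smul_apply a hγ, WH.smul_apply b hγ]

end IsRootDatum

/-- The order of `a * b ^ (n - 1)` at `z`, for `u = a / b` with `n`-divisible valuation. -/
lemma ordNat_prod_eq {u : WHField Γ} {a b : WH Γ} (hn : n ≠ 0) (ha : a ≠ 0) (hb : b ≠ 0)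
    (hu : u * algebraMap (WH Γ) (WHField Γ) b = algebraMap (WH Γ) (WHField Γ) a) {z : ℍ} {k : ℤ}
    (hk : vF Γ z u = WithZero.exp (-((n : ℤ) * k))) :
    ∃ k' : ℕ, ordNat Γ z (a * b ^ (n - 1)) = n * k' := by
  have h1 : vF Γ z u * ordVal Γ z b = ordVal Γ z a := by
    rw [← vF_algebraMap, ← vF_algebraMap, ← map_mul, hu]
  rw [hk, ordVal_apply_of_ne_zero Γ ha, ordVal_apply_of_ne_zero Γ hb, ← WithZero.exp_add,
    WithZero.exp_inj] at h1
  have h2 : ordVal Γ z (a * b ^ (n - 1)) = ordVal Γ z a * ordVal Γ z b ^ (n - 1) := by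
    rw [map_mul, map_pow]
  rw [ordVal_apply_of_ne_zero Γ (mul_ne_zero ha (pow_ne_zero _ hb)),
    ordVal_apply_of_ne_zero Γ ha, ordVal_apply_of_ne_zero Γ hb, ← WithZero.exp_nsmul,
    ← WithZero.exp_add, WithZero.exp_inj] at h2
  have hn1 : ((n - 1 : ℕ) : ℤ) = (n : ℤ) - 1 := by
    have : 1 ≤ n := Nat.one_le_iff_ne_zero.mpr hn
    push_cast [Nat.cast_sub this]
    ring
  have h3 : (ordNat Γ z (a * b ^ (n - 1)) : ℤ) = (n : ℤ) * (k + ordNat Γ z b) := by
    have : (ordNat Γ z (a * b ^ (n - 1)) : ℤ) =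
        (ordNat Γ z a : ℤ) + ((n - 1 : ℕ) : ℤ) * (ordNat Γ z b : ℤ) := by
      have := h2
      rw [nsmul_eq_mul] at this
      linarith
    rw [this, hn1]
    linarith
  have hnpos : (0 : ℤ) < n := by exact_mod_cast Nat.pos_of_ne_zero hn
  have hk0 : 0 ≤ k + ordNat Γ z b := by
    by_contra hneg
    push Not at hneg
    have : (n : ℤ) * (k + ordNat Γ z b) < 0 := mul_neg_of_pos_of_neg hnpos hneg
    have h0 : (0 : ℤ) ≤ ordNat Γ z (a * b ^ (n - 1)) := Int.natCast_nonneg _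
    linarith
  obtain ⟨k', hk'⟩ := Int.eq_ofNat_of_zero_le hk0
  refine ⟨k', ?_⟩
  rw [hk'] at h3
  exact_mod_cast h3

/-- Root data exist for `n`-divisible functions. -/
theorem NDiv.exists_rootDatum (hn : n ≠ 0) {u : WHField Γ} (hu : NDiv Γ n u) :
    ∃ (a b : WH Γ) (h : ℍ → ℂ), IsRootDatum Γ n u a b h := by
  obtain ⟨a, b, hb, hab⟩ := IsFractionRing.div_surjective (A := WH Γ) u
  have hb0 : b ≠ 0 := nonZeroDivisors.ne_zero hb
  have hb0' : algebraMap (WH Γ) (WHField Γ) b ≠ 0 := fun h0 =>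
    hb0 (algebraMap_WH_injective (by rw [h0, map_zero]))
  have hub : u * algebraMap (WH Γ) (WHField Γ) b = algebraMap (WH Γ) (WHField Γ) a := by
    rw [← hab, div_mul_cancel₀ _ hb0']
  have ha0 : a ≠ 0 := by
    rintro rfl
    rw [map_zero, zero_div] at hab
    exact hu.1 hab.symm
  set A : WH Γ := a * b ^ (n - 1) with hA
  have hA0 : A ≠ 0 := mul_ne_zero ha0 (pow_ne_zero _ hb0)
  have hA0' : (A : ℍ → ℂ) ≠ 0 := fun h0 => hA0 ((WH.coe_eq_zero_iff Γ).mp h0)
  obtain ⟨c, hc, hcpow⟩ := NthRoot.exists_mdiff_root (A := (A : ℍ → ℂ)) A.2.1 hA0' hn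
    (fun z => by
      obtain ⟨k, hk⟩ := hu.2 z
      obtain ⟨k', hk'⟩ := ordNat_prod_eq hn ha0 hb0 hub hk
      refine ⟨k', ?_⟩
      have := coe_ordNat Γ (z := z) hA0
      rw [ordAt_def] at this
      rw [← this, hk'])
  exact ⟨a, b, c, hb0, hub, hc, fun z => by rw [hcpow z]; rfl⟩

end Datum

/-! ## Independence of the root datum -/

section Independence

variable {Γ : Subgroup SL(2, ℤ)} {n : ℕ}

lemma exists_mul_ne_zero {f g : ℍ → ℂ} (hf : MDiff f) (hg : MDiff g) (hf0 : f ≠ 0)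
    (hg0 : g ≠ 0) : ∃ z : ℍ, f z * g z ≠ 0 := by
  by_contra hcon
  have h0 : f * g = 0 := funext fun z => not_not.mp fun hz => hcon ⟨z, hz⟩
  have h1 := ordAt_mul hf hg UpperHalfPlane.I
  rw [h0, ordAt_zero] at h1
  rcases WithTop.add_eq_top.mp h1.symm with h2 | h2
  · exact ordAt_ne_top hf hf0 _ h2
  · exact ordAt_ne_top hg hg0 _ h2

lemma WH.coe_ne_zero {f : WH Γ} (hf : f ≠ 0) : (f : ℍ → ℂ) ≠ 0 :=
  fun h0 => hf ((WH.coe_eq_zero_iff Γ).mp h0)

/-- The multiplier does not depend on the root datum. -/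
theorem mult_eq_of_rootDatum (hn : n ≠ 0) {u : WHField Γ} (hu0 : u ≠ 0) {a b a' b' : WH Γ}
    {h h' : ℍ → ℂ} (D : IsRootDatum Γ n u a b h) (D' : IsRootDatum Γ n u a' b' h')
    {γ : SL(2, ℤ)} (hγ : γ ∈ Γ) :
    (D.isInvRoot hn hu0).mult γ = (D'.isInvRoot hn hu0).mult γ := by
  set R := D.isInvRoot hn hu0 with hR
  set R' := D'.isInvRoot hn hu0 with hR'
  -- `a * b' = a' * b`
  have hab : a * b' = a' * b := by
    apply algebraMap_WH_injective
    rw [map_mul, map_mul, ← D.hu, ← D'.hu]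
    ring
  have habz : ∀ z, (a : ℍ → ℂ) z * (b' : ℍ → ℂ) z = (a' : ℍ → ℂ) z * (b : ℍ → ℂ) z := fun z =>
    congrFun (congrArg (fun f : WH Γ => (f : ℍ → ℂ)) hab) z
  -- the two roots `h * b'` and `h' * b`
  have hc₁ : MDiff (fun z => h z * (b' : ℍ → ℂ) z) := D.hh.mul b'.2.1
  have hc₂ : MDiff (fun z => h' z * (b : ℍ → ℂ) z) := D'.hh.mul b.2.1
  have hpow : ∀ z, (h z * (b' : ℍ → ℂ) z) ^ n = (h' z * (b : ℍ → ℂ) z) ^ n := by
    intro z
    obtain ⟨m, rfl⟩ := Nat.exists_eq_succ_of_ne_zero hn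
    rw [mul_pow, mul_pow, D.hpow, D'.hpow]
    simp only [Nat.succ_sub_one, pow_succ]
    linear_combination ((b : ℍ → ℂ) z ^ m * (b' : ℍ → ℂ) z ^ m) * habz z
  obtain ⟨z₀, hz₀⟩ := exists_mul_ne_zero D'.hh b.2.1 R'.ne_zero (WH.coe_ne_zero D.hb)
  have key := NthRoot.eq_const_mul_of_pow_eq_uhp hc₁ hc₂ z₀ hz₀ hn hpow
  set ζ : ℂ := (h z₀ * (b' : ℍ → ℂ) z₀) / (h' z₀ * (b : ℍ → ℂ) z₀) with hζ
  obtain ⟨z₁, hz₁⟩ := exists_mul_ne_zero D.hh b'.2.1 R.ne_zero (WH.coe_ne_zero D'.hb)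
  have e1 : h (γ • z₁) * (b' : ℍ → ℂ) (γ • z₁) = R.mult γ * (h z₁ * (b' : ℍ → ℂ) z₁) := by
    rw [R.smul_eq hn hγ, WH.smul_apply b' hγ, mul_assoc]
  have e2 : h (γ • z₁) * (b' : ℍ → ℂ) (γ • z₁) = R'.mult γ * (h z₁ * (b' : ℍ → ℂ) z₁) := by
    rw [key (γ • z₁), R'.smul_eq hn hγ, WH.smul_apply b hγ, key z₁]
    ring
  exact mul_right_cancel₀ hz₁ (e1.symm.trans e2)

end Independence

/-! ## Roots of unity and `ZMod n` -/

lemma exists_stdAddChar_eq {n : ℕ} [NeZero n] {ζ : ℂ} (hζ : ζ ^ n = 1) :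
    ∃ a : ZMod n, ZMod.stdAddChar a = ζ := by
  obtain ⟨i, -, hi⟩ := (Complex.isPrimitiveRoot_exp n (NeZero.ne n)).eq_pow_of_pow_eq_one hζ
  refine ⟨((i : ℤ) : ZMod n), ?_⟩
  rw [ZMod.stdAddChar_coe, ← hi, ← Complex.exp_nat_mul]
  congr 1
  push_cast
  ring

lemma stdAddChar_pow_eq_one {n : ℕ} [NeZero n] (a : ZMod n) :
    (ZMod.stdAddChar a : ℂ) ^ n = 1 := by
  rw [← AddChar.map_nsmul_eq_pow, nsmul_eq_mul, ZMod.natCast_self, zero_mul,
    AddChar.map_zero_eq_one]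

/-! ## The Kummer character -/

section Char

variable {Γ : Subgroup SL(2, ℤ)} {n : ℕ} [NeZero n] {u : WHField Γ}

/-- The numerator of the chosen root datum. -/
def NDiv.rootA (hu : NDiv Γ n u) : WH Γ := Classical.choose (hu.exists_rootDatum (NeZero.ne n))

/-- The denominator of the chosen root datum. -/
def NDiv.rootB (hu : NDiv Γ n u) : WH Γ :=
  Classical.choose (Classical.choose_spec (hu.exists_rootDatum (NeZero.ne n)))

/-- The holomorphic root of the chosen root datum. -/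
def NDiv.rootH (hu : NDiv Γ n u) : ℍ → ℂ :=
  Classical.choose (Classical.choose_spec (Classical.choose_spec
    (hu.exists_rootDatum (NeZero.ne n))))

lemma NDiv.isRootDatum (hu : NDiv Γ n u) : IsRootDatum Γ n u hu.rootA hu.rootB hu.rootH :=
  Classical.choose_spec (Classical.choose_spec (Classical.choose_spec
    (hu.exists_rootDatum (NeZero.ne n))))

lemma NDiv.isInvRoot (hu : NDiv Γ n u) : IsInvRoot Γ n hu.rootH :=
  hu.isRootDatum.isInvRoot (NeZero.ne n) hu.1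

/-- The multiplier `Γ → ℂ` of an `n`-th root of `u`. -/
def kummerMult (hu : NDiv Γ n u) (γ : Γ) : ℂ := hu.isInvRoot.mult (γ : SL(2, ℤ))

theorem kummerMult_spec (hu : NDiv Γ n u) {a b : WH Γ} {h : ℍ → ℂ}
    (D : IsRootDatum Γ n u a b h) (γ : Γ) (z : ℍ) :
    h ((γ : SL(2, ℤ)) • z) = kummerMult hu γ * h z := by
  have e : kummerMult hu γ = (D.isInvRoot (NeZero.ne n) hu.1).mult (γ : SL(2, ℤ)) :=
    mult_eq_of_rootDatum (NeZero.ne n) hu.1 hu.isRootDatum D γ.2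
  rw [e]
  exact (D.isInvRoot (NeZero.ne n) hu.1).smul_eq (NeZero.ne n) γ.2 z

theorem kummerMult_pow (hu : NDiv Γ n u) (γ : Γ) : kummerMult hu γ ^ n = 1 :=
  hu.isInvRoot.mult_pow γ.2

theorem kummerMult_mul (hu : NDiv Γ n u) (γ γ' : Γ) :
    kummerMult hu (γ * γ') = kummerMult hu γ * kummerMult hu γ' :=
  hu.isInvRoot.mult_mul (NeZero.ne n) γ.2 γ'.2

theorem kummerMult_one (hu : NDiv Γ n u) : kummerMult hu 1 = 1 := hu.isInvRoot.mult_one

/-- The value of the Kummer character, as an element of `ZMod n`. -/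
def kummerVal (hu : NDiv Γ n u) (γ : Γ) : ZMod n :=
  Classical.choose (exists_stdAddChar_eq (kummerMult_pow hu γ))

theorem stdAddChar_kummerVal (hu : NDiv Γ n u) (γ : Γ) :
    ZMod.stdAddChar (kummerVal hu γ) = kummerMult hu γ :=
  Classical.choose_spec (exists_stdAddChar_eq (kummerMult_pow hu γ))

/-- **The Kummer character** of an `n`-divisible modular function `u`: the multiplier system of
an `n`-th root of `u` on `ℍ`, read in `ZMod n` through `ZMod.stdAddChar`. -/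
def kummerChar (hu : NDiv Γ n u) : Additive Γ →+ ZMod n where
  toFun γ := kummerVal hu (Additive.toMul γ)
  map_zero' := by
    apply ZMod.injective_stdAddChar
    rw [stdAddChar_kummerVal, AddChar.map_zero_eq_one]
    exact kummerMult_one hu
  map_add' γ γ' := by
    apply ZMod.injective_stdAddChar
    rw [AddChar.map_add_eq_mul, stdAddChar_kummerVal, stdAddChar_kummerVal,
      stdAddChar_kummerVal]
    exact kummerMult_mul hu _ _

theorem stdAddChar_kummerChar (hu : NDiv Γ n u) (γ : Γ) :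
    ZMod.stdAddChar (kummerChar hu (Additive.ofMul γ)) = kummerMult hu γ :=
  stdAddChar_kummerVal hu γ

/-- **Characterisation of the Kummer character.** -/
theorem kummerChar_spec (hu : NDiv Γ n u) {a b : WH Γ} {h : ℍ → ℂ}
    (D : IsRootDatum Γ n u a b h) (γ : Γ) (z : ℍ) :
    h ((γ : SL(2, ℤ)) • z) = ZMod.stdAddChar (kummerChar hu (Additive.ofMul γ)) * h z := by
  rw [stdAddChar_kummerChar]
  exact kummerMult_spec hu D γ z

/-- The same with the explicit exponential. -/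
theorem kummerChar_spec_exp (hu : NDiv Γ n u) {a b : WH Γ} {h : ℍ → ℂ}
    (D : IsRootDatum Γ n u a b h) (γ : Γ) (z : ℍ) :
    h ((γ : SL(2, ℤ)) • z) =
      Complex.exp (2 * Real.pi * Complex.I * (kummerChar hu (Additive.ofMul γ)).val / n) * h z := by
  rw [kummerChar_spec hu D γ z, ZMod.stdAddChar_apply, ZMod.toCircle_apply]

/-- Uniqueness: the functional equation at one point where `h` does not vanish determines the
value of the Kummer character. -/
theorem kummerChar_eq_of_spec (hu : NDiv Γ n u) {a b : WH Γ} {h : ℍ → ℂ}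
    (D : IsRootDatum Γ n u a b h) (γ : Γ) {c : ZMod n} {z : ℍ} (hz : h z ≠ 0)
    (hc : h ((γ : SL(2, ℤ)) • z) = ZMod.stdAddChar c * h z) :
    kummerChar hu (Additive.ofMul γ) = c := by
  apply ZMod.injective_stdAddChar
  rw [kummerChar_spec hu D γ z] at hc
  exact mul_right_cancel₀ hz hc

end Char

/-! ## Algebraic properties of the Kummer character -/

section Algebra

variable {Γ : Subgroup SL(2, ℤ)} {n : ℕ}

lemma vF_ne_zero {u : WHField Γ} (hu : u ≠ 0) (z : ℍ) : vF Γ z u ≠ 0 :=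
  (Valuation.ne_zero_iff _).mpr hu

theorem NDiv.mul {u u' : WHField Γ} (hu : NDiv Γ n u) (hu' : NDiv Γ n u') :
    NDiv Γ n (u * u') := by
  refine ⟨mul_ne_zero hu.1 hu'.1, fun z => ?_⟩
  obtain ⟨k, hk⟩ := hu.2 z
  obtain ⟨k', hk'⟩ := hu'.2 z
  refine ⟨k + k', ?_⟩
  rw [map_mul, hk, hk', ← WithZero.exp_add]
  congr 1
  ring

theorem NDiv.pow {w : WHField Γ} (hw : w ≠ 0) : NDiv Γ n (w ^ n) := by
  refine ⟨pow_ne_zero _ hw, fun z => ?_⟩
  refine ⟨-(WithZero.log (vF Γ z w)), ?_⟩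
  rw [map_pow]
  conv_lhs => rw [← WithZero.exp_log (vF_ne_zero hw z)]
  rw [← WithZero.exp_nsmul]
  congr 1
  rw [nsmul_eq_mul]
  ring

theorem NDiv.inv {u : WHField Γ} (hu : NDiv Γ n u) : NDiv Γ n u⁻¹ := by
  refine ⟨inv_ne_zero hu.1, fun z => ?_⟩
  obtain ⟨k, hk⟩ := hu.2 z
  refine ⟨-k, ?_⟩
  rw [map_inv₀, hk, ← WithZero.exp_neg]
  congr 1
  ring

lemma isBoundedAtImInfty_of_pow {f : ℍ → ℂ} (hn : n ≠ 0)
    (h : IsBoundedAtImInfty (fun z => f z ^ n)) : IsBoundedAtImInfty f := by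
  rw [isBoundedAtImInfty_iff] at h ⊢
  obtain ⟨M, A, hMA⟩ := h
  refine ⟨max 1 M, A, fun z hz => ?_⟩
  rcases le_total ‖f z‖ 1 with h1 | h1
  · exact h1.trans (le_max_left _ _)
  · have h2 : ‖f z‖ ≤ ‖f z‖ ^ n := le_self_pow₀ h1 hn
    rw [← norm_pow] at h2
    exact (h2.trans (hMA z hz)).trans (le_max_right _ _)

variable [NeZero n]

/-- Multiplicativity of the Kummer character. -/
theorem kummerChar_mul {u u' : WHField Γ} (hu : NDiv Γ n u) (hu' : NDiv Γ n u') :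
    kummerChar (hu.mul hu') = kummerChar hu + kummerChar hu' := by
  obtain ⟨a, b, h, D⟩ := hu.exists_rootDatum (NeZero.ne n)
  obtain ⟨a', b', h', D'⟩ := hu'.exists_rootDatum (NeZero.ne n)
  have DD : IsRootDatum Γ n (u * u') (a * a') (b * b') (fun z => h z * h' z) :=
    { hb := mul_ne_zero D.hb D'.hb
      hu := by
        rw [map_mul, map_mul, ← D.hu, ← D'.hu]
        ring
      hh := D.hh.mul D'.hh
      hpow := fun z => by
        rw [mul_pow, D.hpow, D'.hpow]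
        show _ = ((a : ℍ → ℂ) z * (a' : ℍ → ℂ) z) * ((b : ℍ → ℂ) z * (b' : ℍ → ℂ) z) ^ (n - 1)
        ring }
  obtain ⟨z, hz⟩ := exists_mul_ne_zero D.hh D'.hh (D.isInvRoot (NeZero.ne n) hu.1).ne_zero
    (D'.isInvRoot (NeZero.ne n) hu'.1).ne_zero
  refine AddMonoidHom.ext fun γ => ?_
  obtain ⟨γ, rfl⟩ := Additive.ofMul.surjective γ
  rw [AddMonoidHom.add_apply]
  apply kummerChar_eq_of_spec (hu.mul hu') DD γ hz
  show h ((γ : SL(2, ℤ)) • z) * h' ((γ : SL(2, ℤ)) • z) = _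
  rw [kummerChar_spec hu D γ z, kummerChar_spec hu' D' γ z, AddChar.map_add_eq_mul]
  ring

/-- **Kernel of the Kummer character**: it vanishes exactly on the `n`-th powers. -/
theorem kummerChar_eq_zero_iff {u : WHField Γ} (hu : NDiv Γ n u) :
    kummerChar hu = 0 ↔ ∃ w : WHField Γ, w ^ n = u := by
  have hn : n ≠ 0 := NeZero.ne n
  constructor
  · intro h0
    obtain ⟨a, b, h, D⟩ := hu.exists_rootDatum hn
    have hinv : ∀ γ ∈ Γ, ∀ z : ℍ, h (γ • z) = h z := by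
      intro γ hγ z
      have := kummerChar_spec hu D ⟨γ, hγ⟩ z
      rw [h0, AddMonoidHom.zero_apply, AddChar.map_zero_eq_one, one_mul] at this
      exact this
    -- `h` is weakly holomorphic
    have hWH : IsWH Γ h := by
      refine ⟨D.hh, hinv, fun δ => ?_⟩
      obtain ⟨M, hM⟩ := (a * b ^ (n - 1) : WH Γ).2.2.2 δ
      refine ⟨M, isBoundedAtImInfty_of_pow hn ?_⟩
      have e : (fun z : ℍ => (h (δ • z) * Δ z ^ M) ^ n) =
          (fun z : ℍ => ((a * b ^ (n - 1) : WH Γ) : ℍ → ℂ) (δ • z) * Δ z ^ M) *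
            fun z : ℍ => Δ z ^ (M * (n - 1)) := by
        funext z
        obtain ⟨m, rfl⟩ := Nat.exists_eq_add_one_of_ne_zero hn
        rw [Pi.mul_apply, mul_pow, D.hpow]
        show _ = ((a : ℍ → ℂ) (δ • z) * (b : ℍ → ℂ) (δ • z) ^ (m + 1 - 1)) * _ * _
        simp only [Nat.add_sub_cancel]
        ring
      rw [e]
      exact hM.mul (isBoundedAtImInfty_discriminant_pow _)
    set hW : WH Γ := ⟨h, hWH⟩ with hhW
    have hWpow : hW ^ n = a * b ^ (n - 1) := by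
      apply Subtype.ext
      funext z
      exact D.hpow z
    have hb0' : algebraMap (WH Γ) (WHField Γ) b ≠ 0 := fun h0 =>
      D.hb (algebraMap_WH_injective (by rw [h0, map_zero]))
    refine ⟨algebraMap (WH Γ) (WHField Γ) hW / algebraMap (WH Γ) (WHField Γ) b, ?_⟩
    rw [div_pow, ← map_pow, hWpow, map_mul, map_pow, ← D.hu]
    obtain ⟨m, rfl⟩ := Nat.exists_eq_add_one_of_ne_zero hn
    simp only [Nat.add_sub_cancel]
    field_simp
    ring
  · rintro ⟨w, rfl⟩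
    have hw : w ≠ 0 := by
      rintro rfl
      exact hu.1 (zero_pow hn)
    obtain ⟨a, b, hb, hab⟩ := IsFractionRing.div_surjective (A := WH Γ) w
    have hb0 : b ≠ 0 := nonZeroDivisors.ne_zero hb
    have hb0' : algebraMap (WH Γ) (WHField Γ) b ≠ 0 := fun h0 =>
      hb0 (algebraMap_WH_injective (by rw [h0, map_zero]))
    have hwb : w * algebraMap (WH Γ) (WHField Γ) b = algebraMap (WH Γ) (WHField Γ) a := by
      rw [← hab, div_mul_cancel₀ _ hb0']
    have D : IsRootDatum Γ n (w ^ n) (a ^ n) (b ^ n)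
        (fun z => (a : ℍ → ℂ) z * (b : ℍ → ℂ) z ^ (n - 1)) :=
      { hb := pow_ne_zero _ hb0
        hu := by rw [map_pow, map_pow, ← mul_pow, hwb]
        hh := a.2.1.mul (b.2.1.pow _)
        hpow := fun z => by
          show _ = (a : ℍ → ℂ) z ^ n * ((b : ℍ → ℂ) z ^ n) ^ (n - 1)
          rw [mul_pow, ← pow_mul, ← pow_mul, mul_comm (n - 1) n] }
    obtain ⟨z, hz⟩ := (D.isInvRoot hn hu.1).exists_ne_zero
    refine AddMonoidHom.ext fun γ => ?_
    obtain ⟨γ, rfl⟩ := Additive.ofMul.surjective γ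
    rw [AddMonoidHom.zero_apply]
    apply kummerChar_eq_of_spec hu D γ hz
    rw [AddChar.map_zero_eq_one, one_mul]
    show (a : ℍ → ℂ) _ * (b : ℍ → ℂ) _ ^ (n - 1) = _
    rw [WH.smul_apply a γ.2, WH.smul_apply b γ.2]

theorem kummerChar_pow {w : WHField Γ} (hw : w ≠ 0) :
    kummerChar (NDiv.pow (n := n) hw) = 0 :=
  (kummerChar_eq_zero_iff _).mpr ⟨w, rfl⟩

/-- Nonzero constants are `n`-divisible with trivial Kummer character. -/
theorem NDiv.const {c : ℂ} (hc : c ≠ 0) : NDiv Γ n (algebraMap ℂ (WHField Γ) c) := by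
  obtain ⟨c', hc'⟩ := IsAlgClosed.exists_pow_nat_eq c (Nat.pos_of_ne_zero (NeZero.ne n))
  have hc'0 : c' ≠ 0 := by
    rintro rfl
    rw [zero_pow (NeZero.ne n)] at hc'
    exact hc hc'.symm
  have h1 : algebraMap ℂ (WHField Γ) c' ≠ 0 := fun h0 =>
    hc'0 ((algebraMap ℂ (WHField Γ)).injective (by rw [h0, map_zero]))
  have := NDiv.pow (n := n) h1
  rwa [← map_pow, hc'] at this

theorem kummerChar_const {c : ℂ} (hc : c ≠ 0) :
    kummerChar (NDiv.const (Γ := Γ) (n := n) hc) = 0 := by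
  rw [kummerChar_eq_zero_iff]
  obtain ⟨c', hc'⟩ := IsAlgClosed.exists_pow_nat_eq c (Nat.pos_of_ne_zero (NeZero.ne n))
  exact ⟨algebraMap ℂ (WHField Γ) c', by rw [← map_pow, hc']⟩

end Algebra

end Fermat.Agent.N4F.Tors.Kummer
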