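/-
N4-FULL block F, node F2(a) (helper23): TWISTED EISENSTEIN SERIES — the analytic construction.

Part 1 (`wEis`): weighted Eisenstein sums `∑_v w(v) (v₀ z + v₁)^{-k}` for an arbitrary bounded weight
`w : (Fin 2 → ℤ) → ℂ`: absolute and locally uniform convergence, holomorphy, behaviour under the
slash action of `SL(2, ℤ)`, boundedness at `i∞`, and (for `T`-invariant weights, `4 ≤ k`) the limit
at `i∞`.

Part 2 (`twistedEis`): for a unitary character `φ` of `Γ₀(N)` which is trivial on the elements with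
lower-left entry `0`, the weight `bottomChar φ` (`v ↦ (φ γ)⁻¹` if `v` is the bottom row of
`γ ∈ Γ₀(N)`, `0` otherwise) and the twisted Eisenstein series
`E_φ = (1/2) ∑_v bottomChar φ v (v₀ z + v₁)^{-k}`, with
`E_φ(γ z) = φ(γ) (cz + d)^k E_φ(z)`, holomorphy, `E_φ → 1` at `i∞`, boundedness at all cusps.
-/
import Mathlib

set_option autoImplicit false

open UpperHalfPlane EisensteinSeries Matrix ModularForm CongruenceSubgroup Filter Topology Complex

open scoped MatrixGroups Manifold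

noncomputable section

namespace Fermat.Agent.N4F.Tors.TwistedEisenstein

/-! ### Weighted Eisenstein sums -/

section Weighted

variable (w : (Fin 2 → ℤ) → ℂ) (k : ℤ)

/-- The weighted Eisenstein sum `∑_v w(v) (v₀ z + v₁)^{-k}`. -/
def wEis (z : ℍ) : ℂ := ∑' v : Fin 2 → ℤ, w v * eisSummand k v z

variable {w k}

theorem norm_summand_le (hw : ∀ v, ‖w v‖ ≤ 1) (v : Fin 2 → ℤ) (z : ℍ) :
    ‖w v * eisSummand k v z‖ ≤ ‖eisSummand k v z‖ := by
  rw [norm_mul]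
  exact mul_le_of_le_one_left (norm_nonneg _) (hw v)

theorem summable_norm_wEis (hw : ∀ v, ‖w v‖ ≤ 1) (hk : 3 ≤ k) (z : ℍ) :
    Summable fun v : Fin 2 → ℤ => ‖w v * eisSummand k v z‖ :=
  (summable_norm_eisSummand hk z).of_nonneg_of_le (fun _ => norm_nonneg _)
    (fun v => norm_summand_le hw v z)

theorem summable_wEis (hw : ∀ v, ‖w v‖ ≤ 1) (hk : 3 ≤ k) (z : ℍ) :
    Summable fun v : Fin 2 → ℤ => w v * eisSummand k v z :=
  (summable_norm_wEis hw hk z).of_norm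

theorem norm_wEis_le (hw : ∀ v, ‖w v‖ ≤ 1) (hk : 3 ≤ k) (z : ℍ) :
    ‖wEis w k z‖ ≤ ∑' v : Fin 2 → ℤ, ‖eisSummand k v z‖ :=
  (norm_tsum_le_tsum_norm (summable_norm_wEis hw hk z)).trans
    ((summable_norm_wEis hw hk z).tsum_le_tsum (fun v => norm_summand_le hw v z)
      (summable_norm_eisSummand hk z))

/-- The weighted Eisenstein sum converges locally uniformly on `ℍ`. -/
theorem wEis_tendstoLocallyUniformly (hw : ∀ v, ‖w v‖ ≤ 1) (hk : 3 ≤ k) :
    TendstoLocallyUniformly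
      (fun (s : Finset (Fin 2 → ℤ)) (z : ℍ) => ∑ v ∈ s, w v * eisSummand k v z)
      (wEis w k) Filter.atTop := by
  have hk' : (2 : ℝ) < k := by norm_cast
  have p_sum : Summable fun x : Fin 2 → ℤ => ‖x‖ ^ (-k) :=
    mod_cast (summable_one_div_norm_rpow hk')
  rw [tendstoLocallyUniformly_iff_forall_isCompact]
  intro K hK
  obtain ⟨A, B, hB, HABK⟩ := subset_verticalStrip_of_isCompact hK
  refine (tendstoUniformlyOn_tsum (hu := p_sum.mul_left <| r ⟨⟨A, B⟩, hB⟩ ^ (-k : ℝ))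
    (fun p z hz => ?_)).mono HABK
  refine (norm_summand_le hw p z).trans ?_
  simpa only [eisSummand, one_div, ← _root_.zpow_neg, norm_zpow, ← Real.rpow_intCast,
    Int.cast_neg] using summand_bound_of_mem_verticalStrip (by positivity) p hB hz

/-- Variant on `{z : ℂ | 0 < z.im}`. -/
theorem wEis_tendstoLocallyUniformlyOn (hw : ∀ v, ‖w v‖ ≤ 1) (hk : 3 ≤ k) :
    TendstoLocallyUniformlyOn
      (fun (s : Finset (Fin 2 → ℤ)) => ↑ₕ(fun z : ℍ => ∑ v ∈ s, w v * eisSummand k v z))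
      (↑ₕ(wEis w k)) Filter.atTop {z : ℂ | 0 < z.im} := by
  rw [← upperHalfPlaneSet, ← range_coe, ← Set.image_univ]
  apply TendstoLocallyUniformlyOn.comp (s := ⊤) _ _ _ (OpenPartialHomeomorph.continuousOn_symm _)
  · simp only [Set.top_eq_univ, tendstoLocallyUniformlyOn_univ]
    exact wEis_tendstoLocallyUniformly hw hk
  · simp only [IsOpenEmbedding.toOpenPartialHomeomorph_target, Set.top_eq_univ,
      Set.mapsTo_range_iff, Set.mem_univ, forall_const]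

/-- Weighted Eisenstein sums are holomorphic on `ℍ`. -/
theorem mdifferentiable_wEis (hw : ∀ v, ‖w v‖ ≤ 1) (hk : 3 ≤ k) : MDiff (wEis w k) := by
  intro τ
  suffices DifferentiableAt ℂ (↑ₕ(wEis w k)) τ.1 by
    convert!
      MDifferentiableAt.comp τ (DifferentiableAt.mdifferentiableAt this) τ.mdifferentiable_coe
    exact funext fun z => (comp_ofComplex (wEis w k) z).symm
  refine DifferentiableOn.differentiableAt ?_ (isOpen_upperHalfPlaneSet.mem_nhds τ.2)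
  refine (wEis_tendstoLocallyUniformlyOn hw hk).differentiableOn
    (Eventually.of_forall fun s => ?_) isOpen_upperHalfPlaneSet
  have h : (↑ₕ(fun z : ℍ => ∑ v ∈ s, w v * eisSummand k v z)) =
      fun x : ℂ => ∑ v ∈ s, w v * (↑ₕ(eisSummand k v)) x := by
    funext x
    simp
  rw [h]
  exact DifferentiableOn.fun_sum fun v _ =>
    (eisSummand_extension_differentiableOn k v).const_mul (w v)

/-- Right multiplication by `A ∈ SL(2, ℤ)` on integer row vectors, as an equivalence. -/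
def vecMulSLEquiv (A : SL(2, ℤ)) : (Fin 2 → ℤ) ≃ (Fin 2 → ℤ) where
  toFun v := v ᵥ* A
  invFun v := v ᵥ* ↑(A⁻¹)
  left_inv v := by
    simp_rw [vecMul_vecMul, ← Matrix.SpecialLinearGroup.coe_mul, mul_inv_cancel,
      Matrix.SpecialLinearGroup.coe_one, vecMul_one]
  right_inv v := by
    simp_rw [vecMul_vecMul, ← Matrix.SpecialLinearGroup.coe_mul, inv_mul_cancel,
      Matrix.SpecialLinearGroup.coe_one, vecMul_one]

theorem vecMulSLEquiv_apply (A : SL(2, ℤ)) (v : Fin 2 → ℤ) :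
    vecMulSLEquiv A v = v ᵥ* A := rfl

theorem vecMulSLEquiv_symm_apply (A : SL(2, ℤ)) (v : Fin 2 → ℤ) :
    (vecMulSLEquiv A).symm v = v ᵥ* ↑(A⁻¹) := rfl

variable (w) in
/-- The weight translated by `A ∈ SL(2, ℤ)`. -/
def wTrans (A : SL(2, ℤ)) : (Fin 2 → ℤ) → ℂ :=
  fun v => w ((vecMulSLEquiv A).symm v)

theorem wTrans_apply (A : SL(2, ℤ)) (v : Fin 2 → ℤ) :
    wTrans w A v = w (v ᵥ* ↑(A⁻¹)) := rfl

theorem norm_wTrans_le (hw : ∀ v, ‖w v‖ ≤ 1) (A : SL(2, ℤ)) (v : Fin 2 → ℤ) :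
    ‖wTrans w A v‖ ≤ 1 := hw _

/-- The weighted Eisenstein sum under the Moebius action of `SL(2, ℤ)`. -/
theorem wEis_smul (A : SL(2, ℤ)) (z : ℍ) :
    wEis w k (A • z) = denom A z ^ k * wEis (wTrans w A) k z := by
  unfold wEis
  simp_rw [eisSummand_SL2_apply, ← mul_assoc, mul_comm (w _) (denom A z ^ k), mul_assoc]
  rw [tsum_mul_left]
  congr 1
  refine (tsum_congr fun v => ?_).trans
    ((vecMulSLEquiv A).tsum_eq (fun u => wTrans w A u * eisSummand k u z))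
  simp only [wTrans, Equiv.symm_apply_apply]
  rfl

/-- Slash-action form of `wEis_smul`. -/
theorem wEis_slash (A : SL(2, ℤ)) : wEis w k ∣[k] A = wEis (wTrans w A) k := by
  funext z
  rw [SL_slash_apply, wEis_smul, mul_comm, ← mul_assoc, ← zpow_add₀ (denom_ne_zero A z)]
  simp

/-! ### Boundedness at `i∞` -/

variable (k) in
/-- The sum of the norms of all Eisenstein summands. -/
def normSum (z : ℍ) : ℝ := ∑' v : Fin 2 → ℤ, ‖eisSummand k v z‖

theorem norm_wEis_le_normSum (hw : ∀ v, ‖w v‖ ≤ 1) (hk : 3 ≤ k) (z : ℍ) :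
    ‖wEis w k z‖ ≤ normSum k z := norm_wEis_le hw hk z

theorem normSum_smul (A : SL(2, ℤ)) (z : ℍ) :
    normSum k (A • z) = ‖denom A z‖ ^ k * normSum k z := by
  unfold normSum
  simp_rw [eisSummand_SL2_apply, norm_mul, norm_zpow]
  rw [tsum_mul_left]
  congr 1
  exact (vecMulSLEquiv A).tsum_eq (fun u => ‖eisSummand k u z‖)

theorem denom_T_zpow (n : ℤ) (z : ℍ) : denom (ModularGroup.T ^ n : SL(2, ℤ)) z = 1 := by
  rw [ModularGroup.denom_apply, ModularGroup.coe_T_zpow]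
  simp

theorem normSum_T_zpow_smul (n : ℤ) (z : ℍ) :
    normSum k ((ModularGroup.T ^ n : SL(2, ℤ)) • z) = normSum k z := by
  rw [normSum_smul, denom_T_zpow, norm_one, _root_.one_zpow, one_mul]

variable (k) in
/-- The uniform bound for `normSum k` on `{z | 2 ≤ im z}`. -/
def normSumBound : ℝ :=
  ∑' x : Fin 2 → ℤ, r ⟨⟨1, 2⟩, Nat.ofNat_pos⟩ ^ (-k) * ‖x‖ ^ (-k)

theorem normSum_le_of_two_le_im (hk : 3 ≤ k) (z : ℍ) (hz : 2 ≤ z.im) :
    normSum k z ≤ normSumBound k := by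
  obtain ⟨n, hn⟩ := ModularGroup_T_zpow_mem_verticalStrip z (N := 1) one_pos
  rw [← normSum_T_zpow_smul (k := k) ((1 : ℕ) * n) z]
  have hk' : (2 : ℝ) < k := by norm_cast
  unfold normSum normSumBound
  apply (summable_norm_eisSummand hk _).tsum_le_tsum _
  · exact_mod_cast (summable_one_div_norm_rpow hk').mul_left <| r ⟨⟨1, 2⟩, Nat.ofNat_pos⟩ ^ (-k)
  · intro x
    simp_rw [eisSummand, norm_zpow]
    exact_mod_cast
      summand_bound_of_mem_verticalStrip (lt_trans two_pos hk').le x two_pos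
      (verticalStrip_anti_right ((1 : ℕ) : ℝ) hz hn)

/-- Weighted Eisenstein sums are bounded at `i∞`. -/
theorem isBoundedAtImInfty_wEis (hw : ∀ v, ‖w v‖ ≤ 1) (hk : 3 ≤ k) :
    IsBoundedAtImInfty (wEis w k) := by
  rw [UpperHalfPlane.isBoundedAtImInfty_iff]
  exact ⟨normSumBound k, 2, fun z hz =>
    (norm_wEis_le_normSum hw hk z).trans (normSum_le_of_two_le_im hk z hz)⟩

/-- Weighted Eisenstein sums are bounded at every cusp. -/
theorem isBoundedAtImInfty_wEis_slash (hw : ∀ v, ‖w v‖ ≤ 1) (hk : 3 ≤ k) (A : SL(2, ℤ)) :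
    IsBoundedAtImInfty (wEis w k ∣[k] A) := by
  rw [wEis_slash]
  exact isBoundedAtImInfty_wEis (norm_wTrans_le hw A) hk

/-! ### The limit at `i∞` -/

/-- For `v 0 = 0` the Eisenstein summand is the constant `(v 1)^{-k}`. -/
theorem eisSummand_of_zero {v : Fin 2 → ℤ} (hv : v 0 = 0) (z : ℍ) :
    eisSummand k v z = ((v 1 : ℤ) : ℂ) ^ (-k) := by
  simp [eisSummand, hv]

/-- For `v 0 ≠ 0`, `im z ≤ ‖v 0 * z + v 1‖`. -/
theorem im_le_norm_linear {v : Fin 2 → ℤ} (hv : v 0 ≠ 0) (z : ℍ) :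
    z.im ≤ ‖((v 0 : ℤ) : ℂ) * (z : ℂ) + ((v 1 : ℤ) : ℂ)‖ := by
  have h1 : (((v 0 : ℤ) : ℂ) * (z : ℂ) + ((v 1 : ℤ) : ℂ)).im = (v 0 : ℝ) * z.im := by
    simp
  have h2 := Complex.abs_im_le_norm (((v 0 : ℤ) : ℂ) * (z : ℂ) + ((v 1 : ℤ) : ℂ))
  rw [h1, abs_mul, abs_of_pos z.im_pos] at h2
  refine le_trans ?_ h2
  have h3 : (1 : ℝ) ≤ |(v 0 : ℝ)| := by
    exact_mod_cast Int.one_le_abs hv
  exact le_mul_of_one_le_left z.im_pos.le h3

/-- For `v 0 ≠ 0`: `‖eisSummand k v z‖ ≤ (im z)⁻¹ ‖eisSummand (k - 1) v z‖`. -/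
theorem norm_eisSummand_le_of_ne {v : Fin 2 → ℤ} (hv : v 0 ≠ 0) (z : ℍ) :
    ‖eisSummand k v z‖ ≤ z.im⁻¹ * ‖eisSummand (k - 1) v z‖ := by
  have h0 := im_le_norm_linear hv z
  have hpos : 0 < ‖((v 0 : ℤ) : ℂ) * (z : ℂ) + ((v 1 : ℤ) : ℂ)‖ := lt_of_lt_of_le z.im_pos h0
  simp only [eisSummand, norm_zpow]
  have e : (-k : ℤ) = -1 + -(k - 1) := by ring
  rw [e, zpow_add₀ hpos.ne', _root_.zpow_neg_one]
  exact mul_le_mul_of_nonneg_right (inv_anti₀ z.im_pos h0) (zpow_nonneg hpos.le _)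

variable (w k) in
/-- The constant term of the weighted Eisenstein sum: the sum over the `v` with `v 0 = 0`. -/
def constTerm : ℂ := ∑' v : Fin 2 → ℤ, if v 0 = 0 then w v * ((v 1 : ℤ) : ℂ) ^ (-k) else 0

/-- The part of the summand with `v 0 ≠ 0`. -/
def summandNe (w : (Fin 2 → ℤ) → ℂ) (k : ℤ) (z : ℍ) (v : Fin 2 → ℤ) : ℂ :=
  if v 0 = 0 then 0 else w v * eisSummand k v z

/-- The part of the summand with `v 0 = 0` (independent of `z`). -/
def summandEq (w : (Fin 2 → ℤ) → ℂ) (k : ℤ) (v : Fin 2 → ℤ) : ℂ :=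
  if v 0 = 0 then w v * ((v 1 : ℤ) : ℂ) ^ (-k) else 0

theorem summand_eq_add (v : Fin 2 → ℤ) (z : ℍ) :
    w v * eisSummand k v z = summandEq w k v + summandNe w k z v := by
  unfold summandEq summandNe
  by_cases hv : v 0 = 0
  · rw [if_pos hv, if_pos hv, add_zero, eisSummand_of_zero hv]
  · rw [if_neg hv, if_neg hv, zero_add]

theorem norm_summandNe_le (hw : ∀ v, ‖w v‖ ≤ 1) (v : Fin 2 → ℤ) (z : ℍ) :
    ‖summandNe w k z v‖ ≤ z.im⁻¹ * ‖eisSummand (k - 1) v z‖ := by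
  unfold summandNe
  by_cases hv : v 0 = 0
  · rw [if_pos hv, norm_zero]
    exact mul_nonneg (inv_nonneg.2 z.im_pos.le) (norm_nonneg _)
  · rw [if_neg hv]
    exact (norm_summand_le hw v z).trans (norm_eisSummand_le_of_ne hv z)

theorem norm_summandNe_le' (v : Fin 2 → ℤ) (z : ℍ) :
    ‖summandNe w k z v‖ ≤ ‖w v * eisSummand k v z‖ := by
  unfold summandNe
  by_cases hv : v 0 = 0
  · rw [if_pos hv, norm_zero]
    exact norm_nonneg _
  · rw [if_neg hv]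

theorem summable_norm_summandNe (hw : ∀ v, ‖w v‖ ≤ 1) (hk : 3 ≤ k) (z : ℍ) :
    Summable fun v : Fin 2 → ℤ => ‖summandNe w k z v‖ :=
  (summable_norm_wEis hw hk z).of_nonneg_of_le (fun _ => norm_nonneg _)
    (fun v => norm_summandNe_le' v z)

theorem summable_summandEq (hw : ∀ v, ‖w v‖ ≤ 1) (hk : 3 ≤ k) :
    Summable (summandEq w k) := by
  have h1 : Summable fun v : Fin 2 → ℤ =>
      w v * eisSummand k v UpperHalfPlane.I - summandNe w k UpperHalfPlane.I v :=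
    (summable_wEis hw hk UpperHalfPlane.I).sub (summable_norm_summandNe hw hk _).of_norm
  refine h1.congr fun v => ?_
  rw [summand_eq_add v UpperHalfPlane.I, add_sub_cancel_right]

theorem constTerm_eq : constTerm w k = ∑' v : Fin 2 → ℤ, summandEq w k v := rfl

theorem wEis_sub_constTerm (hw : ∀ v, ‖w v‖ ≤ 1) (hk : 3 ≤ k) (z : ℍ) :
    wEis w k z - constTerm w k = ∑' v : Fin 2 → ℤ, summandNe w k z v := by
  have h1 : wEis w k z = ∑' v : Fin 2 → ℤ, (summandEq w k v + summandNe w k z v) :=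
    tsum_congr fun v => summand_eq_add v z
  rw [h1, (summable_summandEq hw hk).tsum_add (summable_norm_summandNe hw hk z).of_norm,
    constTerm_eq, add_sub_cancel_left]

theorem norm_wEis_sub_constTerm_le (hw : ∀ v, ‖w v‖ ≤ 1) (hk : 4 ≤ k) (z : ℍ) :
    ‖wEis w k z - constTerm w k‖ ≤ z.im⁻¹ * normSum (k - 1) z := by
  have hk3 : 3 ≤ k := by omega
  have hk3' : 3 ≤ k - 1 := by omega
  rw [wEis_sub_constTerm hw hk3 z]
  have hsum2 : Summable fun v : Fin 2 → ℤ => z.im⁻¹ * ‖eisSummand (k - 1) v z‖ :=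
    (summable_norm_eisSummand hk3' z).mul_left _
  refine (norm_tsum_le_tsum_norm (summable_norm_summandNe hw hk3 z)).trans ?_
  unfold normSum
  rw [← tsum_mul_left]
  exact (summable_norm_summandNe hw hk3 z).tsum_le_tsum (fun v => norm_summandNe_le hw v z) hsum2

/-- **The limit at `i∞`** of a weighted Eisenstein sum of weight `k ≥ 4` is its constant term. -/
theorem tendsto_wEis_atImInfty (hw : ∀ v, ‖w v‖ ≤ 1) (hk : 4 ≤ k) :
    Tendsto (wEis w k) atImInfty (𝓝 (constTerm w k)) := by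
  have hk3' : 3 ≤ k - 1 := by omega
  rw [tendsto_iff_norm_sub_tendsto_zero]
  have hC : 0 ≤ normSumBound (k - 1) := tsum_nonneg fun x =>
    mul_nonneg (zpow_nonneg (r_pos _).le _) (zpow_nonneg (norm_nonneg _) _)
  have hbound : ∀ᶠ z : ℍ in atImInfty, ‖wEis w k z - constTerm w k‖ ≤
      z.im⁻¹ * normSumBound (k - 1) := by
    rw [Filter.Eventually, atImInfty_mem]
    refine ⟨2, fun z hz => ?_⟩
    exact (norm_wEis_sub_constTerm_le hw hk z).trans
      (mul_le_mul_of_nonneg_left (normSum_le_of_two_le_im hk3' z hz) (inv_nonneg.2 z.im_pos.le))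
  have hlim : Tendsto (fun z : ℍ => z.im⁻¹ * normSumBound (k - 1)) atImInfty (𝓝 0) := by
    have h1 : Tendsto (fun z : ℍ => z.im) atImInfty atTop := tendsto_comap
    have h2 := (tendsto_inv_atTop_zero.comp h1).mul_const (normSumBound (k - 1))
    simpa using h2
  exact squeeze_zero' (Eventually.of_forall fun z => norm_nonneg _) hbound hlim

theorem wEis_mul_const (c : ℂ) (z : ℍ) :
    wEis (fun v => w v * c) k z = c * wEis w k z := by
  unfold wEis
  rw [← tsum_mul_left]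
  exact tsum_congr fun v => by ring

end Weighted

/-! ### The twisted Eisenstein series of a character of `Γ₀(N)` -/

section Twisted

variable {N : ℕ} (φ : ↥(Gamma0 N) →* ℂˣ)

/-- The bottom row of a matrix of `SL(2, ℤ)`. -/
def bottomRow (A : SL(2, ℤ)) : Fin 2 → ℤ := fun i => A 1 i

theorem bottomRow_mul (A B : SL(2, ℤ)) : bottomRow (A * B) = bottomRow A ᵥ* B := by
  funext j
  simp [bottomRow, Matrix.SpecialLinearGroup.coe_mul, Matrix.mul_apply, Matrix.vecMul,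
    dotProduct]

theorem bottomRow_one : bottomRow (1 : SL(2, ℤ)) = ![0, 1] := by
  funext j
  fin_cases j <;> simp [bottomRow]

open Classical in
/-- The weight attached to `φ`: `v ↦ (φ γ)⁻¹` if `v` is the bottom row of `γ ∈ Γ₀(N)`, and `0` if
`v` is not the bottom row of an element of `Γ₀(N)`. -/
def bottomChar (v : Fin 2 → ℤ) : ℂ :=
  if h : ∃ γ : ↥(Gamma0 N), bottomRow (γ : SL(2, ℤ)) = v then
    (((φ h.choose)⁻¹ : ℂˣ) : ℂ) else 0

variable {φ}

/-- `φ` only depends on the bottom row, if it is trivial on the elements with lower-left entry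
`0`. -/
theorem phi_eq_of_bottomRow_eq
    (hinf : ∀ γ : ↥(Gamma0 N), (γ : SL(2, ℤ)) 1 0 = 0 → φ γ = 1)
    {γ γ' : ↥(Gamma0 N)} (h : bottomRow (γ : SL(2, ℤ)) = bottomRow (γ' : SL(2, ℤ))) :
    φ γ = φ γ' := by
  have h1 : bottomRow (((γ' * γ⁻¹ : ↥(Gamma0 N)) : SL(2, ℤ))) = ![0, 1] := by
    have e : ((γ' * γ⁻¹ : ↥(Gamma0 N)) : SL(2, ℤ)) =
        (γ' : SL(2, ℤ)) * ((γ : SL(2, ℤ)))⁻¹ := rfl
    rw [e, bottomRow_mul, ← h, ← bottomRow_mul, mul_inv_cancel, bottomRow_one]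
  have h2 : ((γ' * γ⁻¹ : ↥(Gamma0 N)) : SL(2, ℤ)) 1 0 = 0 := by
    have := congrFun h1 0
    simpa [bottomRow] using this
  have h3 := hinf _ h2
  rw [map_mul, map_inv, mul_inv_eq_one] at h3
  exact h3.symm

theorem bottomChar_bottomRow
    (hinf : ∀ γ : ↥(Gamma0 N), (γ : SL(2, ℤ)) 1 0 = 0 → φ γ = 1) (γ : ↥(Gamma0 N)) :
    bottomChar φ (bottomRow (γ : SL(2, ℤ))) = (((φ γ)⁻¹ : ℂˣ) : ℂ) := by
  have h : ∃ γ' : ↥(Gamma0 N), bottomRow (γ' : SL(2, ℤ)) = bottomRow (γ : SL(2, ℤ)) := ⟨γ, rfl⟩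
  unfold bottomChar
  rw [dif_pos h, phi_eq_of_bottomRow_eq hinf h.choose_spec]

theorem bottomChar_of_not_exists {v : Fin 2 → ℤ}
    (h : ¬ ∃ γ : ↥(Gamma0 N), bottomRow (γ : SL(2, ℤ)) = v) : bottomChar φ v = 0 := by
  unfold bottomChar
  rw [dif_neg h]

theorem norm_bottomChar_le (hunit : ∀ γ, ‖((φ γ : ℂˣ) : ℂ)‖ = 1) (v : Fin 2 → ℤ) :
    ‖bottomChar φ v‖ ≤ 1 := by
  unfold bottomChar
  split_ifs with h
  · rw [Units.val_inv_eq_inv_val, norm_inv, hunit, inv_one]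
  · rw [norm_zero]
    exact zero_le_one

/-- The transformation law of the weight under right multiplication by `γ ∈ Γ₀(N)`. -/
theorem bottomChar_vecMul
    (hinf : ∀ γ : ↥(Gamma0 N), (γ : SL(2, ℤ)) 1 0 = 0 → φ γ = 1) (γ : ↥(Gamma0 N))
    (v : Fin 2 → ℤ) :
    bottomChar φ (v ᵥ* ((γ : SL(2, ℤ)) : Matrix (Fin 2) (Fin 2) ℤ)) =
      bottomChar φ v * (((φ γ)⁻¹ : ℂˣ) : ℂ) := by
  by_cases h : ∃ γ' : ↥(Gamma0 N), bottomRow (γ' : SL(2, ℤ)) = v
  · obtain ⟨γ', rfl⟩ := h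
    have e : bottomRow (γ' : SL(2, ℤ)) ᵥ* ((γ : SL(2, ℤ)) : Matrix (Fin 2) (Fin 2) ℤ) =
        bottomRow (((γ' * γ : ↥(Gamma0 N)) : SL(2, ℤ))) := (bottomRow_mul _ _).symm
    rw [e, bottomChar_bottomRow hinf, bottomChar_bottomRow hinf, map_mul, _root_.mul_inv_rev,
      Units.val_mul, mul_comm]
  · have h' : ¬ ∃ γ' : ↥(Gamma0 N), bottomRow (γ' : SL(2, ℤ)) =
        v ᵥ* ((γ : SL(2, ℤ)) : Matrix (Fin 2) (Fin 2) ℤ) := by
      rintro ⟨γ', hγ'⟩
      apply h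
      refine ⟨γ' * γ⁻¹, ?_⟩
      have e : ((γ' * γ⁻¹ : ↥(Gamma0 N)) : SL(2, ℤ)) =
          (γ' : SL(2, ℤ)) * ((γ : SL(2, ℤ)))⁻¹ := rfl
      rw [e, bottomRow_mul, hγ']
      exact (vecMulSLEquiv (γ : SL(2, ℤ))).symm_apply_apply v
    rw [bottomChar_of_not_exists h, bottomChar_of_not_exists h', zero_mul]

variable (φ) in
/-- **The twisted Eisenstein series** `E_φ(z) = (1/2) ∑_v bottomChar φ v (v₀ z + v₁)^{-k}`
(`= ∑_{γ ∈ Γ_∞ \ Γ₀(N)} φ(γ)⁻¹ (cz + d)^{-k}` for even `k`). -/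
def twistedEis (k : ℤ) (z : ℍ) : ℂ := (1 / 2 : ℂ) * wEis (bottomChar φ) k z

theorem wTrans_bottomChar
    (hinf : ∀ γ : ↥(Gamma0 N), (γ : SL(2, ℤ)) 1 0 = 0 → φ γ = 1) (γ : ↥(Gamma0 N)) :
    wTrans (bottomChar φ) (γ : SL(2, ℤ)) = fun v => bottomChar φ v * ((φ γ : ℂˣ) : ℂ) := by
  funext v
  have h := bottomChar_vecMul hinf γ⁻¹ v
  rw [map_inv, inv_inv] at h
  exact h

/-- **The transformation law**: `E_φ(γ z) = φ(γ) (cz + d)^k E_φ(z)` for `γ ∈ Γ₀(N)`. -/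
theorem twistedEis_smul
    (hinf : ∀ γ : ↥(Gamma0 N), (γ : SL(2, ℤ)) 1 0 = 0 → φ γ = 1) (k : ℤ) (γ : ↥(Gamma0 N))
    (z : ℍ) :
    twistedEis φ k ((γ : SL(2, ℤ)) • z) =
      ((φ γ : ℂˣ) : ℂ) * denom (γ : SL(2, ℤ)) z ^ k * twistedEis φ k z := by
  unfold twistedEis
  rw [wEis_smul, wTrans_bottomChar hinf, wEis_mul_const]
  ring

/-- Slash-action form of the transformation law: `E_φ ∣[k] γ = φ(γ) • E_φ`. -/
theorem twistedEis_slash
    (hinf : ∀ γ : ↥(Gamma0 N), (γ : SL(2, ℤ)) 1 0 = 0 → φ γ = 1) (k : ℤ) (γ : ↥(Gamma0 N)) :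
    twistedEis φ k ∣[k] (γ : SL(2, ℤ)) = ((φ γ : ℂˣ) : ℂ) • twistedEis φ k := by
  funext z
  rw [SL_slash_apply, twistedEis_smul hinf, Pi.smul_apply, smul_eq_mul]
  have hd := denom_ne_zero ((γ : SL(2, ℤ)) : GL (Fin 2) ℝ) z
  rw [mul_assoc, mul_assoc, mul_comm (twistedEis φ k z), ← mul_assoc (_ ^ k),
    ← zpow_add₀ hd]
  simp

theorem twistedEis_eq_smul_wEis (k : ℤ) :
    twistedEis φ k = (1 / 2 : ℂ) • wEis (bottomChar φ) k := rfl

/-- `E_φ` is holomorphic on `ℍ`. -/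
theorem mdifferentiable_twistedEis (hunit : ∀ γ, ‖((φ γ : ℂˣ) : ℂ)‖ = 1) {k : ℤ}
    (hk : 3 ≤ k) : MDiff (twistedEis φ k) := by
  rw [twistedEis_eq_smul_wEis]
  exact (mdifferentiable_wEis (norm_bottomChar_le hunit) hk).const_smul _

/-- `E_φ` is bounded at every cusp. -/
theorem isBoundedAtImInfty_twistedEis_slash (hunit : ∀ γ, ‖((φ γ : ℂˣ) : ℂ)‖ = 1) {k : ℤ}
    (hk : 3 ≤ k) (A : SL(2, ℤ)) : IsBoundedAtImInfty (twistedEis φ k ∣[k] A) := by
  rw [twistedEis_eq_smul_wEis, SL_smul_slash]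
  exact (isBoundedAtImInfty_wEis_slash (norm_bottomChar_le hunit) hk A).const_smul_left _

/-! ### The constant term and the limit at `i∞` -/

theorem neg_one_mem_Gamma0 : (-1 : SL(2, ℤ)) ∈ Gamma0 N := by
  rw [Gamma0_mem]
  simp

theorem bottomRow_neg_one : bottomRow (-1 : SL(2, ℤ)) = ![0, -1] := by
  funext j
  fin_cases j <;> simp [bottomRow]

theorem bottomChar_zero_one
    (hinf : ∀ γ : ↥(Gamma0 N), (γ : SL(2, ℤ)) 1 0 = 0 → φ γ = 1) :
    bottomChar φ ![0, 1] = 1 := by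
  have h := bottomChar_bottomRow hinf (1 : ↥(Gamma0 N))
  rw [map_one, inv_one, Units.val_one] at h
  rw [← bottomRow_one]
  exact h

theorem bottomChar_zero_neg_one
    (hinf : ∀ γ : ↥(Gamma0 N), (γ : SL(2, ℤ)) 1 0 = 0 → φ γ = 1) :
    bottomChar φ ![0, -1] = 1 := by
  have h := bottomChar_bottomRow hinf (⟨-1, neg_one_mem_Gamma0⟩ : ↥(Gamma0 N))
  have h1 : φ (⟨-1, neg_one_mem_Gamma0⟩ : ↥(Gamma0 N)) = 1 := hinf _ (by simp)
  rw [h1, inv_one, Units.val_one] at h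
  rw [← bottomRow_neg_one]
  exact h

/-- A bottom row with first entry `0` is `(0, ±1)`. -/
theorem eq_of_bottomRow_zero {A : SL(2, ℤ)} (h : bottomRow A 0 = 0) :
    bottomRow A = ![0, 1] ∨ bottomRow A = ![0, -1] := by
  have hdet := Matrix.SpecialLinearGroup.det_coe A
  rw [Matrix.det_fin_two] at hdet
  have h10 : A 1 0 = 0 := h
  rw [h10, mul_zero, sub_zero] at hdet
  rcases Int.eq_one_or_neg_one_of_mul_eq_one' hdet with ⟨_, h11⟩ | ⟨_, h11⟩
  · left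
    funext j
    fin_cases j
    · exact h10
    · exact h11
  · right
    funext j
    fin_cases j
    · exact h10
    · exact h11

theorem summandEq_bottomChar_eq_zero {k : ℤ} {v : Fin 2 → ℤ}
    (hv : v ∉ ({![0, 1], ![0, -1]} : Finset (Fin 2 → ℤ))) :
    summandEq (bottomChar φ) k v = 0 := by
  unfold summandEq
  by_cases hv0 : v 0 = 0
  · rw [if_pos hv0]
    have hne : ¬ ∃ γ : ↥(Gamma0 N), bottomRow (γ : SL(2, ℤ)) = v := by
      rintro ⟨γ, rfl⟩
      apply hv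
      rcases eq_of_bottomRow_zero hv0 with h | h
      · rw [h]; simp
      · rw [h]; simp
    rw [bottomChar_of_not_exists hne, zero_mul]
  · rw [if_neg hv0]

/-- The constant term of `∑_v bottomChar φ v (v₀ z + v₁)^{-k}` is `2` for even `k`. -/
theorem constTerm_bottomChar
    (hinf : ∀ γ : ↥(Gamma0 N), (γ : SL(2, ℤ)) 1 0 = 0 → φ γ = 1) {k : ℤ} (hk : Even k) :
    constTerm (bottomChar φ) k = 2 := by
  rw [constTerm_eq, tsum_eq_sum (s := ({![0, 1], ![0, -1]} : Finset (Fin 2 → ℤ)))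
    (fun v hv => summandEq_bottomChar_eq_zero hv)]
  have hne : (![0, 1] : Fin 2 → ℤ) ≠ ![0, -1] := by
    intro h
    have := congrFun h 1
    simp at this
  rw [Finset.sum_pair hne]
  unfold summandEq
  have hk' : Even (-k) := hk.neg
  simp only [Matrix.cons_val_zero, if_true, Matrix.cons_val_one, bottomChar_zero_one hinf,
    bottomChar_zero_neg_one hinf, Int.cast_one, Int.cast_neg, one_mul, _root_.one_zpow,
    hk'.neg_zpow]
  norm_num

/-- **`E_φ → 1` at `i∞`** (weight `k ≥ 4` even). -/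
theorem tendsto_twistedEis_atImInfty (hunit : ∀ γ, ‖((φ γ : ℂˣ) : ℂ)‖ = 1)
    (hinf : ∀ γ : ↥(Gamma0 N), (γ : SL(2, ℤ)) 1 0 = 0 → φ γ = 1) {k : ℤ} (hk : 4 ≤ k)
    (hk2 : Even k) : Tendsto (twistedEis φ k) atImInfty (𝓝 1) := by
  have h := (tendsto_wEis_atImInfty (norm_bottomChar_le hunit) hk).const_mul (1 / 2 : ℂ)
  rw [constTerm_bottomChar hinf hk2] at h
  have e : (1 / 2 : ℂ) * 2 = 1 := by norm_num
  rw [e] at h
  exact h

/-- `E_φ` does not vanish identically. -/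
theorem twistedEis_ne_zero (hunit : ∀ γ, ‖((φ γ : ℂˣ) : ℂ)‖ = 1)
    (hinf : ∀ γ : ↥(Gamma0 N), (γ : SL(2, ℤ)) 1 0 = 0 → φ γ = 1) {k : ℤ} (hk : 4 ≤ k)
    (hk2 : Even k) : ∃ z : ℍ, twistedEis φ k z ≠ 0 := by
  by_contra hcon
  have hcon' : ∀ z : ℍ, twistedEis φ k z = 0 := fun z => by_contra fun h => hcon ⟨z, h⟩
  have h := tendsto_twistedEis_atImInfty hunit hinf hk hk2
  have h0 : twistedEis φ k = fun _ => 0 := funext hcon'
  rw [h0] at h
  have := tendsto_nhds_unique h tendsto_const_nhds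
  exact one_ne_zero this

/-! ### Periodicity at the cusps -/

/-- If `A B A⁻¹ ∈ Γ₀(N)` is killed by `φ`, then `E_φ ∣[k] A` is invariant under `B`.
(For `B = T ^ h`: periodicity of `E_φ ∣[k] A` under `z ↦ z + h`, i.e. a `q`-expansion at the cusp
`A ∞`; `φ` trivial on parabolic elements gives the hypothesis.) -/
theorem twistedEis_slash_slash
    (hinf : ∀ γ : ↥(Gamma0 N), (γ : SL(2, ℤ)) 1 0 = 0 → φ γ = 1) (k : ℤ) (A B : SL(2, ℤ))
    (hmem : A * B * A⁻¹ ∈ Gamma0 N) (hφ : φ ⟨A * B * A⁻¹, hmem⟩ = 1) :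
    (twistedEis φ k ∣[k] A) ∣[k] B = twistedEis φ k ∣[k] A := by
  have e : A * B = (A * B * A⁻¹) * A := by group
  have h1 := twistedEis_slash hinf k (⟨A * B * A⁻¹, hmem⟩ : ↥(Gamma0 N))
  rw [hφ, Units.val_one, one_smul] at h1
  rw [← SlashAction.slash_mul, e, SlashAction.slash_mul]
  exact congrArg (fun f => f ∣[k] A) h1

/-- `(f ∣[k] T ^ n) z = f (z + n)`. -/
theorem slash_T_zpow_apply (k : ℤ) (f : ℍ → ℂ) (n : ℤ) (z : ℍ) :
    (f ∣[k] (ModularGroup.T ^ n : SL(2, ℤ))) z = f ((ModularGroup.T ^ n : SL(2, ℤ)) • z) := by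
  rw [SL_slash_apply, denom_T_zpow, _root_.one_zpow, mul_one]

/-- `E_φ` is `1`-periodic. -/
theorem twistedEis_T_smul
    (hinf : ∀ γ : ↥(Gamma0 N), (γ : SL(2, ℤ)) 1 0 = 0 → φ γ = 1) (k : ℤ) (n : ℤ) (z : ℍ) :
    twistedEis φ k ((ModularGroup.T ^ n : SL(2, ℤ)) • z) = twistedEis φ k z := by
  have hmem : (ModularGroup.T ^ n : SL(2, ℤ)) ∈ Gamma0 N := by
    rw [Gamma0_mem, ModularGroup.coe_T_zpow]
    simp
  have h10 : (ModularGroup.T ^ n : SL(2, ℤ)) 1 0 = 0 := by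
    rw [ModularGroup.coe_T_zpow]
    simp
  have h := twistedEis_smul hinf k (⟨ModularGroup.T ^ n, hmem⟩ : ↥(Gamma0 N)) z
  rw [hinf _ h10, Units.val_one, one_mul] at h
  rw [h]
  show denom (ModularGroup.T ^ n : SL(2, ℤ)) z ^ k * twistedEis φ k z = twistedEis φ k z
  rw [denom_T_zpow, _root_.one_zpow, one_mul]

/-- Characters with values in roots of unity are unitary. -/
theorem norm_eq_one_of_pow_eq_one {n : ℕ} (hn : n ≠ 0) (hφ : ∀ γ, φ γ ^ n = 1)
    (γ : ↥(Gamma0 N)) : ‖((φ γ : ℂˣ) : ℂ)‖ = 1 := by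
  have h : ((φ γ : ℂˣ) : ℂ) ^ n = 1 := by
    rw [← Units.val_pow_eq_pow_val, hφ γ, Units.val_one]
  exact Complex.norm_eq_one_of_pow_eq_one h hn

/-- The hypothesis `hinf` follows from triviality on the elements of trace `±2` (the Prelude's
`IsParabolicHom` shape). -/
theorem hinf_of_trace
    (hpar : ∀ γ : ↥(Gamma0 N),
      ((γ : SL(2, ℤ)) : Matrix (Fin 2) (Fin 2) ℤ).trace ^ 2 = 4 → φ γ = 1)
    (γ : ↥(Gamma0 N)) (h : (γ : SL(2, ℤ)) 1 0 = 0) : φ γ = 1 := by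
  apply hpar
  have hdet := Matrix.SpecialLinearGroup.det_coe (γ : SL(2, ℤ))
  rw [Matrix.det_fin_two] at hdet
  have h10 : ((γ : SL(2, ℤ)) : Matrix (Fin 2) (Fin 2) ℤ) 1 0 = 0 := h
  rw [h10, mul_zero, sub_zero] at hdet
  rw [Matrix.trace_fin_two]
  rcases Int.eq_one_or_neg_one_of_mul_eq_one' hdet with ⟨h0, h1⟩ | ⟨h0, h1⟩
  · rw [h0, h1]; norm_num
  · rw [h0, h1]; norm_num

end Twisted

end Fermat.Agent.N4F.Tors.TwistedEisenstein
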