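/-
N4-FULL block F, node F2b part 1 (helper23): THE EISENSTEIN FUNCTION `a_φ = E_φ E₄² / Δ`.

For a character `φ : Γ₀(N) →* ℂˣ` (unitary, trivial on the elements with lower-left entry `0`) the
weight zero function `a_φ := E_φ · E₄² / Δ` (`E_φ` the twisted Eisenstein series of weight `4`) is
holomorphic on `ℍ`, satisfies `a_φ (γ z) = φ γ · a_φ z` for `γ ∈ Γ₀(N)`, is meromorphic at every cusp,
and does not vanish identically.  If `φ ^ n = 1` then `a_φ ^ n ∈ WH Γ₀(N)`, and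
`u_φ := a_φ ^ n / j ^ n ∈ WHField Γ₀(N)` is `n`-divisible (`Kummer.NDiv`) with Kummer character
`γ ↦ φ γ` (`kummerChar_uPhi`).
-/
import Fermat.Agent.N4F.Tors.TwistedEisenstein
import Fermat.Agent.N4F.Tors.Kummer

set_option autoImplicit false

noncomputable section

open UpperHalfPlane EisensteinSeries Matrix ModularForm CongruenceSubgroup Filter Topology Complex

open scoped MatrixGroups Manifold

namespace Fermat.Agent.N4F.Tors.EisFunction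

open Fermat.Agent.M2 Fermat.Agent.N4F.Tors.TwistedEisenstein

local notation "Δ" => ModularForm.discriminant

variable {N : ℕ} (φ : ↥(Gamma0 N) →* ℂˣ)

/-- The weight zero Eisenstein function `a_φ = E_φ · E₄² / Δ`. -/
def aPhi (z : ℍ) : ℂ := twistedEis φ 4 z * E₄ z ^ 2 / Δ z

variable {φ}

theorem aPhi_mul_discriminant (z : ℍ) : aPhi φ z * Δ z = twistedEis φ 4 z * E₄ z ^ 2 := by
  rw [aPhi, div_mul_cancel₀ _ (discriminant_ne_zero z)]

/-- `a_φ` is holomorphic on `ℍ`. -/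
theorem mdiff_aPhi (hunit : ∀ γ, ‖((φ γ : ℂˣ) : ℂ)‖ = 1) : MDiff (aPhi φ) := by
  have h1 : MDiff (twistedEis φ 4) := mdifferentiable_twistedEis hunit (by norm_num)
  have h4 : MDiff (E₄ : ℍ → ℂ) := E₄.holo'
  have hΔ : MDiff (Δ : ℍ → ℂ) := mdiff_discriminant
  rw [UpperHalfPlane.mdifferentiable_iff] at h1 h4 hΔ ⊢
  have : (aPhi φ ∘ ofComplex) = fun w => (twistedEis φ 4 ∘ ofComplex) w *
      ((E₄ : ℍ → ℂ) ∘ ofComplex) w ^ 2 / ((Δ : ℍ → ℂ) ∘ ofComplex) w := by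
    ext w; rfl
  rw [this]
  exact (h1.mul (h4.pow 2)).div hΔ (fun w _ => discriminant_ne_zero _)

/-- The value of `a_φ` at `δ • z` for an arbitrary `δ : SL(2,ℤ)`. -/
theorem aPhi_smul_SL (δ : SL(2, ℤ)) (z : ℍ) :
    aPhi φ (δ • z) = (twistedEis φ 4 ∣[(4 : ℤ)] δ) z * E₄ z ^ 2 / Δ z := by
  have hd : denom δ z ≠ 0 := denom_ne_zero δ z
  rw [aPhi, SL_slash_apply, levelOne_smul E₄ δ z, discriminant_smul δ z]
  have hΔ := discriminant_ne_zero z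
  have e4 : denom δ z ^ (4 : ℤ) = denom δ z ^ (4 : ℕ) := by norm_cast
  have e12 : denom δ z ^ (12 : ℤ) = denom δ z ^ (12 : ℕ) := by norm_cast
  have em4 : denom δ z ^ (-(4 : ℤ)) = (denom δ z ^ (4 : ℕ))⁻¹ := by
    rw [_root_.zpow_neg, e4]
  rw [e4, e12, em4]
  field_simp

/-- **The transformation law**: `a_φ (γ z) = φ γ · a_φ z` for `γ ∈ Γ₀(N)`. -/
theorem aPhi_smul (hinf : ∀ γ : ↥(Gamma0 N), (γ : SL(2, ℤ)) 1 0 = 0 → φ γ = 1)
    (γ : ↥(Gamma0 N)) (z : ℍ) :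
    aPhi φ ((γ : SL(2, ℤ)) • z) = ((φ γ : ℂˣ) : ℂ) * aPhi φ z := by
  rw [aPhi_smul_SL, twistedEis_slash hinf 4 γ, Pi.smul_apply, smul_eq_mul, aPhi]
  ring

/-- `a_φ ∘ δ` has at most a simple pole (in `q`) at `i∞`. -/
theorem isBoundedAtImInfty_aPhi_smul_mul (hunit : ∀ γ, ‖((φ γ : ℂˣ) : ℂ)‖ = 1) (δ : SL(2, ℤ)) :
    IsBoundedAtImInfty (fun z : ℍ => aPhi φ (δ • z) * Δ z) := by
  have h1 : IsBoundedAtImInfty (twistedEis φ 4 ∣[(4 : ℤ)] δ) :=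
    isBoundedAtImInfty_twistedEis_slash hunit (by norm_num) δ
  have h4 : IsBoundedAtImInfty (E₄ : ℍ → ℂ) := ModularFormClass.bdd_at_infty E₄
  have e : (fun z : ℍ => aPhi φ (δ • z) * Δ z) =
      (twistedEis φ 4 ∣[(4 : ℤ)] δ) * ((E₄ : ℍ → ℂ) * (E₄ : ℍ → ℂ)) := by
    funext z
    rw [aPhi_smul_SL, div_mul_cancel₀ _ (discriminant_ne_zero z)]
    simp only [Pi.mul_apply]
    ring
  rw [e]
  exact h1.mul (h4.mul h4)

theorem isBoundedAtImInfty_aPhi_smul_pow (hunit : ∀ γ, ‖((φ γ : ℂˣ) : ℂ)‖ = 1) (δ : SL(2, ℤ))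
    (n : ℕ) : IsBoundedAtImInfty (fun z : ℍ => aPhi φ (δ • z) ^ n * Δ z ^ n) := by
  induction n with
  | zero =>
    simp only [pow_zero, mul_one]
    exact Filter.const_boundedAtFilter atImInfty (1 : ℂ)
  | succ n ih =>
    have := ih.mul (isBoundedAtImInfty_aPhi_smul_mul hunit δ)
    have e : (fun z : ℍ => aPhi φ (δ • z) ^ (n + 1) * Δ z ^ (n + 1)) =
        (fun z : ℍ => aPhi φ (δ • z) ^ n * Δ z ^ n) * fun z => aPhi φ (δ • z) * Δ z := by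
      funext z
      simp only [Pi.mul_apply, pow_succ]
      ring
    rw [e]
    exact this

/-- `a_φ` does not vanish identically. -/
theorem exists_aPhi_ne_zero (hunit : ∀ γ, ‖((φ γ : ℂˣ) : ℂ)‖ = 1)
    (hinf : ∀ γ : ↥(Gamma0 N), (γ : SL(2, ℤ)) 1 0 = 0 → φ γ = 1) : ∃ z : ℍ, aPhi φ z ≠ 0 := by
  have h1 : Tendsto (twistedEis φ 4) atImInfty (𝓝 1) :=
    tendsto_twistedEis_atImInfty hunit hinf (by norm_num) ⟨2, by norm_num⟩
  have h4 : Tendsto (E₄ : ℍ → ℂ) atImInfty (𝓝 1) := LevelOnePoly.tendsto_E₄_atImInfty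
  have h := h1.mul (h4.pow 2)
  rw [one_pow, mul_one] at h
  have hev : ∀ᶠ z in atImInfty, twistedEis φ 4 z * E₄ z ^ 2 ≠ 0 :=
    h.eventually_ne one_ne_zero
  obtain ⟨z, hz⟩ := hev.exists
  refine ⟨z, ?_⟩
  rw [aPhi]
  exact div_ne_zero hz (discriminant_ne_zero z)

/-! ### `a_φ ^ n` as a weakly holomorphic modular function, and `u_φ` -/

section Kummer

open Fermat.Agent.N4F.Tors.Kummer Fermat.Agent.M2.OrdVal Fermat.Agent.M2.Dict

variable (φ) in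
/-- `φ` takes values in the `n`-th roots of unity and is trivial on the stabiliser of `i∞`. -/
structure IsEisChar (n : ℕ) : Prop where
  pow : ∀ γ, φ γ ^ n = 1
  inf : ∀ γ : ↥(Gamma0 N), (γ : SL(2, ℤ)) 1 0 = 0 → φ γ = 1

variable {n : ℕ} [NeZero n]

theorem IsEisChar.unit (h : IsEisChar φ n) (γ : ↥(Gamma0 N)) : ‖((φ γ : ℂˣ) : ℂ)‖ = 1 :=
  norm_eq_one_of_pow_eq_one (NeZero.ne n) h.pow γ

omit [NeZero n] in
theorem IsEisChar.val_pow (h : IsEisChar φ n) (γ : ↥(Gamma0 N)) : ((φ γ : ℂˣ) : ℂ) ^ n = 1 := by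
  rw [← Units.val_pow_eq_pow_val, h.pow γ, Units.val_one]

theorem mdiff_pow {f : ℍ → ℂ} (hf : MDiff f) (m : ℕ) : MDiff (fun z : ℍ => f z ^ m) := by
  rw [UpperHalfPlane.mdifferentiable_iff] at hf ⊢
  have : ((fun z : ℍ => f z ^ m) ∘ ofComplex) = fun w => (f ∘ ofComplex) w ^ m := by
    ext w; rfl
  rw [this]
  exact hf.pow m

theorem isWH_aPhi_pow (h : IsEisChar φ n) : IsWH (Gamma0 N) (fun z : ℍ => aPhi φ z ^ n) := by
  refine ⟨mdiff_pow (mdiff_aPhi h.unit) n, fun γ hγ z => ?_, fun δ => ⟨n, ?_⟩⟩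
  · show aPhi φ (γ • z) ^ n = aPhi φ z ^ n
    have := aPhi_smul h.inf ⟨γ, hγ⟩ z
    rw [this, mul_pow, h.val_pow, one_mul]
  · exact isBoundedAtImInfty_aPhi_smul_pow h.unit δ n

/-- `a_φ ^ n` as an element of `WH Γ₀(N)`. -/
def aPhiPow (h : IsEisChar φ n) : WH (Gamma0 N) := ⟨fun z : ℍ => aPhi φ z ^ n, isWH_aPhi_pow h⟩

theorem coe_aPhiPow (h : IsEisChar φ n) (z : ℍ) : (aPhiPow h : ℍ → ℂ) z = aPhi φ z ^ n := rfl

theorem aPhiPow_ne_zero (h : IsEisChar φ n) : aPhiPow h ≠ 0 := by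
  obtain ⟨z, hz⟩ := exists_aPhi_ne_zero h.unit h.inf
  intro h0
  have := congrArg (fun f : WH (Gamma0 N) => (f : ℍ → ℂ) z) h0
  simp only [coe_aPhiPow] at this
  exact pow_ne_zero n hz this

theorem exists_jInv_ne_zero : ∃ z : ℍ, jInv z ≠ 0 := by
  have h := LevelOnePoly.tendsto_norm_j_atImInfty
  have hev : ∀ᶠ z : ℍ in atImInfty, (1 : ℝ) ≤ ‖E₄ z ^ 3 / Δ z‖ :=
    h.eventually_ge_atTop 1
  obtain ⟨z, hz⟩ := hev.exists
  refine ⟨z, fun h0 => ?_⟩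
  rw [jInv] at h0
  rw [h0, norm_zero] at hz
  linarith

theorem jWH_ne_zero (Γ : Subgroup SL(2, ℤ)) : jWH Γ ≠ 0 := by
  obtain ⟨z, hz⟩ := exists_jInv_ne_zero
  intro h0
  have := congrArg (fun f : WH Γ => (f : ℍ → ℂ) z) h0
  exact hz this

/-- **The function `u_φ = a_φ ^ n / j ^ n`** (`= (E_φ / E₄) ^ n`) in `WHField Γ₀(N)`. -/
def uPhi (h : IsEisChar φ n) : WHField (Gamma0 N) :=
  algebraMap (WH (Gamma0 N)) (WHField (Gamma0 N)) (aPhiPow h) /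
    algebraMap (WH (Gamma0 N)) (WHField (Gamma0 N)) (jWH (Gamma0 N) ^ n)

omit [NeZero n] in
theorem algebraMap_jWH_pow_ne_zero :
    algebraMap (WH (Gamma0 N)) (WHField (Gamma0 N)) (jWH (Gamma0 N) ^ n) ≠ 0 := fun h0 =>
  pow_ne_zero n (jWH_ne_zero (Gamma0 N)) (algebraMap_WH_injective (by rw [h0, map_zero]))

theorem uPhi_ne_zero (h : IsEisChar φ n) : uPhi h ≠ 0 := by
  refine div_ne_zero (fun h0 => ?_) algebraMap_jWH_pow_ne_zero
  exact aPhiPow_ne_zero h (algebraMap_WH_injective (by rw [h0, map_zero]))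

theorem uPhi_mul (h : IsEisChar φ n) :
    uPhi h * algebraMap (WH (Gamma0 N)) (WHField (Gamma0 N)) (jWH (Gamma0 N) ^ n) =
      algebraMap (WH (Gamma0 N)) (WHField (Gamma0 N)) (aPhiPow h) :=
  div_mul_cancel₀ _ algebraMap_jWH_pow_ne_zero

/-- The root datum of `u_φ`: `a = a_φ ^ n`, `b = j ^ n`, `h = a_φ · j ^ (n - 1)`. -/
theorem isRootDatum_uPhi (h : IsEisChar φ n) :
    IsRootDatum (Gamma0 N) n (uPhi h) (aPhiPow h) (jWH (Gamma0 N) ^ n)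
      (fun z => aPhi φ z * jInv z ^ (n - 1)) where
  hb := pow_ne_zero n (jWH_ne_zero (Gamma0 N))
  hu := uPhi_mul h
  hh := (mdiff_aPhi h.unit).mul (mdiff_pow mdiff_jInv (n - 1))
  hpow z := by
    show (aPhi φ z * jInv z ^ (n - 1)) ^ n = aPhi φ z ^ n * (jInv z ^ n) ^ (n - 1)
    rw [mul_pow, ← pow_mul, ← pow_mul, mul_comm (n - 1) n]

/-- `u_φ` is `n`-divisible at every point of `ℍ`. -/
theorem nDiv_uPhi (h : IsEisChar φ n) : NDiv (Gamma0 N) n (uPhi h) := by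
  refine ⟨uPhi_ne_zero h, fun z => ?_⟩
  have hA := aPhiPow_ne_zero h
  have hJ := jWH_ne_zero (Gamma0 N)
  have hm : MDiff (aPhi φ) := mdiff_aPhi h.unit
  have ha0 : aPhi φ ≠ 0 := by
    obtain ⟨w, hw⟩ := exists_aPhi_ne_zero h.unit h.inf
    intro h0
    exact hw (by rw [h0]; rfl)
  -- the order of `a_φ ^ n`
  have h1 : ordNat (Gamma0 N) z (aPhiPow h) = n * (ordAt z (aPhi φ)).toNat := by
    have e : ((aPhiPow h : WH (Gamma0 N)) : ℍ → ℂ) = aPhi φ ^ n := rfl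
    rw [ordNat, e, ordAt_pow hm z n]
    have hne : ordAt z (aPhi φ) ≠ ⊤ := ordAt_ne_top hm ha0 z
    lift ordAt z (aPhi φ) to ℕ using hne with m
    rw [nsmul_eq_mul]
    norm_cast
  refine ⟨((ordAt z (aPhi φ)).toNat : ℤ) - (ordNat (Gamma0 N) z (jWH (Gamma0 N)) : ℤ), ?_⟩
  rw [uPhi, map_div₀, vF_algebraMap, vF_algebraMap, map_pow, ordVal_apply_of_ne_zero _ hA,
    ordVal_apply_of_ne_zero _ hJ, h1, ← WithZero.exp_nsmul, ← WithZero.exp_sub]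
  congr 1
  push_cast
  ring

/-- **The Kummer character of `u_φ` is `φ`**: if `φ γ = stdAddChar (ψ γ)`, then
`kummerChar u_φ = ψ`. -/
theorem kummerChar_uPhi (h : IsEisChar φ n) (ψ : Additive ↥(Gamma0 N) →+ ZMod n)
    (hψ : ∀ γ : ↥(Gamma0 N), ((φ γ : ℂˣ) : ℂ) = ZMod.stdAddChar (ψ (Additive.ofMul γ))) :
    kummerChar (nDiv_uPhi h) = ψ := by
  -- a point where the root does not vanish
  have hex : ∃ z : ℍ, aPhi φ z * jInv z ^ (n - 1) ≠ 0 := by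
    have h1 : Tendsto (twistedEis φ 4) atImInfty (𝓝 1) :=
      tendsto_twistedEis_atImInfty h.unit h.inf (by norm_num) ⟨2, by norm_num⟩
    have h4 : Tendsto (E₄ : ℍ → ℂ) atImInfty (𝓝 1) := LevelOnePoly.tendsto_E₄_atImInfty
    have hev1 : ∀ᶠ z in atImInfty, twistedEis φ 4 z ≠ 0 := h1.eventually_ne one_ne_zero
    have hev4 : ∀ᶠ z in atImInfty, (E₄ : ℍ → ℂ) z ≠ 0 := h4.eventually_ne one_ne_zero
    obtain ⟨z, hz1, hz4⟩ := (hev1.and hev4).exists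
    refine ⟨z, mul_ne_zero ?_ (pow_ne_zero _ ?_)⟩
    · rw [aPhi]
      exact div_ne_zero (mul_ne_zero hz1 (pow_ne_zero 2 hz4)) (discriminant_ne_zero z)
    · rw [jInv]
      exact div_ne_zero (pow_ne_zero 3 hz4) (discriminant_ne_zero z)
  obtain ⟨z, hz⟩ := hex
  refine AddMonoidHom.ext fun γ => ?_
  obtain ⟨γ, rfl⟩ := Additive.ofMul.surjective γ
  refine kummerChar_eq_of_spec (nDiv_uPhi h) (isRootDatum_uPhi h) γ hz ?_
  show aPhi φ ((γ : SL(2, ℤ)) • z) * jInv ((γ : SL(2, ℤ)) • z) ^ (n - 1) = _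
  rw [aPhi_smul h.inf γ z, jInv_smul, hψ γ]
  ring

end Kummer

end Fermat.Agent.N4F.Tors.EisFunction
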