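/-
N4-FULL block F, node F2b part 2 (helper23): THE ORDERS OF `u_φ` AT THE CUSPS.

If `φ` kills the parabolic elements of `Γ₀(N)`, then `a_φ ∘ δ` is periodic of period the width `w` of
the cusp `δ • i∞`, so its order in `q_N` is divisible by `N / w`, which is the exact exponent of the
cusp valuation (`RamCusp`).  Hence every prime `Q` at infinity of `K = WHField Γ₀(N)` satisfies
`n ∣ ord_Q (u_φ)`.
-/
import Fermat.Agent.N4F.Tors.EisFunction
import Fermat.Agent.N4F.Tors.RamCusp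

set_option autoImplicit false

noncomputable section

open UpperHalfPlane Matrix ModularForm CongruenceSubgroup Filter Topology WithZero
  IsDedekindDomain

open scoped MatrixGroups Manifold

namespace Fermat.Agent.N4F.Tors.EisCusp

open Fermat.Agent.M2 Fermat.Agent.M2.CuspVal Fermat.Agent.M2.CuspValK
  Fermat.Agent.N4F.Tors.TwistedEisenstein Fermat.Agent.N4F.Tors.EisFunction
  Fermat.Agent.N4F.Tors.RamCusp

local notation "Δ" => ModularForm.discriminant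

variable {N : ℕ} (φ : ↥(Gamma0 N) →* ℂˣ)

/-- `φ` is trivial on the parabolic elements (trace `±2`) of `Γ₀(N)`. -/
def KillsPar : Prop :=
  ∀ γ : ↥(Gamma0 N), ((γ : SL(2, ℤ)) : Matrix (Fin 2) (Fin 2) ℤ).trace ^ 2 = 4 → φ γ = 1

variable {φ}

theorem KillsPar.inf (hpar : KillsPar φ) (γ : ↥(Gamma0 N)) (h : (γ : SL(2, ℤ)) 1 0 = 0) :
    φ γ = 1 :=
  hinf_of_trace hpar γ h

/-- Conjugates of powers of `T` have trace `2`. -/
theorem trace_conj_T_zpow (δ : SL(2, ℤ)) (k : ℤ) :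
    ((δ * ModularGroup.T ^ k * δ⁻¹ : SL(2, ℤ)) : Matrix (Fin 2) (Fin 2) ℤ).trace = 2 := by
  rw [Matrix.SpecialLinearGroup.coe_mul, Matrix.SpecialLinearGroup.coe_mul, Matrix.trace_mul_comm,
    ← Matrix.mul_assoc, ← Matrix.SpecialLinearGroup.coe_mul, inv_mul_cancel,
    Matrix.SpecialLinearGroup.coe_one, Matrix.one_mul, ModularGroup.coe_T_zpow,
    Matrix.trace_fin_two]
  simp

/-- `a_φ ∘ δ` is invariant under `z ↦ z + k` whenever `δ T^k δ⁻¹ ∈ Γ₀(N)`. -/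
theorem aPhi_smul_T_zpow (hpar : KillsPar φ) (δ : SL(2, ℤ)) (k : ℤ)
    (hk : δ * ModularGroup.T ^ k * δ⁻¹ ∈ Gamma0 N) (z : ℍ) :
    aPhi φ (δ • (ModularGroup.T ^ k • z)) = aPhi φ (δ • z) := by
  have e : δ • (ModularGroup.T ^ k • z) = (δ * ModularGroup.T ^ k * δ⁻¹) • (δ • z) := by
    rw [← mul_smul, ← mul_smul]
    congr 1
    group
  have h1 := aPhi_smul hpar.inf ⟨_, hk⟩ (δ • z)
  have h2 : φ ⟨_, hk⟩ = 1 := hpar _ (by
    show ((δ * ModularGroup.T ^ k * δ⁻¹ : SL(2, ℤ)) : Matrix (Fin 2) (Fin 2) ℤ).trace ^ 2 = 4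
    rw [trace_conj_T_zpow]; norm_num)
  rw [h2, Units.val_one, one_mul] at h1
  rw [e]
  exact h1

/-! ### `a_φ ∘ δ` as a periodic function meromorphic at `i∞` -/

section PerMero

variable [NeZero N]

omit [NeZero N] in
/-- `a_φ ∘ δ` is periodic of period the width of the cusp `δ • i∞`, and meromorphic at `i∞`. -/
theorem isPerMero_aPhi_smul (hunit : ∀ γ, ‖((φ γ : ℂˣ) : ℂ)‖ = 1) (hpar : KillsPar φ)
    (δ : SL(2, ℤ)) : IsPerMero (cuspWidth N δ) (fun z : ℍ => aPhi φ (δ • z)) := by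
  refine ⟨mdiff_comp_smul (mdiff_aPhi hunit) δ, ?_, ⟨1, ?_⟩⟩
  · apply periodic_of_vadd
    intro z
    have h1 := aPhi_smul_T_zpow hpar δ (cuspWidth N δ : ℤ)
      ((conj_T_zpow_mem_iff N δ _).mpr dvd_rfl) z
    rw [T_zpow_smul] at h1
    exact_mod_cast h1
  · have := isBoundedAtImInfty_aPhi_smul_mul hunit δ
    simpa using this

omit [NeZero N] in
theorem cuspWidth_mul_div (δ : SL(2, ℤ)) : cuspWidth N δ * (N / cuspWidth N δ) = N :=
  Nat.mul_div_cancel' (cuspWidth_dvd N δ)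

omit [NeZero N] in
theorem isPerMero_aPhi_smul_N (hunit : ∀ γ, ‖((φ γ : ℂˣ) : ℂ)‖ = 1) (hpar : KillsPar φ)
    (δ : SL(2, ℤ)) : IsPerMero N (fun z : ℍ => aPhi φ (δ • z)) := by
  have := (isPerMero_aPhi_smul hunit hpar δ).of_dvd (N / cuspWidth N δ)
  rwa [cuspWidth_mul_div] at this

/-- The order of `a_φ ∘ δ` in `q_N` is divisible by `N / width`. -/
theorem cuspOrd_aPhi_smul (hunit : ∀ γ, ‖((φ γ : ℂˣ) : ℂ)‖ = 1) (hpar : KillsPar φ)
    (δ : SL(2, ℤ)) :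
    ∃ m : ℤ, cuspOrd N (fun z : ℍ => aPhi φ (δ • z)) =
      ((m * ((N / cuspWidth N δ : ℕ) : ℤ) : ℤ) : WithTop ℤ) := by
  have hper := isPerMero_aPhi_smul hunit hpar δ
  have hw := cuspWidth_pos N δ
  have hk : 0 < N / cuspWidth N δ :=
    Nat.div_pos (Nat.le_of_dvd (NeZero.pos N) (cuspWidth_dvd N δ)) hw
  have h := cuspOrd_level hw hk hper
  rw [cuspWidth_mul_div] at h
  cases hc : cuspOrd (cuspWidth N δ) (fun z : ℍ => aPhi φ (δ • z)) with
  | top =>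
    exfalso
    rw [cuspOrd_eq_top_iff hw hper] at hc
    obtain ⟨z, hz⟩ := exists_aPhi_ne_zero hunit hpar.inf
    have := congrFun hc (δ⁻¹ • z)
    simp only [smul_inv_smul, Pi.zero_apply] at this
    exact hz this
  | coe a =>
    refine ⟨a, ?_⟩
    rw [h, hc]
    rfl

end PerMero

/-! ### Powers -/

section Pow

variable {M : ℕ} {f : ℍ → ℂ}

theorem isPerMero_pow_and_cuspOrd_pow (hM : 0 < M) (hf : IsPerMero M f) (m : ℕ) :
    IsPerMero M (fun z : ℍ => f z ^ m) ∧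
      cuspOrd M (fun z : ℍ => f z ^ m) = m • cuspOrd M f := by
  induction m with
  | zero =>
    simp only [pow_zero, zero_smul]
    exact ⟨IsPerMero.const M 1, cuspOrd_const M one_ne_zero⟩
  | succ m ih =>
    have e : (fun z : ℍ => f z ^ (m + 1)) = (fun z : ℍ => f z ^ m) * f := by
      funext z
      simp only [Pi.mul_apply, pow_succ]
    rw [e]
    refine ⟨ih.1.mul hf, ?_⟩
    rw [cuspOrd_mul hM ih.1 hf, ih.2, succ_nsmul]

end Pow

/-! ### The valuation of `u_φ` at a prime at infinity -/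

section Main

variable [NeZero N] {n : ℕ} [NeZero n]

local notation "K" => WHField (Gamma0 N)

/-- The cusp valuation of `u_φ`. -/
theorem cuspValK_uPhi (h : IsEisChar φ n) (hpar : KillsPar φ) (δ : SL(2, ℤ)) :
    ∃ m : ℤ, cuspValK N δ (uPhi h) =
      WithZero.exp (-((n : ℤ) * (m * ((N / cuspWidth N δ : ℕ) : ℤ)))) := by
  obtain ⟨m₀, hm₀⟩ := cuspOrd_aPhi_smul h.unit hpar δ
  have hperN := isPerMero_aPhi_smul_N h.unit hpar δ
  have hpow := (isPerMero_pow_and_cuspOrd_pow (NeZero.pos N) hperN n).2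
  refine ⟨m₀ + cuspWidth N δ, ?_⟩
  have h1 : cuspValK N δ (algebraMap (WH (Gamma0 N)) K (aPhiPow h)) =
      WithZero.exp (-((n : ℤ) * (m₀ * ((N / cuspWidth N δ : ℕ) : ℤ)))) := by
    rw [cuspValK_algebraMap]
    have e : (fun z : ℍ => ((aPhiPow h : WH (Gamma0 N)) : ℍ → ℂ) (δ • z)) =
        fun z : ℍ => aPhi φ (δ • z) ^ n := rfl
    rw [e, hpow, hm₀]
    have e2 : n • ((m₀ * ((N / cuspWidth N δ : ℕ) : ℤ) : ℤ) : WithTop ℤ) =
        (((n : ℤ) * (m₀ * ((N / cuspWidth N δ : ℕ) : ℤ)) : ℤ) : WithTop ℤ) := by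
      rw [← WithTop.coe_nsmul, nsmul_eq_mul]
    rw [e2, toVal_coe]
  have h2 : cuspValK N δ (algebraMap (WH (Gamma0 N)) K (jWH (Gamma0 N) ^ n)) =
      WithZero.exp ((n : ℤ) * (N : ℤ)) := by
    rw [map_pow, map_pow, cuspValK_jWH, ← WithZero.exp_nsmul, nsmul_eq_mul]
  rw [uPhi, map_div₀, h1, h2, ← exp_sub]
  congr 1
  have hN : (N : ℤ) = (cuspWidth N δ : ℤ) * ((N / cuspWidth N δ : ℕ) : ℤ) := by
    exact_mod_cast (cuspWidth_mul_div (N := N) δ).symm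
  rw [hN]
  ring

/-- **Divisibility at infinity**: for every prime `Q` of `Binf`, `n ∣ ord_Q (u_φ)`. -/
theorem exists_valuation_uPhi_eq (h : IsEisChar φ n) (hpar : KillsPar φ)
    (Q : HeightOneSpectrum (integralClosure (DW.Oinf ℂ) K)) :
    ∃ m : ℤ, Q.valuation K (uPhi h) = WithZero.exp (-((n : ℤ) * m)) := by
  obtain ⟨δ, hδ⟩ := RamCusp.exists_cusp_of_prime N Q
  obtain ⟨m, hm⟩ := cuspValK_uPhi h hpar δ
  refine ⟨m, ?_⟩
  have hκ : 0 < N / cuspWidth N δ :=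
    Nat.div_pos (Nat.le_of_dvd (NeZero.pos N) (cuspWidth_dvd N δ)) (cuspWidth_pos N δ)
  have hu0 : Q.valuation K (uPhi h) ≠ 0 := (Valuation.ne_zero_iff _).mpr (uPhi_ne_zero h)
  have h1 := hδ (uPhi h)
  rw [hm, ← exp_log hu0, ← WithZero.exp_nsmul, exp_inj, nsmul_eq_mul] at h1
  rw [← exp_log hu0, exp_inj]
  have hκ' : ((N / cuspWidth N δ : ℕ) : ℤ) ≠ 0 := by exact_mod_cast hκ.ne'
  have : ((N / cuspWidth N δ : ℕ) : ℤ) * log (Q.valuation K (uPhi h)) =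
      ((N / cuspWidth N δ : ℕ) : ℤ) * (-((n : ℤ) * m)) := by
    rw [← h1]; ring
  exact mul_left_cancel₀ hκ' this

end Main

end Fermat.Agent.N4F.Tors.EisCusp
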