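/-
N4-FULL block F, node F0 (helper23): EXACT RAMIFICATION in the abstract Galois dictionary of places
(M2 `GaloisPlaces` / `GaloisDescent`), pure algebra.

Setting: `A` Dedekind, `F = Frac A`, `L/F` Galois with group `G`, `K = L^Hs`, `v` a valuation on `L`
with `v ≤ 1` on `A`, residue field of `A` at the centre algebraically closed of characteristic zero.
Then the exponent `κ` with `v ∘ g⁻¹ |_K = (P_g-adic valuation) ^ κ` is given by
`κ * |Stab_G Q_v| = o * |Hs ∩ Stab_G (g • Q_v)|`, where `v π₀ = exp (-o)` for a generator `π₀` of the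
prime of `A` below.
-/
import Fermat.Agent.M2.GaloisDescent

set_option autoImplicit false

open WithZero IsDedekindDomain
open scoped Pointwise

namespace Fermat.Agent.N4F.Tors.RamDict

open Fermat.Agent.M2 Fermat.Agent.M2.GaloisPlaces

/-! ### Residue constants for integral extensions -/

section ResidueConst

variable {A : Type*} [CommRing A] {L : Type*} [Field L] [Algebra A L]
  (v : Valuation L ℤᵐ⁰) (hv : ∀ a : A, v (algebraMap A L a) ≤ 1)
  (R : Type*) [CommRing R] [Algebra A R] [Algebra R L] [IsScalarTower A R L]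
  [Algebra.IsIntegral A R]

include hv in
theorem le_one_of_algebraMap (r : R) : v (algebraMap R L r) ≤ 1 :=
  le_one_of_isIntegral v hv ((Algebra.IsIntegral.isIntegral (R := A) r).map
    (IsScalarTower.toAlgHom A R L))

/-- The ideal of `R` cut out by `v < 1`. -/
def valIdeal : Ideal R where
  carrier := {r | v (algebraMap R L r) < 1}
  add_mem' := fun {a b} ha hb => by
    show v (algebraMap R L (a + b)) < 1
    rw [map_add]
    exact lt_of_le_of_lt (v.map_add _ _) (max_lt ha hb)
  zero_mem' := by simp
  smul_mem' := fun c x hx => by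
    show v (algebraMap R L (c • x)) < 1
    rw [smul_eq_mul, map_mul, map_mul]
    exact mul_lt_one_of_nonneg_of_lt_one_right (le_one_of_algebraMap v hv R c) zero_le hx

theorem mem_valIdeal_iff {r : R} : r ∈ valIdeal v hv R ↔ v (algebraMap R L r) < 1 := Iff.rfl

instance valIdeal_isPrime : (valIdeal v hv R).IsPrime := by
  refine ⟨?_, fun {x y} hxy => ?_⟩
  · intro h
    have : (1 : R) ∈ valIdeal v hv R := h ▸ Submodule.mem_top
    rw [mem_valIdeal_iff, map_one, map_one] at this
    exact lt_irrefl _ this
  · rw [mem_valIdeal_iff, map_mul, map_mul] at hxy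
    by_contra hcon
    rw [not_or] at hcon
    have hx : v (algebraMap R L x) = 1 :=
      le_antisymm (le_one_of_algebraMap v hv R x) (not_lt.mp hcon.1)
    have hy : v (algebraMap R L y) = 1 :=
      le_antisymm (le_one_of_algebraMap v hv R y) (not_lt.mp hcon.2)
    rw [hx, hy, one_mul] at hxy
    exact lt_irrefl _ hxy

include hv in
/-- If the residue field of `A` at the centre of `v` is (the image of) an algebraically closed field
`k`, the same holds for every integral extension `R` of `A` inside `L`. -/
theorem exists_const_of_isIntegral (k : Type*) [Field k] [IsAlgClosed k] [Algebra k A]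
    (hk : ∀ a : A, ∃ c : k, v (algebraMap A L (a - algebraMap k A c)) < 1) (r : R) :
    ∃ c : k, v (algebraMap R L (r - algebraMap A R (algebraMap k A c))) < 1 := by
  set I := valIdeal v hv R with hI
  set p := I.under A with hp
  have hlies : I.LiesOver p := ⟨rfl⟩
  have hpprime : p.IsPrime := Ideal.IsPrime.under A I
  -- `k → A ⧸ p` is surjective
  have hsurj : Function.Surjective (algebraMap k (A ⧸ p)) := by
    intro x
    obtain ⟨a, rfl⟩ := Ideal.Quotient.mk_surjective x
    obtain ⟨c, hc⟩ := hk a
    refine ⟨c, ?_⟩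
    rw [IsScalarTower.algebraMap_apply k A (A ⧸ p), Ideal.Quotient.algebraMap_eq, eq_comm,
      Ideal.Quotient.eq]
    show algebraMap A R (a - algebraMap k A c) ∈ I
    rw [hI, mem_valIdeal_iff, ← IsScalarTower.algebraMap_apply]
    exact hc
  let ψ : k →+* (R ⧸ I) := (algebraMap (A ⧸ p) (R ⧸ I)).comp (algebraMap k (A ⧸ p))
  let _ : Algebra k (R ⧸ I) := ψ.toAlgebra
  have : IsScalarTower k (A ⧸ p) (R ⧸ I) := .of_algebraMap_eq' rfl
  have hint1 : Algebra.IsIntegral k (A ⧸ p) := Algebra.isIntegral_of_surjective hsurj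
  have hint2 : Algebra.IsIntegral (A ⧸ p) (R ⧸ I) := inferInstance
  have hint : Algebra.IsIntegral k (R ⧸ I) := Algebra.IsIntegral.trans (A ⧸ p)
  have hbij := IsAlgClosed.algebraMap_bijective_of_isIntegral (k := k) (K := R ⧸ I)
  obtain ⟨c, hc⟩ := hbij.2 (Ideal.Quotient.mk I r)
  refine ⟨c, ?_⟩
  rw [← mem_valIdeal_iff v hv R, ← hI, ← Ideal.Quotient.eq, ← hc]
  rfl

end ResidueConst

/-! ### Centres over `A` and over an integral extension -/

section CenterCompare

variable {A : Type*} [CommRing A] {L : Type*} [Field L] [Algebra A L]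
  (R : Type*) [CommRing R] [Algebra A R] [Algebra R L] [IsScalarTower A R L]
  [Algebra.IsIntegral A R]

/-- Two valuations have the same centre on the integral closure of `R` iff they have the same centre
on the integral closure of `A` (`R` integral over `A`). -/
theorem center_eq_iff (v₁ v₂ : Valuation L ℤᵐ⁰)
    (h₁ : ∀ a : A, v₁ (algebraMap A L a) ≤ 1) (h₂ : ∀ a : A, v₂ (algebraMap A L a) ≤ 1)
    (h₁' : ∀ r : R, v₁ (algebraMap R L r) ≤ 1) (h₂' : ∀ r : R, v₂ (algebraMap R L r) ≤ 1) :
    center R v₁ h₁' = center R v₂ h₂' ↔ center A v₁ h₁ = center A v₂ h₂ := by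
  constructor
  · intro h
    ext x
    have hx : IsIntegral R (x : L) := (x.2 : IsIntegral A (x : L)).tower_top
    have := congrArg (fun I : Ideal (integralClosure R L) => (⟨(x : L), hx⟩ : integralClosure R L) ∈ I) h
    simp only [mem_center_iff, eq_iff_iff] at this
    rw [mem_center_iff, mem_center_iff]
    exact this
  · intro h
    ext x
    have hx : IsIntegral A (x : L) := isIntegral_trans (x : L) x.2
    have := congrArg (fun I : Ideal (integralClosure A L) => (⟨(x : L), hx⟩ : integralClosure A L) ∈ I) h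
    simp only [mem_center_iff, eq_iff_iff] at this
    rw [mem_center_iff, mem_center_iff]
    exact this

end CenterCompare

/-! ### Comparison of exponents through the value group -/

section ValueGroup

variable {L : Type*} [Field L]

/-- If `w₁ ^ κ₁ = w₂ ^ κ₂` for two valuations having a uniformiser each, then `κ₁ = κ₂`. -/
theorem exponent_unique (w₁ w₂ : Valuation L ℤᵐ⁰) {κ₁ κ₂ : ℕ}
    (h₁ : ∃ ϖ : L, w₁ ϖ = exp (-1 : ℤ)) (h₂ : ∃ ϖ : L, w₂ ϖ = exp (-1 : ℤ))
    (h : ∀ x : L, w₁ x ^ κ₁ = w₂ x ^ κ₂) : κ₁ = κ₂ := by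
  have key : ∀ (u₁ u₂ : Valuation L ℤᵐ⁰) (a b : ℕ), (∃ ϖ : L, u₁ ϖ = exp (-1 : ℤ)) →
      (∀ x : L, u₁ x ^ a = u₂ x ^ b) → b ∣ a := by
    intro u₁ u₂ a b ⟨ϖ, hϖ⟩ hab
    have hϖ0 : ϖ ≠ 0 := by
      rintro rfl
      rw [map_zero] at hϖ
      exact exp_ne_zero hϖ.symm
    have h2 : u₂ ϖ ≠ 0 := (Valuation.ne_zero_iff _).mpr hϖ0
    have h3 := hab ϖ
    rw [hϖ, ← exp_log h2, ← exp_nsmul, ← exp_nsmul, exp_inj] at h3
    simp only [nsmul_eq_mul, mul_neg, mul_one] at h3
    have : (b : ℤ) ∣ (a : ℤ) := ⟨-(log (u₂ ϖ)), by rw [mul_neg, ← h3, neg_neg]⟩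
    exact Int.natCast_dvd_natCast.mp this
  exact Nat.dvd_antisymm (key w₂ w₁ κ₂ κ₁ h₂ fun x => (h x).symm) (key w₁ w₂ κ₁ κ₂ h₁ h)

end ValueGroup

/-! ### The exact exponent over an intermediate field -/

section Core

variable {A : Type*} [CommRing A] [IsDedekindDomain A]
  (F : Type*) [Field F] [Algebra A F] [IsFractionRing A F]
  {L : Type*} [Field L] [Algebra F L] [Algebra A L] [IsScalarTower A F L]
  {G : Type*} [Group G] [Finite G] [MulSemiringAction G L] [IsGaloisGroup G F L]
  [SMulCommClass G A L]
  (K : Type*) [Field K] [Algebra F K] [Algebra K L] [IsScalarTower F K L]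
  [Algebra A K] [IsScalarTower A F K] [IsScalarTower A K L]
  (Hs : Subgroup G) [IsGaloisGroup Hs K L]
  (v : Valuation L ℤᵐ⁰) (hv : ∀ a : A, v (algebraMap A L a) ≤ 1)

omit [IsScalarTower F K L] in
include F in
/-- **Exact exponent** (`g = 1`): if `P` is the prime of `integralClosure A K` cut out by `v`, then
`v |_K = (P-adic valuation) ^ κ` with `κ * |Stab_G Q_v| = o * |Hs ∩ Stab_G Q_v|`. -/
theorem exists_kappa_core (hp : ∃ a : A, a ≠ 0 ∧ v (algebraMap A L a) < 1)
    (k : Type*) [Field k] [IsAlgClosed k] [CharZero k] [Algebra k A]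
    (hk : ∀ a : A, ∃ c : k, v (algebraMap A L (a - algebraMap k A c)) < 1)
    (o : ℕ) (π₀ : A) (hπ : (center A v hv).under A = Ideal.span {π₀})
    (ho : v (algebraMap A L π₀) = exp (-(o : ℤ)))
    [IsDedekindDomain (integralClosure A K)] [IsFractionRing (integralClosure A K) K]
    (P : HeightOneSpectrum (integralClosure A K))
    (hP : ∀ b : integralClosure A K, b ∈ P.asIdeal ↔ v (algebraMap K L (b : K)) < 1) :
    ∃ κ : ℕ, 1 ≤ κ ∧ (∀ h : K, v (algebraMap K L h) = (P.valuation K h) ^ κ) ∧
      κ * Nat.card (MulAction.stabilizer G (center A v hv)) =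
        o * Nat.card {h : Hs // (h : G) ∈ MulAction.stabilizer G (center A v hv)} := by
  have hfinFL := IsGaloisGroup.finiteDimensional G F L
  have hgalFL := IsGaloisGroup.isGalois G F L
  have hfinKL := IsGaloisGroup.finiteDimensional Hs K L
  have hgalKL := IsGaloisGroup.isGalois Hs K L
  -- the situation over `B = integralClosure A K`
  have hvB : ∀ b : integralClosure A K, v (algebraMap (integralClosure A K) L b) ≤ 1 :=
    le_one_of_algebraMap v hv (integralClosure A K)
  have hinjAK : Function.Injective (algebraMap A K) := by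
    rw [IsScalarTower.algebraMap_eq A F K]
    exact (algebraMap F K).injective.comp (IsFractionRing.injective A F)
  have hpB : ∃ b : integralClosure A K, b ≠ 0 ∧
      v (algebraMap (integralClosure A K) L b) < 1 := by
    obtain ⟨a, ha0, ha⟩ := hp
    refine ⟨algebraMap A (integralClosure A K) a, ?_, ?_⟩
    · intro h
      have h2 := congrArg (algebraMap (integralClosure A K) K) h
      rw [← IsScalarTower.algebraMap_apply, map_zero] at h2
      exact ha0 ((map_eq_zero_iff _ hinjAK).mp h2)
    · rwa [← IsScalarTower.algebraMap_apply]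
  let _ : Algebra k (integralClosure A K) :=
    ((algebraMap A (integralClosure A K)).comp (algebraMap k A)).toAlgebra
  have hkB : ∀ b : integralClosure A K, ∃ c : k,
      v (algebraMap (integralClosure A K) L (b - algebraMap k (integralClosure A K) c)) < 1 :=
    fun b => exists_const_of_isIntegral v hv (integralClosure A K) k hk b
  have hdedC' : IsDedekindDomain (integralClosure (integralClosure A K) L) :=
    integralClosure.isDedekindDomain (integralClosure A K) K L
  have hfracC' : IsFractionRing (integralClosure (integralClosure A K) L) L :=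
    integralClosure.isFractionRing_of_finite_extension K L
  let iB : MulSemiringAction Hs (integralClosure (integralClosure A K) L) :=
    instMulSemiringActionSubtypeMemSubalgebraIntegralClosure
  let iI : MulAction Hs (Ideal (integralClosure (integralClosure A K) L)) :=
    Ideal.pointwiseDistribMulAction.toMulAction
  have hcardB := card_stabilizer_center (G := Hs) K v hvB hpB k hkB
  obtain ⟨κ₂, hκ₂1, hκ₂⟩ := exists_pow_eq K v hvB hpB
  -- the situation over `A`
  have hdedC : IsDedekindDomain (integralClosure A L) := integralClosure.isDedekindDomain A F L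
  have hfracC : IsFractionRing (integralClosure A L) L :=
    integralClosure.isFractionRing_of_finite_extension F L
  have hcardA := card_stabilizer_center (G := G) F v hv hp k hk
  obtain ⟨κ₁, hκ₁1, hκ₁⟩ := exists_pow_eq F v hv hp
  -- the two exponents on `L` agree
  have hκeq : κ₁ = κ₂ := by
    refine exponent_unique ((centerHOS F v hv hp).valuation L)
      ((centerHOS K v hvB hpB).valuation L)
      ((centerHOS F v hv hp).valuation_exists_uniformizer L)
      ((centerHOS K v hvB hpB).valuation_exists_uniformizer L) fun x => ?_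
    rw [← hκ₁ x, ← hκ₂ x]
  -- `o = κ₁ * e`
  have hfinA : Module.Finite A (integralClosure A L) := IsIntegralClosure.finite A F L _
  have h1 : FaithfulSMul A L :=
    (faithfulSMul_iff_algebraMap_injective A L).mpr (algebraMap_injective_of_tower F)
  have h2 : Module.IsTorsionFree A L := inferInstance
  have h3 : Module.IsTorsionFree A (integralClosure A L) := inferInstance
  have hπ' : (centerHOS F v hv hp).asIdeal.under A = Ideal.span {π₀} := hπ
  have hWπ := TameDifferent.valuation_algebraMap_eq_exp_neg_ramificationIdx A F L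
    (integralClosure A L) (centerHOS F v hv hp) hπ'
  have hoκ : o = κ₁ * Nat.card (MulAction.stabilizer G (center A v hv)) := by
    have h := hκ₁ (algebraMap A L π₀)
    rw [ho, hWπ, ← exp_nsmul, exp_inj, centerHOS_asIdeal, ← hcardA] at h
    simp only [nsmul_eq_mul, mul_neg, neg_inj] at h
    exact_mod_cast h
  -- the prime `W` of `integralClosure B L` lies over `P`
  have hlies : (centerHOS K v hvB hpB).asIdeal.LiesOver P.asIdeal := ⟨by
    ext b
    rw [hP, Ideal.under, Ideal.mem_comap, centerHOS_asIdeal, mem_center_iff]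
    rfl⟩
  have hval : ∀ x : K, P.valuation K x ^
      (P.asIdeal.ramificationIdx' (centerHOS K v hvB hpB).asIdeal) =
        (centerHOS K v hvB hpB).valuation L (algebraMap K L x) :=
    fun x => IsDedekindDomain.HeightOneSpectrum.valuation_liesOver L P (centerHOS K v hvB hpB) x
  have he' : P.asIdeal.ramificationIdx' (centerHOS K v hvB hpB).asIdeal =
      (centerHOS K v hvB hpB).asIdeal.ramificationIdx (integralClosure A K) :=
    Ideal.ramificationIdx'_eq_ramificationIdx P.asIdeal (centerHOS K v hvB hpB).asIdeal P.ne_bot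
  -- the decomposition group in `Hs`
  have hstab : Nat.card {h : Hs // (h : G) ∈ MulAction.stabilizer G (center A v hv)} =
      (center (integralClosure A K) v hvB).ramificationIdx (integralClosure A K) := by
    rw [← hcardB]
    refine Nat.card_congr (Equiv.subtypeEquivRight fun h => ?_)
    rw [MulAction.mem_stabilizer_iff, MulAction.mem_stabilizer_iff, smul_center, smul_center]
    have h4 := center_eq_iff (integralClosure A K) (conj v h) v
      (conj_le_one v hv h) hv (conj_le_one v hvB h) hvB
    rw [h4]
    exact Iff.rfl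
  set e' := Nat.card {h : Hs // (h : G) ∈ MulAction.stabilizer G (center A v hv)} with he'def
  have he'pos : 1 ≤ e' := by
    have : Nonempty {h : Hs // (h : G) ∈ MulAction.stabilizer G (center A v hv)} :=
      ⟨⟨1, by simp⟩⟩
    exact Nat.card_pos
  have he'eq : P.asIdeal.ramificationIdx' (centerHOS K v hvB hpB).asIdeal = e' := by
    rw [he', centerHOS_asIdeal, ← hstab]
  refine ⟨e' * κ₂, Nat.one_le_iff_ne_zero.mpr (Nat.mul_ne_zero (by omega) (by omega)),
    fun h => ?_, ?_⟩
  · rw [hκ₂ (algebraMap K L h), ← hval h, he'eq, pow_mul]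
  · rw [hoκ, hκeq]
    ring

omit [IsScalarTower F K L] in
include F in
/-- **Exact exponent**: the restriction to `K` of the `g`-conjugate of `v` is the `κ`-th power of the
adic valuation of its centre, where `κ * |Stab_G Q_v| = o * |Hs ∩ Stab_G (g • Q_v)|`. -/
theorem exists_kappa (hp : ∃ a : A, a ≠ 0 ∧ v (algebraMap A L a) < 1)
    (k : Type*) [Field k] [IsAlgClosed k] [CharZero k] [Algebra k A]
    (hk : ∀ a : A, ∃ c : k, v (algebraMap A L (a - algebraMap k A c)) < 1)
    (g : G) (o : ℕ) (π₀ : A) (hπ : (center A v hv).under A = Ideal.span {π₀})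
    (ho : v (algebraMap A L π₀) = exp (-(o : ℤ)))
    [IsDedekindDomain (integralClosure A K)] [IsFractionRing (integralClosure A K) K] :
    ∃ κ : ℕ, 1 ≤ κ ∧
      (∀ h : K, resVal K v g h = ((centerKHOS F K v hv hp g).valuation K h) ^ κ) ∧
      κ * Nat.card (MulAction.stabilizer G (center A v hv)) =
        o * Nat.card {h : Hs // (h : G) ∈ MulAction.stabilizer G (g • center A v hv)} := by
  have hv' : ∀ a : A, conj v g (algebraMap A L a) ≤ 1 := conj_le_one v hv g
  have hval : ∀ a : A, conj v g (algebraMap A L a) = v (algebraMap A L a) := fun a => by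
    rw [conj_apply, smul_algebraMap]
  have hp' : ∃ a : A, a ≠ 0 ∧ conj v g (algebraMap A L a) < 1 := by
    obtain ⟨a, ha0, ha⟩ := hp
    exact ⟨a, ha0, by rwa [hval]⟩
  have hk' : ∀ a : A, ∃ c : k, conj v g (algebraMap A L (a - algebraMap k A c)) < 1 := by
    intro a
    obtain ⟨c, hc⟩ := hk a
    exact ⟨c, by rwa [hval]⟩
  have hπ' : (center A (conj v g) hv').under A = Ideal.span {π₀} := by
    rw [← hπ]
    ext a
    rw [mem_under_center_iff, mem_under_center_iff, hval]
  have ho' : conj v g (algebraMap A L π₀) = exp (-(o : ℤ)) := by rw [hval, ho]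
  have hP : ∀ b : integralClosure A K, b ∈ (centerKHOS F K v hv hp g).asIdeal ↔
      conj v g (algebraMap K L (b : K)) < 1 := fun b => Iff.rfl
  obtain ⟨κ, hκ1, hκ, hcard⟩ := exists_kappa_core F K Hs (conj v g) hv' hp' k hk' o π₀ hπ' ho'
    (centerKHOS F K v hv hp g) hP
  refine ⟨κ, hκ1, fun h => ?_, ?_⟩
  · rw [← hκ h]
    rfl
  · have hc : center A (conj v g) hv' = g • center A v hv := (smul_center v hv g).symm
    rw [hc] at hcard
    rw [← hcard]
    congr 1
    rw [MulAction.stabilizer_smul_eq_stabilizer_map_conj]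
    exact (Nat.card_congr ((MulAction.stabilizer G (center A v hv)).equivMapOfInjective
      (MulAut.conj g).toMonoidHom (MulAut.conj g).injective).toEquiv)

end Core

end Fermat.Agent.N4F.Tors.RamDict
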