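/-
N4-FULL block F, node F0-cusp (helper23): EXACT RAMIFICATION of the M2 dictionary at the cusps.

For `δ : SL(2,ℤ)` the cusp valuation `cuspValK N δ` on `K = WHField (Gamma0 N)` (order at `δ • i∞`
in the parameter `q_N`) is the `(N / w)`-th power of the adic valuation of its centre, where
`w = cuspWidth N δ` is the width of the cusp `δ • i∞` for `Γ₀(N)`: the least `k ≥ 1` with
`δ T^k δ⁻¹ ∈ Γ₀(N)`.
-/
import Fermat.Agent.N4F.Tors.RamDict
import Fermat.Agent.M2.DictInf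

set_option autoImplicit false

open UpperHalfPlane MatrixGroups CongruenceSubgroup WithZero IsDedekindDomain
open scoped Pointwise

namespace Fermat.Agent.N4F.Tors.RamCusp

open Fermat.Agent.M2 Fermat.Agent.M2.CuspSqueeze Fermat.Agent.M2.CuspValK
  Fermat.Agent.M2.DictInf

/-! ### A cyclic group meeting a subgroup -/

section Cyclic

variable {G : Type*} [Group G]

/-- If `t ^ k ∈ Hs ↔ w ∣ k`, then `|Hs ∩ ⟨t⟩| * w = orderOf t`. -/
theorem card_inter_zpowers_mul (Hs : Subgroup G) (t : G) {w : ℕ} (hw : w ≠ 0)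
    (hS : ∀ k : ℤ, t ^ k ∈ Hs ↔ (w : ℤ) ∣ k) :
    Nat.card {h : Hs // (h : G) ∈ Subgroup.zpowers t} * w = orderOf t := by
  have hequiv : {h : Hs // (h : G) ∈ Subgroup.zpowers t} ≃ Subgroup.zpowers (t ^ w) :=
    { toFun := fun h => ⟨(h.1 : G), by
        obtain ⟨k, hk⟩ := h.2
        have h1 : t ^ k ∈ Hs := by
          have : t ^ k = (h.1 : G) := hk
          rw [this]; exact h.1.2
        obtain ⟨m, rfl⟩ := (hS k).mp h1
        refine ⟨m, ?_⟩
        show (t ^ w) ^ m = _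
        rw [← hk, ← zpow_natCast, ← zpow_mul]⟩
      invFun := fun x => ⟨⟨(x : G), by
        obtain ⟨m, hm⟩ := x.2
        have : (x : G) = t ^ ((w : ℤ) * m) := by
          rw [zpow_mul, zpow_natCast]; exact hm.symm
        rw [this]
        exact (hS _).mpr (dvd_mul_right _ _)⟩, by
        obtain ⟨m, hm⟩ := x.2
        refine ⟨(w : ℤ) * m, ?_⟩
        show t ^ ((w : ℤ) * m) = (x : G)
        rw [zpow_mul, zpow_natCast]; exact hm⟩
      left_inv := fun h => rfl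
      right_inv := fun x => rfl }
  rw [Nat.card_congr hequiv, Nat.card_zpowers, orderOf_pow' t hw]
  have hdvd : w ∣ orderOf t := by
    have h1 : t ^ ((orderOf t : ℕ) : ℤ) ∈ Hs := by
      rw [zpow_natCast, pow_orderOf_eq_one]; exact Hs.one_mem
    exact Int.natCast_dvd_natCast.mp ((hS _).mp h1)
  rw [Nat.gcd_eq_right hdvd, Nat.div_mul_cancel hdvd]

end Cyclic

/-! ### The width of a cusp of `Γ₀(N)` -/

section Width

variable (N : ℕ)

/-- The exponents `k` with `δ T^k δ⁻¹ ∈ Γ₀(N)`. -/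
def widthSubgroup (δ : SL(2, ℤ)) : AddSubgroup ℤ where
  carrier := {k | δ * ModularGroup.T ^ k * δ⁻¹ ∈ Gamma0 N}
  zero_mem' := by
    show δ * ModularGroup.T ^ (0 : ℤ) * δ⁻¹ ∈ Gamma0 N
    rw [zpow_zero, mul_one, mul_inv_cancel]
    exact (Gamma0 N).one_mem
  add_mem' := fun {a b} ha hb => by
    show δ * ModularGroup.T ^ (a + b) * δ⁻¹ ∈ Gamma0 N
    have : δ * ModularGroup.T ^ (a + b) * δ⁻¹ =
        (δ * ModularGroup.T ^ a * δ⁻¹) * (δ * ModularGroup.T ^ b * δ⁻¹) := by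
      rw [zpow_add]; group
    rw [this]
    exact (Gamma0 N).mul_mem ha hb
  neg_mem' := fun {a} ha => by
    show δ * ModularGroup.T ^ (-a) * δ⁻¹ ∈ Gamma0 N
    have : δ * ModularGroup.T ^ (-a) * δ⁻¹ = (δ * ModularGroup.T ^ a * δ⁻¹)⁻¹ := by
      rw [_root_.zpow_neg]; group
    rw [this]
    exact (Gamma0 N).inv_mem ha

lemma mem_widthSubgroup (δ : SL(2, ℤ)) (k : ℤ) :
    k ∈ widthSubgroup N δ ↔ δ * ModularGroup.T ^ k * δ⁻¹ ∈ Gamma0 N := Iff.rfl

/-- The width of the cusp `δ • i∞` for `Γ₀(N)`. -/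
noncomputable def cuspWidth (δ : SL(2, ℤ)) : ℕ :=
  (Int.subgroup_cyclic (widthSubgroup N δ)).choose.natAbs

lemma conj_T_zpow_mem_iff (δ : SL(2, ℤ)) (k : ℤ) :
    δ * ModularGroup.T ^ k * δ⁻¹ ∈ Gamma0 N ↔ (cuspWidth N δ : ℤ) ∣ k := by
  have h := (Int.subgroup_cyclic (widthSubgroup N δ)).choose_spec
  rw [← mem_widthSubgroup]
  conv_lhs => rw [h]
  rw [AddSubgroup.mem_closure_singleton, cuspWidth, Int.natAbs_dvd]
  constructor
  · rintro ⟨m, rfl⟩
    exact ⟨m, by rw [smul_eq_mul, mul_comm]⟩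
  · rintro ⟨m, rfl⟩
    exact ⟨m, by rw [smul_eq_mul, mul_comm]⟩

lemma conj_T_pow_N_mem (δ : SL(2, ℤ)) : δ * ModularGroup.T ^ ((N : ℕ) : ℤ) * δ⁻¹ ∈ Gamma0 N := by
  apply Gamma_le_Gamma0 N
  rw [zpow_natCast]
  exact (Gamma_normal N).conj_mem _ (CuspSqueeze.T_pow_mem_Gamma N) δ

lemma cuspWidth_dvd (δ : SL(2, ℤ)) : cuspWidth N δ ∣ N :=
  Int.natCast_dvd_natCast.mp ((conj_T_zpow_mem_iff N δ _).mp (conj_T_pow_N_mem N δ))

lemma cuspWidth_pos [NeZero N] (δ : SL(2, ℤ)) : 0 < cuspWidth N δ :=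
  Nat.pos_of_dvd_of_pos (cuspWidth_dvd N δ) (NeZero.pos N)

lemma conj_T_pow_cuspWidth_mem (δ : SL(2, ℤ)) :
    δ * ModularGroup.T ^ (cuspWidth N δ) * δ⁻¹ ∈ Gamma0 N := by
  have := (conj_T_zpow_mem_iff N δ (cuspWidth N δ : ℤ)).mpr dvd_rfl
  rwa [zpow_natCast] at this

end Width

/-! ### The exact exponent at a cusp -/

section Main

variable (N : ℕ) [NeZero N]

local notation "K" => WHField (Gamma0 N)
local notation "L" => WHField (Gamma N)

lemma piG_mem_Heff_iff (x : SL(2, ℤ)) :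
    piG (Gamma N) x ∈ Heff (Gamma0 N) (Gamma N) ↔ x ∈ Gamma0 N := by
  constructor
  · rintro ⟨y, hy, hxy⟩
    have h1 : y⁻¹ * x ∈ Nfull N := by
      show piG (Gamma N) (y⁻¹ * x) = 1
      rw [map_mul, map_inv, hxy, inv_mul_cancel]
    have h2 : y⁻¹ * x ∈ Gamma0 N := Nfull_le_Gamma0 N h1
    have : x = y * (y⁻¹ * x) := by group
    rw [this]
    exact (Gamma0 N).mul_mem hy h2
  · intro hx
    exact ⟨x, hx, rfl⟩

/-- **F0-cusp**: if `cuspValK N δ = (Q-adic valuation) ^ κ` then `κ * (width of δ • i∞) = N`. -/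
theorem kappa_mul_cuspWidth (δ : SL(2, ℤ))
    (Q : HeightOneSpectrum (integralClosure (DW.Oinf ℂ) K)) (κ : ℕ)
    (hκ : ∀ h : K, cuspValK N δ h = (Q.valuation K h) ^ κ) :
    κ * cuspWidth N δ = N := by
  obtain ⟨κ₀, hκ₀1, hκ₀, hcard⟩ := RamDict.exists_kappa (RatFunc ℂ) K
    (Heff (Gamma0 N) (Gamma N)) (vInfL N) (vInfL_le_one N) (exists_vInfL_lt_one N) ℂ
    (exists_vInfL_sub_lt_one N) (piG (Gamma N) δ) N (DW.piInf ℂ) (under_center_vInfL N)
    (vInfL_piInf N)
  rw [resVal_vInfL] at hκ₀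
  -- the two exponents agree
  have hκeq : κ = κ₀ := by
    refine RamDict.exponent_unique (Q.valuation K)
      ((GaloisPlaces.centerKHOS (RatFunc ℂ) K (vInfL N) (vInfL_le_one N)
        (exists_vInfL_lt_one N) (piG (Gamma N) δ)).valuation K)
      (Q.valuation_exists_uniformizer K)
      ((GaloisPlaces.centerKHOS (RatFunc ℂ) K (vInfL N) (vInfL_le_one N)
        (exists_vInfL_lt_one N) (piG (Gamma N) δ)).valuation_exists_uniformizer K) fun x => ?_
    rw [← hκ x, ← hκ₀ x]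
  subst hκeq
  -- the decomposition groups
  rw [stabilizer_center_vInfL, Nat.card_zpowers] at hcard
  set g := piG (Gamma N) δ with hg
  set s := piG (Gamma N) ModularGroup.T with hs
  have hstab : MulAction.stabilizer (Geff (Gamma N))
      (g • GaloisPlaces.center (DW.Oinf ℂ) (vInfL N) (vInfL_le_one N)) =
        Subgroup.zpowers (g * s * g⁻¹) := by
    rw [MulAction.stabilizer_smul_eq_stabilizer_map_conj, stabilizer_center_vInfL,
      MonoidHom.map_zpowers]
    rfl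
  rw [hstab] at hcard
  have hS : ∀ k : ℤ, (g * s * g⁻¹) ^ k ∈ Heff (Gamma0 N) (Gamma N) ↔
      (cuspWidth N δ : ℤ) ∣ k := by
    intro k
    have : (g * s * g⁻¹) ^ k = piG (Gamma N) (δ * ModularGroup.T ^ k * δ⁻¹) := by
      rw [map_mul, map_mul, map_zpow, map_inv, ← conj_zpow]
    rw [this, piG_mem_Heff_iff, conj_T_zpow_mem_iff]
  have hcount := card_inter_zpowers_mul (Heff (Gamma0 N) (Gamma N)) (g * s * g⁻¹)
    (cuspWidth_pos N δ).ne' hS
  have hord : orderOf (g * s * g⁻¹) = orderOf s := by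
    have := orderOf_injective (MulAut.conj g).toMonoidHom (MulAut.conj g).injective s
    simpa using this
  rw [hord] at hcount
  -- arithmetic
  have hwT : 0 < orderOf s := wT_pos N
  set c := Nat.card {h : Heff (Gamma0 N) (Gamma N) // (h : Geff (Gamma N)) ∈
    Subgroup.zpowers (g * s * g⁻¹)} with hc
  have hcpos : 0 < c := by
    rcases Nat.eq_zero_or_pos c with h0 | h0
    · rw [h0, zero_mul] at hcount
      omega
    · exact h0
  have : κ * cuspWidth N δ * c = N * c := by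
    calc κ * cuspWidth N δ * c = κ * (c * cuspWidth N δ) := by ring
      _ = κ * orderOf s := by rw [hcount]
      _ = N * c := hcard
  exact Nat.eq_of_mul_eq_mul_right hcpos this

/-- Every cusp is the centre of a prime `Q` of `Binf` with
`cuspValK N δ = (Q-adic valuation) ^ (N / width)`. -/
theorem exists_prime_of_cusp (δ : SL(2, ℤ)) :
    ∃ Q : HeightOneSpectrum (integralClosure (DW.Oinf ℂ) K),
      ∀ h : K, cuspValK N δ h = (Q.valuation K h) ^ (N / cuspWidth N δ) := by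
  obtain ⟨Q, κ, -, hκ⟩ := DictInf.exists_prime_of_cusp N δ
  refine ⟨Q, fun h => ?_⟩
  have h1 := kappa_mul_cuspWidth N δ Q κ hκ
  have h2 : N / cuspWidth N δ = κ :=
    Nat.div_eq_of_eq_mul_left (cuspWidth_pos N δ) h1.symm
  rw [h2]
  exact hκ h

/-- Every prime `Q` of `Binf` is the centre of a cusp `δ • i∞` with
`cuspValK N δ = (Q-adic valuation) ^ (N / width)`. -/
theorem exists_cusp_of_prime (Q : HeightOneSpectrum (integralClosure (DW.Oinf ℂ) K)) :
    ∃ δ : SL(2, ℤ), ∀ h : K, cuspValK N δ h = (Q.valuation K h) ^ (N / cuspWidth N δ) := by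
  obtain ⟨δ, κ, -, hκ⟩ := DictInf.exists_cusp_of_prime N Q
  refine ⟨δ, fun h => ?_⟩
  have h1 := kappa_mul_cuspWidth N δ Q κ hκ
  have h2 : N / cuspWidth N δ = κ :=
    Nat.div_eq_of_eq_mul_left (cuspWidth_pos N δ) h1.symm
  rw [h2]
  exact hκ h

end Main

end Fermat.Agent.N4F.Tors.RamCusp
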