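/-
N4-FULL block F, node F0-fin (helper6): EXACT RAMIFICATION of the M2 dictionary at the points of `ℍ`.

For `z : ℍ` the point valuation `vF (Gamma0 N) z` on `K = WHField (Gamma0 N)` (order of vanishing at
`z` of modular functions of level `Γ₀(N)`) is the `e_z`-th power of the adic valuation of its centre,
where `2 e_z` is the order of the stabiliser of `z` in `Γ₀(N)`.  Together with the rotation lemma
(`e_z` divides the order at `z` of every holomorphic function invariant under that stabiliser).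
-/
import Fermat.Agent.N4F.Tors.RamCusp
import Fermat.Agent.M2.DictSqueeze

set_option autoImplicit false

open UpperHalfPlane MatrixGroups Polynomial CongruenceSubgroup WithZero IsDedekindDomain MulAction
open scoped Pointwise Manifold

namespace Fermat.Agent.N4F.Tors.RamPoint

open Fermat.Agent.M2 Fermat.Agent.M2.Dict Fermat.Agent.M2.OrdVal

/-! ### The stabiliser of a point in `Γ₀(N)` -/

section Stab

variable (N : ℕ) (z : ℍ)

/-- The stabiliser of `z` in `Γ₀(N)`, as a subgroup of `SL(2,ℤ)`. -/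
noncomputable def stab0 : Subgroup SL(2, ℤ) := stabilizer SL(2, ℤ) z ⊓ Gamma0 N

lemma mem_stab0 (x : SL(2, ℤ)) : x ∈ stab0 N z ↔ x • z = z ∧ x ∈ Gamma0 N := Iff.rfl

instance finite_stab0 : Finite (stab0 N z) :=
  Finite.of_injective (fun x : stab0 N z => (⟨x.1, x.2.1⟩ : stabilizer SL(2, ℤ) z))
    fun a b h => Subtype.ext (congrArg (fun y : stabilizer SL(2, ℤ) z => (y : SL(2, ℤ))) h)

/-- The two descriptions of the stabiliser have the same cardinality. -/
theorem card_stab0 :
    Nat.card (stab0 N z) = Nat.card {γ : ↥(Gamma0 N) // (γ : SL(2, ℤ)) • z = z} :=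
  Nat.card_congr
    { toFun := fun x => ⟨⟨x.1, x.2.2⟩, x.2.1⟩
      invFun := fun γ => ⟨γ.1.1, γ.2, γ.1.2⟩
      left_inv := fun _ => rfl
      right_inv := fun _ => rfl }

lemma neg_one_mem_stab0 : (-1 : SL(2, ℤ)) ∈ stab0 N z := by
  refine ⟨Stab.neg_one_mem z, ?_⟩
  show (-1 : SL(2, ℤ)) ∈ Gamma0 N
  rw [Gamma0_mem]
  simp

/-- The restriction of `piG (Gamma N)` to the stabiliser of `z` in `Γ₀(N)`. -/
noncomputable def stab0Hom : stab0 N z →* Geff (Gamma N) :=
  (piG (Gamma N)).comp (stab0 N z).subtype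

theorem stab0Hom_range : (stab0Hom N z).range = (stab0 N z).map (piG (Gamma N)) := by
  rw [stab0Hom, MonoidHom.range_comp, Subgroup.range_subtype]

theorem card_ker_mul_card_range0 :
    Nat.card (stab0Hom N z).ker * Nat.card (stab0Hom N z).range = Nat.card (stab0 N z) := by
  rw [← Subgroup.index_ker, Subgroup.card_mul_index]

variable [NeZero N]

/-- The kernels of the two restrictions of `piG` agree (`Nfull ≤ Γ₀(N)`). -/
theorem card_ker_stab0Hom : Nat.card (stab0Hom N z).ker = Nat.card (stabHom N z).ker :=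
  Nat.card_congr
    { toFun := fun x => ⟨⟨x.1.1, x.1.2.1⟩, x.2⟩
      invFun := fun x => ⟨⟨x.1.1, x.1.2, Nfull_le_Gamma0 N x.2⟩, x.2⟩
      left_inv := fun _ => rfl
      right_inv := fun _ => rfl }

end Stab

/-! ### The exact exponent at a point of `ℍ` -/

section Main

variable (N : ℕ) [NeZero N] (z : ℍ)

local notation "K" => WHField (Gamma0 N)
local notation "L" => WHField (Gamma N)

/-- `Hs ∩ π(Stab z) = π(Stab_{Γ₀(N)} z)`. -/
theorem card_inter_eq :
    Nat.card {h : Heff (Gamma0 N) (Gamma N) //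
        (h : Geff (Gamma N)) ∈ (stabilizer SL(2, ℤ) z).map (piG (Gamma N))} =
      Nat.card (stab0Hom N z).range := by
  rw [stab0Hom_range]
  refine Nat.card_congr
    { toFun := fun h => ⟨(h.1 : Geff (Gamma N)), ?_⟩
      invFun := fun y => ⟨⟨y.1, ?_⟩, ?_⟩
      left_inv := fun _ => rfl
      right_inv := fun _ => rfl }
  · obtain ⟨x, hx, hxh⟩ := h.2
    have hmem : piG (Gamma N) x ∈ Heff (Gamma0 N) (Gamma N) := by
      rw [hxh]; exact h.1.2
    exact ⟨x, ⟨hx, (RamCusp.piG_mem_Heff_iff N x).mp hmem⟩, hxh⟩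
  · obtain ⟨x, hx, hxy⟩ := y.2
    rw [← hxy]
    exact (RamCusp.piG_mem_Heff_iff N x).mpr hx.2
  · obtain ⟨x, hx, hxy⟩ := y.2
    exact ⟨x, hx.1, hxy⟩

set_option synthInstance.maxHeartbeats 400000 in
/-- **F0-fin**: if `vF (Gamma0 N) z = (P-adic valuation) ^ κ` then `2 κ` is the order of the
stabiliser of `z` in `Γ₀(N)`. -/
theorem two_mul_kappa (P : HeightOneSpectrum (integralClosure ℂ[X] K)) (κ : ℕ)
    (hκ : ∀ h : K, vF (Gamma0 N) z h = (P.valuation K h) ^ κ) :
    2 * κ = Nat.card {γ : ↥(Gamma0 N) // (γ : SL(2, ℤ)) • z = z} := by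
  obtain ⟨κ₀, hκ₀1, hκ₀, hcard⟩ := RamDict.exists_kappa (RatFunc ℂ) K
    (Heff (Gamma0 N) (Gamma N)) (vF (Gamma N) z) (vF_poly_le_one (Gamma N) z)
    (vF_hp (Gamma N) z) ℂ (vF_hk (Gamma N) z) (piG (Gamma N) 1)
    (Nat.card (stabilizer SL(2, ℤ) z) / 2) (X - C (jInv z)) (under_center_vF (Gamma N) z)
    (vF_X_sub_C N z)
  rw [resVal_vF, one_smul] at hκ₀
  -- the two exponents agree
  have hκeq : κ = κ₀ := by
    refine RamDict.exponent_unique (P.valuation K)
      ((GaloisPlaces.centerKHOS (RatFunc ℂ) K (vF (Gamma N) z) (vF_poly_le_one (Gamma N) z)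
        (vF_hp (Gamma N) z) (piG (Gamma N) 1)).valuation K)
      (P.valuation_exists_uniformizer K)
      ((GaloisPlaces.centerKHOS (RatFunc ℂ) K (vF (Gamma N) z) (vF_poly_le_one (Gamma N) z)
        (vF_hp (Gamma N) z) (piG (Gamma N) 1)).valuation_exists_uniformizer K) fun x => ?_
    rw [← hκ x, ← hκ₀ x]
  subst hκeq
  -- the decomposition groups
  rw [map_one, one_smul, stabilizer_center_vF, card_inter_eq, ← stabHom_range] at hcard
  -- arithmetic
  have h1 := card_ker_mul_card_range N z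
  have h2 := card_ker_mul_card_range0 N z
  rw [card_ker_stab0Hom] at h2
  have h4 : 2 * (Nat.card (stabilizer SL(2, ℤ) z) / 2) = Nat.card (stabilizer SL(2, ℤ) z) :=
    Nat.mul_div_cancel' (Stab.two_dvd_card z)
  have hspos : 0 < Nat.card (stabilizer SL(2, ℤ) z) := Stab.card_pos z
  rw [← card_stab0]
  set s := Nat.card (stabilizer SL(2, ℤ) z) with hs
  set s₀ := Nat.card (stab0 N z) with hs₀
  set k := Nat.card (stabHom N z).ker with hk
  set r := Nat.card (stabHom N z).range with hr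
  set c := Nat.card (stab0Hom N z).range with hc
  have key : 2 * κ * s = s₀ * s := by
    calc 2 * κ * s = k * (2 * (κ * r)) := by rw [← h1]; ring
      _ = k * (2 * (s / 2 * c)) := by rw [hcard]
      _ = k * (s * c) := by rw [← mul_assoc 2, h4]
      _ = s₀ * s := by rw [← h2]; ring
  exact Nat.eq_of_mul_eq_mul_right hspos key

/-- Every point of `ℍ` is the centre of a prime `P` of `B` with
`vF (Gamma0 N) z = (P-adic valuation) ^ (|Stab_{Γ₀(N)} z| / 2)`. -/
theorem exists_prime_of_point :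
    ∃ P : HeightOneSpectrum (integralClosure ℂ[X] K), ∀ h : K, vF (Gamma0 N) z h =
      (P.valuation K h) ^ (Nat.card {γ : ↥(Gamma0 N) // (γ : SL(2, ℤ)) • z = z} / 2) := by
  obtain ⟨P, κ, -, hκ⟩ := Dict.exists_prime_of_point N z
  refine ⟨P, fun h => ?_⟩
  rw [← two_mul_kappa N z P κ hκ, Nat.mul_div_cancel_left κ (by norm_num)]
  exact hκ h

/-- Every prime `P` of `B` is the centre of a point `z : ℍ` with
`vF (Gamma0 N) z = (P-adic valuation) ^ (|Stab_{Γ₀(N)} z| / 2)`. -/
theorem exists_point_of_prime (P : HeightOneSpectrum (integralClosure ℂ[X] K)) :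
    ∃ z : ℍ, ∀ h : K, vF (Gamma0 N) z h =
      (P.valuation K h) ^ (Nat.card {γ : ↥(Gamma0 N) // (γ : SL(2, ℤ)) • z = z} / 2) := by
  obtain ⟨z, κ, -, hκ⟩ := Dict.exists_point_of_prime N P
  refine ⟨z, fun h => ?_⟩
  rw [← two_mul_kappa N z P κ hκ, Nat.mul_div_cancel_left κ (by norm_num)]
  exact hκ h

end Main

/-! ### The rotation lemma for stabilisers in `Γ₀(N)` -/

section Rotation

variable (N : ℕ)

/-- **Rotation lemma.**  The order of vanishing at `z` of a holomorphic function invariant under the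
stabiliser of `z` in `Γ₀(N)` is divisible by half the order of that stabiliser. -/
theorem card_stabilizer_half_dvd_ordAt {f : ℍ → ℂ} (hf : MDiff f) (z : ℍ) {m : ℕ}
    (hm : OrdVal.ordAt z f = m)
    (hinv : ∀ γ : SL(2, ℤ), γ ∈ Gamma0 N → γ • z = z → ∀ w : ℍ, f (γ • w) = f w) :
    Nat.card {γ : ↥(Gamma0 N) // (γ : SL(2, ℤ)) • z = z} / 2 ∣ m := by
  by_cases hfz : f z ≠ 0
  · have h0 : OrdVal.ordAt z f = 0 := (ordAt_eq_zero_iff hf z).mpr hfz
    rw [h0] at hm
    have : m = 0 := by exact_mod_cast hm.symm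
    rw [this]
    exact dvd_zero _
  rw [not_not] at hfz
  -- the stabiliser in `Γ₀(N)` as a subgroup of the full stabiliser
  set C : Subgroup (stabilizer SL(2, ℤ) z) := (Gamma0 N).subgroupOf (stabilizer SL(2, ℤ) z)
    with hC
  have hcardC : Nat.card C = Nat.card {γ : ↥(Gamma0 N) // (γ : SL(2, ℤ)) • z = z} :=
    Nat.card_congr
      { toFun := fun x => ⟨⟨x.1.1, x.2⟩, x.1.2⟩
        invFun := fun γ => ⟨⟨γ.1.1, γ.2⟩, γ.1.2⟩
        left_inv := fun _ => rfl
        right_inv := fun _ => rfl }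
  have h2C : 2 ∣ Nat.card C := by
    have hmem : (⟨-1, Stab.neg_one_mem z⟩ : stabilizer SL(2, ℤ) z) ∈ C := by
      show (-1 : SL(2, ℤ)) ∈ Gamma0 N
      rw [Gamma0_mem]
      simp
    have h : orderOf (⟨⟨-1, Stab.neg_one_mem z⟩, hmem⟩ : C) = 2 := by
      rw [orderOf_eq_iff (by norm_num)]
      refine ⟨?_, ?_⟩
      · ext : 2
        simp
      · intro n hn hn0
        have hn1 : n = 1 := by omega
        subst hn1
        intro h
        have h1 := congrArg (fun g : C => (g.1.1 : SL(2, ℤ)) 0 0) h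
        simp at h1
    have h2 := orderOf_dvd_natCard (⟨⟨-1, Stab.neg_one_mem z⟩, hmem⟩ : C)
    rwa [h] at h2
  obtain ⟨c, hc, hord⟩ := exists_orderOf_sq_eq (Stab.epsHom z) (Stab.epsHom_injective z) C h2C
  rw [← hcardC, ← hord]
  have hcz : c.1 • z = z := c.2
  have h1 := orderOf_dvd_of_smul_invariant (f := f) hf c.1 hcz
    (fun w => hinv c.1 hc hcz w) (m := m) (by
      rw [hfz]
      simp only [sub_zero]
      exact hm)
  have h2 : orderOf (Stab.epsHom z c ^ 2) = orderOf (denom (c.1 : SL(2, ℤ)) z ^ 2) := by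
    rw [← orderOf_units]
    have h3 : ((Stab.epsHom z c ^ 2 : ℂˣ) : ℂ) = denom (c.1 : SL(2, ℤ)) z ^ 2 := by
      simp [Stab.epsHom, Stab.eps, denom]
    rw [h3]
  rw [h2]
  exact h1

end Rotation

end Fermat.Agent.N4F.Tors.RamPoint
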