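/-
N4-FULL block F, node F2b part 4 (helper23): THE ORDERS OF `u_φ` AT THE POINTS OF `ℍ`.

If `φ` kills the elements of finite order of `Γ₀(N)`, then `a_φ` is invariant under the stabiliser in
`Γ₀(N)` of every `z : ℍ`, so (rotation lemma, `RamPoint`) its order at `z` is divisible by
`e_z = |Stab z| / 2`, which is the exact exponent of the point valuation (`RamPoint`).  Hence every
prime `P` of the finite chart of `K = WHField Γ₀(N)` satisfies `n ∣ ord_P (u_φ)`.
-/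
import Fermat.Agent.N4F.Tors.EisFunction
import Fermat.Agent.N4F.Tors.RamPoint

set_option autoImplicit false

noncomputable section

open UpperHalfPlane Matrix ModularForm CongruenceSubgroup Filter Topology WithZero
  IsDedekindDomain Polynomial

open scoped MatrixGroups Manifold

namespace Fermat.Agent.N4F.Tors.EisPoint

open Fermat.Agent.M2 Fermat.Agent.M2.Dict Fermat.Agent.M2.OrdVal
  Fermat.Agent.N4F.Tors.TwistedEisenstein Fermat.Agent.N4F.Tors.EisFunction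
  Fermat.Agent.N4F.Tors.Kummer

variable {N : ℕ} (φ : ↥(Gamma0 N) →* ℂˣ)

/-- `φ` is trivial on the elements of finite order of `Γ₀(N)`. -/
def KillsEll : Prop := ∀ γ : ↥(Gamma0 N), IsOfFinOrder γ → φ γ = 1

variable {φ}

/-- An element of `Γ₀(N)` fixing a point of `ℍ` has finite order. -/
theorem isOfFinOrder_of_smul_eq (γ : ↥(Gamma0 N)) (z : ℍ) (hz : (γ : SL(2, ℤ)) • z = z) :
    IsOfFinOrder γ := by
  have hmem : (γ : SL(2, ℤ)) ∈ RamPoint.stab0 N z := ⟨hz, γ.2⟩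
  have h1 : IsOfFinOrder (⟨(γ : SL(2, ℤ)), hmem⟩ : RamPoint.stab0 N z) := isOfFinOrder_of_finite _
  have h2 : IsOfFinOrder (γ : SL(2, ℤ)) := by
    have := (Submonoid.isOfFinOrder_coe (H := (RamPoint.stab0 N z).toSubmonoid)
      (x := ⟨(γ : SL(2, ℤ)), hmem⟩)).mpr h1
    exact this
  exact (Submonoid.isOfFinOrder_coe (H := (Gamma0 N).toSubmonoid) (x := γ)).mp h2

/-- `a_φ` is invariant under the stabiliser in `Γ₀(N)` of any point. -/
theorem aPhi_smul_of_fix (hinf : ∀ γ : ↥(Gamma0 N), (γ : SL(2, ℤ)) 1 0 = 0 → φ γ = 1)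
    (hell : KillsEll φ) (z : ℍ) (γ : SL(2, ℤ)) (hγ : γ ∈ Gamma0 N) (hz : γ • z = z) (w : ℍ) :
    aPhi φ (γ • w) = aPhi φ w := by
  have h1 := aPhi_smul hinf ⟨γ, hγ⟩ w
  rw [hell ⟨γ, hγ⟩ (isOfFinOrder_of_smul_eq ⟨γ, hγ⟩ z hz), Units.val_one, one_mul] at h1
  exact h1

/-! ### The valuation of `u_φ` at a prime of the finite chart -/

section Main

variable [NeZero N] {n : ℕ} [NeZero n]

local notation "K" => WHField (Gamma0 N)

omit [NeZero N] in
/-- The point valuation of `u_φ`. -/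
theorem vF_uPhi (h : IsEisChar φ n) (z : ℍ) :
    vF (Gamma0 N) z (uPhi h) =
      exp (-((n : ℤ) * (((ordAt z (aPhi φ)).toNat : ℤ) -
        (ordNat (Gamma0 N) z (jWH (Gamma0 N)) : ℤ)))) := by
  have hA := aPhiPow_ne_zero h
  have hJ := jWH_ne_zero (Gamma0 N)
  have hm : MDiff (aPhi φ) := mdiff_aPhi h.unit
  have ha0 : aPhi φ ≠ 0 := by
    obtain ⟨w, hw⟩ := exists_aPhi_ne_zero h.unit h.inf
    intro h0
    exact hw (by rw [h0]; rfl)
  have h1 : ordNat (Gamma0 N) z (aPhiPow h) = n * (ordAt z (aPhi φ)).toNat := by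
    have e : ((aPhiPow h : WH (Gamma0 N)) : ℍ → ℂ) = aPhi φ ^ n := rfl
    rw [ordNat, e, ordAt_pow hm z n]
    have hne : ordAt z (aPhi φ) ≠ ⊤ := ordAt_ne_top hm ha0 z
    lift ordAt z (aPhi φ) to ℕ using hne with m
    rw [nsmul_eq_mul]
    norm_cast
  rw [uPhi, map_div₀, vF_algebraMap, vF_algebraMap, map_pow, ordVal_apply_of_ne_zero _ hA,
    ordVal_apply_of_ne_zero _ hJ, h1, ← WithZero.exp_nsmul, ← WithZero.exp_sub]
  congr 1
  push_cast
  ring

/-- **Divisibility at the finite places**: for every prime `P` of the finite chart,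
`n ∣ ord_P (u_φ)`. -/
theorem exists_valuation_uPhi_eq (h : IsEisChar φ n) (hell : KillsEll φ)
    (P : HeightOneSpectrum (integralClosure ℂ[X] K)) :
    ∃ m : ℤ, P.valuation K (uPhi h) = exp (-((n : ℤ) * m)) := by
  obtain ⟨z, hz⟩ := RamPoint.exists_point_of_prime N P
  set κ := Nat.card {γ : ↥(Gamma0 N) // (γ : SL(2, ℤ)) • z = z} / 2 with hκdef
  -- `κ ≠ 0`
  have hκ0 : κ ≠ 0 := by
    intro h0
    obtain ⟨a, -, ha⟩ := vF_hp (Gamma0 N) z
    rw [hz, h0, pow_zero] at ha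
    exact lt_irrefl _ ha
  have hκ' : (κ : ℤ) ≠ 0 := by exact_mod_cast hκ0
  have hm : MDiff (aPhi φ) := mdiff_aPhi h.unit
  have ha0 : aPhi φ ≠ 0 := by
    obtain ⟨w, hw⟩ := exists_aPhi_ne_zero h.unit h.inf
    intro h0
    exact hw (by rw [h0]; rfl)
  -- the order of `a_φ` at `z` is divisible by `κ`
  have hne : ordAt z (aPhi φ) ≠ ⊤ := ordAt_ne_top hm ha0 z
  obtain ⟨a', ha'⟩ : κ ∣ (ordAt z (aPhi φ)).toNat :=
    RamPoint.card_stabilizer_half_dvd_ordAt N hm z (ENat.natCast_toNat hne).symm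
      (fun γ hγ hγz w => aPhi_smul_of_fix h.inf hell z γ hγ hγz w)
  -- the order of `j` at `z` is `κ` times its `P`-adic order
  have hJ := jWH_ne_zero (Gamma0 N)
  have hJ' : algebraMap (WH (Gamma0 N)) K (jWH (Gamma0 N)) ≠ 0 := fun h0 =>
    hJ (algebraMap_WH_injective (by rw [h0, map_zero]))
  have hj0 : P.valuation K (algebraMap (WH (Gamma0 N)) K (jWH (Gamma0 N))) ≠ 0 :=
    (Valuation.ne_zero_iff _).mpr hJ'
  have hb : (ordNat (Gamma0 N) z (jWH (Gamma0 N)) : ℤ) =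
      -((κ : ℤ) * log (P.valuation K (algebraMap (WH (Gamma0 N)) K (jWH (Gamma0 N))))) := by
    have h1 := hz (algebraMap (WH (Gamma0 N)) K (jWH (Gamma0 N)))
    rw [vF_algebraMap, ordVal_apply_of_ne_zero _ hJ, ← exp_log hj0, ← WithZero.exp_nsmul,
      exp_inj, nsmul_eq_mul] at h1
    linarith
  -- conclusion
  have hu0 : P.valuation K (uPhi h) ≠ 0 := (Valuation.ne_zero_iff _).mpr (uPhi_ne_zero h)
  refine ⟨(a' : ℤ) + log (P.valuation K (algebraMap (WH (Gamma0 N)) K (jWH (Gamma0 N)))), ?_⟩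
  have h2 := hz (uPhi h)
  rw [vF_uPhi h z, ← exp_log hu0, ← WithZero.exp_nsmul, exp_inj, nsmul_eq_mul, hb, ha'] at h2
  rw [← exp_log hu0, exp_inj]
  have : (κ : ℤ) * log (P.valuation K (uPhi h)) = (κ : ℤ) *
      (-((n : ℤ) * ((a' : ℤ) +
        log (P.valuation K (algebraMap (WH (Gamma0 N)) K (jWH (Gamma0 N))))))) := by
    rw [← h2]
    push_cast
    ring
  exact mul_left_cancel₀ hκ' this

end Main

end Fermat.Agent.N4F.Tors.EisPoint
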