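/-
N4-FULL block F, node F2b part 3 (helper23): FROM PRIMES OF THE TWO CHARTS TO PLACES.

* `ord_mapPlace` : the prelude order function is invariant under isomorphisms of function fields;
* `dvd_ord_of_valuations` : if every adic valuation of `u ∈ K = WHField Γ₀(N)` at the primes of the two
  charts `integralClosure ℂ[X] K`, `integralClosure (Oinf ℂ) K` is an `n`-th power, then
  `n ∣ v.ord (fieldEquiv N u)` for every place `v` of `FC N`.
-/
import Fermat.Agent.S24.CountsFC
import Fermat.Agent.S24.PlaceDict

set_option autoImplicit false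

noncomputable section

open AlgebraicCurve IsDedekindDomain WithZero

namespace Fermat.Agent.N4F.Tors.PlacesCharts

open Fermat.Agent.S24 Fermat.Agent.S24.CountsC

/-! ### Transport of the order function -/

section Transport

variable {K F F' : Type*} [Field K] [Field F] [Field F'] [Algebra K F] [Algebra K F']

/-- The valuation rings of corresponding places are isomorphic. -/
def valuationSubringEquiv (e : F ≃ₐ[K] F') (v : Place K F) :
    v.toValuationSubring ≃+* (mapPlace e v).toValuationSubring where
  toFun x := ⟨e x, (apply_mem_mapPlace_iff e v x).mpr x.2⟩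
  invFun y := ⟨e.symm y, (mem_mapPlace_iff e v y).mp y.2⟩
  left_inv _ := Subtype.ext (e.symm_apply_apply _)
  right_inv _ := Subtype.ext (e.apply_symm_apply _)
  map_mul' _ _ := Subtype.ext (map_mul e _ _)
  map_add' _ _ := Subtype.ext (map_add e _ _)

@[simp] theorem coe_valuationSubringEquiv (e : F ≃ₐ[K] F') (v : Place K F)
    (x : v.toValuationSubring) : ((valuationSubringEquiv e v x : _) : F') = e x := rfl

/-- **The order function is invariant under isomorphisms.** -/
theorem ord_mapPlace (e : F ≃ₐ[K] F') (v : Place K F) (x : F) :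
    (mapPlace e v).ord (e x) = v.ord x := by
  rcases eq_or_ne x 0 with rfl | hx
  · simp
  obtain ⟨π, hπ⟩ := IsDiscreteValuationRing.exists_irreducible v.toValuationSubring
  obtain ⟨u, hu⟩ := v.exists_unit_mul_zpow hx hπ
  have hπ' : Irreducible (valuationSubringEquiv e v π) :=
    (MulEquiv.irreducible_iff (valuationSubringEquiv e v).toMulEquiv).mpr hπ
  have h1 : e x = (((Units.map (valuationSubringEquiv e v).toMonoidHom u :
      (mapPlace e v).toValuationSubringˣ) : (mapPlace e v).toValuationSubring) : F') *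
      ((valuationSubringEquiv e v π : (mapPlace e v).toValuationSubring) : F') ^ (v.ord x) := by
    conv_lhs => rw [hu]
    rw [map_mul, map_zpow₀]
    rfl
  rw [h1]
  exact (mapPlace e v).ord_unit_smul_zpow _ hπ' _

end Transport

/-! ### Every place of `K_an` comes from a prime of one of the two charts -/

section Places

open UpperHalfPlane MatrixGroups CongruenceSubgroup Polynomial
open Fermat.Agent.M2 Fermat.Agent.S24.FieldIso Fermat.Agent.S24.CountsFC

variable (N : ℕ) [NeZero N]

local notation "Kan" => WHField (Gamma0 N)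

/-- A place of `K_an` at which `j` is integral is attached to a prime of the finite chart. -/
theorem exists_prime_fin (v : Place ℂ Kan) (hj : jM N ∈ v.toValuationSubring) :
    ∃ P : HeightOneSpectrum (integralClosure ℂ[X] Kan),
      v = Place.ofHeightOneSpectrum (K := ℂ) (F := Kan) P := by
  have hx : algebraMap ℂ[X] Kan X ∈ v.toValuationSubring := by
    rw [algebraMap_X_eq_jM]; exact hj
  have hA : ∀ a : ℂ[X], algebraMap ℂ[X] Kan a ∈ v.toValuationSubring :=
    CountsC.algebraMap_poly_mem v hx
  have hR : ∀ r : integralClosure ℂ[X] Kan,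
      algebraMap (integralClosure ℂ[X] Kan) Kan r ∈ v.toValuationSubring :=
    CountsC.forall_mem_of_isIntegral (A := ℂ[X]) v hA
  obtain ⟨P, hP⟩ := (mem_range_ofHeightOneSpectrum_iff (K := ℂ) (F := Kan)
    (R := integralClosure ℂ[X] Kan) v).mpr hR
  exact ⟨P, hP.symm⟩

/-- A place of `K_an` at which `j` is not integral is attached to a prime of the chart at
infinity. -/
theorem exists_prime_inf (v : Place ℂ Kan) (hj : jM N ∉ v.toValuationSubring) :
    ∃ Q : HeightOneSpectrum (integralClosure (DW.Oinf ℂ) Kan),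
      v = Place.ofHeightOneSpectrum (K := ℂ) (F := Kan) Q := by
  have hx : (algebraMap (RatFunc ℂ) Kan RatFunc.X)⁻¹ ∈ v.toValuationSubring.nonunits := by
    rw [algebraMap_ratFunc_X]
    rcases mem_or_inv_mem_maximalIdeal v (jM N) with h | ⟨hm, hmax⟩
    · exact absurd h hj
    · exact (ValuationSubring.coe_mem_nonunits_iff (A := v.toValuationSubring)
        (a := ⟨(jM N)⁻¹, hm⟩)).mpr hmax
  have hA : ∀ a : DW.Oinf ℂ, algebraMap (DW.Oinf ℂ) Kan a ∈ v.toValuationSubring := by
    intro a
    rw [CuspSqueeze.algebraMap_Oinf_apply]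
    exact CountsC.algebraMap_mem_of_mem_Oinf v hx a.2
  have hR : ∀ r : integralClosure (DW.Oinf ℂ) Kan,
      algebraMap (integralClosure (DW.Oinf ℂ) Kan) Kan r ∈ v.toValuationSubring :=
    CountsC.forall_mem_of_isIntegral (A := DW.Oinf ℂ) v hA
  obtain ⟨Q, hQ⟩ := (mem_range_ofHeightOneSpectrum_iff (K := ℂ) (F := Kan)
    (R := integralClosure (DW.Oinf ℂ) Kan) v).mpr hR
  exact ⟨Q, hQ.symm⟩

/-- If all adic valuations of `u` at the primes of the two charts are `n`-th powers, then `n` divides
the order of `u` at every place of `K_an`. -/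
theorem dvd_ord_Kan {n : ℕ} (u : Kan)
    (hfin : ∀ P : HeightOneSpectrum (integralClosure ℂ[X] Kan),
      ∃ m : ℤ, P.valuation Kan u = exp (-((n : ℤ) * m)))
    (hinf : ∀ Q : HeightOneSpectrum (integralClosure (DW.Oinf ℂ) Kan),
      ∃ m : ℤ, Q.valuation Kan u = exp (-((n : ℤ) * m)))
    (v : Place ℂ Kan) : (n : ℤ) ∣ v.ord u := by
  by_cases hj : jM N ∈ v.toValuationSubring
  · obtain ⟨P, rfl⟩ := exists_prime_fin N v hj
    obtain ⟨m, hm⟩ := hfin P
    rw [ord_ofHeightOneSpectrum, hm, log_exp, neg_neg]
    exact dvd_mul_right _ _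
  · obtain ⟨Q, rfl⟩ := exists_prime_inf N v hj
    obtain ⟨m, hm⟩ := hinf Q
    rw [ord_ofHeightOneSpectrum, hm, log_exp, neg_neg]
    exact dvd_mul_right _ _

/-- The same on `F_ℂ = FC N`, through the `q`-expansion isomorphism. -/
theorem dvd_ord_FC {n : ℕ} (u : Kan)
    (hfin : ∀ P : HeightOneSpectrum (integralClosure ℂ[X] Kan),
      ∃ m : ℤ, P.valuation Kan u = exp (-((n : ℤ) * m)))
    (hinf : ∀ Q : HeightOneSpectrum (integralClosure (DW.Oinf ℂ) Kan),
      ∃ m : ℤ, Q.valuation Kan u = exp (-((n : ℤ) * m)))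
    (v : Place ℂ (FC N)) : (n : ℤ) ∣ v.ord (fieldEquiv N u) := by
  have h := dvd_ord_Kan N u hfin hinf (mapPlace (fieldEquiv N).symm v)
  rwa [← ord_mapPlace (fieldEquiv N), mapPlace_mapPlace_symm] at h

end Places

end Fermat.Agent.N4F.Tors.PlacesCharts
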