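/-
N4-FULL block F, node F2b, ASSEMBLY (helper23): every homomorphism `ψ : Γ₀(N) → ℤ/n` killing the
parabolic and the finite-order elements is the Kummer character of an `n`-divisible modular
function `u` ALL of whose orders (at all places of `F_ℂ = FC N`) are divisible by `n`:

  `exists_nDiv_kummerChar_eq : ψ ∈ parHomAdd N (ZMod n) → ∃ u (hu : NDiv (Gamma0 N) n u),
      kummerChar hu = ψ ∧ ∀ v : Place ℂ (FC N), (n : ℤ) ∣ v.ord (fieldEquiv N u)`.

`u = u_φ = (E_φ / E₄) ^ n` with `φ = exp (2πi ψ / n)` (`EisFunction`), the divisibility at the cusps is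
`EisCusp` (on `RamCusp`), at the points of `ℍ` it is `EisPoint` (on helper6's `RamPoint`), and
`PlacesCharts` passes from the primes of the two charts to the places of `FC N`.
-/
import Fermat.Agent.N4F.Tors.EisCusp
import Fermat.Agent.N4F.Tors.EisPoint
import Fermat.Agent.N4F.Tors.PlacesCharts
import Fermat.Agent.N4F.Tors.HeckeHom

set_option autoImplicit false

noncomputable section

open UpperHalfPlane Matrix ModularForm CongruenceSubgroup AlgebraicCurve

open scoped MatrixGroups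

namespace Fermat.Agent.N4F.Tors.EisClass

open Fermat.Agent.M2 Fermat.Agent.S24.FieldIso
  Fermat.Agent.N4F.Tors.EisFunction Fermat.Agent.N4F.Tors.Kummer Fermat.Agent.N4F.Tors.HeckeHom

variable {N : ℕ} {n : ℕ} [NeZero n]

/-- The character `γ ↦ exp (2πi ψ(γ) / n)` of `Γ₀(N)` attached to `ψ : Γ₀(N) → ℤ/n`. -/
def charOfHom (ψ : Additive ↥(Gamma0 N) →+ ZMod n) : ↥(Gamma0 N) →* ℂˣ where
  toFun γ := Units.mk0 (ZMod.stdAddChar (ψ (Additive.ofMul γ))) (fun h0 => by
    have := stdAddChar_pow_eq_one (ψ (Additive.ofMul γ))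
    rw [h0, zero_pow (NeZero.ne n)] at this
    exact zero_ne_one this)
  map_one' := by
    apply Units.ext
    show ZMod.stdAddChar (ψ (Additive.ofMul 1)) = 1
    rw [ofMul_one, map_zero, AddChar.map_zero_eq_one]
  map_mul' γ γ' := by
    apply Units.ext
    show ZMod.stdAddChar (ψ (Additive.ofMul (γ * γ'))) =
      ZMod.stdAddChar (ψ (Additive.ofMul γ)) * ZMod.stdAddChar (ψ (Additive.ofMul γ'))
    rw [ofMul_mul, map_add, AddChar.map_add_eq_mul]

theorem coe_charOfHom (ψ : Additive ↥(Gamma0 N) →+ ZMod n) (γ : ↥(Gamma0 N)) :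
    ((charOfHom ψ γ : ℂˣ) : ℂ) = ZMod.stdAddChar (ψ (Additive.ofMul γ)) := rfl

theorem charOfHom_eq_one {ψ : Additive ↥(Gamma0 N) →+ ZMod n} {γ : ↥(Gamma0 N)}
    (h : ψ (Additive.ofMul γ) = 0) : charOfHom ψ γ = 1 := by
  apply Units.ext
  rw [coe_charOfHom, h, AddChar.map_zero_eq_one, Units.val_one]

variable {ψ : Additive ↥(Gamma0 N) →+ ZMod n}

theorem killsPar_charOfHom (hψ : ψ ∈ parHomAdd N (ZMod n)) : EisCusp.KillsPar (charOfHom ψ) :=
  fun γ hγ => charOfHom_eq_one (hψ γ (Or.inl hγ))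

theorem killsEll_charOfHom (hψ : ψ ∈ parHomAdd N (ZMod n)) : EisPoint.KillsEll (charOfHom ψ) :=
  fun γ hγ => charOfHom_eq_one (hψ γ (Or.inr
    ((Submonoid.isOfFinOrder_coe (H := (Gamma0 N).toSubmonoid) (x := γ)).mpr hγ)))

theorem isEisChar_charOfHom (hψ : ψ ∈ parHomAdd N (ZMod n)) : IsEisChar (charOfHom ψ) n where
  pow γ := by
    apply Units.ext
    rw [Units.val_pow_eq_pow_val, coe_charOfHom, stdAddChar_pow_eq_one, Units.val_one]
  inf := (killsPar_charOfHom hψ).inf

/-- **F2b (core)**: every parabolic-elliptic homomorphism `Γ₀(N) → ℤ/n` is the Kummer character of an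
`n`-divisible function all of whose orders at the places of `FC N` are divisible by `n`. -/
theorem exists_nDiv_kummerChar_eq [NeZero N] (hψ : ψ ∈ parHomAdd N (ZMod n)) :
    ∃ (u : WHField (Gamma0 N)) (hu : NDiv (Gamma0 N) n u),
      kummerChar hu = ψ ∧ ∀ v : Place ℂ (FC N), (n : ℤ) ∣ v.ord (fieldEquiv N u) := by
  have h := isEisChar_charOfHom hψ
  refine ⟨uPhi h, nDiv_uPhi h, kummerChar_uPhi h ψ (fun γ => coe_charOfHom ψ γ), ?_⟩
  exact PlacesCharts.dvd_ord_FC N (uPhi h)
    (fun P => EisPoint.exists_valuation_uPhi_eq h (killsEll_charOfHom hψ) P)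
    (fun Q => EisCusp.exists_valuation_uPhi_eq h (killsPar_charOfHom hψ) Q)

end Fermat.Agent.N4F.Tors.EisClass
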