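/-
N4-FULL, block F, node F5a: base change of places, divisors and divisor classes along a
linearly disjoint extension of the constant field (abstract part).

`K ⊂ L` fields, `F/K`, `F'/L` function fields, `φ : F →ₐ[K] F'` linearly disjoint from `L` over
`K` with `F' = L(φ F)`, all places of `F` residue-trivial.  Every place `v` of `F` has a unique
extension `ext v` to `F'`, with `ord_{ext v} (φ f) = ord_v f`; this gives
`bcDiv : Divisor K F →+ Divisor L F'`, which maps `div f` to `div (φ f)`.
-/
import Mathlib
import Fermat.Prelude.Def_AlgebraicCurve_DivisorClassGroup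
import Fermat.Agent.S24.PlaceExtend
import Fermat.Agent.S24.BarToC
import Fermat.Agent.S24.Hurwitz
import Fermat.Agent.S24.CountsFC
import Fermat.Agent.N4F.A.LevelMaps

set_option autoImplicit false
set_option linter.unusedSectionVars false
set_option linter.style.haveILetI false

namespace Fermat.Agent.N4F.Tors.BaseChange

open AlgebraicCurve IsLocalRing
open Fermat.Agent.S24 Fermat.Agent.S24.PlaceExtend
open Fermat.Agent.S24.PlaceDeriv (ResidueTrivial)

section Abstract

variable {K L F F' : Type*} [Field K] [Field L] [Field F] [Field F']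
  [Algebra K L] [Algebra K F] [Algebra L F'] [Algebra K F'] [IsScalarTower K L F']

/-- The data of a linearly disjoint, generating constant field extension all of whose places
downstairs are residue-trivial. -/
structure Setting (L : Type*) [Field L] [Algebra K L] [Algebra L F'] [IsScalarTower K L F']
    (φ : F →ₐ[K] F') : Prop where
  linDisj : LinDisj L φ
  gen : IntermediateField.adjoin L (Set.range φ) = ⊤
  res : ∀ v : Place K F, ResidueTrivial v

variable {φ : F →ₐ[K] F'} (S : Setting L φ)

/-- The unique extension of a place of `F` to `F'`. -/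
noncomputable def ext (v : Place K F) : Place L F' :=
  (existsUnique_extends S.linDisj S.gen (S.res v)).exists.choose

theorem extends_ext (v : Place K F) : Extends L φ v (ext S v) :=
  (existsUnique_extends S.linDisj S.gen (S.res v)).exists.choose_spec

theorem eq_ext {v : Place K F} {v' : Place L F'} (h : Extends L φ v v') : v' = ext S v :=
  (existsUnique_extends S.linDisj S.gen (S.res v)).unique h (extends_ext S v)

theorem ext_injective : Function.Injective (ext S) := by
  intro v w h
  apply Place.ext
  ext f
  rw [← extends_ext S v f, ← extends_ext S w f, h]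

theorem ord_ext (v : Place K F) (f : F) : (ext S v).ord (φ f) = v.ord f :=
  (extends_ext S v).ord_map S.gen (S.res v) f

theorem map_ne_zero' {f : F} (hf : f ≠ 0) : φ f ≠ 0 := by
  rw [ne_eq, map_eq_zero]; exact hf

/-- A place of `F'` at which some `φ f` has a zero or a pole is an extension. -/
theorem exists_eq_ext_of_ord_ne_zero (v' : Place L F') {f : F} (h : v'.ord (φ f) ≠ 0) :
    ∃ v : Place K F, v' = ext S v := by
  have hf : f ≠ 0 := by
    rintro rfl
    rw [map_zero, Place.ord_zero] at h
    exact h rfl
  rcases lt_or_gt_of_ne h with hneg | hpos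
  · have hinv : 0 < v'.ord (φ f⁻¹) := by
      rw [map_inv₀, Place.ord_inv]; omega
    have hmem := mem_nonunits_of_ord_pos v' (map_ne_zero' (inv_ne_zero hf)) hinv
    exact ⟨restrict φ v' f⁻¹ (inv_ne_zero hf) hmem,
      eq_ext S (extends_restrict v' f⁻¹ (inv_ne_zero hf) hmem)⟩
  · have hmem := mem_nonunits_of_ord_pos v' (map_ne_zero' hf) hpos
    exact ⟨restrict φ v' f hf hmem, eq_ext S (extends_restrict v' f hf hmem)⟩

/-- Base change of divisors. -/
noncomputable def bcDiv : Divisor K F →+ Divisor L F' :=
  Finsupp.mapDomain.addMonoidHom (ext S)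

theorem bcDiv_apply_ext (D : Divisor K F) (v : Place K F) : bcDiv S D (ext S v) = D v :=
  Finsupp.mapDomain_apply (ext_injective S) D v

theorem bcDiv_apply_of_notMem (D : Divisor K F) (v' : Place L F')
    (h : v' ∉ Set.range (ext S)) : bcDiv S D v' = 0 :=
  Finsupp.mapDomain_of_notMem_range D v' h

theorem bcDiv_single (v : Place K F) (n : ℤ) :
    bcDiv S (Finsupp.single v n) = Finsupp.single (ext S v) n :=
  Finsupp.mapDomain_single

theorem bcDiv_injective : Function.Injective (bcDiv S) :=
  Finsupp.mapDomain_injective (ext_injective S)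

/-- Base change maps the divisor of `f` to the divisor of `φ f`. -/
theorem bcDiv_eq_ord {D : Divisor K F} {f : F} (hD : ∀ v : Place K F, D v = v.ord f)
    (v' : Place L F') : bcDiv S D v' = v'.ord (φ f) := by
  by_cases h : v' ∈ Set.range (ext S)
  · obtain ⟨v, rfl⟩ := h
    rw [bcDiv_apply_ext, ord_ext, hD]
  · rw [bcDiv_apply_of_notMem S D v' h]
    by_contra h0
    obtain ⟨v, hv⟩ := exists_eq_ext_of_ord_ne_zero S v' (f := f) (Ne.symm h0)
    exact h ⟨v, hv.symm⟩

theorem isPrincipal_bcDiv {D : Divisor K F} (hD : D.IsPrincipal) : (bcDiv S D).IsPrincipal := by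
  obtain ⟨f, hf, hD⟩ := hD
  exact ⟨φ f, map_ne_zero' hf, bcDiv_eq_ord S hD⟩

/-! ### Degrees and the map on `Pic0` -/

section Degree

variable (hdeg : ∀ v : Place K F, (ext S v).deg = v.deg)
include hdeg

theorem degree_bcDiv (D : Divisor K F) : Divisor.degree (bcDiv S D) = Divisor.degree D := by
  induction D using Finsupp.induction with
  | zero => simp
  | single_add v n D _ _ ih =>
      rw [map_add, map_add, map_add, ih, bcDiv_single, Divisor.degree_single,
        Divisor.degree_single, hdeg]

theorem bcDiv_mem_degZero {D : Divisor K F} (hD : D ∈ Divisor.degZero (K := K) (F := F)) :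
    bcDiv S D ∈ Divisor.degZero (K := L) (F := F') := by
  rw [Divisor.mem_degZero, degree_bcDiv S hdeg, Divisor.mem_degZero.mp hD]

/-- Base change on degree-zero divisors. -/
noncomputable def bcDegZero :
    Divisor.degZero (K := K) (F := F) →+ Divisor.degZero (K := L) (F := F') :=
  ((bcDiv S).comp (Divisor.degZero (K := K) (F := F)).subtype).codRestrict _
    (fun D => bcDiv_mem_degZero S hdeg D.2)

@[simp]
theorem coe_bcDegZero (D : Divisor.degZero (K := K) (F := F)) :
    (bcDegZero S hdeg D : Divisor L F') = bcDiv S (D : Divisor K F) := rfl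

/-- Base change on divisor classes of degree zero. -/
noncomputable def bcPic : Pic0 K F →+ Pic0 L F' :=
  QuotientAddGroup.map _ _ (bcDegZero S hdeg) (by
    rintro ⟨D, hD0⟩ hD
    simp only [AddSubgroup.mem_addSubgroupOf, AddSubgroup.mem_comap] at hD ⊢
    exact isPrincipal_bcDiv S hD)

theorem bcPic_mk (D : Divisor.degZero (K := K) (F := F)) :
    bcPic S hdeg (Pic0.mk D) = Pic0.mk (bcDegZero S hdeg D) := rfl

end Degree

end Abstract

/-! ### The modular case: `Q̄ · F_N → ℂ · F_N` -/

section Modular

open ModularCurve Fermat.Agent.S24.FieldIso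

local notation "Qb" => AlgebraicClosure ℚ

variable (N : ℕ) [NeZero N]

/-- The fixed embedding `Q̄ → ℂ`. -/
noncomputable abbrev ι : Qb →+* ℂ := BarToC.iota

/-- All places of `Q̄ · F_N` are residue-trivial. -/
theorem residueTrivial_bar (v : Place Qb (modularFunctionFieldBar N)) : ResidueTrivial v := by
  haveI : v.FiniteResidue := ⟨Fermat.Agent.N4F.A.LevelMaps.finite_residueField_bar N v⟩
  exact Hurwitz.residueTrivial v

theorem deg_bar (v : Place Qb (modularFunctionFieldBar N)) : v.deg = 1 := by
  haveI : v.FiniteResidue := ⟨Fermat.Agent.N4F.A.LevelMaps.finite_residueField_bar N v⟩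
  exact Hurwitz.deg_eq_one v

theorem finite_residueField_FC (v : Place ℂ (FC N)) : Module.Finite ℂ v.ResidueField := by
  haveI := CountsFC.finiteDimensional_FC N
  exact Fermat.Agent.S24.finite_residueField' (xC N) (CountsFC.transcendental_xC N) v

theorem residueTrivial_FC (v : Place ℂ (FC N)) : ResidueTrivial v := by
  haveI : v.FiniteResidue := ⟨finite_residueField_FC N v⟩
  exact Hurwitz.residueTrivial v

theorem deg_FC (v : Place ℂ (FC N)) : v.deg = 1 := by
  haveI : v.FiniteResidue := ⟨finite_residueField_FC N v⟩
  exact Hurwitz.deg_eq_one v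

/-- The abstract setting for `φ = BarToC.phi N ι`. -/
theorem setting :
    letI := BarToC.algQC ι
    letI := BarToC.algQFC N ι
    haveI := BarToC.isScalarTower N ι
    Setting ℂ (BarToC.phi N ι) := by
  letI := BarToC.algQC ι
  letI := BarToC.algQFC N ι
  haveI := BarToC.isScalarTower N ι
  exact ⟨fun n b hb => (BarToC.linDisj N ι).linearIndependent hb, BarToC.adjoin_range_phi N ι,
    residueTrivial_bar N⟩

/-- The unique extension to `ℂ · F_N` of a place of `Q̄ · F_N`. -/
noncomputable def extC (v : Place Qb (modularFunctionFieldBar N)) : Place ℂ (FC N) :=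
  letI := BarToC.algQC ι
  letI := BarToC.algQFC N ι
  haveI := BarToC.isScalarTower N ι
  ext (setting N) v

theorem mem_extC_iff (v : Place Qb (modularFunctionFieldBar N)) (f : modularFunctionFieldBar N) :
    barToC N ι f ∈ (extC N v).toValuationSubring ↔ f ∈ v.toValuationSubring := by
  letI := BarToC.algQC ι
  letI := BarToC.algQFC N ι
  haveI := BarToC.isScalarTower N ι
  exact extends_ext (setting N) v f

/-- A place of `ℂ · F_N` whose valuation ring contracts to that of `v` is `extC v`. -/
theorem eq_extC {v : Place Qb (modularFunctionFieldBar N)} {v' : Place ℂ (FC N)}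
    (h : ∀ f : modularFunctionFieldBar N,
      barToC N ι f ∈ v'.toValuationSubring ↔ f ∈ v.toValuationSubring) : v' = extC N v := by
  letI := BarToC.algQC ι
  letI := BarToC.algQFC N ι
  haveI := BarToC.isScalarTower N ι
  exact eq_ext (setting N) h

theorem extC_injective : Function.Injective (extC N) := by
  letI := BarToC.algQC ι
  letI := BarToC.algQFC N ι
  haveI := BarToC.isScalarTower N ι
  exact ext_injective (setting N)

theorem ord_extC (v : Place Qb (modularFunctionFieldBar N)) (f : modularFunctionFieldBar N) :
    (extC N v).ord (barToC N ι f) = v.ord f := by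
  letI := BarToC.algQC ι
  letI := BarToC.algQFC N ι
  haveI := BarToC.isScalarTower N ι
  exact ord_ext (setting N) v f

/-- A place of `ℂ · F_N` at which some function coming from `Q̄ · F_N` has a zero or a pole is an
extension of a place of `Q̄ · F_N`. -/
theorem exists_eq_extC_of_ord_ne_zero (v' : Place ℂ (FC N)) {f : modularFunctionFieldBar N}
    (h : v'.ord (barToC N ι f) ≠ 0) : ∃ v, v' = extC N v := by
  letI := BarToC.algQC ι
  letI := BarToC.algQFC N ι
  haveI := BarToC.isScalarTower N ι
  exact exists_eq_ext_of_ord_ne_zero (setting N) v' h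

/-- Base change of divisors `Q̄ · F_N → ℂ · F_N`. -/
noncomputable def bcDivC : Divisor Qb (modularFunctionFieldBar N) →+ Divisor ℂ (FC N) :=
  Finsupp.mapDomain.addMonoidHom (extC N)

theorem bcDivC_apply_extC (D : Divisor Qb (modularFunctionFieldBar N))
    (v : Place Qb (modularFunctionFieldBar N)) : bcDivC N D (extC N v) = D v :=
  Finsupp.mapDomain_apply (extC_injective N) D v

theorem bcDivC_apply_of_notMem (D : Divisor Qb (modularFunctionFieldBar N)) (v' : Place ℂ (FC N))
    (h : v' ∉ Set.range (extC N)) : bcDivC N D v' = 0 :=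
  Finsupp.mapDomain_of_notMem_range D v' h

theorem bcDivC_single (v : Place Qb (modularFunctionFieldBar N)) (n : ℤ) :
    bcDivC N (Finsupp.single v n) = Finsupp.single (extC N v) n :=
  Finsupp.mapDomain_single

theorem bcDivC_injective : Function.Injective (bcDivC N) :=
  Finsupp.mapDomain_injective (extC_injective N)

theorem bcDivC_eq_ord {D : Divisor Qb (modularFunctionFieldBar N)} {f : modularFunctionFieldBar N}
    (hD : ∀ v, D v = v.ord f) (v' : Place ℂ (FC N)) :
    bcDivC N D v' = v'.ord (barToC N ι f) := by
  letI := BarToC.algQC ι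
  letI := BarToC.algQFC N ι
  haveI := BarToC.isScalarTower N ι
  exact bcDiv_eq_ord (setting N) hD v'

theorem degree_bcDivC (D : Divisor Qb (modularFunctionFieldBar N)) :
    Divisor.degree (bcDivC N D) = Divisor.degree D := by
  letI := BarToC.algQC ι
  letI := BarToC.algQFC N ι
  haveI := BarToC.isScalarTower N ι
  exact degree_bcDiv (setting N) (fun v => by rw [deg_FC, deg_bar]) D

/-- Base change of divisor classes: `J_0(N)(Q̄) → Pic⁰(ℂ · F_N)`. -/
noncomputable def bcPicC : JZero N →+ Pic0 ℂ (FC N) :=
  letI := BarToC.algQC ι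
  letI := BarToC.algQFC N ι
  haveI := BarToC.isScalarTower N ι
  bcPic (setting N) (fun v => by rw [deg_FC, deg_bar])

theorem bcPicC_mk (D : Divisor.degZero (K := Qb) (F := modularFunctionFieldBar N)) :
    ∃ h : bcDivC N (D : Divisor Qb (modularFunctionFieldBar N)) ∈
        Divisor.degZero (K := ℂ) (F := FC N),
      bcPicC N (Pic0.mk D) = Pic0.mk ⟨bcDivC N D, h⟩ :=
  ⟨by rw [Divisor.mem_degZero, degree_bcDivC]; exact D.2, rfl⟩

end Modular

end Fermat.Agent.N4F.Tors.BaseChange
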