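/-
N4-FULL, block F, row F3c (divisor side): the Hecke operator on a torsion class, in terms of the
norm of a Kummer generator.

If `x = [D] ∈ J_0(N)(Q̄)` and `n • D = div f`, then `T_ℓ x = [D']` with
`n • D' = div (N_α (β f))`; after base change to `ℂ`, the same with `barToC`.
-/
import Mathlib
import Fermat.Agent.N4F.A.HeckeInputsFinal
import Fermat.Agent.N4F.E.TorsionCongruence
import Fermat.Agent.N4F.Tors.BaseChange
import Fermat.Prelude.Def_ModularCurve_HeckeModule

set_option autoImplicit false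
set_option linter.unusedSectionVars false
set_option linter.style.haveILetI false

open AlgebraicCurve ModularCurve

noncomputable section

namespace Fermat.Agent.N4F.Tors.HeckeDiv

open Fermat.Agent.N4F.A.LevelMaps Fermat.Agent.N4F.A.HeckeInputs
open Fermat.Agent.N4F.A.HeckeInputsFinal Fermat.Agent.N4F.Tors.BaseChange
open Fermat.Agent.S24 Fermat.Agent.S24.FieldIso

local notation "Qb" => AlgebraicClosure ℚ

variable (N : ℕ) [NeZero N]

/-- The norm along `α` of `β f`: the function whose divisor is `T_ℓ (div f)`. -/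
def normBeta (ℓ : ℕ) [NeZero ℓ] (f : modularFunctionFieldBar N) : modularFunctionFieldBar N :=
  letI := algebraAlong (heckeAlphaBar Qb N ℓ)
  Algebra.norm (modularFunctionFieldBar N) (heckeBetaBar Qb N ℓ f)

theorem normBeta_def (ℓ : ℕ) [NeZero ℓ] (f : modularFunctionFieldBar N) :
    normBeta N ℓ f = (letI := algebraAlong (heckeAlphaBar Qb N ℓ)
      Algebra.norm (modularFunctionFieldBar N) (heckeBetaBar Qb N ℓ f)) := rfl

/-- **Divisor side of F3c**, over `Q̄`. -/
theorem exists_hecke_divisor (ℓ : Nat.Primes) (n : ℕ)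
    (D : Divisor.degZero (K := Qb) (F := modularFunctionFieldBar N))
    (f : modularFunctionFieldBar N) (hf : f ≠ 0)
    (hD : ∀ P : Place Qb (modularFunctionFieldBar N),
      (n : ℤ) * (D : Divisor Qb (modularFunctionFieldBar N)) P = P.ord f) :
    haveI : NeZero (ℓ : ℕ) := ⟨ℓ.2.ne_zero⟩
    ∃ D' : Divisor.degZero (K := Qb) (F := modularFunctionFieldBar N),
      heckeOperatorBar N ℓ (Pic0.mk D) = Pic0.mk D' ∧
      ∀ P : Place Qb (modularFunctionFieldBar N),
        (n : ℤ) * (D' : Divisor Qb (modularFunctionFieldBar N)) P =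
          P.ord (normBeta N (ℓ : ℕ) f) := by
  haveI : NeZero (ℓ : ℕ) := ⟨ℓ.2.ne_zero⟩
  haveI := hasPrincipalDivisors_bar (N * (ℓ : ℕ))
  refine ⟨Pic0.degZeroCorrespondence (heckeBetaBar Qb N ℓ) (heckeAlphaBar Qb N ℓ)
    (heckeBetaBarIntegral N ℓ) (heckeAlphaBarIntegral N ℓ)
    (fundamentalIdentityAlong_heckeBetaBar N ℓ) D, ?_, ?_⟩
  · rw [heckeOperatorBar_apply, heckeOperatorAlong_eq_heckePic0Bar N ℓ]
    rfl
  · intro P
    have hnD : ∀ Q : Place Qb (modularFunctionFieldBar N),
        ((n : ℤ) • (D : Divisor Qb (modularFunctionFieldBar N))) Q = Q.ord f := by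
      intro Q
      rw [Finsupp.smul_apply, smul_eq_mul]
      exact hD Q
    have h2 := Fermat.Agent.N4F.E.TorsionCongruence.heckeDivBar_apply_eq_ord_norm
      (heckeAlphaBarIntegral N ℓ) (heckeBetaBarIntegral N ℓ) (finiteAlong_heckeAlphaBar N ℓ)
      (normFormulaAlong_heckeAlphaBar N ℓ) hf hnD P
    rw [map_zsmul, Finsupp.smul_apply, smul_eq_mul] at h2
    exact h2

/-! ### Generators of torsion classes -/

/-- A torsion class is the class of a divisor `D` with `n • D = div f`. -/
theorem exists_generator {K F : Type*} [Field K] [Field F] [Algebra K F] {n : ℕ}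
    {x : Pic0 K F} (hx : x ∈ Pic0.torsion K F n) :
    ∃ (D : Divisor.degZero (K := K) (F := F)) (f : F), f ≠ 0 ∧ x = Pic0.mk D ∧
      ∀ P : Place K F, (n : ℤ) * (D : Divisor K F) P = P.ord f := by
  obtain ⟨D, rfl⟩ := Pic0.mk_surjective x
  rw [Pic0.mem_torsion] at hx
  have h1 : (n : ℤ) • Pic0.mk D = Pic0.mk ((n : ℤ) • D) :=
    (map_zsmul (QuotientAddGroup.mk' _) (n : ℤ) D).symm
  rw [h1] at hx
  have h2 := (QuotientAddGroup.eq_zero_iff _).mp hx
  rw [AddSubgroup.mem_addSubgroupOf] at h2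
  obtain ⟨f, hf, hfD⟩ := h2
  refine ⟨D, f, hf, rfl, fun P => ?_⟩
  rw [← hfD P]
  simp

/-- Base change of a class `[D]` with `n • D = div f`: the class of a divisor `D_ℂ` with
`n • D_ℂ = div (barToC f)`. -/
theorem exists_bcPicC_divisor (n : ℕ)
    (D : Divisor.degZero (K := Qb) (F := modularFunctionFieldBar N))
    (f : modularFunctionFieldBar N)
    (hD : ∀ P : Place Qb (modularFunctionFieldBar N),
      (n : ℤ) * (D : Divisor Qb (modularFunctionFieldBar N)) P = P.ord f) :
    ∃ DC : Divisor.degZero (K := ℂ) (F := FC N),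
      bcPicC N (Pic0.mk D) = Pic0.mk DC ∧
      ∀ P' : Place ℂ (FC N),
        (n : ℤ) * (DC : Divisor ℂ (FC N)) P' = P'.ord (barToC N ι f) := by
  obtain ⟨h, hmk⟩ := bcPicC_mk N D
  refine ⟨⟨bcDivC N D, h⟩, hmk, fun P' => ?_⟩
  have hnD : ∀ v : Place Qb (modularFunctionFieldBar N),
      ((n : ℤ) • (D : Divisor Qb (modularFunctionFieldBar N))) v = v.ord f := by
    intro v
    rw [Finsupp.smul_apply, smul_eq_mul]
    exact hD v
  have h2 := bcDivC_eq_ord N hnD P'
  rw [map_zsmul, Finsupp.smul_apply, smul_eq_mul] at h2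
  exact h2

end Fermat.Agent.N4F.Tors.HeckeDiv
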