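import Mathlib
import Fermat.Agent.N4F.Tors.Kummer

/-!
# N4-FULL, block F, (K4): compatibility of the Kummer character in `n`

If `u` is `N`-divisible and `n ∣ N` then `u` is `n`-divisible and the Kummer character of `u`
at `n` is the reduction mod `n` of the Kummer character at `N`:

`kummerChar (n) u = (ZMod.castHom (n ∣ N)) ∘ kummerChar (N) u`.

(An `N`-th root `h` of `a b^(N-1)` gives the `n`-th root `h^m b^((m-1)(n-1))` of
`a' b'^(n-1)` with `a' = a b^(n(m-1))`, `b' = b^(n(m-1)+1)`, `N = n m`; the multiplier is raised to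
the `m`-th power.)
-/

set_option autoImplicit false

noncomputable section

namespace Fermat.Agent.N4F.Tors.KummerCompat

open UpperHalfPlane MatrixGroups
open Fermat.Agent.M2 Fermat.Agent.M2.OrdVal Fermat.Agent.M2.Dict
open Fermat.Agent.N4F.Tors.Kummer
open scoped Manifold

variable {Γ : Subgroup SL(2, ℤ)}

/-- `N`-divisible implies `n`-divisible for `n ∣ N`. -/
theorem NDiv.of_dvd {N n : ℕ} (hdvd : n ∣ N) {u : WHField Γ} (hu : NDiv Γ N u) : NDiv Γ n u := by
  obtain ⟨m, rfl⟩ := hdvd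
  refine ⟨hu.1, fun z => ?_⟩
  obtain ⟨k, hk⟩ := hu.2 z
  refine ⟨m * k, ?_⟩
  rw [hk]
  congr 1
  push_cast
  ring

/-- The root datum at `n` built from a root datum at `n * m`. -/
theorem IsRootDatum.of_mul {n m : ℕ} (hn : n ≠ 0) (hm : m ≠ 0) {u : WHField Γ} {a b : WH Γ}
    {h : ℍ → ℂ} (D : IsRootDatum Γ (n * m) u a b h) :
    IsRootDatum Γ n u (a * b ^ (n * (m - 1))) (b ^ (n * (m - 1) + 1))
      (fun z => h z ^ m * (b : ℍ → ℂ) z ^ ((m - 1) * (n - 1))) where
  hb := pow_ne_zero _ D.hb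
  hu := by
    rw [map_mul, ← D.hu, map_pow, map_pow, pow_succ]
    ring
  hh := (D.hh.pow m).mul (b.2.1.pow _)
  hpow := fun z => by
    obtain ⟨n', rfl⟩ := Nat.exists_eq_add_one_of_ne_zero hn
    obtain ⟨m', rfl⟩ := Nat.exists_eq_add_one_of_ne_zero hm
    have h1 := D.hpow z
    show _ = ((a : ℍ → ℂ) z * (b : ℍ → ℂ) z ^ ((n' + 1) * (m' + 1 - 1))) *
      ((b : ℍ → ℂ) z ^ ((n' + 1) * (m' + 1 - 1) + 1)) ^ (n' + 1 - 1)
    simp only [Nat.add_sub_cancel] at h1 ⊢
    have h2 : (n' + 1) * (m' + 1) - 1 = n' * m' + n' + m' := by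
      have : (n' + 1) * (m' + 1) = n' * m' + n' + m' + 1 := by ring
      rw [this, Nat.add_sub_cancel]
    rw [h2] at h1
    rw [mul_pow, ← pow_mul, ← pow_mul, ← pow_mul, mul_comm (m' + 1) (n' + 1), h1]
    ring

/-- `stdAddChar` at level `n` of the reduction is the `m`-th power of `stdAddChar` at level
`n * m`. -/
theorem stdAddChar_castHom {n m : ℕ} [NeZero n] [NeZero m] [NeZero (n * m)] (c : ZMod (n * m)) :
    (ZMod.stdAddChar (ZMod.castHom (dvd_mul_right n m) (ZMod n) c) : ℂ) =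
      (ZMod.stdAddChar c : ℂ) ^ m := by
  obtain ⟨j, rfl⟩ := ZMod.intCast_surjective c
  rw [map_intCast, ZMod.stdAddChar_coe, ZMod.stdAddChar_coe, ← Complex.exp_nat_mul]
  congr 1
  have hn : (n : ℂ) ≠ 0 := Nat.cast_ne_zero.mpr (NeZero.ne n)
  have hm : (m : ℂ) ≠ 0 := Nat.cast_ne_zero.mpr (NeZero.ne m)
  push_cast
  field_simp

/-- **(K4) at the level of Kummer characters**, product form. -/
theorem kummerChar_mul_right {n m : ℕ} [NeZero n] [NeZero m] [NeZero (n * m)] {u : WHField Γ}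
    (hu : NDiv Γ (n * m) u) (hu' : NDiv Γ n u) :
    kummerChar hu' =
      (ZMod.castHom (dvd_mul_right n m) (ZMod n)).toAddMonoidHom.comp (kummerChar hu) := by
  have hn : n ≠ 0 := NeZero.ne n
  have hm : m ≠ 0 := NeZero.ne m
  obtain ⟨a, b, h, D⟩ := hu.exists_rootDatum (NeZero.ne (n * m))
  have D' := IsRootDatum.of_mul hn hm D
  obtain ⟨z, hz⟩ := (D'.isInvRoot hn hu'.1).exists_ne_zero
  refine AddMonoidHom.ext fun γ => ?_
  obtain ⟨γ, rfl⟩ := Additive.ofMul.surjective γ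
  apply kummerChar_eq_of_spec hu' D' γ hz
  show h ((γ : SL(2, ℤ)) • z) ^ m * (b : ℍ → ℂ) ((γ : SL(2, ℤ)) • z) ^ ((m - 1) * (n - 1)) = _
  rw [kummerChar_spec hu D γ z, WH.smul_apply b γ.2]
  change _ = (ZMod.stdAddChar (ZMod.castHom (dvd_mul_right n m) (ZMod n)
    (kummerChar hu (Additive.ofMul γ))) : ℂ) * _
  rw [stdAddChar_castHom]
  ring

/-- **(K4) at the level of Kummer characters**: for `n ∣ N`, the Kummer character at `n` is the
reduction of the Kummer character at `N`. -/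
theorem kummerChar_of_dvd {N n : ℕ} [NeZero N] [NeZero n] (hdvd : n ∣ N) {u : WHField Γ}
    (hu : NDiv Γ N u) (hu' : NDiv Γ n u) :
    kummerChar hu' = (ZMod.castHom hdvd (ZMod n)).toAddMonoidHom.comp (kummerChar hu) := by
  obtain ⟨m, rfl⟩ := hdvd
  have : NeZero m := ⟨fun h0 => NeZero.ne (n * m) (by rw [h0, mul_zero])⟩
  exact kummerChar_mul_right hu hu'

end Fermat.Agent.N4F.Tors.KummerCompat
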