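/-
N4-FULL, block F, row F7 (part 2): `ComplexKummer N` from the SPECIFICATION of the complex Kummer map
(`Tors/KummerPic`: `nDiv_of_forall_place`, `kummerC_mk`, `kummerC_injective`) and the core of F3c
(`Tors/KummerHecke`: the Kummer character of `N_α (β f)` is `T_ℓ` of the Kummer character of `f`),
using F2b (`EisClass.exists_nDiv_kummerChar_eq`), K4 (`KummerCompat.kummerChar_of_dvd`) and the
divisor side of F3c (`HeckeDiv`).
-/
import Mathlib
import Fermat.Agent.N4F.Tors.KummerBar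
import Fermat.Agent.N4F.Tors.HeckeDiv
import Fermat.Agent.N4F.Tors.EisClass
import Fermat.Agent.N4F.Tors.KummerCompat

set_option autoImplicit false
set_option linter.unusedSectionVars false
set_option linter.style.haveILetI false

open CongruenceSubgroup ModularCurve AlgebraicCurve
open scoped MatrixGroups

noncomputable section

namespace Fermat.Agent.N4F.Tors.KummerFinal

open Fermat.Agent.M2
open Fermat.Agent.N4F.Res Fermat.Agent.N4F.Tors.HeckeHom Fermat.Agent.N4F.Tors.Outputs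
open Fermat.Agent.N4F.Tors.Descent Fermat.Agent.N4F.Tors.BaseChange
open Fermat.Agent.N4F.Tors.Kummer Fermat.Agent.N4F.Tors.KummerBar
open Fermat.Agent.N4F.Tors.HeckeDiv Fermat.Agent.N4F.A.LevelMaps
open Fermat.Agent.S24 Fermat.Agent.S24.FieldIso

local notation "Qb" => AlgebraicClosure ℚ

variable (N : ℕ) [NeZero N]

/-- **Specification of the complex Kummer map** (what `Tors/KummerPic` delivers). -/
structure KummerPicSpec
    (κ : ∀ n : ℕ, Pic0.torsion ℂ (FC N) n →+ (Additive ↥(Gamma0 N) →+ ZMod n)) : Prop where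
  /-- an element all of whose orders at the places of `ℂ · F_N` are divisible by `n` is
  `n`-divisible on `ℍ` -/
  nDiv : ∀ (n : ℕ), 0 < n → ∀ u : WHField (Gamma0 N), u ≠ 0 →
    (∀ P : Place ℂ (FC N), (n : ℤ) ∣ P.ord (fieldEquiv N u)) → NDiv (Gamma0 N) n u
  /-- the Kummer map of the class of `D`, `n • D = div u`, is the Kummer character of `u` -/
  spec : ∀ (n : ℕ) [NeZero n] (D : Divisor.degZero (K := ℂ) (F := FC N))
    (u : WHField (Gamma0 N)) (hN : NDiv (Gamma0 N) n u)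
    (_ : ∀ P : Place ℂ (FC N), (n : ℤ) * (D : Divisor ℂ (FC N)) P = P.ord (fieldEquiv N u))
    (hD : Pic0.mk D ∈ Pic0.torsion ℂ (FC N) n), κ n ⟨Pic0.mk D, hD⟩ = kummerChar hN
  /-- the Kummer map is injective -/
  inj : ∀ n : ℕ, 0 < n → Function.Injective (κ n)

/-- **The core of F3c** (what `Tors/KummerHecke` delivers): the Kummer character of the norm
`N_α (β f)` is the Hecke operator applied to the Kummer character of `f`. -/
def HeckeCore : Prop :=
  ∀ (ℓ : Nat.Primes) (hℓN : ¬ (ℓ : ℕ) ∣ N) (n : ℕ) [NeZero n] (f : modularFunctionFieldBar N),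
    f ≠ 0 →
    ∀ (hu : NDiv (Gamma0 N) n ((fieldEquiv N).symm (barToC N ι f)))
      (hu' : NDiv (Gamma0 N) n ((fieldEquiv N).symm (barToC N ι
        (haveI : NeZero (ℓ : ℕ) := ⟨ℓ.2.ne_zero⟩; normBeta N (ℓ : ℕ) f)))),
      kummerChar hu' = heckeAddP N ℓ hℓN (kummerChar hu)

variable {N}

theorem normBeta_ne_zero (ℓ : ℕ) [NeZero ℓ] {f : modularFunctionFieldBar N} (hf : f ≠ 0) :
    normBeta N ℓ f ≠ 0 := by
  letI := algebraAlong (heckeAlphaBar Qb N ℓ)
  haveI : Module.Finite (laurentBaseChange Qb (modularFunctionFieldFull N))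
      (laurentBaseChange Qb (modularFunctionFieldFull (N * ℓ))) :=
    finiteAlong_heckeAlphaBar N ℓ
  haveI : Module.Free (laurentBaseChange Qb (modularFunctionFieldFull N))
      (laurentBaseChange Qb (modularFunctionFieldFull (N * ℓ))) :=
    Module.Free.of_divisionRing _ _
  rw [normBeta_def, Ne, Algebra.norm_eq_zero_iff]
  exact (map_ne_zero _).mpr hf

/-- The value of a specified Kummer map on a class given by a generator on the `ℂ`-side. -/
theorem KummerPicSpec.apply_eq {κ : ∀ n : ℕ, Pic0.torsion ℂ (FC N) n →+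
      (Additive ↥(Gamma0 N) →+ ZMod n)} (hκ : KummerPicSpec N κ) {n : ℕ} [NeZero n]
    (x : Pic0.torsion ℂ (FC N) n) (D : Divisor.degZero (K := ℂ) (F := FC N)) (g : FC N)
    (hg : g ≠ 0) (hx : (x : Pic0 ℂ (FC N)) = Pic0.mk D)
    (hD : ∀ P : Place ℂ (FC N), (n : ℤ) * (D : Divisor ℂ (FC N)) P = P.ord g) :
    ∃ hu : NDiv (Gamma0 N) n ((fieldEquiv N).symm g), κ n x = kummerChar hu := by
  have hn : 0 < n := Nat.pos_of_ne_zero (NeZero.ne n)
  have hg' : fieldEquiv N ((fieldEquiv N).symm g) = g := (fieldEquiv N).apply_symm_apply g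
  have hu0 : (fieldEquiv N).symm g ≠ 0 := (map_ne_zero _).mpr hg
  have hu : NDiv (Gamma0 N) n ((fieldEquiv N).symm g) :=
    hκ.nDiv n hn _ hu0 (fun P => ⟨(D : Divisor ℂ (FC N)) P, by rw [hg', ← hD P]⟩)
  refine ⟨hu, ?_⟩
  have hmem : Pic0.mk D ∈ Pic0.torsion ℂ (FC N) n := hx ▸ x.2
  have hxe : x = ⟨Pic0.mk D, hmem⟩ := Subtype.ext hx
  rw [hxe]
  exact hκ.spec n D _ hu (fun P => by rw [hg']; exact hD P) hmem

section Parts

variable {κ : ∀ n : ℕ, Pic0.torsion ℂ (FC N) n →+ (Additive ↥(Gamma0 N) →+ ZMod n)}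

/-- (C2) surjectivity: F2b. -/
theorem surj_of (hκ : KummerPicSpec N κ) (n : ℕ) (hn : 0 < n)
    (ψ : Additive ↥(Gamma0 N) →+ ZMod n) (hψ : ψ ∈ parHomAdd N (ZMod n)) :
    ∃ x, κ n x = ψ := by
  haveI : NeZero n := ⟨hn.ne'⟩
  obtain ⟨u, hu, hψu, hdiv⟩ := EisClass.exists_nDiv_kummerChar_eq hψ
  obtain ⟨D, hD⟩ := exists_degZero_nsmul_eq (K := ℂ) hn (fieldEquiv N u) hdiv
  have hu0 : fieldEquiv N u ≠ 0 := (map_ne_zero _).mpr hu.1
  have hmem := mk_mem_torsion_of_nsmul_eq D hu0 hD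
  refine ⟨⟨Pic0.mk D, hmem⟩, ?_⟩
  rw [← hψu]
  refine hκ.spec n D u hu (fun P => ?_) hmem
  have h1 := DFunLike.congr_fun hD P
  rw [Finsupp.smul_apply, Canonical.divOf_apply', nsmul_eq_mul] at h1
  exact h1

set_option maxHeartbeats 1000000 in
/-- (C3) Hecke equivariance: F3c. -/
theorem hecke_of (hκ : KummerPicSpec N κ) (hH : HeckeCore N) (n : ℕ) (hn : 0 < n)
    (ℓ : Nat.Primes) (hℓN : ¬ (ℓ : ℕ) ∣ N) (x : Jtors N n) :
    κ n (bcTors N n (heckeTorsAdd N n ℓ x)) = heckeAddP N ℓ hℓN (κ n (bcTors N n x)) := by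
  haveI : NeZero n := ⟨hn.ne'⟩
  haveI : NeZero (ℓ : ℕ) := ⟨ℓ.2.ne_zero⟩
  obtain ⟨D, f, hf, hxD, hD⟩ := exists_generator x.2
  obtain ⟨D', hTD, hD'⟩ := exists_hecke_divisor N ℓ n D f hf hD
  obtain ⟨DC, hDC, hordC⟩ := exists_bcPicC_divisor N n D f hD
  obtain ⟨DC', hDC', hordC'⟩ := exists_bcPicC_divisor N n D' (normBeta N (ℓ : ℕ) f) hD'
  have hf' : barToC N ι f ≠ 0 := (map_ne_zero _).mpr hf
  have hnf' : barToC N ι (normBeta N (ℓ : ℕ) f) ≠ 0 :=
    (map_ne_zero _).mpr (normBeta_ne_zero (ℓ : ℕ) hf)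
  have h1 : ((bcTors N n x : Pic0.torsion ℂ (FC N) n) : Pic0 ℂ (FC N)) = Pic0.mk DC := by
    rw [coe_bcTors, hxD, hDC]
  have h2 : ((bcTors N n (heckeTorsAdd N n ℓ x) : Pic0.torsion ℂ (FC N) n) : Pic0 ℂ (FC N)) =
      Pic0.mk DC' := by
    rw [coe_bcTors]
    show bcPicC N (heckeOperatorBar N ℓ (x : JZero N)) = _
    rw [hxD, hTD, hDC']
  obtain ⟨hu, hκ1⟩ := hκ.apply_eq (bcTors N n x) DC (barToC N ι f) hf' h1 hordC
  obtain ⟨hu', hκ2⟩ := hκ.apply_eq (bcTors N n (heckeTorsAdd N n ℓ x)) DC'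
    (barToC N ι (normBeta N (ℓ : ℕ) f)) hnf' h2 hordC'
  rw [hκ1, hκ2]
  exact hH ℓ hℓN n f hf hu hu'

/-- (C4) compatibility: K4. -/
theorem compat_of (hκ : KummerPicSpec N κ) (n n' : ℕ) (hdvd : n ∣ n') (hn' : 0 < n')
    (x : Pic0.torsion ℂ (FC N) n')
    (hx : (n' / n) • (x : Pic0 ℂ (FC N)) ∈ Pic0.torsion ℂ (FC N) n) :
    κ n ⟨(n' / n) • (x : Pic0 ℂ (FC N)), hx⟩ =
      (ZMod.castHom hdvd (ZMod n)).toAddMonoidHom.comp (κ n' x) := by
  have hn : 0 < n := Nat.pos_of_dvd_of_pos hdvd hn'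
  haveI : NeZero n := ⟨hn.ne'⟩
  haveI : NeZero n' := ⟨hn'.ne'⟩
  obtain ⟨D, g, hg, hxD, hD⟩ := exists_generator x.2
  obtain ⟨hu', hκ'⟩ := hκ.apply_eq x D g hg hxD hD
  have hxD2 : ((⟨(n' / n) • (x : Pic0 ℂ (FC N)), hx⟩ : Pic0.torsion ℂ (FC N) n) :
      Pic0 ℂ (FC N)) = Pic0.mk ((n' / n) • D) := by
    show (n' / n) • (x : Pic0 ℂ (FC N)) = _
    rw [hxD]
    exact (map_nsmul (QuotientAddGroup.mk' _) (n' / n) D).symm
  have hD2 : ∀ P : Place ℂ (FC N),
      (n : ℤ) * (((n' / n) • D : Divisor.degZero (K := ℂ) (F := FC N)) : Divisor ℂ (FC N)) P =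
        P.ord g := by
    intro P
    rw [AddSubgroup.coe_nsmul, Finsupp.smul_apply, nsmul_eq_mul, ← mul_assoc, ← hD P]
    congr 1
    have : n * (n' / n) = n' := Nat.mul_div_cancel' hdvd
    exact_mod_cast this
  obtain ⟨hu, hκn⟩ := hκ.apply_eq ⟨(n' / n) • (x : Pic0 ℂ (FC N)), hx⟩ ((n' / n) • D) g hg
    hxD2 hD2
  rw [hκn, hκ']
  exact KummerCompat.kummerChar_of_dvd hdvd hu' hu

end Parts

/-- **F7, part 2**: the complex Kummer package from the specification of `kummerC` and the core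
of F3c. -/
theorem complexKummer_of {κ : ∀ n : ℕ, Pic0.torsion ℂ (FC N) n →+
      (Additive ↥(Gamma0 N) →+ ZMod n)} (hκ : KummerPicSpec N κ) (hH : HeckeCore N) :
    ComplexKummer N :=
  ⟨κ, hκ.inj, surj_of hκ, hecke_of hκ hH, compat_of hκ⟩

/-- **Block F, all outputs**, from the two remaining inputs. -/
theorem kummerPackageAll_of {κ : ∀ n : ℕ, Pic0.torsion ℂ (FC N) n →+
      (Additive ↥(Gamma0 N) →+ ZMod n)} (hκ : KummerPicSpec N κ) (hH : HeckeCore N) :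
    KummerPackageAll N :=
  kummerPackageAll (complexKummer_of hκ hH)

end Fermat.Agent.N4F.Tors.KummerFinal
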