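import Fermat.Agent.N4F.Tors.GaloisNorm
import Fermat.Agent.N4F.E.DegreeLevelRaise
import Fermat.Agent.N4F.E.NormDescent
import Fermat.Agent.S24.FieldIsoFinal
import Fermat.Agent.S24.BarToC
import Fermat.Agent.M2.NfullLe

/-!
# N4-FULL / F3b : the norm along `α` is the product over the cosets of `Γ₀(Nℓ)` in `Γ₀(N)`

Notation: `M = N * ℓ`, `Φ_N = (fieldEquiv N).symm : FC N ≃ WHField (Γ₀(N))`,
`barToC N ι : F₀(N) = modularFunctionFieldBar N → FC N` (coefficientwise `ι : Q̄ → ℂ`).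

* `scaleWH N ℓ : WH Γ₀(N) →ₐ[ℂ] WH Γ₀(Nℓ)`, `f ↦ f(ℓ z)`, and its extension `scaleField`;
  `fieldEquiv_scaleField : Φ⁻¹_{Nℓ} (scaleField x) = β_ℂ (Φ⁻¹_N x)`;
* `fieldEquiv_algebraMap : Φ⁻¹_{Nℓ} (x regarded in level Nℓ) = α_ℂ (Φ⁻¹_N x)`;
* `normWH` : for `c ∈ WH Γ₀(Nℓ)` and a right transversal `δ_j` of `Γ₀(Nℓ)` in `Γ₀(N)` the function
  `z ↦ ∏_j c(δ_j z)` lies in `WH Γ₀(N)` and is the norm of `c`;
* `barToC_norm` : the norm along `α` commutes with `Q̄ → ℂ`;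
* `main` : the assembled statement for F3c.
-/

set_option autoImplicit false
set_option linter.style.haveILetI false

namespace Fermat.Agent.N4F.Tors.NormCosets

open UpperHalfPlane ModularForm MatrixGroups Filter CongruenceSubgroup Asymptotics ModularCurve
open Fermat.Agent.M2 Fermat.Agent.S24 Fermat.Agent.S24.FieldIso AlgebraicCurve
open scoped Manifold Topology Real

local notation "Δ" => ModularForm.discriminant

/-! ### The cusp condition under an affine substitution -/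

section Affine

open JN

/-- If `g Δ^m` is bounded at `i∞` then so is `g((Az+B)/D) Δ(z)^{mA}`. -/
lemma isBoundedAtImInfty_comp_affH {g : ℍ → ℂ} {m : ℕ}
    (hg : IsBoundedAtImInfty (fun z : ℍ => g z * Δ z ^ m))
    (A D : ℕ) (hA : 0 < A) (hD : 0 < D) (B : ℤ) :
    IsBoundedAtImInfty (fun z : ℍ => g (affH A D hA hD B z) * Δ z ^ (m * A)) := by
  have hA' : (0 : ℝ) < A := Nat.cast_pos.mpr hA
  have hD' : (0 : ℝ) < D := Nat.cast_pos.mpr hD
  set w := affH A D hA hD B with hw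
  have htw := tendsto_affH A D hA hD B
  have h1 : (fun z : ℍ => g (w z) * Δ (w z) ^ m) =O[atImInfty] (fun _ : ℍ => (1 : ℝ)) := by
    have h := hg
    rw [IsBoundedAtImInfty, BoundedAtFilter] at h
    exact h.comp_tendsto htw
  have h2 : (fun z : ℍ => (Δ (w z))⁻¹) =O[atImInfty]
      fun z : ℍ => (Real.exp (-2 * π * (w z).im))⁻¹ := by
    have := (exp_isBigO_discriminant.comp_tendsto htw)
    refine this.inv_rev (Eventually.of_forall fun z h => ?_)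
    exact absurd h (Real.exp_pos _).ne'
  have h3 : (fun z : ℍ => Δ z ^ (m * A)) =O[atImInfty]
      fun z : ℍ => (Real.exp (-2 * π * z.im / 1)) ^ (m * A) :=
    (CuspFormClass.exp_decay_atImInfty (h := 1) CuspForm.discriminant one_pos
      one_mem_strictPeriods_SL).pow (m * A)
  have h4 := (h1.mul (h2.pow m)).mul h3
  have heq : (fun z : ℍ => g (w z) * Δ z ^ (m * A)) =
      fun z : ℍ => g (w z) * Δ (w z) ^ m * (Δ (w z))⁻¹ ^ m * Δ z ^ (m * A) := by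
    ext z
    have hne : Δ (w z) ^ m ≠ 0 := pow_ne_zero m (discriminant_ne_zero _)
    rw [inv_pow]
    field_simp
  rw [IsBoundedAtImInfty, BoundedAtFilter, heq]
  refine h4.trans (IsBigO.of_bound 1 (Eventually.of_forall fun z => ?_))
  simp only [one_mul, Pi.one_apply, norm_one, mul_one, div_one]
  rw [← Real.exp_neg, ← Real.exp_nat_mul, ← Real.exp_nat_mul, ← Real.exp_add, Real.norm_eq_abs,
    Real.abs_exp, Real.exp_le_one_iff, im_affH]
  have hy : 0 < z.im := z.im_pos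
  have hD1 : (1 : ℝ) ≤ D := by exact_mod_cast hD
  have hAD : (A : ℝ) / D ≤ A := div_le_self hA'.le hD1
  have h5 : (A : ℝ) / D * z.im ≤ A * z.im := mul_le_mul_of_nonneg_right hAD hy.le
  have hpi : 0 < π := Real.pi_pos
  have hm : (0 : ℝ) ≤ m := Nat.cast_nonneg m
  push_cast
  have h6 : (m : ℝ) * (2 * π * (A / D * z.im)) ≤ (m : ℝ) * (2 * π * (A * z.im)) := by
    apply mul_le_mul_of_nonneg_left _ hm
    apply mul_le_mul_of_nonneg_left h5
    positivity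
  nlinarith [h6]

end Affine

/-! ### The scale map `f ↦ f(ℓ z)` -/

section Scale

variable (N ℓ : ℕ) [NeZero N] [NeZero ℓ]

instance neZero_mul' : NeZero (N * ℓ) := ⟨Nat.mul_ne_zero (NeZero.ne N) (NeZero.ne ℓ)⟩

omit [NeZero N] in
/-- For `γ ∈ Γ₀(Nℓ)`, `diag(ℓ,1) γ diag(ℓ,1)⁻¹ ∈ Γ₀(N)`. -/
lemma conjGamma0_mem (γ : SL(2, ℤ)) (hγ : γ ∈ Gamma0 (N * ℓ))
    (hγ' : γ ∈ Gamma0 ℓ) : JN.conjGamma0 ℓ γ hγ' ∈ Gamma0 N := by
  rw [Gamma0_mem, ZMod.intCast_zmod_eq_zero_iff_dvd] at hγ ⊢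
  have hℓ : (ℓ : ℤ) ≠ 0 := Int.natCast_ne_zero.mpr (NeZero.ne ℓ)
  obtain ⟨k, hk⟩ := hγ
  have h1 : (JN.conjGamma0 ℓ γ hγ') 1 0 = γ 1 0 / ℓ := by
    simp [JN.conjGamma0]
  rw [h1, hk]
  push_cast
  rw [show (N : ℤ) * ℓ * k = ℓ * (N * k) by ring, Int.mul_ediv_cancel_left _ hℓ]
  exact dvd_mul_right _ _

/-- `f ∈ WH Γ₀(N) ⇒ f(ℓ z) ∈ WH Γ₀(Nℓ)`. -/
theorem isWH_comp_scaleH {f : ℍ → ℂ} (hf : IsWH (Gamma0 N) f) :
    IsWH (Gamma0 (N * ℓ)) (f ∘ JN.scaleH ℓ) := by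
  refine ⟨QExp.mdiff_comp_scaleH ℓ hf.1, fun γ hγ z => ?_, fun δ => ?_⟩
  · have hγ' : γ ∈ Gamma0 ℓ := FieldIso.Gamma0_le_Gamma0_of_dvd (dvd_mul_left ℓ N) hγ
    show f (JN.scaleH ℓ (γ • z)) = f (JN.scaleH ℓ z)
    rw [JN.scaleH_smul ℓ γ hγ' z]
    exact hf.2.1 _ (conjGamma0_mem N ℓ γ hγ hγ') _
  · obtain ⟨δ', A, D, hA, hD, B, hdec⟩ := JN.exists_decomp ℓ δ
    obtain ⟨m, hm⟩ := hf.2.2 δ'
    refine ⟨m * A, ?_⟩
    have : (fun z : ℍ => (f ∘ JN.scaleH ℓ) (δ • z) * Δ z ^ (m * A)) =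
        fun z => (fun w : ℍ => f (δ' • w)) (JN.affH A D hA hD B z) * Δ z ^ (m * A) := by
      ext z
      simp only [Function.comp_apply]
      rw [hdec z]
    rw [this]
    exact isBoundedAtImInfty_comp_affH hm A D hA hD B

/-- The scale map `f ↦ f(ℓ z)`, `WH Γ₀(N) → WH Γ₀(Nℓ)`. -/
noncomputable def scaleWH : WH (Gamma0 N) →ₐ[ℂ] WH (Gamma0 (N * ℓ)) where
  toFun f := ⟨(f : ℍ → ℂ) ∘ JN.scaleH ℓ, isWH_comp_scaleH N ℓ f.2⟩
  map_one' := rfl
  map_mul' _ _ := rfl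
  map_zero' := rfl
  map_add' _ _ := rfl
  commutes' _ := rfl

lemma coe_scaleWH (f : WH (Gamma0 N)) (z : ℍ) :
    ((scaleWH N ℓ f : WH (Gamma0 (N * ℓ))) : ℍ → ℂ) z = (f : ℍ → ℂ) (JN.scaleH ℓ z) := rfl

/-- `q`-expansion of `f(ℓ z)`. -/
theorem qexp_scaleWH (f : WH (Gamma0 N)) :
    QExp.qexp (N * ℓ) (scaleWH N ℓ f) = qExpand ℂ ℓ (QExp.qexp N f) := by
  rw [QExp.qexp_apply, QExp.qexp_apply]
  exact QExp.qexpFun_comp_scaleH ℓ (QExp.isMer_coe (QExp.T_mem_Gamma0 N) f)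
    (QExp.isMer_coe (QExp.T_mem_Gamma0 (N * ℓ)) (scaleWH N ℓ f))

lemma qExpand_injective (R : Type*) [CommRing R] (n : ℕ) [NeZero n] :
    Function.Injective (qExpand R n) := by
  intro x y h
  ext k
  have := congrArg (fun s : LaurentSeries R => s.coeff ((n : ℤ) * k)) h
  simpa only [qExpand_coeff_mul] using this

theorem scaleWH_injective : Function.Injective (scaleWH N ℓ) := by
  intro f g h
  apply QExp.qexp_injective N
  apply qExpand_injective ℂ ℓ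
  rw [← qexp_scaleWH, ← qexp_scaleWH, h]

/-- The scale map on the fields of modular functions. -/
noncomputable def scaleField : WHField (Gamma0 N) →ₐ[ℂ] WHField (Gamma0 (N * ℓ)) :=
  IsFractionRing.liftAlgHom (K := WHField (Gamma0 N))
    (g := (IsScalarTower.toAlgHom ℂ (WH (Gamma0 (N * ℓ))) (WHField (Gamma0 (N * ℓ)))).comp
      (scaleWH N ℓ))
    ((IsFractionRing.injective (WH (Gamma0 (N * ℓ))) (WHField (Gamma0 (N * ℓ)))).comp
      (scaleWH_injective N ℓ))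

lemma scaleField_algebraMap (f : WH (Gamma0 N)) :
    scaleField N ℓ (algebraMap (WH (Gamma0 N)) (WHField (Gamma0 N)) f) =
      algebraMap (WH (Gamma0 (N * ℓ))) (WHField (Gamma0 (N * ℓ))) (scaleWH N ℓ f) := by
  rw [scaleField, IsFractionRing.liftAlgHom_apply, IsFractionRing.lift_algebraMap]
  rfl

/-- `Φ⁻¹_{Nℓ} ∘ scale = β_ℂ ∘ Φ⁻¹_N`. -/
theorem fieldEquiv_scaleField (x : WHField (Gamma0 N)) :
    fieldEquiv (N * ℓ) (scaleField N ℓ x) = heckeBetaBar ℂ N ℓ (fieldEquiv N x) := by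
  have h : ((fieldEquiv (N * ℓ)).toAlgHom.comp (scaleField N ℓ)).toRingHom =
      ((heckeBetaBar ℂ N ℓ).comp (fieldEquiv N).toAlgHom).toRingHom := by
    apply IsLocalization.ringHom_ext (nonZeroDivisors (WH (Gamma0 N)))
    refine RingHom.ext fun f => ?_
    apply Subtype.ext
    show ((fieldEquiv (N * ℓ) (scaleField N ℓ (algebraMap _ _ f)) : FC (N * ℓ)) : LaurentSeries ℂ) =
      ((heckeBetaBar ℂ N ℓ (fieldEquiv N (algebraMap _ _ f)) : FC (N * ℓ)) : LaurentSeries ℂ)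
    rw [coe_heckeBetaBar, coe_fieldEquiv, coe_fieldEquiv, scaleField_algebraMap,
      qexpField_algebraMap, qexpField_algebraMap, qexp_scaleWH]
  exact congrArg (fun φ : WHField (Gamma0 N) →+* FC (N * ℓ) => φ x) h

end Scale

/-! ### Change of level -/

section Tower3

variable (Γ₁ Γ₂ Γ₃ : Subgroup SL(2, ℤ)) [h12 : Fact (Γ₂ ≤ Γ₁)] [h23 : Fact (Γ₃ ≤ Γ₂)]
  [h13 : Fact (Γ₃ ≤ Γ₁)]

/-- The three-step tower of fields of modular functions. -/
theorem isScalarTower_WHField : IsScalarTower (WHField Γ₁) (WHField Γ₂) (WHField Γ₃) := by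
  refine IsScalarTower.of_algebraMap_eq' ?_
  apply IsLocalization.ringHom_ext (nonZeroDivisors (WH Γ₁))
  refine RingHom.ext fun f => ?_
  show algebraMap (WHField Γ₁) (WHField Γ₃) (algebraMap (WH Γ₁) (WHField Γ₁) f) =
    algebraMap (WHField Γ₂) (WHField Γ₃)
      (algebraMap (WHField Γ₁) (WHField Γ₂) (algebraMap (WH Γ₁) (WHField Γ₁) f))
  rw [← IsScalarTower.algebraMap_apply (WH Γ₁) (WHField Γ₁) (WHField Γ₃),
    ← IsScalarTower.algebraMap_apply (WH Γ₁) (WHField Γ₁) (WHField Γ₂),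
    IsScalarTower.algebraMap_apply (WH Γ₁) (WH Γ₂) (WHField Γ₂),
    ← IsScalarTower.algebraMap_apply (WH Γ₂) (WHField Γ₂) (WHField Γ₃),
    IsScalarTower.algebraMap_apply (WH Γ₂) (WH Γ₃) (WHField Γ₃),
    IsScalarTower.algebraMap_apply (WH Γ₁) (WH Γ₃) (WHField Γ₃)]
  rfl

end Tower3

section Level

variable (N ℓ : ℕ) [NeZero N] [NeZero ℓ]

instance fact_Gamma0_mul_le : Fact (Gamma0 (N * ℓ) ≤ Gamma0 N) :=
  ⟨FieldIso.Gamma0_le_Gamma0_of_dvd (dvd_mul_right N ℓ)⟩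

instance fact_Gamma_mul_le : Fact (Gamma (N * ℓ) ≤ Gamma0 N) :=
  ⟨(Gamma_le_Gamma0 (N * ℓ)).trans (FieldIso.Gamma0_le_Gamma0_of_dvd (dvd_mul_right N ℓ))⟩

instance isScalarTower_level :
    IsScalarTower (WHField (Gamma0 N)) (WHField (Gamma0 (N * ℓ))) (WHField (Gamma (N * ℓ))) :=
  isScalarTower_WHField _ _ _

omit [NeZero N] [NeZero ℓ] in
lemma qexpField_level (x : WHField (Gamma0 N)) :
    qexpField (N * ℓ) (algebraMap (WHField (Gamma0 N)) (WHField (Gamma0 (N * ℓ))) x) =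
      qexpField N x := by
  have h : (qexpField (N * ℓ)).toRingHom.comp
      (algebraMap (WHField (Gamma0 N)) (WHField (Gamma0 (N * ℓ)))) = (qexpField N).toRingHom := by
    apply IsLocalization.ringHom_ext (nonZeroDivisors (WH (Gamma0 N)))
    refine RingHom.ext fun f => ?_
    show qexpField (N * ℓ) (algebraMap (WHField (Gamma0 N)) (WHField (Gamma0 (N * ℓ)))
      (algebraMap (WH (Gamma0 N)) (WHField (Gamma0 N)) f)) =
        qexpField N (algebraMap (WH (Gamma0 N)) (WHField (Gamma0 N)) f)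
    rw [← IsScalarTower.algebraMap_apply (WH (Gamma0 N)) (WHField (Gamma0 N))
      (WHField (Gamma0 (N * ℓ))),
      IsScalarTower.algebraMap_apply (WH (Gamma0 N)) (WH (Gamma0 (N * ℓ)))
      (WHField (Gamma0 (N * ℓ))), qexpField_algebraMap, qexpField_algebraMap]
    rfl
  exact congrArg (fun φ : WHField (Gamma0 N) →+* LaurentSeries ℂ => φ x) h

/-- `Φ⁻¹_{Nℓ} ∘ (level raising) = α_ℂ ∘ Φ⁻¹_N`. -/
theorem fieldEquiv_algebraMap (x : WHField (Gamma0 N)) :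
    fieldEquiv (N * ℓ) (algebraMap (WHField (Gamma0 N)) (WHField (Gamma0 (N * ℓ))) x) =
      heckeAlphaBar ℂ N ℓ (fieldEquiv N x) := by
  apply Subtype.ext
  rw [coe_heckeAlphaBar, coe_fieldEquiv, coe_fieldEquiv, qexpField_level]

/-- The norm along `α_ℂ` corresponds to the norm of the extension of fields of modular functions. -/
theorem fieldEquiv_symm_norm (G : FC (N * ℓ)) :
    (fieldEquiv N).symm (letI := algebraAlong (heckeAlphaBar ℂ N ℓ); Algebra.norm (FC N) G) =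
      Algebra.norm (WHField (Gamma0 N)) ((fieldEquiv (N * ℓ)).symm G) := by
  letI := algebraAlong (heckeAlphaBar ℂ N ℓ)
  have h := Algebra.norm_eq_of_equiv_equiv (fieldEquiv N).toRingEquiv
    (fieldEquiv (N * ℓ)).toRingEquiv (by
      refine RingHom.ext fun x => ?_
      exact (fieldEquiv_algebraMap N ℓ x).symm) ((fieldEquiv (N * ℓ)).symm G)
  rw [h]
  simp

end Level

/-! ### Galois theory: the norm is the product over the cosets -/

section Galois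

variable (N ℓ : ℕ) [NeZero N] [NeZero ℓ]
variable {J : Type*} [Fintype J]

/-- **Norm = product over left coset representatives** `γ_j` of `Γ₀(N) / Γ₀(Nℓ)`, inside the
Galois closure `WHField (Γ(Nℓ))`. Recall `(piG γ • f)(z) = f(γ⁻¹ z)`. -/
theorem algebraMap_norm_eq_prod_piG (γ : J → SL(2, ℤ)) (hγ : ∀ j, γ j ∈ Gamma0 N)
    (hcos : ∀ g ∈ Gamma0 N, ∃! j, (γ j)⁻¹ * g ∈ Gamma0 (N * ℓ))
    (y : WHField (Gamma0 (N * ℓ))) :
    algebraMap (WHField (Gamma0 N)) (WHField (Gamma (N * ℓ)))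
        (Algebra.norm (WHField (Gamma0 N)) y) =
      ∏ j, piG (Gamma (N * ℓ)) (γ j) •
        algebraMap (WHField (Gamma0 (N * ℓ))) (WHField (Gamma (N * ℓ))) y := by
  have hle : Heff (Gamma0 (N * ℓ)) (Gamma (N * ℓ)) ≤ Heff (Gamma0 N) (Gamma (N * ℓ)) :=
    Subgroup.map_mono (fact_Gamma0_mul_le N ℓ).out
  refine GaloisNorm.algebraMap_norm_eq_prod_smul_of_le (G := Geff (Gamma (N * ℓ)))
    (K := WHField (Gamma0 N)) (B := WHField (Gamma0 (N * ℓ))) (L := WHField (Gamma (N * ℓ)))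
    (Heff (Gamma0 N) (Gamma (N * ℓ))) (Heff (Gamma0 (N * ℓ)) (Gamma (N * ℓ))) hle
    (fun j => piG (Gamma (N * ℓ)) (γ j)) (fun j => ⟨γ j, hγ j, rfl⟩) ?_ y
  rintro g ⟨σ, hσ, rfl⟩
  obtain ⟨j, hj, huniq⟩ := hcos σ hσ
  refine ⟨j, ⟨(γ j)⁻¹ * σ, hj, by simp⟩, fun j' hj' => huniq j' ?_⟩
  obtain ⟨τ, hτ, hτeq⟩ := hj'
  have hker : τ⁻¹ * ((γ j')⁻¹ * σ) ∈ (piG (Gamma (N * ℓ))).ker := by
    rw [MonoidHom.mem_ker, map_mul, map_inv, hτeq]
    simp
  have h1 : τ⁻¹ * ((γ j')⁻¹ * σ) ∈ Gamma0 (N * ℓ) := Nfull_le_Gamma0 (N * ℓ) hker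
  have h2 := (Gamma0 (N * ℓ)).mul_mem hτ h1
  simpa using h2

/-- **The norm of an integral element**: for `c ∈ WH Γ₀(Nℓ)` and a right transversal `δ_j` of
`Γ₀(Nℓ)` in `Γ₀(N)` (`Γ₀(N) = ⊔_j Γ₀(Nℓ) δ_j`), the function `z ↦ ∏_j c(δ_j z)` lies in `WH Γ₀(N)`
and is the norm of `c`. -/
theorem exists_normWH (δ : J → SL(2, ℤ)) (hδ : ∀ j, δ j ∈ Gamma0 N)
    (hcos : ∀ g ∈ Gamma0 N, ∃! j, g * (δ j)⁻¹ ∈ Gamma0 (N * ℓ))
    (c : WH (Gamma0 (N * ℓ))) :
    ∃ C : WH (Gamma0 N), (∀ z, (C : ℍ → ℂ) z = ∏ j, (c : ℍ → ℂ) (δ j • z)) ∧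
      algebraMap (WH (Gamma0 N)) (WHField (Gamma0 N)) C =
        Algebra.norm (WHField (Gamma0 N))
          (algebraMap (WH (Gamma0 (N * ℓ))) (WHField (Gamma0 (N * ℓ))) c) := by
  set c' : WH (Gamma (N * ℓ)) := algebraMap (WH (Gamma0 (N * ℓ))) (WH (Gamma (N * ℓ))) c with hc'
  set P : WH (Gamma (N * ℓ)) := ∏ j, (δ j)⁻¹ • c' with hP
  have hPz : ∀ z, (P : ℍ → ℂ) z = ∏ j, (c : ℍ → ℂ) (δ j • z) := by
    intro z
    have h1 : ((P : WH (Gamma (N * ℓ))) : ℍ → ℂ) = ∏ j, (((δ j)⁻¹ • c' : WH (Gamma (N * ℓ))) : ℍ → ℂ) := by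
      rw [hP]
      exact map_prod (WH (Gamma (N * ℓ))).val _ _
    rw [h1, Finset.prod_apply]
    refine Finset.prod_congr rfl fun j _ => ?_
    rw [WH.smul_apply, inv_inv]
    rfl
  -- the norm formula
  have hnorm := algebraMap_norm_eq_prod_piG N ℓ (fun j => (δ j)⁻¹)
    (fun j => (Gamma0 N).inv_mem (hδ j)) (fun g hg => by
      obtain ⟨j, hj, huniq⟩ := hcos g⁻¹ ((Gamma0 N).inv_mem hg)
      refine ⟨j, ?_, fun j' hj' => huniq j' ?_⟩
      · have := (Gamma0 (N * ℓ)).inv_mem hj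
        simpa using this
      · have := (Gamma0 (N * ℓ)).inv_mem hj'
        simpa using this)
    (algebraMap (WH (Gamma0 (N * ℓ))) (WHField (Gamma0 (N * ℓ))) c)
  have hterm : ∀ j, piG (Gamma (N * ℓ)) (δ j)⁻¹ •
      algebraMap (WHField (Gamma0 (N * ℓ))) (WHField (Gamma (N * ℓ)))
        (algebraMap (WH (Gamma0 (N * ℓ))) (WHField (Gamma0 (N * ℓ))) c) =
      algebraMap (WH (Gamma (N * ℓ))) (WHField (Gamma (N * ℓ))) ((δ j)⁻¹ • c') := by
    intro j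
    rw [← IsScalarTower.algebraMap_apply (WH (Gamma0 (N * ℓ))) (WHField (Gamma0 (N * ℓ)))
      (WHField (Gamma (N * ℓ))),
      IsScalarTower.algebraMap_apply (WH (Gamma0 (N * ℓ))) (WH (Gamma (N * ℓ)))
      (WHField (Gamma (N * ℓ))), ← algebraMap.smul', piG_smul]
  have hnorm' : algebraMap (WHField (Gamma0 N)) (WHField (Gamma (N * ℓ)))
      (Algebra.norm (WHField (Gamma0 N))
        (algebraMap (WH (Gamma0 (N * ℓ))) (WHField (Gamma0 (N * ℓ))) c)) =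
      algebraMap (WH (Gamma (N * ℓ))) (WHField (Gamma (N * ℓ))) P := by
    rw [hnorm, hP, map_prod]
    exact Finset.prod_congr rfl fun j _ => hterm j
  -- invariance of `P` under `Γ₀(N)`
  have hinv : ∀ σ ∈ Gamma0 N, ∀ z : ℍ, (P : ℍ → ℂ) (σ • z) = (P : ℍ → ℂ) z := by
    intro σ hσ z
    have h1 : piG (Gamma (N * ℓ)) σ⁻¹ •
        algebraMap (WH (Gamma (N * ℓ))) (WHField (Gamma (N * ℓ))) P =
        algebraMap (WH (Gamma (N * ℓ))) (WHField (Gamma (N * ℓ))) P := by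
      rw [← hnorm']
      haveI : SMulCommClass (Heff (Gamma0 N) (Gamma (N * ℓ))) (WHField (Gamma0 N))
          (WHField (Gamma (N * ℓ))) := IsGaloisGroup.commutes
      exact smul_algebraMap (⟨piG (Gamma (N * ℓ)) σ⁻¹, σ⁻¹, (Gamma0 N).inv_mem hσ, rfl⟩ :
        Heff (Gamma0 N) (Gamma (N * ℓ))) _
    rw [← algebraMap.smul', piG_smul] at h1
    have h2 := IsFractionRing.injective (WH (Gamma (N * ℓ))) (WHField (Gamma (N * ℓ))) h1
    have h3 := congrArg (fun f : WH (Gamma (N * ℓ)) => (f : ℍ → ℂ) z) h2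
    simp only [WH.smul_apply, inv_inv] at h3
    exact h3
  have hmem : (P : ℍ → ℂ) ∈ WH (Gamma0 N) := mem_WH_of_invariant P.2 hinv
  refine ⟨⟨(P : ℍ → ℂ), hmem⟩, hPz, ?_⟩
  apply (algebraMap (WHField (Gamma0 N)) (WHField (Gamma (N * ℓ)))).injective
  rw [hnorm', ← IsScalarTower.algebraMap_apply (WH (Gamma0 N)) (WHField (Gamma0 N))
    (WHField (Gamma (N * ℓ))),
    IsScalarTower.algebraMap_apply (WH (Gamma0 N)) (WH (Gamma (N * ℓ))) (WHField (Gamma (N * ℓ)))]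
  rfl

end Galois

/-! ### The norm of a quotient, on the `ℂ`-side -/

section NormC

variable (N ℓ : ℕ) [NeZero N] [NeZero ℓ]
variable {J : Type*} [Fintype J]

instance finiteDimensional_level :
    FiniteDimensional (WHField (Gamma0 N)) (WHField (Gamma0 (N * ℓ))) :=
  haveI : FiniteDimensional (WHField (Gamma0 N)) (WHField (Gamma (N * ℓ))) :=
    IsGaloisGroup.finiteDimensional (Heff (Gamma0 N) (Gamma (N * ℓ))) _ _
  FiniteDimensional.left (WHField (Gamma0 N)) (WHField (Gamma0 (N * ℓ))) (WHField (Gamma (N * ℓ)))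

/-- **Norm of a quotient `c/d` of level `Nℓ`** as a quotient of products over a right transversal. -/
theorem exists_norm_div (δ : J → SL(2, ℤ)) (hδ : ∀ j, δ j ∈ Gamma0 N)
    (hcos : ∀ g ∈ Gamma0 N, ∃! j, g * (δ j)⁻¹ ∈ Gamma0 (N * ℓ))
    (c d : WH (Gamma0 (N * ℓ))) (hd : d ≠ 0) :
    ∃ C D : WH (Gamma0 N), D ≠ 0 ∧
      (∀ z, (C : ℍ → ℂ) z = ∏ j, (c : ℍ → ℂ) (δ j • z)) ∧
      (∀ z, (D : ℍ → ℂ) z = ∏ j, (d : ℍ → ℂ) (δ j • z)) ∧
      Algebra.norm (WHField (Gamma0 N))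
        (algebraMap (WH (Gamma0 (N * ℓ))) (WHField (Gamma0 (N * ℓ))) c /
          algebraMap (WH (Gamma0 (N * ℓ))) (WHField (Gamma0 (N * ℓ))) d) =
        algebraMap (WH (Gamma0 N)) (WHField (Gamma0 N)) C /
          algebraMap (WH (Gamma0 N)) (WHField (Gamma0 N)) D := by
  obtain ⟨C, hC, hCn⟩ := exists_normWH N ℓ δ hδ hcos c
  obtain ⟨D, hD, hDn⟩ := exists_normWH N ℓ δ hδ hcos d
  have hD0 : D ≠ 0 := by
    intro h0
    rw [h0, map_zero] at hDn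
    have h1 := (Algebra.norm_eq_zero_iff (R := WHField (Gamma0 N))).mp hDn.symm
    exact hd ((IsFractionRing.injective (WH (Gamma0 (N * ℓ))) (WHField (Gamma0 (N * ℓ))))
      (h1.trans (map_zero _).symm))
  refine ⟨C, D, hD0, hC, hD, ?_⟩
  have hD1 : algebraMap (WH (Gamma0 N)) (WHField (Gamma0 N)) D ≠ 0 := fun h =>
    hD0 ((IsFractionRing.injective (WH (Gamma0 N)) (WHField (Gamma0 N))) (h.trans (map_zero _).symm))
  have hd1 : algebraMap (WH (Gamma0 (N * ℓ))) (WHField (Gamma0 (N * ℓ))) d ≠ 0 := fun h =>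
    hd ((IsFractionRing.injective (WH (Gamma0 (N * ℓ))) (WHField (Gamma0 (N * ℓ))))
      (h.trans (map_zero _).symm))
  rw [eq_div_iff hD1, hCn, hDn, ← map_mul, div_mul_cancel₀ _ hd1]

/-- **`ℂ`-side of F3b**: if `Φ_N F = a/b` then `Φ_N (N_α (β F)) = A/B` with
`A(z) = ∏_j a(ℓ δ_j z)`, `B(z) = ∏_j b(ℓ δ_j z)`. -/
theorem exists_norm_beta_div (δ : J → SL(2, ℤ)) (hδ : ∀ j, δ j ∈ Gamma0 N)
    (hcos : ∀ g ∈ Gamma0 N, ∃! j, g * (δ j)⁻¹ ∈ Gamma0 (N * ℓ))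
    (F : FC N) (a b : WH (Gamma0 N)) (hb : b ≠ 0)
    (hab : (fieldEquiv N).symm F = algebraMap (WH (Gamma0 N)) (WHField (Gamma0 N)) a /
      algebraMap (WH (Gamma0 N)) (WHField (Gamma0 N)) b) :
    ∃ A B : WH (Gamma0 N), B ≠ 0 ∧
      (∀ z, (A : ℍ → ℂ) z = ∏ j, (a : ℍ → ℂ) (JN.scaleH ℓ (δ j • z))) ∧
      (∀ z, (B : ℍ → ℂ) z = ∏ j, (b : ℍ → ℂ) (JN.scaleH ℓ (δ j • z))) ∧
      (fieldEquiv N).symm (letI := algebraAlong (heckeAlphaBar ℂ N ℓ);
          Algebra.norm (FC N) (heckeBetaBar ℂ N ℓ F)) =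
        algebraMap (WH (Gamma0 N)) (WHField (Gamma0 N)) A /
          algebraMap (WH (Gamma0 N)) (WHField (Gamma0 N)) B := by
  have hb' : scaleWH N ℓ b ≠ 0 := fun h => hb (scaleWH_injective N ℓ (h.trans (map_zero _).symm))
  obtain ⟨A, B, hB, hA, hBz, hn⟩ := exists_norm_div N ℓ δ hδ hcos (scaleWH N ℓ a) (scaleWH N ℓ b) hb'
  refine ⟨A, B, hB, fun z => (hA z).trans rfl, fun z => (hBz z).trans rfl, ?_⟩
  rw [fieldEquiv_symm_norm, ← hn]
  congr 1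
  rw [AlgEquiv.symm_apply_eq, ← scaleField_algebraMap, ← scaleField_algebraMap, ← map_div₀,
    ← hab, fieldEquiv_scaleField, AlgEquiv.apply_symm_apply]

end NormC

/-! ### Descent `Q̄ → ℂ` and the main statement -/

section Descent

local notation "Qb" => AlgebraicClosure ℚ

open Fermat.Agent.N4F.E

variable (N ℓ : ℕ) [NeZero N] [Fact ℓ.Prime] (ι : Qb →+* ℂ)

lemma barToC_alpha (x : modularFunctionFieldBar N) :
    barToC (N * ℓ) ι (heckeAlphaBar Qb N ℓ x) = heckeAlphaBar ℂ N ℓ (barToC N ι x) := by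
  apply Subtype.ext
  rw [coe_barToC, coe_heckeAlphaBar, coe_heckeAlphaBar, coe_barToC]

lemma barToC_beta (x : modularFunctionFieldBar N) :
    barToC (N * ℓ) ι (heckeBetaBar Qb N ℓ x) = heckeBetaBar ℂ N ℓ (barToC N ι x) := by
  apply Subtype.ext
  rw [coe_barToC, coe_heckeBetaBar, coe_heckeBetaBar, coe_barToC, coeffMap_qExpand]

/-- `[L·F_{Nℓ} : α(L·F_N)] = ℓ + 1` in the `Along` form. -/
theorem finrankAlong_alpha (L : Type) [Field L] [Algebra ℚ L] (ι' : L →+* ℂ) (hℓN : ¬ ℓ ∣ N) :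
    finrankAlong L (heckeAlphaBar L N ℓ) = ℓ + 1 := by
  letI := algebraAlong (heckeAlphaBar L N ℓ)
  show Module.finrank (laurentBaseChange L (modularFunctionFieldFull N))
    (laurentBaseChange L (modularFunctionFieldFull (N * ℓ))) = ℓ + 1
  rw [DegreeLevelRaise.finrank_eq_finrank_fieldRange (heckeAlphaBar L N ℓ) rfl,
    DegreeLevelRaise.finrank_heckeAlphaBar_prime L N ℓ ι' hℓN]

theorem finiteAlong_alpha (L : Type) [Field L] [Algebra ℚ L] (ι' : L →+* ℂ) (hℓN : ¬ ℓ ∣ N) :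
    FiniteAlong L (heckeAlphaBar L N ℓ) := by
  letI := algebraAlong (heckeAlphaBar L N ℓ)
  show Module.Finite (laurentBaseChange L (modularFunctionFieldFull N))
    (laurentBaseChange L (modularFunctionFieldFull (N * ℓ)))
  apply Module.finite_of_finrank_pos
  have h := finrankAlong_alpha N ℓ L ι' hℓN
  rw [finrankAlong] at h
  rw [h]
  exact Nat.succ_pos _

/-- **The norm along `α` commutes with `Q̄ → ℂ`.** -/
theorem barToC_norm (hℓN : ¬ ℓ ∣ N) (g : modularFunctionFieldBar (N * ℓ)) :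
    barToC N ι (letI := algebraAlong (heckeAlphaBar Qb N ℓ);
        Algebra.norm (modularFunctionFieldBar N) g) =
      (letI := algebraAlong (heckeAlphaBar ℂ N ℓ); Algebra.norm (FC N) (barToC (N * ℓ) ι g)) := by
  refine NormDescent.norm_map_along (heckeAlphaBar Qb N ℓ) (heckeAlphaBar ℂ N ℓ) (barToC N ι)
    (barToC (N * ℓ) ι) (barToC_alpha N ℓ ι) (finiteAlong_alpha N ℓ Qb ι hℓN) ?_ ?_ g
  · letI := algebraAlong (heckeAlphaBar ℂ N ℓ)
    haveI := isScalarTower_along (heckeAlphaBar ℂ N ℓ)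
    haveI : Module.Finite (FC N) (FC (N * ℓ)) := finiteAlong_alpha N ℓ ℂ (RingHom.id ℂ) hℓN
    exact NormDescent.span_eq_top_of_adjoin' (K' := ℂ) (barToC (N * ℓ) ι)
      (adjoin_range_barToC (N * ℓ) ι)
  · rw [finrankAlong_alpha N ℓ ℂ (RingHom.id ℂ) hℓN, finrankAlong_alpha N ℓ Qb ι hℓN]

variable {J : Type*} [Fintype J]

/-- **F3b, assembled.** `ℓ ∤ N` prime, `δ_j` a right transversal of `Γ₀(Nℓ)` in `Γ₀(N)`
(`Γ₀(N) = ⊔_j Γ₀(Nℓ) δ_j`), `f ∈ F₀(N)` with `Φ_N (φ_N f) = a/b`, `a, b ∈ WH Γ₀(N)`. Then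
`Φ_N (φ_N (N_α (β f))) = A/B` with `A(z) = ∏_j a(ℓ·δ_j z)`, `B(z) = ∏_j b(ℓ·δ_j z)` in `WH Γ₀(N)`. -/
theorem main (hℓN : ¬ ℓ ∣ N) (δ : J → SL(2, ℤ)) (hδ : ∀ j, δ j ∈ Gamma0 N)
    (hcos : ∀ g ∈ Gamma0 N, ∃! j, g * (δ j)⁻¹ ∈ Gamma0 (N * ℓ))
    (f : modularFunctionFieldBar N) (a b : WH (Gamma0 N)) (hb : b ≠ 0)
    (hab : (fieldEquiv N).symm (barToC N ι f) =
      algebraMap (WH (Gamma0 N)) (WHField (Gamma0 N)) a /
        algebraMap (WH (Gamma0 N)) (WHField (Gamma0 N)) b) :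
    ∃ A B : WH (Gamma0 N), B ≠ 0 ∧
      (∀ z, (A : ℍ → ℂ) z = ∏ j, (a : ℍ → ℂ) (JN.scaleH ℓ (δ j • z))) ∧
      (∀ z, (B : ℍ → ℂ) z = ∏ j, (b : ℍ → ℂ) (JN.scaleH ℓ (δ j • z))) ∧
      (fieldEquiv N).symm (barToC N ι (letI := algebraAlong (heckeAlphaBar Qb N ℓ);
          Algebra.norm (modularFunctionFieldBar N) (heckeBetaBar Qb N ℓ f))) =
        algebraMap (WH (Gamma0 N)) (WHField (Gamma0 N)) A /
          algebraMap (WH (Gamma0 N)) (WHField (Gamma0 N)) B := by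
  rw [barToC_norm N ℓ ι hℓN, barToC_beta]
  exact exists_norm_beta_div N ℓ δ hδ hcos (barToC N ι f) a b hb hab

end Descent

end Fermat.Agent.N4F.Tors.NormCosets
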