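/-
N4-FULL block F, node F3c (helper21): THE KUMMER CHARACTER IS HECKE EQUIVARIANT.

Part 1 (group theory): an explicit right transversal `δ_x`, `x ∈ ℙ¹(𝔽_ℓ)`, of `Γ₀(Nℓ)` in `Γ₀(N)`
adapted to the Hecke coset system `heckeRep ℓ x` of `HeckeHom.lean`:
`heckeRep ℓ ∞ * δ_x ∈ Γ₀(N) * heckeRep ℓ x`.

Part 2 (functions): if `(a, b, h)` is a root datum of `u = Φ_N (φ_N f)` then
`H z = ∏_x h (ℓ · δ_x z)` is a root of the root datum `(A, B)` of `Φ_N (φ_N (N_α (β f)))` given by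
`NormCosets.main`, and `H (γ z) = (heckeHom mult) γ * H z`.  Hence
`kummerChar (N_α (β f)) = heckeAdd (kummerChar f)`.
-/
import Mathlib
import Fermat.Agent.N4F.Tors.Kummer
import Fermat.Agent.N4F.Tors.HeckeHom
import Fermat.Agent.N4F.Tors.NormCosets

set_option autoImplicit false
set_option linter.style.haveILetI false
set_option linter.unusedSectionVars false

open UpperHalfPlane MatrixGroups CongruenceSubgroup ModularForm
open Matrix.SpecialLinearGroup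
open scoped OnePoint Manifold

noncomputable section

namespace Fermat.Agent.N4F.Tors.KummerHecke

open P2MW.S_ModularForm_heckeT_slash_eq_self_of_mem_Gamma0.ModularForm.HeckeSlashInvariance
open Fermat.Agent.N4F.Tors.HeckeHom Fermat.Agent.M2 Fermat.Agent.N4F.Tors.Kummer

/-! ## Part 1: the transversal -/

section Transversal

variable (N ℓ : ℕ) [Fact ℓ.Prime]

/-- For `g ∈ SL(2, ℤ)`: `redMatrix ℓ g` fixes `∞` iff `ℓ ∣ g 1 0`. -/
theorem redMatrix_smul_infty_eq_iff (g : SL(2, ℤ)) :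
    redMatrix ℓ g • (∞ : OnePoint (ZMod ℓ)) = ∞ ↔ (ℓ : ℤ) ∣ g 1 0 := by
  rw [OnePoint.smul_infty_eq_self_iff, redMatrix_apply_one_zero,
    ZMod.intCast_zmod_eq_zero_iff_dvd]

/-- Membership in `Γ₀(Nℓ)` for elements of `Γ₀(N)`, `ℓ ∤ N`. -/
theorem mem_Gamma0_mul_iff (hℓN : ¬ ℓ ∣ N) {g : SL(2, ℤ)} (hg : g ∈ Gamma0 N) :
    g ∈ Gamma0 (N * ℓ) ↔ redMatrix ℓ g • (∞ : OnePoint (ZMod ℓ)) = ∞ := by
  rw [redMatrix_smul_infty_eq_iff, Gamma0_mem, ZMod.intCast_zmod_eq_zero_iff_dvd]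
  have hN : (N : ℤ) ∣ g 1 0 := (ZMod.intCast_zmod_eq_zero_iff_dvd _ _).mp (Gamma0_mem.mp hg)
  have hcop : IsCoprime (N : ℤ) (ℓ : ℤ) := by
    rw [Nat.isCoprime_iff_coprime]
    exact ((Nat.Prime.coprime_iff_not_dvd (Fact.out : ℓ.Prime)).2 hℓN).symm
  constructor
  · intro h
    exact Dvd.dvd.trans ⟨(N : ℤ), by push_cast; ring⟩ h
  · intro h
    have := hcop.mul_dvd hN h
    exact_mod_cast this

/-- An element of `Γ₀(N)` whose reduction mod `ℓ` sends `∞` to a given point of `ℙ¹(𝔽_ℓ)`. -/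
theorem exists_redMatrix_smul_infty_eq (hℓN : ¬ ℓ ∣ N) (x : OnePoint (ZMod ℓ)) :
    ∃ δ : ↥(Gamma0 N), redMatrix ℓ (δ : SL(2, ℤ)) • (∞ : OnePoint (ZMod ℓ)) = x := by
  induction x using OnePoint.rec with
  | infty =>
    refine ⟨1, ?_⟩
    rw [redMatrix_smul_infty_eq_iff]
    simp
  | coe j =>
    have hcop : IsCoprime (ℓ : ℤ) (N : ℤ) := by
      rw [Nat.isCoprime_iff_coprime]
      exact (Nat.Prime.coprime_iff_not_dvd (Fact.out : ℓ.Prime)).2 hℓN
    obtain ⟨u, v, huv⟩ := hcop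
    -- the matrix `[1, j - v; N, N j + u ℓ]`
    let A : Matrix (Fin 2) (Fin 2) ℤ :=
      !![1, (j.val : ℤ) - v; (N : ℤ), (N : ℤ) * j.val + u * ℓ]
    have hdet : A.det = 1 := by
      rw [Matrix.det_fin_two_of]
      linear_combination huv
    let g : SL(2, ℤ) := ⟨A, hdet⟩
    have hg10 : g 1 0 = (N : ℤ) := rfl
    have hg11 : g 1 1 = (N : ℤ) * j.val + u * ℓ := rfl
    have hgN : g ∈ Gamma0 N := by
      rw [Gamma0_mem, hg10]
      simp
    refine ⟨⟨g, hgN⟩, ?_⟩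
    have hN0 : ((N : ℕ) : ZMod ℓ) ≠ 0 := by
      intro h
      exact hℓN ((ZMod.natCast_eq_zero_iff N ℓ).mp h)
    rw [OnePoint.smul_infty_eq_ite, redMatrix_apply_one_zero, redMatrix_apply_zero_zero]
    change (if ((g 1 0 : ℤ) : ZMod ℓ) = 0 then (∞ : OnePoint (ZMod ℓ))
      else ((((g 1 1 : ℤ) : ZMod ℓ) / ((g 1 0 : ℤ) : ZMod ℓ) : ZMod ℓ) : OnePoint (ZMod ℓ))) = _
    rw [hg10, hg11]
    have h1 : (((N : ℤ) : ZMod ℓ)) = ((N : ℕ) : ZMod ℓ) := by push_cast; rfl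
    rw [h1, if_neg hN0]
    congr 1
    rw [div_eq_iff hN0]
    push_cast
    rw [ZMod.natCast_zmod_val, ZMod.natCast_self, mul_zero, add_zero, mul_comm]

/-- A family `δ_x ∈ Γ₀(N)` with `redMatrix ℓ δ_x • ∞ = x` is a right transversal of `Γ₀(Nℓ)` in
`Γ₀(N)`. -/
theorem existsUnique_mul_inv_mem (hℓN : ¬ ℓ ∣ N) (δ : OnePoint (ZMod ℓ) → ↥(Gamma0 N))
    (hδ : ∀ x, redMatrix ℓ (δ x : SL(2, ℤ)) • (∞ : OnePoint (ZMod ℓ)) = x) :
    ∀ g ∈ Gamma0 N, ∃! x, g * ((δ x : ↥(Gamma0 N)) : SL(2, ℤ))⁻¹ ∈ Gamma0 (N * ℓ) := by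
  intro g hg
  set S := heckeSys N ℓ hℓN with hS
  have key : ∀ x, g * ((δ x : ↥(Gamma0 N)) : SL(2, ℤ))⁻¹ ∈ Gamma0 (N * ℓ) ↔
      redMatrix ℓ g • (∞ : OnePoint (ZMod ℓ)) = x := by
    intro x
    have hmem : g * ((δ x : ↥(Gamma0 N)) : SL(2, ℤ))⁻¹ ∈ Gamma0 N :=
      (Gamma0 N).mul_mem hg ((Gamma0 N).inv_mem (δ x).2)
    rw [mem_Gamma0_mul_iff N ℓ hℓN hmem]
    have h1 : redMatrix ℓ (g * ((δ x : ↥(Gamma0 N)) : SL(2, ℤ))⁻¹) • (∞ : OnePoint (ZMod ℓ)) =
        S.perm ((⟨g, hg⟩ : ↥(Gamma0 N)) * (δ x)⁻¹) ∞ := rfl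
    rw [h1, S.perm_mul]
    have h2 : S.perm (δ x)⁻¹ (S.perm (⟨g, hg⟩ : ↥(Gamma0 N)) ∞) =
        (S.permEquiv (δ x)).symm (S.perm (⟨g, hg⟩ : ↥(Gamma0 N)) ∞) := rfl
    rw [h2, Equiv.symm_apply_eq]
    have h3 : S.permEquiv (δ x) ∞ = x := hδ x
    rw [h3]
    rfl
  refine ⟨redMatrix ℓ g • (∞ : OnePoint (ZMod ℓ)), (key _).2 rfl, fun y hy => ((key y).1 hy).symm⟩

end Transversal

/-! ## Part 2: the root of the norm -/

section Root

variable (N ℓ : ℕ) [NeZero N] [Fact ℓ.Prime]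

/-- The action on `ℍ` of the coset identity of the Hecke coset system. -/
theorem heckeRep_smul_smul' (hℓN : ¬ ℓ ∣ N) (g : ↥(Gamma0 N)) (x : OnePoint (ZMod ℓ)) (z : ℍ) :
    heckeRep ℓ x • ((g : SL(2, ℤ)) • z) =
      (heckeCoc N ℓ hℓN g x : SL(2, ℤ)) • (heckeRep ℓ (redMatrix ℓ (g : SL(2, ℤ)) • x) • z) := by
  have h := heckeRep_mul_eq N ℓ hℓN g x
  calc heckeRep ℓ x • ((g : SL(2, ℤ)) • z)
      = heckeRep ℓ x • (mapGL ℝ (g : SL(2, ℤ)) • z) := rfl
    _ = (heckeRep ℓ x * mapGL ℝ (g : SL(2, ℤ))) • z := (mul_smul _ _ _).symm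
    _ = (mapGL ℝ (heckeCoc N ℓ hℓN g x : SL(2, ℤ)) *
          heckeRep ℓ (redMatrix ℓ (g : SL(2, ℤ)) • x)) • z := by rw [h]
    _ = mapGL ℝ (heckeCoc N ℓ hℓN g x : SL(2, ℤ)) •
          (heckeRep ℓ (redMatrix ℓ (g : SL(2, ℤ)) • x) • z) := mul_smul _ _ _
    _ = _ := rfl

/-- `ℓ · z = heckeRep ℓ ∞ • z`. -/
theorem scaleH_eq_heckeRep_infty (z : ℍ) :
    JN.scaleH ℓ z = heckeRep ℓ (∞ : OnePoint (ZMod ℓ)) • z := by
  apply UpperHalfPlane.ext
  rw [heckeRep_infty, coe_heckeDiagMatrix_smul (Fact.out : ℓ.Prime).ne_zero, JN.coe_scaleH]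

variable {N ℓ} {n : ℕ} [NeZero n]

/-- The functional equation of `z ↦ ∏_x h (heckeRep ℓ x • z)` for a function `h` with
multiplier system `m` on `Γ₀(N)`. -/
theorem prod_heckeRep_smul (hℓN : ¬ ℓ ∣ N) {h : ℍ → ℂ} {m : ↥(Gamma0 N) → ℂ}
    (hm : ∀ (γ : ↥(Gamma0 N)) (z : ℍ), h ((γ : SL(2, ℤ)) • z) = m γ * h z)
    (γ : ↥(Gamma0 N)) (z : ℍ) :
    ∏ x : OnePoint (ZMod ℓ), h (heckeRep ℓ x • ((γ : SL(2, ℤ)) • z)) =
      (∏ x : OnePoint (ZMod ℓ), m (heckeCoc N ℓ hℓN γ x)) *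
        ∏ x : OnePoint (ZMod ℓ), h (heckeRep ℓ x • z) := by
  have h1 : ∀ x : OnePoint (ZMod ℓ), h (heckeRep ℓ x • ((γ : SL(2, ℤ)) • z)) =
      m (heckeCoc N ℓ hℓN γ x) * h (heckeRep ℓ (redMatrix ℓ (γ : SL(2, ℤ)) • x) • z) := by
    intro x
    rw [heckeRep_smul_smul' N ℓ hℓN γ x z, hm]
  rw [Finset.prod_congr rfl (fun x _ => h1 x), Finset.prod_mul_distrib]
  congr 1
  exact Equiv.prod_comp ((heckeSys N ℓ hℓN).permEquiv γ) (fun x => h (heckeRep ℓ x • z))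

/-- The product over the transversal `δ_x` equals a constant times the product over the
`heckeRep ℓ x`. -/
theorem prod_scaleH_smul (hℓN : ¬ ℓ ∣ N) {h : ℍ → ℂ} {m : ↥(Gamma0 N) → ℂ}
    (hm : ∀ (γ : ↥(Gamma0 N)) (z : ℍ), h ((γ : SL(2, ℤ)) • z) = m γ * h z)
    (δ : OnePoint (ZMod ℓ) → ↥(Gamma0 N))
    (hδ : ∀ x, redMatrix ℓ (δ x : SL(2, ℤ)) • (∞ : OnePoint (ZMod ℓ)) = x) (z : ℍ) :
    ∏ x : OnePoint (ZMod ℓ), h (JN.scaleH ℓ ((δ x : SL(2, ℤ)) • z)) =
      (∏ x : OnePoint (ZMod ℓ), m (heckeCoc N ℓ hℓN (δ x) ∞)) *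
        ∏ x : OnePoint (ZMod ℓ), h (heckeRep ℓ x • z) := by
  rw [← Finset.prod_mul_distrib]
  refine Finset.prod_congr rfl fun x _ => ?_
  rw [scaleH_eq_heckeRep_infty, heckeRep_smul_smul' N ℓ hℓN (δ x) ∞ z, hδ x, hm]

/-- A finite product of holomorphic functions on `ℍ` is holomorphic. -/
theorem mdiff_finset_prod {J : Type*} (s : Finset J) (g : J → ℍ → ℂ) (hg : ∀ j ∈ s, MDiff (g j)) :
    MDiff (fun z => ∏ j ∈ s, g j z) := by
  classical
  induction s using Finset.induction_on with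
  | empty =>
    simp only [Finset.prod_empty]
    exact mdifferentiable_const
  | insert j s hj ih =>
    have h1 : (fun z => ∏ i ∈ insert j s, g i z) = fun z => g j z * ∏ i ∈ s, g i z := by
      funext z
      rw [Finset.prod_insert hj]
    rw [h1]
    exact (hg j (Finset.mem_insert_self j s)).mul
      (ih fun i hi => hg i (Finset.mem_insert_of_mem hi))

/-- An additive character turns finite sums into finite products. -/
theorem addChar_map_sum {A M J : Type*} [AddCommMonoid A] [CommMonoid M] (ψ : AddChar A M)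
    (s : Finset J) (f : J → A) : ψ (∑ i ∈ s, f i) = ∏ i ∈ s, ψ (f i) := by
  classical
  induction s using Finset.induction_on with
  | empty => simp
  | insert i s hi ih =>
    rw [Finset.sum_insert hi, Finset.prod_insert hi, AddChar.map_add_eq_mul, ih]

end Root

/-! ## Root data give `n`-divisibility -/

section NDivOfRoot

open Fermat.Agent.M2.OrdVal Fermat.Agent.M2.Dict

/-- Conversely to `NDiv.exists_rootDatum`: a function admitting a root datum is `n`-divisible. -/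
theorem nDiv_of_isRootDatum {Γ : Subgroup SL(2, ℤ)} {n : ℕ} (hn : n ≠ 0) {u : WHField Γ}
    {a b : WH Γ} {h : ℍ → ℂ} (D : IsRootDatum Γ n u a b h) (hu0 : u ≠ 0) : NDiv Γ n u := by
  refine ⟨hu0, fun z => ?_⟩
  have ha := D.a_ne_zero hu0
  have hb := D.hb
  have hAB : a * b ^ (n - 1) ≠ 0 := D.prod_ne_zero hu0
  have h1 : vF Γ z u * ordVal Γ z b = ordVal Γ z a := by
    rw [← vF_algebraMap, ← vF_algebraMap, ← map_mul, D.hu]
  have h2 : ordVal Γ z (a * b ^ (n - 1)) = ordVal Γ z a * ordVal Γ z b ^ (n - 1) := by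
    rw [map_mul, map_pow]
  rw [ordVal_apply_of_ne_zero Γ hAB, ordVal_apply_of_ne_zero Γ ha, ordVal_apply_of_ne_zero Γ hb,
    ← WithZero.exp_nsmul, ← WithZero.exp_add, WithZero.exp_inj] at h2
  -- the order of the product is `n` times the order of `h`
  have hfin : ordAt z h ≠ ⊤ := ordAt_ne_top D.hh (D.isInvRoot hn hu0).ne_zero z
  have hord : ordNat Γ z (a * b ^ (n - 1)) = n * (ordAt z h).toNat := by
    have e : ((a * b ^ (n - 1) : WH Γ) : ℍ → ℂ) = h ^ n := by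
      funext w
      exact (D.hpow w).symm
    have h3 := coe_ordNat Γ (z := z) hAB
    rw [e, ordAt_pow D.hh] at h3
    lift ordAt z h to ℕ using hfin with k hk
    rw [ENat.toNat_natCast]
    have h4 : ((ordNat Γ z (a * b ^ (n - 1)) : ℕ) : ℕ∞) = ((n * k : ℕ) : ℕ∞) := by
      rw [h3]
      push_cast
      rw [nsmul_eq_mul]
    exact_mod_cast h4
  have hn1 : ((n - 1 : ℕ) : ℤ) = (n : ℤ) - 1 := by
    have : 1 ≤ n := Nat.one_le_iff_ne_zero.mpr hn
    push_cast [Nat.cast_sub this]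
    ring
  refine ⟨((ordAt z h).toNat : ℤ) - ordNat Γ z b, ?_⟩
  have hvb : ordVal Γ z b ≠ 0 := ordVal_ne_zero Γ hb
  have h5 : vF Γ z u = ordVal Γ z a / ordVal Γ z b := by
    rw [eq_div_iff hvb, h1]
  rw [h5, ordVal_apply_of_ne_zero Γ ha, ordVal_apply_of_ne_zero Γ hb, ← WithZero.exp_sub,
    WithZero.exp_inj]
  rw [nsmul_eq_mul, hn1] at h2
  have h6 : (ordNat Γ z (a * b ^ (n - 1)) : ℤ) = (n : ℤ) * ((ordAt z h).toNat : ℤ) := by
    exact_mod_cast hord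
  linarith

end NDivOfRoot

/-! ## Part 3: the Kummer character of the norm -/

section Main

open Fermat.Agent.S24 Fermat.Agent.S24.FieldIso ModularCurve AlgebraicCurve

local notation "Qb" => AlgebraicClosure ℚ

variable {N ℓ : ℕ} [NeZero N] [Fact ℓ.Prime] {n : ℕ} [NeZero n] (ι : Qb →+* ℂ)

/-- **F3c, function level.** For `f ∈ F₀(N) = Q̄ · F_N` whose image `u = Φ_N (φ_N f)` in
`WHField Γ₀(N)` is `n`-divisible, the Kummer character of `Φ_N (φ_N (N_α (β f)))` is the Hecke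
transform `heckeAdd` of the Kummer character of `u`. -/
theorem kummerChar_norm_beta (hℓN : ¬ ℓ ∣ N) (f : modularFunctionFieldBar N)
    (hu : NDiv (Gamma0 N) n ((fieldEquiv N).symm (barToC N ι f)))
    (hu' : NDiv (Gamma0 N) n ((fieldEquiv N).symm (barToC N ι
      (letI := algebraAlong (heckeAlphaBar Qb N ℓ);
        Algebra.norm (modularFunctionFieldBar N) (heckeBetaBar Qb N ℓ f))))) :
    kummerChar hu' = heckeAdd N ℓ hℓN (kummerChar hu) := by
  -- a root datum of `u`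
  set a := hu.rootA with ha
  set b := hu.rootB with hb
  set h := hu.rootH with hh
  have D : IsRootDatum (Gamma0 N) n ((fieldEquiv N).symm (barToC N ι f)) a b h := hu.isRootDatum
  have hb0 : algebraMap (WH (Gamma0 N)) (WHField (Gamma0 N)) b ≠ 0 := fun h0 =>
    D.hb (algebraMap_WH_injective (by rw [h0, map_zero]))
  have hab : (fieldEquiv N).symm (barToC N ι f) =
      algebraMap (WH (Gamma0 N)) (WHField (Gamma0 N)) a /
        algebraMap (WH (Gamma0 N)) (WHField (Gamma0 N)) b := by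
    rw [eq_div_iff hb0]
    exact D.hu
  -- the transversal
  choose δ hδ using exists_redMatrix_smul_infty_eq N ℓ hℓN
  have hcos := existsUnique_mul_inv_mem N ℓ hℓN δ hδ
  obtain ⟨A, B, hB, hA, hBz, hn⟩ := NormCosets.main N ℓ ι hℓN
    (fun x => ((δ x : ↥(Gamma0 N)) : SL(2, ℤ))) (fun x => (δ x).2) hcos f a b D.hb hab
  -- the root of the norm
  set H : ℍ → ℂ := fun z => ∏ x : OnePoint (ZMod ℓ), h (JN.scaleH ℓ ((δ x : SL(2, ℤ)) • z))
    with hH
  have hB0 : algebraMap (WH (Gamma0 N)) (WHField (Gamma0 N)) B ≠ 0 := fun h0 =>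
    hB (algebraMap_WH_injective (by rw [h0, map_zero]))
  have D' : IsRootDatum (Gamma0 N) n ((fieldEquiv N).symm (barToC N ι
      (letI := algebraAlong (heckeAlphaBar Qb N ℓ);
        Algebra.norm (modularFunctionFieldBar N) (heckeBetaBar Qb N ℓ f)))) A B H := by
    refine ⟨hB, ?_, ?_, ?_⟩
    · rw [hn, div_mul_cancel₀ _ hB0]
    · apply mdiff_finset_prod
      intro x _
      exact mdiff_comp_smul (QExp.mdiff_comp_scaleH ℓ D.hh) (δ x : SL(2, ℤ))
    · intro z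
      rw [hH, ← Finset.prod_pow, hA z, hBz z, ← Finset.prod_pow, ← Finset.prod_mul_distrib]
      exact Finset.prod_congr rfl fun x _ => D.hpow _
  -- the multiplier of `h`
  have hm : ∀ (γ : ↥(Gamma0 N)) (z : ℍ), h ((γ : SL(2, ℤ)) • z) = kummerMult hu γ * h z :=
    fun γ z => kummerMult_spec hu D γ z
  obtain ⟨z₀, hz₀⟩ := (D'.isInvRoot (NeZero.ne n) hu'.1).exists_ne_zero
  refine AddMonoidHom.ext fun γ' => ?_
  obtain ⟨γ, rfl⟩ : ∃ γ : ↥(Gamma0 N), Additive.ofMul γ = γ' := ⟨Additive.toMul γ', rfl⟩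
  apply kummerChar_eq_of_spec hu' D' γ hz₀
  have e1 : ∀ z, H z = (∏ x : OnePoint (ZMod ℓ), kummerMult hu (heckeCoc N ℓ hℓN (δ x) ∞)) *
      ∏ x : OnePoint (ZMod ℓ), h (heckeRep ℓ x • z) := fun z =>
    prod_scaleH_smul hℓN hm δ hδ z
  have e2 : ZMod.stdAddChar (heckeAdd N ℓ hℓN (kummerChar hu) (Additive.ofMul γ)) =
      ∏ x : OnePoint (ZMod ℓ), kummerMult hu (heckeCoc N ℓ hℓN γ x) := by
    rw [heckeAdd_apply, addChar_map_sum]
    exact Finset.prod_congr rfl fun x _ => stdAddChar_kummerChar hu _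
  rw [e1, e1, prod_heckeRep_smul hℓN hm γ z₀, e2]
  ring

/-- The norm along `α` of `β f` does not vanish for `f ≠ 0`. -/
theorem norm_beta_ne_zero (hℓN : ¬ ℓ ∣ N) {f : modularFunctionFieldBar N} (hf : f ≠ 0) :
    (letI := algebraAlong (heckeAlphaBar Qb N ℓ);
      Algebra.norm (modularFunctionFieldBar N) (heckeBetaBar Qb N ℓ f)) ≠ 0 := by
  letI := algebraAlong (heckeAlphaBar Qb N ℓ)
  haveI : Module.Finite (modularFunctionFieldBar N) (modularFunctionFieldBar (N * ℓ)) :=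
    NormCosets.finiteAlong_alpha N ℓ Qb BarToC.iota hℓN
  haveI : Module.Free (modularFunctionFieldBar N) (modularFunctionFieldBar (N * ℓ)) :=
    Module.Free.of_divisionRing _ _
  rw [Ne, Algebra.norm_eq_zero_iff]
  exact (map_ne_zero _).2 hf

/-- **F3c, function level, self-contained form**: the `n`-divisibility of the norm is part of
the conclusion. -/
theorem exists_nDiv_norm_beta (hℓN : ¬ ℓ ∣ N) (f : modularFunctionFieldBar N)
    (hu : NDiv (Gamma0 N) n ((fieldEquiv N).symm (barToC N ι f))) :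
    ∃ hu' : NDiv (Gamma0 N) n ((fieldEquiv N).symm (barToC N ι
      (letI := algebraAlong (heckeAlphaBar Qb N ℓ);
        Algebra.norm (modularFunctionFieldBar N) (heckeBetaBar Qb N ℓ f)))),
      kummerChar hu' = heckeAdd N ℓ hℓN (kummerChar hu) := by
  have hf : f ≠ 0 := by
    rintro rfl
    exact hu.1 (by rw [map_zero, map_zero])
  have hu0' : (fieldEquiv N).symm (barToC N ι
      (letI := algebraAlong (heckeAlphaBar Qb N ℓ);
        Algebra.norm (modularFunctionFieldBar N) (heckeBetaBar Qb N ℓ f))) ≠ 0 := by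
    rw [Ne, map_eq_zero_iff _ (fieldEquiv N).symm.injective, map_eq_zero]
    exact norm_beta_ne_zero hℓN hf
  -- a root datum of the norm, as in `kummerChar_norm_beta`
  have D : IsRootDatum (Gamma0 N) n ((fieldEquiv N).symm (barToC N ι f)) hu.rootA hu.rootB
      hu.rootH := hu.isRootDatum
  have hb0 : algebraMap (WH (Gamma0 N)) (WHField (Gamma0 N)) hu.rootB ≠ 0 := fun h0 =>
    D.hb (algebraMap_WH_injective (by rw [h0, map_zero]))
  have hab : (fieldEquiv N).symm (barToC N ι f) =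
      algebraMap (WH (Gamma0 N)) (WHField (Gamma0 N)) hu.rootA /
        algebraMap (WH (Gamma0 N)) (WHField (Gamma0 N)) hu.rootB := by
    rw [eq_div_iff hb0]
    exact D.hu
  choose δ hδ using exists_redMatrix_smul_infty_eq N ℓ hℓN
  have hcos := existsUnique_mul_inv_mem N ℓ hℓN δ hδ
  obtain ⟨A, B, hB, hA, hBz, hn⟩ := NormCosets.main N ℓ ι hℓN
    (fun x => ((δ x : ↥(Gamma0 N)) : SL(2, ℤ))) (fun x => (δ x).2) hcos f hu.rootA hu.rootB
    D.hb hab
  have hB0 : algebraMap (WH (Gamma0 N)) (WHField (Gamma0 N)) B ≠ 0 := fun h0 =>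
    hB (algebraMap_WH_injective (by rw [h0, map_zero]))
  have D' : IsRootDatum (Gamma0 N) n ((fieldEquiv N).symm (barToC N ι
      (letI := algebraAlong (heckeAlphaBar Qb N ℓ);
        Algebra.norm (modularFunctionFieldBar N) (heckeBetaBar Qb N ℓ f)))) A B
      (fun z => ∏ x : OnePoint (ZMod ℓ), hu.rootH (JN.scaleH ℓ ((δ x : SL(2, ℤ)) • z))) := by
    refine ⟨hB, ?_, ?_, ?_⟩
    · rw [hn, div_mul_cancel₀ _ hB0]
    · apply mdiff_finset_prod
      intro x _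
      exact mdiff_comp_smul (QExp.mdiff_comp_scaleH ℓ D.hh) (δ x : SL(2, ℤ))
    · intro z
      rw [← Finset.prod_pow, hA z, hBz z, ← Finset.prod_pow, ← Finset.prod_mul_distrib]
      exact Finset.prod_congr rfl fun x _ => D.hpow _
  have hu' := nDiv_of_isRootDatum (NeZero.ne n) D' hu0'
  exact ⟨hu', kummerChar_norm_beta ι hℓN f hu hu'⟩

end Main

end Fermat.Agent.N4F.Tors.KummerHecke
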