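/-
N4-FULL block F, node F3c-core (helper21): `KummerHecke.kummerChar_norm_beta` restated in the
shape of the F-DAG (board #1093): `ℓ : Nat.Primes`, `Outputs.heckeAddP`, `BaseChange.ι`.
-/
import Mathlib
import Fermat.Agent.N4F.Tors.KummerHecke
import Fermat.Agent.N4F.Tors.Outputs
import Fermat.Agent.N4F.Tors.BaseChange

set_option autoImplicit false
set_option linter.unusedSectionVars false
set_option linter.unusedVariables false
set_option linter.style.haveILetI false

open CongruenceSubgroup ModularCurve AlgebraicCurve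
open scoped MatrixGroups

noncomputable section

namespace Fermat.Agent.N4F.Tors.KummerHeckeP

open Fermat.Agent.S24 Fermat.Agent.S24.FieldIso Fermat.Agent.M2
open Fermat.Agent.N4F.Tors.Kummer Fermat.Agent.N4F.Tors.HeckeHom

local notation "Qb" => AlgebraicClosure ℚ

/-- **F3c-core**, DAG shape. -/
theorem kummerChar_norm_beta (N : ℕ) [NeZero N] (ℓ : Nat.Primes) [NeZero (ℓ : ℕ)]
    (hℓN : ¬ (ℓ : ℕ) ∣ N) (n : ℕ) [NeZero n] (f : modularFunctionFieldBar N) (hf : f ≠ 0)
    (hu : NDiv (Gamma0 N) n ((fieldEquiv N).symm (barToC N BaseChange.ι f)))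
    (hu' : NDiv (Gamma0 N) n ((fieldEquiv N).symm (barToC N BaseChange.ι
      (letI := algebraAlong (heckeAlphaBar Qb N ℓ);
        Algebra.norm (modularFunctionFieldBar N) (heckeBetaBar Qb N ℓ f))))) :
    kummerChar hu' = Outputs.heckeAddP N ℓ hℓN (kummerChar hu) := by
  haveI : Fact (ℓ : ℕ).Prime := ⟨ℓ.2⟩
  exact KummerHecke.kummerChar_norm_beta BaseChange.ι hℓN f hu hu'

/-- **F3c-core**, DAG shape, with the `n`-divisibility of the norm as part of the conclusion. -/
theorem exists_nDiv_norm_beta (N : ℕ) [NeZero N] (ℓ : Nat.Primes) [NeZero (ℓ : ℕ)]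
    (hℓN : ¬ (ℓ : ℕ) ∣ N) (n : ℕ) [NeZero n] (f : modularFunctionFieldBar N)
    (hu : NDiv (Gamma0 N) n ((fieldEquiv N).symm (barToC N BaseChange.ι f))) :
    ∃ hu' : NDiv (Gamma0 N) n ((fieldEquiv N).symm (barToC N BaseChange.ι
      (letI := algebraAlong (heckeAlphaBar Qb N ℓ);
        Algebra.norm (modularFunctionFieldBar N) (heckeBetaBar Qb N ℓ f)))),
      kummerChar hu' = Outputs.heckeAddP N ℓ hℓN (kummerChar hu) := by
  haveI : Fact (ℓ : ℕ).Prime := ⟨ℓ.2⟩
  exact KummerHecke.exists_nDiv_norm_beta BaseChange.ι hℓN f hu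

end Fermat.Agent.N4F.Tors.KummerHeckeP
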