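import Mathlib
import Fermat.Agent.S24.CountsFC
import Fermat.Agent.S24.PrincipalDegree
import Fermat.Agent.S22.Gamma0FG
import Fermat.Agent.N4F.Tors.Kummer
set_option autoImplicit false
set_option linter.unusedSectionVars false
noncomputable section
namespace Fermat.Agent.N4F.Tors.KummerPic

open AlgebraicCurve IsDedekindDomain UpperHalfPlane CongruenceSubgroup MatrixGroups
open Fermat.Agent.M2 Fermat.Agent.M2.Dict
open Fermat.Agent.S24 Fermat.Agent.S24.CountsC Fermat.Agent.S24.FieldIso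
  Fermat.Agent.S24.CountsFC
open Fermat.Agent.N4F.Tors.Kummer

section MapPlace

variable {K F F' : Type*} [Field K] [Field F] [Field F'] [Algebra K F] [Algebra K F']

/-- The ring isomorphism between the valuation rings of `v` and of its transport. -/
def mapPlaceRingEquiv (e : F ≃ₐ[K] F') (v : Place K F) :
    v.toValuationSubring ≃+* (mapPlace e v).toValuationSubring where
  toFun x := ⟨e (x : F), (apply_mem_mapPlace_iff e v x).mpr x.2⟩
  invFun y := ⟨e.symm (y : F'), (mem_mapPlace_iff e v y).mp y.2⟩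
  left_inv _ := Subtype.ext (e.symm_apply_apply _)
  right_inv _ := Subtype.ext (e.apply_symm_apply _)
  map_mul' _ _ := Subtype.ext (map_mul e _ _)
  map_add' _ _ := Subtype.ext (map_add e _ _)

/-- Orders are preserved by transport of places along an isomorphism. -/
theorem ord_mapPlace (e : F ≃ₐ[K] F') (v : Place K F) (x : F) :
    (mapPlace e v).ord (e x) = v.ord x := by
  rcases eq_or_ne x 0 with rfl | hx
  · simp
  obtain ⟨π, hπ⟩ := IsDiscreteValuationRing.exists_irreducible v.toValuationSubring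
  obtain ⟨u, hu⟩ := v.exists_unit_mul_zpow hx hπ
  set E := mapPlaceRingEquiv e v
  have hπ' : Irreducible (E π) := (MulEquiv.irreducible_iff E.toMulEquiv).mpr hπ
  have h1 : e x = (((Units.map E.toRingHom.toMonoidHom u : (mapPlace e v).toValuationSubringˣ) :
      (mapPlace e v).toValuationSubring) : F') * ((E π : F') ^ (v.ord x)) := by
    conv_lhs => rw [hu]
    rw [map_mul, map_zpow₀]
    rfl
  rw [h1, (mapPlace e v).ord_unit_smul_zpow _ hπ']

end MapPlace

/-! ## The dictionary: points of `ℍ` give places of `F_ℂ` -/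

section Dictionary

variable (N : ℕ) [NeZero N]

local notation "Kan" => WHField (Gamma0 N)

/-- Every point `z : ℍ` gives a place `P` of `F_ℂ` with `ord_z = κ · ord_P`, `κ ≥ 1`. -/
theorem exists_place_of_point (z : ℍ) :
    ∃ (P : Place ℂ (FC N)) (κ : ℕ), 1 ≤ κ ∧ ∀ u : FC N, u ≠ 0 →
      vF (Gamma0 N) z ((fieldEquiv N).symm u) = WithZero.exp (-((κ : ℤ) * P.ord u)) := by
  obtain ⟨P₀, κ, hκ, h⟩ := Dict.exists_prime_of_point N z
  refine ⟨mapPlace (fieldEquiv N) (Place.ofHeightOneSpectrum (K := ℂ) (F := Kan) P₀), κ, hκ,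
    fun u hu => ?_⟩
  have hu' : (fieldEquiv N).symm u ≠ 0 := by simpa using hu
  have h1 : (mapPlace (fieldEquiv N) (Place.ofHeightOneSpectrum (K := ℂ) (F := Kan) P₀)).ord u =
      -(WithZero.log (P₀.valuation Kan ((fieldEquiv N).symm u))) := by
    conv_lhs => rw [← (fieldEquiv N).apply_symm_apply u]
    rw [ord_mapPlace, ord_ofHeightOneSpectrum]
  have ht : P₀.valuation Kan ((fieldEquiv N).symm u) ≠ 0 := (Valuation.ne_zero_iff _).mpr hu'
  rw [h, h1]
  conv_lhs => rw [← WithZero.exp_log ht]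
  rw [← WithZero.exp_nsmul]
  congr 1
  rw [nsmul_eq_mul]
  ring

/-- **F1d.** A function all of whose orders at the places of `F_ℂ` are divisible by `n` is
`n`-divisible on `ℍ`. -/
theorem nDiv_of_forall_place {n : ℕ} {u : FC N} (hu : u ≠ 0)
    (h : ∀ P : Place ℂ (FC N), (n : ℤ) ∣ P.ord u) :
    NDiv (Gamma0 N) n ((fieldEquiv N).symm u) := by
  refine ⟨by simpa using hu, fun z => ?_⟩
  obtain ⟨P, κ, -, hP⟩ := exists_place_of_point N z
  obtain ⟨m, hm⟩ := h P
  refine ⟨κ * m, ?_⟩
  rw [hP u hu, hm]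
  congr 1
  ring

end Dictionary

/-! ## Constants of `F_ℂ` -/

section Const

variable (N : ℕ) [NeZero N]

/-- A function on `X₀(N)` without zeros and poles is constant. -/
theorem exists_const_of_forall_ord_eq_zero {t : FC N} (ht : t ≠ 0)
    (h : ∀ P : Place ℂ (FC N), P.ord t = 0) :
    ∃ c : ℂ, c ≠ 0 ∧ t = algebraMap ℂ (FC N) c := by
  have halg : IsAlgebraic ℂ t := by
    by_contra htr
    have hfd := finiteDimensional_FC N
    have := finiteDimensional_adjoin_simple_of_transcendental (xC N) (f := t) htr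
    have halg' : Algebra.IsAlgebraic ↥(IntermediateField.adjoin ℂ {t}) (FC N) :=
      Algebra.IsAlgebraic.of_finite _ _
    have hsep : Algebra.IsSeparable ↥(IntermediateField.adjoin ℂ {t}) (FC N) :=
      Algebra.IsAlgebraic.isSeparable_of_perfectField
    obtain ⟨Z, hZ1, hZ2⟩ := exists_zeroDivisor (K := ℂ) (F := FC N) (h := t) htr
    have hZ0 : Z = 0 := by
      ext v
      rw [hZ1 v, h v]
      rfl
    rw [hZ0, map_zero] at hZ2
    have hpos : 0 < Module.finrank ↥(IntermediateField.adjoin ℂ {t}) (FC N) := Module.finrank_pos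
    omega
  have : Algebra.IsAlgebraic ℂ ↥(IntermediateField.adjoin ℂ {t}) :=
    IntermediateField.isAlgebraic_adjoin_simple halg.isIntegral
  have hbot := IntermediateField.eq_bot_of_isAlgClosed_of_isAlgebraic
    (IntermediateField.adjoin ℂ {t})
  have hmem : t ∈ (⊥ : IntermediateField ℂ (FC N)) := by
    rw [← hbot]
    exact IntermediateField.mem_adjoin_simple_self ℂ t
  obtain ⟨c, hc⟩ := IntermediateField.mem_bot.mp hmem
  refine ⟨c, ?_, hc.symm⟩
  rintro rfl
  rw [map_zero] at hc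
  exact ht hc.symm

end Const

/-! ## The Kummer map on torsion classes -/

section Pic

variable (N : ℕ) [NeZero N]

local notation "Kan" => WHField (Gamma0 N)

lemma kummerChar_congr {n : ℕ} [NeZero n] {u u' : Kan} (e : u = u') (hu : NDiv (Gamma0 N) n u)
    (hu' : NDiv (Gamma0 N) n u') : kummerChar hu = kummerChar hu' := by
  subst e
  rfl

/-- `(D, f)` is a Kummer datum for the class `x`: `x = [D]` and `n • D = div f`. -/
structure IsDatum (n : ℕ) (x : Pic0 ℂ (FC N)) (D : Divisor.degZero (K := ℂ) (F := FC N))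
    (f : FC N) : Prop where
  mk_eq : Pic0.mk D = x
  ne_zero : f ≠ 0
  ord_eq : ∀ v : Place ℂ (FC N), (n : ℤ) * (D : Divisor ℂ (FC N)) v = v.ord f

variable {N}

theorem exists_isDatum {n : ℕ} {x : Pic0 ℂ (FC N)} (hx : x ∈ Pic0.torsion ℂ (FC N) n) :
    ∃ D f, IsDatum N n x D f := by
  obtain ⟨D, rfl⟩ := Pic0.mk_surjective x
  rw [Pic0.mem_torsion] at hx
  have h1 : ((n : ℤ) • D : Divisor.degZero (K := ℂ) (F := FC N)) ∈
      (Divisor.principal (K := ℂ) (F := FC N)).addSubgroupOf
        (Divisor.degZero (K := ℂ) (F := FC N)) := by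
    rw [← QuotientAddGroup.eq_zero_iff]
    exact hx
  rw [AddSubgroup.mem_addSubgroupOf] at h1
  obtain ⟨f, hf, hfD⟩ := h1
  refine ⟨D, f, rfl, hf, fun v => ?_⟩
  rw [← hfD v, AddSubgroup.coe_zsmul, Finsupp.smul_apply, smul_eq_mul]

theorem IsDatum.nDiv {n : ℕ} {x : Pic0 ℂ (FC N)} {D : Divisor.degZero (K := ℂ) (F := FC N)}
    {f : FC N} (h : IsDatum N n x D f) : NDiv (Gamma0 N) n ((fieldEquiv N).symm f) :=
  nDiv_of_forall_place N h.ne_zero fun P => ⟨(D : Divisor ℂ (FC N)) P, (h.ord_eq P).symm⟩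

variable {n : ℕ} [NeZero n]

/-- The Kummer character does not depend on the datum. -/
theorem kummerChar_eq_of_isDatum {x : Pic0 ℂ (FC N)}
    {D D' : Divisor.degZero (K := ℂ) (F := FC N)} {f f' : FC N}
    (h : IsDatum N n x D f) (h' : IsDatum N n x D' f') :
    kummerChar h.nDiv = kummerChar h'.nDiv := by
  -- `D' - D` is principal
  have h1 : (-D + D' : Divisor.degZero (K := ℂ) (F := FC N)) ∈
      (Divisor.principal (K := ℂ) (F := FC N)).addSubgroupOf
        (Divisor.degZero (K := ℂ) (F := FC N)) := by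
    rw [← QuotientAddGroup.eq]
    exact h.mk_eq.trans h'.mk_eq.symm
  rw [AddSubgroup.mem_addSubgroupOf] at h1
  obtain ⟨g, hg, hgD⟩ := h1
  have hgD' : ∀ v : Place ℂ (FC N),
      v.ord g = -(D : Divisor ℂ (FC N)) v + (D' : Divisor ℂ (FC N)) v := fun v => by
    rw [← hgD v]
    simp
  -- `f' = c * f * g ^ n`
  have hfg : f * g ^ n ≠ 0 := mul_ne_zero h.ne_zero (pow_ne_zero _ hg)
  have ht : f' / (f * g ^ n) ≠ 0 := div_ne_zero h'.ne_zero hfg
  obtain ⟨c, hc, hct⟩ := exists_const_of_forall_ord_eq_zero N ht (fun P => by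
    rw [div_eq_mul_inv, P.ord_mul h'.ne_zero (inv_ne_zero hfg), P.ord_inv,
      P.ord_mul h.ne_zero (pow_ne_zero _ hg), ← zpow_natCast, P.ord_zpow, ← h.ord_eq P,
      ← h'.ord_eq P, hgD' P]
    ring)
  have hf' : f' = algebraMap ℂ (FC N) c * (f * g ^ n) := by
    rw [← hct, div_mul_cancel₀ _ hfg]
  have hg' : (fieldEquiv N).symm g ≠ 0 := by simpa using hg
  have e : (fieldEquiv N).symm f' =
      algebraMap ℂ Kan c * ((fieldEquiv N).symm f * ((fieldEquiv N).symm g) ^ n) := by
    rw [hf', map_mul, map_mul, map_pow, AlgEquiv.commutes]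
  have hN1 : NDiv (Gamma0 N) n (algebraMap ℂ Kan c) := NDiv.const hc
  have hN2 : NDiv (Gamma0 N) n (((fieldEquiv N).symm g) ^ n) := NDiv.pow hg'
  have hN3 : NDiv (Gamma0 N) n ((fieldEquiv N).symm f * ((fieldEquiv N).symm g) ^ n) :=
    h.nDiv.mul hN2
  have hN4 : NDiv (Gamma0 N) n
      (algebraMap ℂ Kan c * ((fieldEquiv N).symm f * ((fieldEquiv N).symm g) ^ n)) :=
    hN1.mul hN3
  have key : kummerChar hN4 = kummerChar h.nDiv := by
    rw [kummerChar_mul hN1 hN3, kummerChar_mul h.nDiv hN2,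
      kummerChar_const (Γ := Gamma0 N) (n := n) hc,
      kummerChar_pow (Γ := Gamma0 N) (n := n) hg', zero_add, add_zero]
  exact ((kummerChar_congr N e h'.nDiv hN4).trans key).symm

variable (N n)

/-- A chosen divisor representing the torsion class `x`. -/
def chosenD (x : Pic0.torsion ℂ (FC N) n) : Divisor.degZero (K := ℂ) (F := FC N) :=
  Classical.choose (exists_isDatum x.2)

/-- A chosen function with `n • chosenD x = div (chosenF x)`. -/
def chosenF (x : Pic0.torsion ℂ (FC N) n) : FC N :=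
  Classical.choose (Classical.choose_spec (exists_isDatum x.2))

theorem chosen_isDatum (x : Pic0.torsion ℂ (FC N) n) :
    IsDatum N n x.1 (chosenD N n x) (chosenF N n x) :=
  Classical.choose_spec (Classical.choose_spec (exists_isDatum x.2))

/-- **The Kummer map** `J₀(N)(ℂ)[n] → Hom(Γ₀(N), ℤ/n)`. -/
def kummerC : Pic0.torsion ℂ (FC N) n →+ (Additive ↥(Gamma0 N) →+ ZMod n) where
  toFun x := kummerChar (chosen_isDatum N n x).nDiv
  map_zero' := by
    have h0 : IsDatum N n (0 : Pic0 ℂ (FC N)) 0 1 :=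
      ⟨rfl, one_ne_zero, fun v => by simp⟩
    have h1 : kummerChar (chosen_isDatum N n 0).nDiv = kummerChar h0.nDiv :=
      kummerChar_eq_of_isDatum (chosen_isDatum N n 0) h0
    rw [h1]
    have e : (fieldEquiv N).symm (1 : FC N) = algebraMap ℂ Kan 1 := by
      rw [map_one, map_one]
    have hc : (1 : ℂ) ≠ 0 := one_ne_zero
    rw [kummerChar_congr N e h0.nDiv (NDiv.const (Γ := Gamma0 N) (n := n) hc),
      kummerChar_const (Γ := Gamma0 N) (n := n) hc]
  map_add' x y := by
    have hx := chosen_isDatum N n x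
    have hy := chosen_isDatum N n y
    have hxy : IsDatum N n ((x + y : Pic0.torsion ℂ (FC N) n) : Pic0 ℂ (FC N))
        (chosenD N n x + chosenD N n y) (chosenF N n x * chosenF N n y) :=
      ⟨by rw [Pic0.mk_add, hx.mk_eq, hy.mk_eq]; rfl, mul_ne_zero hx.ne_zero hy.ne_zero,
        fun v => by
          rw [v.ord_mul hx.ne_zero hy.ne_zero, ← hx.ord_eq v, ← hy.ord_eq v,
            AddSubgroup.coe_add, Finsupp.add_apply]
          ring⟩
    have h1 : kummerChar (chosen_isDatum N n (x + y)).nDiv = kummerChar hxy.nDiv :=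
      kummerChar_eq_of_isDatum (chosen_isDatum N n (x + y)) hxy
    rw [h1]
    have e : (fieldEquiv N).symm (chosenF N n x * chosenF N n y) =
        (fieldEquiv N).symm (chosenF N n x) * (fieldEquiv N).symm (chosenF N n y) :=
      map_mul _ _ _
    rw [kummerChar_congr N e hxy.nDiv (hx.nDiv.mul hy.nDiv), kummerChar_mul]

variable {N n}

/-- The Kummer map can be computed from ANY datum `(D, f)` with `x = [D]`, `n • D = div f`. -/
theorem kummerC_eq_of_isDatum (x : Pic0.torsion ℂ (FC N) n)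
    {D : Divisor.degZero (K := ℂ) (F := FC N)} {f : FC N} (h : IsDatum N n x.1 D f) :
    kummerC N n x = kummerChar h.nDiv :=
  kummerChar_eq_of_isDatum (chosen_isDatum N n x) h

/-- A class `[D]` with `n • D = div f` is `n`-torsion. -/
theorem mk_mem_torsion (D : Divisor.degZero (K := ℂ) (F := FC N)) (f : FC N) (hf : f ≠ 0)
    (hD : ∀ v : Place ℂ (FC N), (n : ℤ) * (D : Divisor ℂ (FC N)) v = v.ord f) :
    Pic0.mk D ∈ Pic0.torsion ℂ (FC N) n := by
  rw [Pic0.mem_torsion]
  change (QuotientAddGroup.mk ((n : ℤ) • D) : Pic0 ℂ (FC N)) = 0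
  rw [QuotientAddGroup.eq_zero_iff, AddSubgroup.mem_addSubgroupOf]
  exact ⟨f, hf, fun v => by
    rw [AddSubgroup.coe_zsmul, Finsupp.smul_apply, smul_eq_mul, hD v]⟩

/-- The Kummer map on the class of `D`, where `n • D = div f`. -/
theorem kummerC_mk (D : Divisor.degZero (K := ℂ) (F := FC N)) (f : FC N) (hf : f ≠ 0)
    (hD : ∀ v : Place ℂ (FC N), (n : ℤ) * (D : Divisor ℂ (FC N)) v = v.ord f)
    (hx : Pic0.mk D ∈ Pic0.torsion ℂ (FC N) n)
    (hN : NDiv (Gamma0 N) n ((fieldEquiv N).symm f)) :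
    kummerC N n ⟨Pic0.mk D, hx⟩ = kummerChar hN :=
  kummerC_eq_of_isDatum ⟨Pic0.mk D, hx⟩ (⟨rfl, hf, hD⟩ : IsDatum N n (Pic0.mk D) D f)

/-- **F1e.** The Kummer map is injective. -/
theorem kummerC_injective : Function.Injective (kummerC N n) := by
  rw [injective_iff_map_eq_zero]
  intro x hx
  obtain ⟨D, f, h⟩ := exists_isDatum x.2
  rw [kummerC_eq_of_isDatum x h, kummerChar_eq_zero_iff] at hx
  obtain ⟨w, hw⟩ := hx
  have hgn : (fieldEquiv N w) ^ n = f := by
    rw [← map_pow, hw, AlgEquiv.apply_symm_apply]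
  have hg0 : fieldEquiv N w ≠ 0 := by
    intro h0
    rw [h0, zero_pow (NeZero.ne n)] at hgn
    exact h.ne_zero hgn.symm
  have hDg : ∀ v : Place ℂ (FC N), (D : Divisor ℂ (FC N)) v = v.ord (fieldEquiv N w) := by
    intro v
    have h1 := h.ord_eq v
    rw [← hgn, ← zpow_natCast, v.ord_zpow] at h1
    exact mul_left_cancel₀ (Nat.cast_ne_zero.mpr (NeZero.ne n)) h1
  apply Subtype.ext
  rw [← h.mk_eq]
  change (QuotientAddGroup.mk D : Pic0 ℂ (FC N)) = 0
  rw [QuotientAddGroup.eq_zero_iff, AddSubgroup.mem_addSubgroupOf]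
  exact ⟨fieldEquiv N w, hg0, hDg⟩

variable (N n)

/-- `Hom(Γ₀(N), ℤ/n)` is finite (`Γ₀(N)` is finitely generated). -/
theorem finite_hom : Finite (Additive ↥(Gamma0 N) →+ ZMod n) := by
  obtain ⟨S, hS⟩ := Group.fg_def.mp (Fermat.Agent.S22.gamma0_fg N)
  refine Finite.of_injective
    (fun φ : Additive ↥(Gamma0 N) →+ ZMod n =>
      fun s : (S : Set ↥(Gamma0 N)) => φ (Additive.ofMul (s : ↥(Gamma0 N)))) ?_
  intro φ ψ h
  have h1 : AddMonoidHom.toMultiplicativeRight φ = AddMonoidHom.toMultiplicativeRight ψ := by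
    refine MonoidHom.eq_of_eqOn_dense hS ?_
    intro s hs
    exact congrArg Multiplicative.ofAdd (congrFun h ⟨s, hs⟩)
  exact AddMonoidHom.toMultiplicativeRight.injective h1

/-- **F1e.** `J₀(N)(ℂ)[n]` is finite. -/
theorem finite_torsion : Finite (Pic0.torsion ℂ (FC N) n) :=
  haveI := finite_hom N n
  Finite.of_injective (kummerC N n) kummerC_injective

end Pic

section All

variable (N : ℕ) [NeZero N]

/-- The Kummer map for all `n` (zero for `n = 0`). -/
def kummerCAll (n : ℕ) : Pic0.torsion ℂ (FC N) n →+ (Additive ↥(Gamma0 N) →+ ZMod n) :=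
  if h : n = 0 then 0 else haveI : NeZero n := ⟨h⟩; kummerC N n

theorem kummerCAll_eq (n : ℕ) [NeZero n] : kummerCAll N n = kummerC N n := by
  unfold kummerCAll
  rw [dif_neg (NeZero.ne n)]

theorem kummerCAll_injective (n : ℕ) (hn : 0 < n) : Function.Injective (kummerCAll N n) := by
  have : NeZero n := ⟨hn.ne'⟩
  rw [kummerCAll_eq]
  exact kummerC_injective

end All


end Fermat.Agent.N4F.Tors.KummerPic
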