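/-
N4-FULL, block F, row F7 (part 3): THE PLUG.  Block F is UNCONDITIONAL:

* `kummerPackageAll N : KummerBar.KummerPackageAll N` (K1–K4 for all `n`),
* `kummerPackage N : Outputs.KummerPackage N`,
* `torsionFinite N : Res.TorsionFinite N` (OUT1),
* `eigenformOccurs N hg : Res.EigenformOccurs N hg` (OUT2).

Inputs: `Tors/KummerPic` (helper24: `kummerCAll`, `kummerC_mk`, `nDiv_of_forall_place`,
`kummerCAll_injective`), `Tors/KummerHeckeP` (helper21: `kummerChar_norm_beta`), and
`Tors/KummerFinal` (which already contains F2b, K4, the divisor side of F3c and the descent F5).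
-/
import Mathlib
import Fermat.Agent.N4F.Tors.KummerFinal
import Fermat.Agent.N4F.Tors.KummerPic
import Fermat.Agent.N4F.Tors.KummerHeckeP
import Fermat.Agent.N4F.Tors.OutputsFinal

set_option autoImplicit false
set_option linter.unusedSectionVars false
set_option linter.style.haveILetI false

open CongruenceSubgroup ModularCurve AlgebraicCurve
open scoped MatrixGroups

noncomputable section

namespace Fermat.Agent.N4F.Tors.KummerPlug

open Fermat.Agent.M2
open Fermat.Agent.N4F.Res Fermat.Agent.N4F.Tors.HeckeHom Fermat.Agent.N4F.Tors.Outputs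
open Fermat.Agent.N4F.Tors.BaseChange
open Fermat.Agent.N4F.Tors.Kummer Fermat.Agent.N4F.Tors.KummerBar
open Fermat.Agent.N4F.Tors.KummerFinal Fermat.Agent.N4F.Tors.KummerPic
open Fermat.Agent.N4F.Tors.HeckeDiv
open Fermat.Agent.S24 Fermat.Agent.S24.FieldIso

local notation "Qb" => AlgebraicClosure ℚ

variable (N : ℕ) [NeZero N]

/-- helper24's `kummerCAll` satisfies the specification of `Tors/KummerFinal`. -/
theorem kummerPicSpec : KummerPicSpec N (kummerCAll N) where
  nDiv n _ u hu h := by
    have hu' : fieldEquiv N u ≠ 0 := (map_ne_zero _).mpr hu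
    have h1 := nDiv_of_forall_place N hu' h
    rwa [AlgEquiv.symm_apply_apply] at h1
  spec n _ D u hN h hD := by
    have hu' : fieldEquiv N u ≠ 0 := (map_ne_zero _).mpr hN.1
    have e : (fieldEquiv N).symm (fieldEquiv N u) = u := (fieldEquiv N).symm_apply_apply u
    have hN' : NDiv (Gamma0 N) n ((fieldEquiv N).symm (fieldEquiv N u)) := by rw [e]; exact hN
    rw [kummerCAll_eq, kummerC_mk D (fieldEquiv N u) hu' h hD hN']
    exact kummerChar_congr N e hN' hN
  inj n hn := kummerCAll_injective N n hn

/-- helper21's F3c-core in the shape of `Tors/KummerFinal`. -/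
theorem heckeCore : HeckeCore N := by
  intro ℓ hℓN n _ f hf hu hu'
  haveI : NeZero (ℓ : ℕ) := ⟨ℓ.2.ne_zero⟩
  exact KummerHeckeP.kummerChar_norm_beta N ℓ hℓN n f hf hu hu'

/-- **The complex Kummer package.** -/
theorem complexKummer : ComplexKummer N :=
  complexKummer_of (kummerPicSpec N) (heckeCore N)

/-- ★★ **BLOCK F: the full Kummer package of `J_0(N)(Q̄)`, unconditionally.** -/
theorem kummerPackageAll : KummerPackageAll N :=
  KummerBar.kummerPackageAll (complexKummer N)

/-- ★★ The package consumed by `Tors/Outputs` (S29 / S42). -/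
theorem kummerPackage : KummerPackage N :=
  KummerBar.kummerPackage (kummerPackageAll N)

/-- ★★ **OUT1**: the torsion subgroups of `J_0(N)(Q̄)` are finite. -/
theorem torsionFinite : TorsionFinite N :=
  Outputs.torsionFinite N (kummerPackage N)

/-- ★★ **OUT2**: the eigensystem of a normalized eigenform occurs in `𝔽 ⊗ J_0(N)[p]`. -/
theorem eigenformOccurs {g : CuspForm (Gamma0 N) 2} (hg : g.IsNormalizedEigenform) :
    EigenformOccurs N hg :=
  OutputsFinal.eigenformOccurs N (kummerPackage N) hg

end Fermat.Agent.N4F.Tors.KummerPlug
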