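import Mathlib
import Fermat.Prelude.Def_AlgebraicCurve_Repartitions
import Fermat.Prelude.Def_AlgebraicCurve_BaseChangeGalois
import Fermat.Agent.S24.CountsC
import Fermat.Agent.N4F.E.PlaceValue

/-!
# N4-FULL block F (under F5): basics of Riemann–Roch spaces in the prelude's language

`F / K` a function field (prelude `Place`, `Divisor`, `riemannRochSpace`).

* `mem_iff`, `mono`, `mul_mem` / `mul_mem_iff` (`L(D + div g) = g⁻¹ L(D)`);
* `eq_bot_of_degree_neg` : `L(D) = 0` if `deg D < 0` (`HasPrincipalDivisors`);
* `leadMap P hP t D : L(D) →ₗ[K] K` (leading coefficient at a rational place `P` w.r.t. a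
  uniformiser `t`), `ker_leadMap` : its kernel is `L(D - P)`;
* `finiteDimensional` and `finrank_le : finrank K L(D) ≤ (deg D + 1).toNat`, given ONE rational
  place;
* the semilinear action: `smul_mem_iff : σ • f ∈ L(σ • D) ↔ f ∈ L(D)`.
-/

set_option autoImplicit false

open AlgebraicCurve Module

namespace Fermat.Agent.N4F.Tors.RRSpace

open Fermat.Agent.N4F.E.PlaceValue Fermat.Agent.N4F.E.EvalAt Fermat.Agent.S24.CountsC

variable {K F : Type*} [Field K] [Field F] [Algebra K F]

/-! ### Membership -/

theorem mem_iff {D : Divisor K F} {f : F} :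
    f ∈ riemannRochSpace D ↔ f = 0 ∨ ∀ v : Place K F, -D v ≤ v.ord f := by
  rw [mem_riemannRochSpace_iff]
  constructor
  · intro h
    by_cases hf : f = 0
    · exact Or.inl hf
    · exact Or.inr fun v => (h v).resolve_left hf
  · rintro (h | h) v
    · exact Or.inl h
    · exact Or.inr (h v)

theorem mem_iff_of_ne_zero {D : Divisor K F} {f : F} (hf : f ≠ 0) :
    f ∈ riemannRochSpace D ↔ ∀ v : Place K F, -D v ≤ v.ord f := by
  rw [mem_iff, or_iff_right hf]

theorem mono {D D' : Divisor K F} (h : D ≤ D') : riemannRochSpace D ≤ riemannRochSpace D' := by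
  intro f hf
  rw [mem_iff] at hf ⊢
  rcases hf with hf | hf
  · exact Or.inl hf
  · refine Or.inr fun v => le_trans ?_ (hf v)
    have := Finsupp.le_def.mp h v
    omega

/-- `g • L(D + div g) ⊆ L(D)`. -/
theorem mul_mem {D E : Divisor K F} {g : F} (hg : g ≠ 0) (hE : ∀ v : Place K F, E v = v.ord g)
    {f : F} (hf : f ∈ riemannRochSpace (D + E)) : f * g ∈ riemannRochSpace D := by
  rw [mem_iff] at hf ⊢
  rcases hf with hf | hf
  · left; rw [hf, zero_mul]
  · by_cases hf0 : f = 0
    · left; rw [hf0, zero_mul]
    · right
      intro v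
      have := hf v
      rw [Finsupp.add_apply, hE v] at this
      rw [v.ord_mul hf0 hg]
      omega

theorem mul_mem_iff {D E : Divisor K F} {g : F} (hg : g ≠ 0)
    (hE : ∀ v : Place K F, E v = v.ord g) {f : F} :
    f * g ∈ riemannRochSpace D ↔ f ∈ riemannRochSpace (D + E) := by
  refine ⟨fun h => ?_, mul_mem hg hE⟩
  rw [mem_iff] at h ⊢
  by_cases hf0 : f = 0
  · exact Or.inl hf0
  · right
    intro v
    have h1 := h.resolve_left (mul_ne_zero hf0 hg) v
    rw [v.ord_mul hf0 hg] at h1
    rw [Finsupp.add_apply, hE v]
    omega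

/-! ### Degrees -/

theorem degree_nonneg_of_nonneg {D : Divisor K F} (h : ∀ v, 0 ≤ D v) : 0 ≤ Divisor.degree D := by
  have : Divisor.degree D = D.sum fun v n => n * (v.deg : ℤ) := by
    simp [Divisor.degree, Finsupp.liftAddHom_apply]
  rw [this]
  exact Finset.sum_nonneg fun v _ => mul_nonneg (h v) (Int.natCast_nonneg _)

/-- `L(D) = 0` if `deg D < 0`. -/
theorem eq_bot_of_degree_neg [HasPrincipalDivisors K F] {D : Divisor K F}
    (hD : Divisor.degree D < 0) : riemannRochSpace D = ⊥ := by
  rw [eq_bot_iff]
  intro f hf
  rw [Submodule.mem_bot]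
  by_contra hf0
  obtain ⟨E, hE, hdeg⟩ := HasPrincipalDivisors.exists_divisor (K := K) f hf0
  have h1 : 0 ≤ Divisor.degree (D + E) := by
    apply degree_nonneg_of_nonneg
    intro v
    have := (mem_iff_of_ne_zero hf0).mp hf v
    rw [Finsupp.add_apply, hE v]
    omega
  rw [map_add, hdeg, add_zero] at h1
  omega

/-! ### The leading-coefficient map at a rational place -/

theorem mem_toValuationSubring_iff (v : Place K F) (x : F) :
    x ∈ v.toValuationSubring ↔ x = 0 ∨ 0 ≤ v.ord x := by
  rw [mem_iff_adicValuation_le_one, v.adicValuation_le_one_iff]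

theorem exists_ord_eq_one (v : Place K F) : ∃ t : F, v.ord t = 1 := by
  obtain ⟨π, hπ⟩ := IsDiscreteValuationRing.exists_irreducible v.toValuationSubring
  exact ⟨(π : F), v.ord_coe_irreducible hπ⟩

theorem ne_zero_of_ord_eq_one {v : Place K F} {t : F} (ht : v.ord t = 1) : t ≠ 0 := by
  rintro rfl
  simp at ht

section Lead

variable (P : Place K F) (hP : Function.Bijective (algebraMap K P.ResidueField))
  {t : F} (ht : P.ord t = 1) (D : Divisor K F)

include ht in
theorem mul_zpow_mem {f : F} (hf : f ∈ riemannRochSpace D) :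
    f * t ^ (D P) ∈ P.toValuationSubring := by
  rw [mem_toValuationSubring_iff]
  by_cases hf0 : f = 0
  · left; rw [hf0, zero_mul]
  · right
    have h1 := (mem_iff_of_ne_zero hf0).mp hf P
    rw [P.ord_mul hf0 (zpow_ne_zero _ (ne_zero_of_ord_eq_one ht)), P.ord_zpow, ht]
    omega

/-- The leading coefficient of `f ∈ L(D)` at the rational place `P`: the value of `f t^{D(P)}`. -/
noncomputable def leadMap : riemannRochSpace D →ₗ[K] K :=
  (evalAt P hP).toLinearMap ∘ₗ
    ({ toFun := fun f => ⟨(f : F) * t ^ (D P), mul_zpow_mem P ht D f.2⟩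
       map_add' := fun f g => Subtype.ext (add_mul _ _ _)
       map_smul' := fun c f => Subtype.ext (by
        simp only [RingHom.id_apply]
        rw [Algebra.smul_def]
        show (c • (f : F)) * t ^ (D P) = algebraMap K F c * ((f : F) * t ^ (D P))
        rw [Algebra.smul_def, mul_assoc]) } :
      riemannRochSpace D →ₗ[K] P.toValuationSubring)

theorem leadMap_apply (f : riemannRochSpace D) :
    leadMap P hP ht D f = valueAt P hP ((f : F) * t ^ (D P)) (mul_zpow_mem P ht D f.2) := rfl

/-- The kernel of the leading-coefficient map is `L(D - P)`. -/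
theorem leadMap_eq_zero_iff (f : riemannRochSpace D) :
    leadMap P hP ht D f = 0 ↔ (f : F) ∈ riemannRochSpace (D - Finsupp.single P 1) := by
  classical
  rw [leadMap_apply, valueAt_eq_zero_iff]
  have ht0 : t ≠ 0 := ne_zero_of_ord_eq_one ht
  by_cases hf0 : (f : F) = 0
  · rw [hf0, zero_mul]
    exact ⟨fun _ => Submodule.zero_mem _, fun _ => zero_mem_nonunits P⟩
  · have hne : (f : F) * t ^ (D P) ≠ 0 := mul_ne_zero hf0 (zpow_ne_zero _ ht0)
    rw [mem_nonunits_iff_ord_pos P hne, P.ord_mul hf0 (zpow_ne_zero _ ht0), P.ord_zpow, ht,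
      mem_iff_of_ne_zero hf0]
    have hfD := (mem_iff_of_ne_zero hf0).mp f.2
    constructor
    · intro h v
      rw [Finsupp.sub_apply, Finsupp.single_apply]
      split_ifs with hv
      · subst hv
        omega
      · have := hfD v
        omega
    · intro h
      have := h P
      rw [Finsupp.sub_apply, Finsupp.single_eq_same] at this
      omega

theorem ker_leadMap :
    LinearMap.ker (leadMap P hP ht D) =
      (riemannRochSpace (D - Finsupp.single P 1)).comap (riemannRochSpace D).subtype := by
  ext f
  rw [LinearMap.mem_ker, leadMap_eq_zero_iff]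
  rfl

end Lead

/-! ### Finite-dimensionality -/

theorem sub_single_le (D : Divisor K F) (P : Place K F) : D - Finsupp.single P 1 ≤ D := by
  classical
  rw [Finsupp.le_def]
  intro v
  rw [Finsupp.sub_apply, Finsupp.single_apply]
  split_ifs <;> omega

/-- One step: if `L(D - P)` is finite-dimensional of dimension `≤ n`, then `L(D)` is
finite-dimensional of dimension `≤ n + 1`. -/
theorem step (P : Place K F) (hP : Function.Bijective (algebraMap K P.ResidueField))
    (D : Divisor K F) (n : ℕ)
    (h : FiniteDimensional K (riemannRochSpace (D - Finsupp.single P 1)) ∧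
      finrank K (riemannRochSpace (D - Finsupp.single P 1)) ≤ n) :
    FiniteDimensional K (riemannRochSpace D) ∧ finrank K (riemannRochSpace D) ≤ n + 1 := by
  obtain ⟨t, ht⟩ := exists_ord_eq_one P
  obtain ⟨hfin, hrank⟩ := h
  set φ := leadMap P hP ht D with hφ
  have hle := mono (sub_single_le D P)
  -- the kernel is `L(D - P)`
  let e : ((riemannRochSpace (D - Finsupp.single P 1)).comap (riemannRochSpace D).subtype)
      ≃ₗ[K] riemannRochSpace (D - Finsupp.single P 1) :=
    Submodule.comapSubtypeEquivOfLe hle
  have hker : LinearMap.ker φ =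
      (riemannRochSpace (D - Finsupp.single P 1)).comap (riemannRochSpace D).subtype :=
    ker_leadMap P hP ht D
  have hfinker : FiniteDimensional K (LinearMap.ker φ) := by
    rw [hker]
    exact Module.Finite.equiv e.symm
  have hfinquot : FiniteDimensional K (riemannRochSpace D ⧸ LinearMap.ker φ) :=
    Module.Finite.equiv φ.quotKerEquivRange.symm
  have hfinD : FiniteDimensional K (riemannRochSpace D) :=
    Module.Finite.of_submodule_quotient (LinearMap.ker φ)
  refine ⟨hfinD, ?_⟩
  have h1 := LinearMap.finrank_range_add_finrank_ker φ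
  have h2 : finrank K (LinearMap.range φ) ≤ 1 := by
    have := Submodule.finrank_le (LinearMap.range φ)
    rwa [finrank_self] at this
  have h3 : finrank K (LinearMap.ker φ) = finrank K (riemannRochSpace (D - Finsupp.single P 1)) := by
    rw [hker]
    exact e.finrank_eq
  omega

/-- **Finite-dimensionality and the Riemann bound** `dim L(D) ≤ deg D + 1`, given one rational
place. -/
theorem finiteDimensional_and_finrank_le [HasPrincipalDivisors K F] (P : Place K F)
    (hP : Function.Bijective (algebraMap K P.ResidueField)) (D : Divisor K F) :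
    FiniteDimensional K (riemannRochSpace D) ∧
      finrank K (riemannRochSpace D) ≤ (Divisor.degree D + 1).toNat := by
  have hdegP : (P.deg : ℤ) = 1 := by
    have e : K ≃ₗ[K] P.ResidueField :=
      LinearEquiv.ofBijective (Algebra.linearMap K P.ResidueField) hP
    rw [Place.deg, ← e.finrank_eq, finrank_self]
    rfl
  suffices H : ∀ (n : ℕ) (D : Divisor K F), (Divisor.degree D + 1).toNat = n →
      FiniteDimensional K (riemannRochSpace D) ∧ finrank K (riemannRochSpace D) ≤ n from
    H _ D rfl
  intro n
  induction n with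
  | zero =>
    intro D hD
    have hneg : Divisor.degree D < 0 := by omega
    have hbot := eq_bot_of_degree_neg hneg
    rw [hbot]
    exact ⟨inferInstance, by simp⟩
  | succ n ih =>
    intro D hD
    apply step P hP D n
    apply ih
    rw [map_sub, Divisor.degree_single, hdegP]
    omega

theorem finiteDimensional [HasPrincipalDivisors K F] (P : Place K F)
    (hP : Function.Bijective (algebraMap K P.ResidueField)) (D : Divisor K F) :
    FiniteDimensional K (riemannRochSpace D) :=
  (finiteDimensional_and_finrank_le P hP D).1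

theorem finrank_le [HasPrincipalDivisors K F] (P : Place K F)
    (hP : Function.Bijective (algebraMap K P.ResidueField)) (D : Divisor K F) :
    finrank K (riemannRochSpace D) ≤ (Divisor.degree D + 1).toNat :=
  (finiteDimensional_and_finrank_le P hP D).2

/-! ### Semilinear automorphisms -/

theorem smul_mem_iff (σ : SemilinearAut K F) (D : Divisor K F) (f : F) :
    σ • f ∈ riemannRochSpace (σ • D) ↔ f ∈ riemannRochSpace D := by
  rw [mem_iff, mem_iff]
  have h0 : σ • f = 0 ↔ f = 0 := smul_eq_zero_iff_eq σ
  constructor
  · rintro (h | h)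
    · exact Or.inl (h0.mp h)
    · right
      intro v
      have := h (σ • v)
      rwa [SemilinearAut.divisor_smul_apply_smul, SemilinearAut.ord_smul] at this
  · rintro (h | h)
    · exact Or.inl (h0.mpr h)
    · right
      intro v
      have := h (σ⁻¹ • v)
      have e : v = σ • (σ⁻¹ • v) := (smul_inv_smul σ v).symm
      rw [e, SemilinearAut.divisor_smul_apply_smul, SemilinearAut.ord_smul]
      exact this

end Fermat.Agent.N4F.Tors.RRSpace
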