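import Mathlib
import Fermat.Agent.N4F.Tors.RRSpace

/-!
# N4-FULL block F (under F5): the canonical effective divisor of a divisor class

`F / K` a function field (prelude language), `[HasPrincipalDivisors K F]`, `P` a RATIONAL place
(`hP : Function.Bijective (algebraMap K P.ResidueField)`), `C` a divisor with
`hC : ∀ D, ∃ k : ℕ, L(D + k • C) ≠ ⊥`.

* `divOf f` : the principal divisor of `f` (`divOf_apply`, `degree_divOf`, `divOf_mul`,
  `divOf_const_mul`, `smul_divOf`);
* `IsMax P E f` : `f` is a nonzero element of `L(E)` of maximal order at `P`; `exists_isMax`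
  (orders are bounded by `deg E - E P`: `ord_le_of_mem`), `IsMax.eq_const_mul` (two such elements
  differ by a constant: leading coefficient at the rational place `P`);
* `kMin C hC D` : the least `k` with `L(D + k • C) ≠ ⊥`; `twist C hC D := D + kMin D • C`;
* `canonDiv P hP C hC D := div f + D + kMin D • C` for `f` of maximal order at `P` in
  `L(D + kMin D • C)`: effective (`canonDiv_nonneg`), `canonDiv_sub_sub_mem_principal`
  (`canonDiv D - kMin D • C ∼ D`), `degree_canonDiv`;
* independence of the representative: `kMin_add_principal`, `canonDiv_add_principal`,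
  `canonDiv_eq_of_sub_mem_principal`;
* equivariance: `kMin_smul`, `canonDiv_smul : canonDiv (σ • D) = σ • canonDiv D` for
  `σ : SemilinearAut K F` with `σ • P = P` and `σ • C = C`;
* the `Pic⁰` packaging: `canonPic x`, `kMinPic x`, `canonPic_mk`, `mk_canonPic_sub`,
  `canonPic_smul`, and `finite_orbit_of_mem_support` (finite orbit of `x` under a group fixing `P`
  and `C` ⇒ finite orbit of every place in the support of `canonPic x`).
-/

set_option autoImplicit false
set_option linter.unusedSectionVars false

open AlgebraicCurve Module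

namespace Fermat.Agent.N4F.Tors.Canonical

open Fermat.Agent.N4F.E.PlaceValue Fermat.Agent.N4F.E.EvalAt Fermat.Agent.S24.CountsC
open Fermat.Agent.N4F.Tors

variable {K F : Type*} [Field K] [Field F] [Algebra K F]

theorem ord_const (v : Place K F) {c : K} (hc : c ≠ 0) : v.ord (algebraMap K F c) = 0 := by
  have h0 : algebraMap K F c ≠ 0 := by simpa using hc
  have h1 := adicValuation_algebraMap_const v hc
  rw [v.adicValuation_eq_exp_neg_ord h0, ← WithZero.exp_zero, WithZero.exp_inj] at h1
  omega

theorem ord_const_mul (v : Place K F) {c : K} (hc : c ≠ 0) (f : F) :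
    v.ord (algebraMap K F c * f) = v.ord f := by
  by_cases hf : f = 0
  · rw [hf, mul_zero]
  · rw [v.ord_mul (by simpa using hc) hf, ord_const v hc, zero_add]

/-! ### The principal divisor of a function -/

section DivOf

variable [HasPrincipalDivisors K F]

open Classical in
/-- The principal divisor of `f` (`0` for `f = 0`). -/
noncomputable def divOf (f : F) : Divisor K F :=
  if hf : f = 0 then 0 else (HasPrincipalDivisors.exists_divisor (K := K) f hf).choose

theorem divOf_apply {f : F} (hf : f ≠ 0) (v : Place K F) : divOf (K := K) f v = v.ord f := by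
  rw [divOf, dif_neg hf]
  exact (HasPrincipalDivisors.exists_divisor (K := K) f hf).choose_spec.1 v

theorem divOf_zero : divOf (K := K) (0 : F) = 0 := by
  rw [divOf, dif_pos rfl]

theorem divOf_apply' (f : F) (v : Place K F) : divOf (K := K) f v = v.ord f := by
  by_cases hf : f = 0
  · rw [hf, divOf_zero, Place.ord_zero]; rfl
  · exact divOf_apply hf v

theorem degree_divOf (f : F) : Divisor.degree (divOf (K := K) f) = 0 := by
  by_cases hf : f = 0
  · rw [hf, divOf_zero, map_zero]
  · rw [divOf, dif_neg hf]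
    exact (HasPrincipalDivisors.exists_divisor (K := K) f hf).choose_spec.2

theorem divOf_mem_principal {f : F} (hf : f ≠ 0) :
    divOf (K := K) f ∈ Divisor.principal (K := K) (F := F) :=
  ⟨f, hf, divOf_apply hf⟩

theorem divOf_mul {f g : F} (hf : f ≠ 0) (hg : g ≠ 0) :
    divOf (K := K) (f * g) = divOf (K := K) f + divOf (K := K) g := by
  ext v
  rw [Finsupp.add_apply, divOf_apply', divOf_apply', divOf_apply', v.ord_mul hf hg]

theorem divOf_const_mul {c : K} (hc : c ≠ 0) (f : F) :
    divOf (K := K) (algebraMap K F c * f) = divOf (K := K) f := by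
  ext v
  rw [divOf_apply', divOf_apply', ord_const_mul v hc]

theorem eq_divOf {E : Divisor K F} {g : F} (hE : ∀ v : Place K F, E v = v.ord g) :
    E = divOf (K := K) g := by
  ext v
  rw [hE v, divOf_apply']

theorem smul_divOf (σ : SemilinearAut K F) (f : F) :
    σ • divOf (K := K) f = divOf (K := K) (σ • f) := by
  ext w
  rw [SemilinearAut.divisor_smul_apply, divOf_apply', divOf_apply']
  have h := SemilinearAut.ord_smul σ (σ⁻¹ • w) f
  rw [smul_inv_smul] at h
  exact h.symm

end DivOf


/-! ### Elements of maximal order at a rational place -/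

/-- `f` is a nonzero element of `L(E)` of maximal order at `P`. -/
def IsMax (P : Place K F) (E : Divisor K F) (f : F) : Prop :=
  f ∈ riemannRochSpace E ∧ f ≠ 0 ∧ ∀ g ∈ riemannRochSpace E, g ≠ 0 → P.ord g ≤ P.ord f

section Max

variable (P : Place K F) (hP : Function.Bijective (algebraMap K P.ResidueField))

include hP in
theorem deg_eq_one_of_bijective : (P.deg : ℤ) = 1 := by
  have e : K ≃ₗ[K] P.ResidueField :=
    LinearEquiv.ofBijective (Algebra.linearMap K P.ResidueField) hP
  rw [Place.deg, ← e.finrank_eq, finrank_self]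
  rfl

include hP in
/-- The orders at `P` of the nonzero elements of `L(E)` are bounded above. -/
theorem ord_le_of_mem [HasPrincipalDivisors K F] {E : Divisor K F} {g : F}
    (hg : g ∈ riemannRochSpace E) (hg0 : g ≠ 0) : P.ord g ≤ Divisor.degree E - E P := by
  classical
  by_contra hlt
  rw [not_le] at hlt
  set E' : Divisor K F := E - Finsupp.single P (P.ord g + E P) with hE'
  have hmem : g ∈ riemannRochSpace E' := by
    rw [RRSpace.mem_iff_of_ne_zero hg0]
    intro v
    have h1 := (RRSpace.mem_iff_of_ne_zero hg0).mp hg v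
    rw [hE', Finsupp.sub_apply, Finsupp.single_apply]
    split_ifs with hv
    · subst hv; omega
    · omega
  have hdeg : Divisor.degree E' < 0 := by
    rw [hE', map_sub, Divisor.degree_single, deg_eq_one_of_bijective P hP]
    omega
  have := RRSpace.eq_bot_of_degree_neg hdeg
  rw [this, Submodule.mem_bot] at hmem
  exact hg0 hmem

include hP in
theorem exists_isMax [HasPrincipalDivisors K F] {E : Divisor K F}
    (hE : riemannRochSpace E ≠ ⊥) : ∃ f, IsMax P E f := by
  obtain ⟨g₀, hg₀, hg₀0⟩ := (Submodule.ne_bot_iff _).mp hE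
  obtain ⟨m, ⟨f, hf, hf0, rfl⟩, hmax⟩ := Int.exists_greatest_of_bdd
    (P := fun m => ∃ g ∈ riemannRochSpace E, g ≠ 0 ∧ P.ord g = m)
    ⟨Divisor.degree E - E P, fun z ⟨g, hg, hg0, hz⟩ => hz ▸ ord_le_of_mem P hP hg hg0⟩
    ⟨P.ord g₀, g₀, hg₀, hg₀0, rfl⟩
  exact ⟨f, hf, hf0, fun g hg hg0 => hmax _ ⟨g, hg, hg0, rfl⟩⟩

include hP in
/-- Two elements of maximal order differ by a constant. -/
theorem IsMax.eq_const_mul {E : Divisor K F} {f f' : F} (hf : IsMax P E f)
    (hf' : IsMax P E f') : ∃ c : K, c ≠ 0 ∧ f' = algebraMap K F c * f := by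
  obtain ⟨hfE, hf0, hfmax⟩ := hf
  obtain ⟨hfE', hf0', hfmax'⟩ := hf'
  have hord : P.ord f' = P.ord f := le_antisymm (hfmax f' hfE' hf0') (hfmax' f hfE hf0)
  set u : F := f' / f with hu
  have hu0 : u ≠ 0 := div_ne_zero hf0' hf0
  have hordu : P.ord u = 0 := by
    rw [hu, div_eq_mul_inv, P.ord_mul hf0' (inv_ne_zero hf0), P.ord_inv, hord]; ring
  have humem : u ∈ P.toValuationSubring := by
    rw [RRSpace.mem_toValuationSubring_iff]; right; omega
  set c : K := valueAt P hP u humem with hc
  have hsub := sub_valueAt_mem P hP u humem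
  rw [← hc] at hsub
  -- `h := f' - c f = f (u - c)`
  have hkey : f' - algebraMap K F c * f = f * (u - algebraMap K F c) := by
    rw [hu]; field_simp
  have hzero : f' - algebraMap K F c * f = 0 := by
    by_contra hne
    have hne' : u - algebraMap K F c ≠ 0 := by
      intro h0; rw [hkey, h0, mul_zero] at hne; exact hne rfl
    have hpos := (mem_nonunits_iff_ord_pos P hne').mp hsub
    have hmem : f' - algebraMap K F c * f ∈ riemannRochSpace E := by
      refine Submodule.sub_mem _ hfE' ?_
      have := Submodule.smul_mem (riemannRochSpace E) c hfE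
      rwa [Algebra.smul_def] at this
    have h1 := hfmax _ hmem hne
    rw [hkey, P.ord_mul hf0 hne'] at h1
    omega
  have hc0 : c ≠ 0 := by
    intro h0
    rw [h0, map_zero, zero_mul, sub_zero] at hzero
    exact hf0' hzero
  exact ⟨c, hc0, sub_eq_zero.mp hzero⟩

theorem IsMax.const_mul {E : Divisor K F} {f : F} (hf : IsMax P E f) {c : K} (hc : c ≠ 0) :
    IsMax P E (algebraMap K F c * f) := by
  obtain ⟨hfE, hf0, hfmax⟩ := hf
  refine ⟨?_, mul_ne_zero (by simpa using hc) hf0, fun g hg hg0 => ?_⟩
  · have := Submodule.smul_mem (riemannRochSpace E) c hfE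
    rwa [Algebra.smul_def] at this
  · rw [ord_const_mul P hc]
    exact hfmax g hg hg0

end Max


/-! ### The canonical effective divisor -/

section Canon

variable [HasPrincipalDivisors K F] (P : Place K F)
  (hP : Function.Bijective (algebraMap K P.ResidueField)) (C : Divisor K F)
  (hC : ∀ D : Divisor K F, ∃ k : ℕ, riemannRochSpace (D + k • C) ≠ ⊥)

open Classical in
/-- The least `k` with `L(D + k C) ≠ 0`. -/
noncomputable def kMin (D : Divisor K F) : ℕ := Nat.find (hC D)

theorem kMin_spec (D : Divisor K F) : riemannRochSpace (D + kMin C hC D • C) ≠ ⊥ := by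
  classical
  exact Nat.find_spec (hC D)

theorem kMin_le (D : Divisor K F) {k : ℕ} (hk : riemannRochSpace (D + k • C) ≠ ⊥) :
    kMin C hC D ≤ k := by
  classical
  exact Nat.find_min' (hC D) hk

theorem eq_bot_of_lt_kMin (D : Divisor K F) {k : ℕ} (hk : k < kMin C hC D) :
    riemannRochSpace (D + k • C) = ⊥ := by
  classical
  exact not_not.mp (Nat.find_min (hC D) hk)

theorem kMin_congr {D D' : Divisor K F}
    (h : ∀ k : ℕ, riemannRochSpace (D + k • C) ≠ ⊥ ↔ riemannRochSpace (D' + k • C) ≠ ⊥) :
    kMin C hC D = kMin C hC D' :=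
  le_antisymm (kMin_le C hC D ((h _).mpr (kMin_spec C hC D')))
    (kMin_le C hC D' ((h _).mp (kMin_spec C hC D)))

/-- The twisted divisor `D + kMin D • C`. -/
noncomputable def twist (D : Divisor K F) : Divisor K F := D + kMin C hC D • C

theorem twist_def (D : Divisor K F) : twist C hC D = D + kMin C hC D • C := rfl

theorem degree_twist (D : Divisor K F) :
    Divisor.degree (twist C hC D) = Divisor.degree D + kMin C hC D * Divisor.degree C := by
  rw [twist, map_add, map_nsmul, nsmul_eq_mul]

/-- A chosen element of maximal order at `P` of `L(D + kMin D • C)`. -/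
noncomputable def canonFn (D : Divisor K F) : F :=
  (exists_isMax P hP (kMin_spec C hC D)).choose

theorem isMax_canonFn (D : Divisor K F) : IsMax P (twist C hC D) (canonFn P hP C hC D) :=
  (exists_isMax P hP (kMin_spec C hC D)).choose_spec

/-- **The canonical effective divisor** of `D` (relative to `P` and `C`):
`div f + D + kMin D • C`, `f ∈ L(D + kMin D • C)` of maximal order at `P`. -/
noncomputable def canonDiv (D : Divisor K F) : Divisor K F :=
  divOf (K := K) (canonFn P hP C hC D) + twist C hC D

theorem canonDiv_eq_of_isMax {D : Divisor K F} {f : F} (hf : IsMax P (twist C hC D) f) :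
    canonDiv P hP C hC D = divOf (K := K) f + twist C hC D := by
  obtain ⟨c, hc, rfl⟩ := (isMax_canonFn P hP C hC D).eq_const_mul P hP hf
  rw [divOf_const_mul hc, canonDiv]

theorem canonDiv_nonneg (D : Divisor K F) (v : Place K F) : 0 ≤ canonDiv P hP C hC D v := by
  obtain ⟨hmem, h0, -⟩ := isMax_canonFn P hP C hC D
  have := (RRSpace.mem_iff_of_ne_zero h0).mp hmem v
  rw [canonDiv, Finsupp.add_apply, divOf_apply h0]
  omega

theorem canonDiv_sub_twist_mem_principal (D : Divisor K F) :
    canonDiv P hP C hC D - twist C hC D ∈ Divisor.principal (K := K) (F := F) := by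
  rw [canonDiv, add_sub_cancel_right]
  exact divOf_mem_principal (isMax_canonFn P hP C hC D).2.1

theorem degree_canonDiv (D : Divisor K F) :
    Divisor.degree (canonDiv P hP C hC D) =
      Divisor.degree D + kMin C hC D * Divisor.degree C := by
  rw [canonDiv, map_add, degree_divOf, zero_add, degree_twist]

/-- `canonDiv D - kMin D • C` is linearly equivalent to `D`. -/
theorem canonDiv_sub_sub_mem_principal (D : Divisor K F) :
    canonDiv P hP C hC D - kMin C hC D • C - D ∈ Divisor.principal (K := K) (F := F) := by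
  have := canonDiv_sub_twist_mem_principal P hP C hC D
  rwa [twist, add_comm D, ← sub_sub] at this

theorem degree_canonDiv_sub (D : Divisor K F) :
    Divisor.degree (canonDiv P hP C hC D - kMin C hC D • C) = Divisor.degree D := by
  rw [map_sub, degree_canonDiv, map_nsmul, nsmul_eq_mul, add_sub_cancel_right]

/-! #### Independence of the representative -/

omit [HasPrincipalDivisors K F] in
theorem ne_bot_add_iff {D E : Divisor K F} {g : F} (hg : g ≠ 0)
    (hE : ∀ v : Place K F, E v = v.ord g) :
    riemannRochSpace (D + E) ≠ ⊥ ↔ riemannRochSpace D ≠ ⊥ := by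
  rw [Submodule.ne_bot_iff, Submodule.ne_bot_iff]
  constructor
  · rintro ⟨f, hf, hf0⟩
    exact ⟨f * g, RRSpace.mul_mem hg hE hf, mul_ne_zero hf0 hg⟩
  · rintro ⟨f, hf, hf0⟩
    refine ⟨f / g, (RRSpace.mul_mem_iff hg hE).mp ?_, div_ne_zero hf0 hg⟩
    rwa [div_mul_cancel₀ f hg]

omit [HasPrincipalDivisors K F] in
theorem isMax_add_iff {E₁ E : Divisor K F} {g : F} (hg : g ≠ 0)
    (hE : ∀ v : Place K F, E v = v.ord g) (f : F) :
    IsMax P (E₁ + E) f ↔ IsMax P E₁ (f * g) := by
  constructor
  · rintro ⟨hf, hf0, hmax⟩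
    refine ⟨RRSpace.mul_mem hg hE hf, mul_ne_zero hf0 hg, fun h hh hh0 => ?_⟩
    have h1 : h / g ∈ riemannRochSpace (E₁ + E) := by
      apply (RRSpace.mul_mem_iff hg hE).mp
      rwa [div_mul_cancel₀ h hg]
    have h2 := hmax (h / g) h1 (div_ne_zero hh0 hg)
    rw [div_eq_mul_inv, P.ord_mul hh0 (inv_ne_zero hg), P.ord_inv] at h2
    rw [P.ord_mul hf0 hg]
    omega
  · rintro ⟨hf, hf0, hmax⟩
    have hf0' : f ≠ 0 := left_ne_zero_of_mul hf0
    refine ⟨(RRSpace.mul_mem_iff hg hE).mp hf, hf0', fun h hh hh0 => ?_⟩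
    have h2 := hmax (h * g) (RRSpace.mul_mem hg hE hh) (mul_ne_zero hh0 hg)
    rw [P.ord_mul hh0 hg, P.ord_mul hf0' hg] at h2
    omega

theorem kMin_add_principal (D : Divisor K F) {E : Divisor K F}
    (hE : E ∈ Divisor.principal (K := K) (F := F)) :
    kMin C hC (D + E) = kMin C hC D := by
  obtain ⟨g, hg, hE⟩ := hE
  apply kMin_congr
  intro k
  rw [add_right_comm]
  exact ne_bot_add_iff hg hE

theorem twist_add_principal (D : Divisor K F) {E : Divisor K F}
    (hE : E ∈ Divisor.principal (K := K) (F := F)) :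
    twist C hC (D + E) = twist C hC D + E := by
  rw [twist, twist, kMin_add_principal C hC D hE, add_right_comm]

/-- **The canonical divisor depends only on the linear equivalence class.** -/
theorem canonDiv_add_principal (D : Divisor K F) {E : Divisor K F}
    (hE : E ∈ Divisor.principal (K := K) (F := F)) :
    canonDiv P hP C hC (D + E) = canonDiv P hP C hC D := by
  have htw := twist_add_principal C hC D hE
  obtain ⟨g, hg, hEg⟩ := hE
  have h1 := isMax_canonFn P hP C hC (D + E)
  rw [htw, isMax_add_iff P hg hEg] at h1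
  have hf0 : canonFn P hP C hC (D + E) ≠ 0 := left_ne_zero_of_mul h1.2.1
  rw [canonDiv_eq_of_isMax P hP C hC h1, canonDiv, htw, divOf_mul hf0 hg, ← eq_divOf hEg]
  abel

theorem canonDiv_eq_of_sub_mem_principal {D D' : Divisor K F}
    (h : D' - D ∈ Divisor.principal (K := K) (F := F)) :
    canonDiv P hP C hC D' = canonDiv P hP C hC D := by
  have := canonDiv_add_principal P hP C hC D h
  rwa [add_sub_cancel] at this

theorem kMin_eq_of_sub_mem_principal {D D' : Divisor K F}
    (h : D' - D ∈ Divisor.principal (K := K) (F := F)) :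
    kMin C hC D' = kMin C hC D := by
  have := kMin_add_principal C hC D h
  rwa [add_sub_cancel] at this

/-! #### Equivariance -/

omit [HasPrincipalDivisors K F] in
theorem ne_bot_smul_iff (σ : SemilinearAut K F) (E : Divisor K F) :
    riemannRochSpace (σ • E) ≠ ⊥ ↔ riemannRochSpace E ≠ ⊥ := by
  rw [Submodule.ne_bot_iff, Submodule.ne_bot_iff]
  constructor
  · rintro ⟨f, hf, hf0⟩
    refine ⟨σ⁻¹ • f, ?_, (smul_ne_zero_iff_ne _).mpr hf0⟩
    rw [← RRSpace.smul_mem_iff σ, smul_inv_smul]
    exact hf
  · rintro ⟨f, hf, hf0⟩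
    exact ⟨σ • f, (RRSpace.smul_mem_iff σ E f).mpr hf, (smul_ne_zero_iff_ne _).mpr hf0⟩

omit [HasPrincipalDivisors K F] in
theorem ord_smul_of_fixed {σ : SemilinearAut K F} (hσP : σ • P = P) (f : F) :
    P.ord (σ • f) = P.ord f := by
  have := SemilinearAut.ord_smul σ P f
  rwa [hσP] at this

omit [HasPrincipalDivisors K F] in
theorem IsMax.smul {σ : SemilinearAut K F} (hσP : σ • P = P) {E : Divisor K F} {f : F}
    (hf : IsMax P E f) : IsMax P (σ • E) (σ • f) := by
  obtain ⟨hfE, hf0, hmax⟩ := hf
  refine ⟨(RRSpace.smul_mem_iff σ E f).mpr hfE, (smul_ne_zero_iff_ne _).mpr hf0,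
    fun h hh hh0 => ?_⟩
  have h1 : σ⁻¹ • h ∈ riemannRochSpace E := by
    rw [← RRSpace.smul_mem_iff σ, smul_inv_smul]
    exact hh
  have h2 := hmax _ h1 ((smul_ne_zero_iff_ne _).mpr hh0)
  have h3 := ord_smul_of_fixed P hσP (σ⁻¹ • h)
  rw [smul_inv_smul] at h3
  rw [ord_smul_of_fixed P hσP f, h3]
  exact h2

omit [HasPrincipalDivisors K F] in
theorem smul_add_nsmul {σ : SemilinearAut K F} (hσC : σ • C = C) (D : Divisor K F) (k : ℕ) :
    σ • (D + k • C) = σ • D + k • C := by
  rw [smul_add, smul_comm σ k C, hσC]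

theorem kMin_smul {σ : SemilinearAut K F} (hσC : σ • C = C) (D : Divisor K F) :
    kMin C hC (σ • D) = kMin C hC D := by
  apply kMin_congr
  intro k
  rw [← smul_add_nsmul C hσC]
  exact ne_bot_smul_iff σ _

theorem twist_smul {σ : SemilinearAut K F} (hσC : σ • C = C) (D : Divisor K F) :
    twist C hC (σ • D) = σ • twist C hC D := by
  rw [twist, twist, kMin_smul C hC hσC, smul_add_nsmul C hσC]

/-- **Equivariance of the canonical divisor** under semilinear automorphisms fixing `P` and
`C`. -/
theorem canonDiv_smul {σ : SemilinearAut K F} (hσP : σ • P = P) (hσC : σ • C = C)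
    (D : Divisor K F) :
    canonDiv P hP C hC (σ • D) = σ • canonDiv P hP C hC D := by
  have h1 := (isMax_canonFn P hP C hC D).smul P hσP
  rw [← twist_smul C hC hσC] at h1
  rw [canonDiv_eq_of_isMax P hP C hC h1, canonDiv, smul_add, smul_divOf, twist_smul C hC hσC]

end Canon


/-! ### The canonical divisor of a class in `Pic⁰` -/

section Pic

variable [HasPrincipalDivisors K F] (P : Place K F)
  (hP : Function.Bijective (algebraMap K P.ResidueField)) (C : Divisor K F)
  (hC : ∀ D : Divisor K F, ∃ k : ℕ, riemannRochSpace (D + k • C) ≠ ⊥)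

/-- The canonical effective divisor of a class `x ∈ Pic⁰`. -/
noncomputable def canonPic (x : Pic0 K F) : Divisor K F :=
  canonDiv P hP C hC ((Quotient.out x : Divisor.degZero (K := K) (F := F)) : Divisor K F)

/-- The twisting exponent of a class `x ∈ Pic⁰`. -/
noncomputable def kMinPic (x : Pic0 K F) : ℕ :=
  kMin C hC ((Quotient.out x : Divisor.degZero (K := K) (F := F)) : Divisor K F)

theorem out_mk_sub_mem_principal (D : Divisor.degZero (K := K) (F := F)) :
    ((Quotient.out (Pic0.mk D) : Divisor.degZero (K := K) (F := F)) : Divisor K F) -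
      (D : Divisor K F) ∈ Divisor.principal (K := K) (F := F) := by
  have h : Pic0.mk (Quotient.out (Pic0.mk D)) = Pic0.mk D := Quotient.out_eq _
  have h2 := QuotientAddGroup.eq.mp h.symm
  rw [AddSubgroup.mem_addSubgroupOf] at h2
  have h3 : ((-D + Quotient.out (Pic0.mk D) : Divisor.degZero (K := K) (F := F)) : Divisor K F) =
      ((Quotient.out (Pic0.mk D) : Divisor.degZero (K := K) (F := F)) : Divisor K F) -
        (D : Divisor K F) := by
    rw [AddSubgroup.coe_add, AddSubgroup.coe_neg]; abel
  rwa [h3] at h2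

theorem canonPic_mk (D : Divisor.degZero (K := K) (F := F)) :
    canonPic P hP C hC (Pic0.mk D) = canonDiv P hP C hC (D : Divisor K F) :=
  canonDiv_eq_of_sub_mem_principal P hP C hC (out_mk_sub_mem_principal D)

theorem kMinPic_mk (D : Divisor.degZero (K := K) (F := F)) :
    kMinPic C hC (Pic0.mk D) = kMin C hC (D : Divisor K F) :=
  kMin_eq_of_sub_mem_principal C hC (out_mk_sub_mem_principal D)

theorem canonPic_nonneg (x : Pic0 K F) (v : Place K F) : 0 ≤ canonPic P hP C hC x v :=
  canonDiv_nonneg P hP C hC _ v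

theorem degree_canonPic_sub (x : Pic0 K F) :
    Divisor.degree (canonPic P hP C hC x - kMinPic C hC x • C) = 0 := by
  rw [canonPic, kMinPic, degree_canonDiv_sub]
  exact Divisor.mem_degZero.mp (Quotient.out x : Divisor.degZero (K := K) (F := F)).2

/-- The class of `canonPic x - kMinPic x • C` is `x`. -/
theorem mk_canonPic_sub (x : Pic0 K F) :
    Pic0.mk ⟨canonPic P hP C hC x - kMinPic C hC x • C,
      Divisor.mem_degZero.mpr (degree_canonPic_sub P hP C hC x)⟩ = x := by
  conv_rhs => rw [← Quotient.out_eq x]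
  apply QuotientAddGroup.eq.mpr
  rw [AddSubgroup.mem_addSubgroupOf]
  have h := canonDiv_sub_sub_mem_principal P hP C hC
    ((Quotient.out x : Divisor.degZero (K := K) (F := F)) : Divisor K F)
  have h2 := (Divisor.principal (K := K) (F := F)).neg_mem h
  convert h2 using 1
  rw [AddSubgroup.coe_add, AddSubgroup.coe_neg]
  simp only [canonPic, kMinPic]
  abel

theorem canonPic_smul {σ : SemilinearAut K F} (hσP : σ • P = P) (hσC : σ • C = C)
    (x : Pic0 K F) : canonPic P hP C hC (σ • x) = σ • canonPic P hP C hC x := by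
  obtain ⟨D, rfl⟩ := Pic0.mk_surjective x
  rw [SemilinearAut.pic0_smul_mk, canonPic_mk, canonPic_mk, SemilinearAut.coe_degZeroSMulHom,
    canonDiv_smul P hP C hC hσP hσC]

theorem kMinPic_smul {σ : SemilinearAut K F} (hσC : σ • C = C) (x : Pic0 K F) :
    kMinPic C hC (σ • x) = kMinPic C hC x := by
  obtain ⟨D, rfl⟩ := Pic0.mk_surjective x
  rw [SemilinearAut.pic0_smul_mk, kMinPic_mk, kMinPic_mk, SemilinearAut.coe_degZeroSMulHom,
    kMin_smul C hC hσC]

/-- **Finite orbits**: if the class `x` has a finite orbit under a group `G` of semilinear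
automorphisms fixing `P` and `C`, then so has every place in the support of its canonical
divisor. -/
theorem finite_orbit_of_mem_support (G : Subgroup (SemilinearAut K F))
    (hGP : ∀ σ ∈ G, σ • P = P) (hGC : ∀ σ ∈ G, σ • C = C) (x : Pic0 K F)
    (hx : (Set.range fun σ : G => (σ : SemilinearAut K F) • x).Finite) {v : Place K F}
    (hv : v ∈ (canonPic P hP C hC x).support) :
    (Set.range fun σ : G => (σ : SemilinearAut K F) • v).Finite := by
  refine Set.Finite.subset (Set.Finite.biUnion hx
    (fun y _ => (canonPic P hP C hC y).support.finite_toSet)) ?_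
  rintro _ ⟨σ, rfl⟩
  simp only [Set.mem_iUnion, Finset.mem_coe, exists_prop]
  refine ⟨(σ : SemilinearAut K F) • x, ⟨σ, rfl⟩, ?_⟩
  rw [canonPic_smul P hP C hC (hGP σ σ.2) (hGC σ σ.2), Finsupp.mem_support_iff,
    SemilinearAut.divisor_smul_apply_smul]
  exact Finsupp.mem_support_iff.mp hv

end Pic

end Fermat.Agent.N4F.Tors.Canonical
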