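import Mathlib

/-!
# N4-FULL block F (node F5, volunteer piece): orbits of transcendental elements

`L / K` an algebraically closed extension.  A transcendental `c ∈ L` can be moved to `c + a`
(`a ∈ K`) by a `K`-automorphism of `L` (extend `{c}` to a transcendence basis `B`, shift the
variable `c` of `K[B]`, extend to the algebraic closure `L` of `K[B]` by
`IsAlgClosure.equivOfEquiv`).  Hence in characteristic zero the `Aut(L/K)`-orbit of `c` is infinite.

* `exists_algEquiv_apply_eq_add`, `infinite_orbit_of_transcendental`;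
* `transcendental_of_notMem_range`;
* `infinite_orbit (ι : k →+* L) (c : L) (hc : c ∉ ι.range)` : helper10's shape (`k = ℚ̄`, `L = ℂ`).
-/

set_option autoImplicit false
set_option linter.style.haveILetI false
set_option linter.unusedSectionVars false

open MvPolynomial

namespace Fermat.Agent.N4F.Tors.AutOrbit

section Shift

variable {K : Type*} [Field K] {B : Type*} [DecidableEq B]

/-- The `K`-algebra endomorphism of `K[B]` shifting the variable `c` by `a`. -/
noncomputable def shiftHom (c : B) (a : K) : MvPolynomial B K →ₐ[K] MvPolynomial B K :=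
  aeval (fun b => if b = c then X b + C a else X b)

theorem shiftHom_X_self (c : B) (a : K) : shiftHom c a (X c) = X c + C a := by
  simp [shiftHom]

theorem shiftHom_X_of_ne (c : B) (a : K) {b : B} (hb : b ≠ c) : shiftHom c a (X b) = X b := by
  simp [shiftHom, hb]

theorem shiftHom_comp (c : B) (a a' : K) :
    (shiftHom c a).comp (shiftHom c a') = shiftHom c (a + a') := by
  apply MvPolynomial.algHom_ext
  intro b
  by_cases hb : b = c
  · subst hb
    rw [AlgHom.comp_apply, shiftHom_X_self, map_add, shiftHom_X_self, shiftHom_X_self]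
    simp [shiftHom, add_assoc]
  · rw [AlgHom.comp_apply, shiftHom_X_of_ne c a' hb, shiftHom_X_of_ne c a hb,
      shiftHom_X_of_ne c _ hb]

theorem shiftHom_zero (c : B) : shiftHom c (0 : K) = AlgHom.id K _ := by
  apply MvPolynomial.algHom_ext
  intro b
  by_cases hb : b = c
  · subst hb
    rw [shiftHom_X_self]; simp
  · rw [shiftHom_X_of_ne c _ hb]; rfl

/-- The shift as an algebra automorphism. -/
noncomputable def shiftEquiv (c : B) (a : K) : MvPolynomial B K ≃ₐ[K] MvPolynomial B K :=
  AlgEquiv.ofAlgHom (shiftHom c a) (shiftHom c (-a))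
    (by rw [shiftHom_comp, add_neg_cancel, shiftHom_zero])
    (by rw [shiftHom_comp, neg_add_cancel, shiftHom_zero])

theorem shiftEquiv_X_self (c : B) (a : K) : shiftEquiv c a (X c) = X c + C a :=
  shiftHom_X_self c a

end Shift

section Main

variable {K L : Type*} [Field K] [Field L] [Algebra K L] [IsAlgClosed L]

/-- A transcendental element `c` of an algebraically closed extension `L / K` can be moved to
`c + a` (`a ∈ K`) by a `K`-automorphism of `L`. -/
theorem exists_algEquiv_apply_eq_add {c : L} (hc : Transcendental K c) (a : K) :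
    ∃ σ : L ≃ₐ[K] L, σ c = c + algebraMap K L a := by
  classical
  have hs : AlgebraicIndepOn K id ({c} : Set L) := by
    show AlgebraicIndependent K (fun i : ({c} : Set L) => id (i : L))
    rw [algebraicIndependent_singleton_iff (⟨c, rfl⟩ : ({c} : Set L))]
    exact hc
  obtain ⟨B, hcB, hB⟩ := exists_isTranscendenceBasis_superset hs
  have hcB' : c ∈ B := hcB rfl
  let v : B → L := (↑)
  have : IsAlgClosure (Algebra.adjoin K (Set.range v)) L :=
    IsAlgClosed.isAlgClosure_of_transcendence_basis v hB
  let ψ : MvPolynomial B K ≃ₐ[K] Algebra.adjoin K (Set.range v) := hB.1.aevalEquiv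
  let e : Algebra.adjoin K (Set.range v) ≃ₐ[K] Algebra.adjoin K (Set.range v) :=
    (ψ.symm.trans (shiftEquiv ⟨c, hcB'⟩ a)).trans ψ
  let σ0 : L ≃+* L := IsAlgClosure.equivOfEquiv L L e.toRingEquiv
  have hσ0 : ∀ x : Algebra.adjoin K (Set.range v),
      σ0 (algebraMap _ L x) = algebraMap _ L (e x) :=
    fun x => IsAlgClosure.equivOfEquiv_algebraMap L L e.toRingEquiv x
  have hK : ∀ k : K, σ0 (algebraMap K L k) = algebraMap K L k := by
    intro k
    have h1 : algebraMap K L k =
        algebraMap (Algebra.adjoin K (Set.range v)) L (algebraMap K _ k) := rfl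
    rw [h1, hσ0, e.commutes]
  refine ⟨AlgEquiv.ofRingEquiv (f := σ0) hK, ?_⟩
  show σ0 c = _
  have hc' : c = algebraMap (Algebra.adjoin K (Set.range v)) L (ψ (X ⟨c, hcB'⟩)) := by
    rw [hB.1.algebraMap_aevalEquiv, aeval_X]
  have he : e (ψ (X ⟨c, hcB'⟩)) = ψ (X ⟨c, hcB'⟩ + C a) := by
    show ψ (shiftEquiv ⟨c, hcB'⟩ a (ψ.symm (ψ (X ⟨c, hcB'⟩)))) = _
    rw [AlgEquiv.symm_apply_apply, shiftEquiv_X_self]
  conv_lhs => rw [hc']
  rw [hσ0, he, hB.1.algebraMap_aevalEquiv, map_add, aeval_X, aeval_C]

/-- The `Aut(L/K)`-orbit of a transcendental element is infinite (characteristic zero). -/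
theorem infinite_orbit_of_transcendental [CharZero L] {c : L} (hc : Transcendental K c) :
    {x : L | ∃ σ : L ≃ₐ[K] L, σ c = x}.Infinite := by
  have hchar : CharZero K := by
    refine ⟨fun m n h => ?_⟩
    have := congrArg (algebraMap K L) h
    rw [map_natCast, map_natCast] at this
    exact Nat.cast_injective this
  refine Set.infinite_of_injective_forall_mem (f := fun n : ℕ => c + algebraMap K L (n : K)) ?_ ?_
  · intro m n h
    have h1 : algebraMap K L (m : K) = algebraMap K L (n : K) := add_left_cancel h
    rw [map_natCast, map_natCast] at h1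
    exact Nat.cast_injective h1
  · intro n
    obtain ⟨σ, hσ⟩ := exists_algEquiv_apply_eq_add hc (n : K)
    exact ⟨σ, hσ⟩

end Main

section RingHom

variable {k L : Type*} [Field k] [IsAlgClosed k] [Field L] [IsAlgClosed L]

/-- An element outside the image of an algebraically closed subfield is transcendental over it. -/
theorem transcendental_of_notMem_range (ι : k →+* L) {c : L} (hc : c ∉ ι.range) :
    letI := ι.toAlgebra
    Transcendental k c := by
  letI := ι.toAlgebra
  intro halg
  apply hc
  have hint : IsIntegral k c := halg.isIntegral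
  have hdeg : (minpoly k c).degree = 1 :=
    IsAlgClosed.degree_eq_one_of_irreducible k (minpoly.irreducible hint)
  exact minpoly.mem_range_of_degree_eq_one k c hdeg

/-- **Infinite orbits** (helper10's F5 shape, `k = ℚ̄`, `L = ℂ`): if `c ∉ ι(k)` then the orbit of `c`
under the ring automorphisms of `L` fixing `ι(k)` pointwise is infinite. -/
theorem infinite_orbit [CharZero L] (ι : k →+* L) (c : L) (hc : c ∉ ι.range) :
    {x : L | ∃ σ : L ≃+* L, (∀ a : k, σ (ι a) = ι a) ∧ σ c = x}.Infinite := by
  letI := ι.toAlgebra
  have htr : Transcendental k c := transcendental_of_notMem_range ι hc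
  refine (infinite_orbit_of_transcendental htr).mono ?_
  rintro x ⟨σ, rfl⟩
  exact ⟨σ.toRingEquiv, fun a => σ.commutes a, rfl⟩

end RingHom

end Fermat.Agent.N4F.Tors.AutOrbit
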