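/-
N4-FULL, block F, node F5a (part 2): the automorphisms of `ℂ` over `ι(Q̄)` act on `ℂ · F_N`
coefficientwise; they fix the image of `Q̄ · F_N`, hence the extended places and the
base-changed divisors.  Functions without zeros and poles are constant.
-/
import Mathlib
import Fermat.Prelude.Def_ModularCurve_ArithmeticGalois
import Fermat.Agent.N4F.Tors.BaseChange
import Fermat.Agent.N4F.Tors.AutOrbit
import Fermat.Agent.N4F.A.GaloisHecke
import Fermat.Agent.N4.FFAlgClosed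

set_option autoImplicit false
set_option linter.unusedSectionVars false
set_option linter.style.haveILetI false

namespace Fermat.Agent.N4F.Tors.BaseChange

open AlgebraicCurve IsLocalRing ModularCurve IntermediateField
open Fermat.Agent.S24 Fermat.Agent.S24.FieldIso

local notation "Qb" => AlgebraicClosure ℚ

variable (N : ℕ) [NeZero N]

/-- `σ` fixes `ι(Q̄)` pointwise. -/
def FixesQbar (σ : ℂ ≃ₐ[ℚ] ℂ) : Prop := ∀ a : Qb, σ (ι a) = ι a

theorem FixesQbar.inv {σ : ℂ ≃ₐ[ℚ] ℂ} (h : FixesQbar σ) : FixesQbar σ⁻¹ := fun a => by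
  have := h a
  calc σ⁻¹ (ι a) = σ⁻¹ (σ (ι a)) := by rw [this]
    _ = ι a := σ.symm_apply_apply _

theorem FixesQbar.mul {σ τ : ℂ ≃ₐ[ℚ] ℂ} (h : FixesQbar σ) (h' : FixesQbar τ) :
    FixesQbar (σ * τ) := fun a => by
  show σ (τ (ι a)) = ι a
  rw [h' a, h a]

theorem fixesQbar_one : FixesQbar 1 := fun _ => rfl

/-- The coefficientwise action of `σ ∈ Aut(ℂ/ℚ)` on `ℂ · F_N`. -/
noncomputable abbrev gal (σ : ℂ ≃ₐ[ℚ] ℂ) : SemilinearAut ℂ (FC N) :=
  arithmeticGalois (modularFunctionFieldFull N) σ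

theorem coe_gal_smul (σ : ℂ ≃ₐ[ℚ] ℂ) (x : FC N) :
    ((gal N σ • x : FC N) : LaurentSeries ℂ) = coeffMap (σ : ℂ →+* ℂ) (x : LaurentSeries ℂ) :=
  rfl

theorem gal_smul_barToC {σ : ℂ ≃ₐ[ℚ] ℂ} (hσ : FixesQbar σ) (f : modularFunctionFieldBar N) :
    gal N σ • barToC N ι f = barToC N ι f := by
  apply Subtype.ext
  rw [coe_gal_smul]
  show coeffMap (σ : ℂ →+* ℂ) (coeffMap ι (f : LaurentSeries Qb)) = coeffMap ι (f : LaurentSeries Qb)
  rw [coeffMap_coeffMap]
  exact coeffMap_congr (RingHom.ext fun a => hσ a) _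

theorem gal_smul_extC {σ : ℂ ≃ₐ[ℚ] ℂ} (hσ : FixesQbar σ)
    (v : Place Qb (modularFunctionFieldBar N)) : gal N σ • extC N v = extC N v := by
  apply eq_extC
  intro f
  rw [Fermat.Agent.N4F.A.GaloisHecke.mem_smul_place_iff, ← map_inv,
    gal_smul_barToC N hσ.inv, mem_extC_iff]

theorem gal_smul_bcDivC {σ : ℂ ≃ₐ[ℚ] ℂ} (hσ : FixesQbar σ)
    (D : Divisor Qb (modularFunctionFieldBar N)) : gal N σ • bcDivC N D = bcDivC N D := by
  induction D using Finsupp.induction with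
  | zero => simp
  | single_add v n D _ _ ih =>
      rw [map_add, smul_add, ih, bcDivC_single, SemilinearAut.smul_single, gal_smul_extC N hσ]

/-! ### Functions without zeros and poles are constant -/

/-- Generic form: in a function field of one variable of characteristic zero, a function without
zeros is algebraic over the constant field. -/
theorem isAlgebraic_of_forall_ord_le_zero {K F : Type*} [Field K] [Field F] [Algebra K F]
    [CharZero K] (x : F) [FiniteDimensional K⟮x⟯ F] (f : F)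
    (h : ∀ v : Place K F, v.ord f ≤ 0) : IsAlgebraic K f := by
  by_contra htr
  haveI : FiniteDimensional K⟮f⟯ F :=
    Fermat.Agent.S24.finiteDimensional_adjoin_simple_of_transcendental x htr
  obtain ⟨Z, hZ1, hZ2⟩ := Fermat.Agent.S24.exists_zeroDivisor htr
  have hZ0 : Z = 0 := by
    ext v
    rw [hZ1 v, max_eq_right (h v)]
    rfl
  rw [hZ0, map_zero] at hZ2
  have hpos : 0 < Module.finrank K⟮f⟯ F := Module.finrank_pos
  omega

theorem exists_const_of_forall_ord_le_zero (f : FC N)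
    (h : ∀ v : Place ℂ (FC N), v.ord f ≤ 0) : ∃ c : ℂ, f = algebraMap ℂ (FC N) c := by
  haveI := CountsFC.finiteDimensional_FC N
  have halg := isAlgebraic_of_forall_ord_le_zero (xC N) f h
  obtain ⟨c, hc⟩ := Fermat.Agent.N4.FFAlgClosed.intermediateField_algebraic_mem_range
    (FC N) f halg
  exact ⟨c, hc.symm⟩

/-! ### Elements of `ℂ` fixed by `Aut(ℂ/ι Q̄)` -/

/-- A ring automorphism of `ℂ` as a `ℚ`-algebra automorphism. -/
noncomputable def toAlgEquivQ (σ : ℂ ≃+* ℂ) : ℂ ≃ₐ[ℚ] ℂ :=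
  AlgEquiv.ofRingEquiv (f := σ) (fun x => by simp)

@[simp] theorem toAlgEquivQ_apply (σ : ℂ ≃+* ℂ) (x : ℂ) : toAlgEquivQ σ x = σ x := rfl

theorem mem_range_of_forall_fixed (c : ℂ)
    (h : ∀ σ : ℂ ≃ₐ[ℚ] ℂ, FixesQbar σ → σ c = c) : c ∈ (ι : Qb →+* ℂ).range := by
  by_contra hc
  have hinf := AutOrbit.infinite_orbit (ι : Qb →+* ℂ) c hc
  refine hinf (Set.Finite.subset (Set.finite_singleton c) ?_)
  rintro x ⟨σ, hσ, rfl⟩
  exact h (toAlgEquivQ σ) (fun a => hσ a)

/-! ### Injectivity of base change on `Pic⁰` -/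

/-- **Coefficient descent** (node `Tors/CoeffDescent.lean`): an element of `ℂ · F_N` whose
`q`-expansion has coefficients in `ι(Q̄)` comes from `Q̄ · F_N`. -/
def CoeffDescent : Prop :=
  ∀ g : FC N, (∀ k : ℤ, (g : LaurentSeries ℂ).coeff k ∈ (ι : Qb →+* ℂ).range) →
    g ∈ Set.range (barToC N ι)

theorem bcPicC_mk_eq_zero_iff (D : Divisor.degZero (K := Qb) (F := modularFunctionFieldBar N)) :
    bcPicC N (Pic0.mk D) = 0 ↔ (bcDivC N (D : Divisor Qb (modularFunctionFieldBar N))).IsPrincipal := by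
  obtain ⟨h, hmk⟩ := bcPicC_mk N D
  rw [hmk, Pic0.mk, QuotientAddGroup.eq_zero_iff, AddSubgroup.mem_addSubgroupOf]
  rfl

theorem coe_algebraMap_FC (c : ℂ) :
    ((algebraMap ℂ (FC N) c : FC N) : LaurentSeries ℂ) = HahnSeries.C c := by
  have h : ((algebraMap ℂ (FC N) c : FC N) : LaurentSeries ℂ) = algebraMap ℂ (LaurentSeries ℂ) c :=
    rfl
  rw [h, algebraMap_laurentSeries_eq_single]
  rfl

theorem ord_algebraMap_mul (v : Place ℂ (FC N)) {c : ℂ} (hc : c ≠ 0) (g : FC N) :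
    v.ord (algebraMap ℂ (FC N) c * g) = v.ord g := by
  rcases eq_or_ne g 0 with rfl | hg
  · simp
  rw [v.ord_mul (by rw [ne_eq, map_eq_zero]; exact hc) hg,
    Fermat.Agent.S24.ord_eq_zero_of_isAlgebraic v (isAlgebraic_algebraMap c), zero_add]

/-- If the divisor of `g ∈ ℂ · F_N` is a base change and the leading coefficient of `g` is `1`,
then `g` is fixed by every automorphism of `ℂ` over `ι(Q̄)`. -/
theorem gal_smul_eq_of_div_eq {g : FC N} (hg : g ≠ 0)
    (D : Divisor Qb (modularFunctionFieldBar N))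
    (hD : ∀ v' : Place ℂ (FC N), bcDivC N D v' = v'.ord g) {m : ℤ}
    (hm1 : (g : LaurentSeries ℂ).coeff m = 1)
    {σ : ℂ ≃ₐ[ℚ] ℂ} (hσ : FixesQbar σ) : gal N σ • g = g := by
  have hσg : gal N σ • g ≠ 0 := by
    rw [ne_eq, smul_eq_zero_iff_eq]; exact hg
  have hord : ∀ v' : Place ℂ (FC N), v'.ord (gal N σ • g) = v'.ord g := by
    intro v'
    have h1 := SemilinearAut.ord_smul (gal N σ) ((gal N σ)⁻¹ • v') g
    rw [smul_inv_smul] at h1
    rw [h1, ← hD, ← hD v', ← SemilinearAut.divisor_smul_apply, gal_smul_bcDivC N hσ]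
  obtain ⟨c, hc⟩ := exists_const_of_forall_ord_le_zero N ((gal N σ • g) * g⁻¹) (fun v' => by
    rw [v'.ord_mul hσg (inv_ne_zero hg), v'.ord_inv, hord v']; omega)
  have hsg : gal N σ • g = algebraMap ℂ (FC N) c * g := by
    rw [← hc, mul_assoc, inv_mul_cancel₀ hg, mul_one]
  have hcoeff : ((gal N σ • g : FC N) : LaurentSeries ℂ).coeff m =
      ((algebraMap ℂ (FC N) c * g : FC N) : LaurentSeries ℂ).coeff m := by rw [hsg]
  rw [coe_gal_smul, coeffMap_coeff, hm1, MulMemClass.coe_mul, coe_algebraMap_FC,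
    HahnSeries.C_mul_eq_smul, HahnSeries.coeff_smul, hm1] at hcoeff
  have hc1 : c = 1 := by simpa using hcoeff.symm
  rw [hsg, hc1, map_one, one_mul]

theorem bcPicC_injective (hdesc : CoeffDescent N) : Function.Injective (bcPicC N) := by
  rw [injective_iff_map_eq_zero]
  intro x hx
  obtain ⟨D, rfl⟩ := Pic0.mk_surjective x
  rw [bcPicC_mk_eq_zero_iff] at hx
  obtain ⟨g, hg, hgD⟩ := hx
  -- normalise the leading coefficient
  have hgL : (g : LaurentSeries ℂ) ≠ 0 := fun h => hg (Subtype.ext h)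
  set m : ℤ := (g : LaurentSeries ℂ).order with hm
  set c : ℂ := (g : LaurentSeries ℂ).coeff m with hc
  have hc0 : c ≠ 0 := fun h => hgL (HahnSeries.coeff_order_eq_zero.mp h)
  set g₁ : FC N := algebraMap ℂ (FC N) c⁻¹ * g with hg₁
  have hg₁0 : g₁ ≠ 0 := mul_ne_zero (by rw [ne_eq, map_eq_zero]; exact inv_ne_zero hc0) hg
  have hg₁L : (g₁ : LaurentSeries ℂ) = c⁻¹ • (g : LaurentSeries ℂ) := by
    rw [hg₁, MulMemClass.coe_mul]
    rw [coe_algebraMap_FC, HahnSeries.C_mul_eq_smul]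
  have hone : (g₁ : LaurentSeries ℂ).coeff m = 1 := by
    rw [hg₁L, HahnSeries.coeff_smul, smul_eq_mul, inv_mul_cancel₀ hc0]
  have hD₁ : ∀ v' : Place ℂ (FC N),
      bcDivC N (D : Divisor Qb (modularFunctionFieldBar N)) v' = v'.ord g₁ := by
    intro v'
    rw [hg₁, ord_algebraMap_mul N v' (inv_ne_zero hc0), hgD v']
  -- all coefficients are fixed, hence lie in `ι(Q̄)`
  have hfix : ∀ k : ℤ, (g₁ : LaurentSeries ℂ).coeff k ∈ (ι : Qb →+* ℂ).range := by
    intro k
    apply mem_range_of_forall_fixed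
    intro σ hσ
    have := gal_smul_eq_of_div_eq N hg₁0 D hD₁ hone hσ
    have h3 : ((gal N σ • g₁ : FC N) : LaurentSeries ℂ).coeff k = (g₁ : LaurentSeries ℂ).coeff k := by
      rw [this]
    rw [coe_gal_smul, coeffMap_coeff] at h3
    exact h3
  obtain ⟨g₀, hg₀⟩ := hdesc g₁ hfix
  have hg₀0 : g₀ ≠ 0 := by
    rintro rfl
    rw [map_zero] at hg₀
    exact hg₁0 hg₀.symm
  have hprinc : (D : Divisor Qb (modularFunctionFieldBar N)).IsPrincipal := by
    refine ⟨g₀, hg₀0, fun v => ?_⟩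
    rw [← bcDivC_apply_extC N, hD₁, ← hg₀, ord_extC]
  rw [Pic0.mk, QuotientAddGroup.eq_zero_iff, AddSubgroup.mem_addSubgroupOf]
  exact hprinc

end Fermat.Agent.N4F.Tors.BaseChange
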