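/-
N4-FULL block F, node `Tors/CoeffDescent.lean` (helper21): COEFFICIENT DESCENT.

Generic: for fields `K ⊆ L` and an intermediate field `E` of `K((q))/K`, a Laurent series `g₀`
over `K` whose coefficientwise image lies in `L · E` (the subfield of `L((q))` generated by `L`
and the image of `E`) already lies in `E`.  Proof: write the image as `a / b` with `a, b` in the
`L`-span of the image of `E` and apply coefficientwise a `K`-linear functional `ℓ : L → K` that
does not kill `b`.

Modular instance: `BaseChange.CoeffDescent N`, i.e. an element of `ℂ · F_N` whose `q`-expansion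
has coefficients in `ι(Q̄)` comes from `Q̄ · F_N`.
-/
import Mathlib
import Fermat.Agent.S24.FFBasics
import Fermat.Agent.N4F.Tors.BaseChangeAut

set_option autoImplicit false
set_option linter.style.haveILetI false

open ModularCurve

noncomputable section

namespace Fermat.Agent.N4F.Tors.CoeffDescent

section Generic

variable {K L : Type*} [Field K] [Field L] [Algebra K L]

/-- Coefficientwise application of a `K`-linear functional `L → K`. -/
def mapFun (ℓ : L →ₗ[K] K) (y : LaurentSeries L) : LaurentSeries K := y.map ℓ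

@[simp] lemma mapFun_coeff (ℓ : L →ₗ[K] K) (y : LaurentSeries L) (k : ℤ) :
    (mapFun ℓ y).coeff k = ℓ (y.coeff k) := rfl

lemma mapFun_zero (ℓ : L →ₗ[K] K) : mapFun ℓ 0 = 0 := by
  ext k
  simp

lemma mapFun_add (ℓ : L →ₗ[K] K) (y z : LaurentSeries L) :
    mapFun ℓ (y + z) = mapFun ℓ y + mapFun ℓ z := by
  ext k
  simp

lemma mapFun_algebraMap_mul (ℓ : L →ₗ[K] K) (γ : L) (y : LaurentSeries L) :
    mapFun ℓ (algebraMap L (LaurentSeries L) γ * y) = mapFun (ℓ ∘ₗ LinearMap.mulLeft K γ) y := by
  ext k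
  rw [mapFun_coeff, mapFun_coeff, Fermat.Agent.S24.FFBasics.coeff_algebraMap_mul]
  rfl

lemma mapFun_coeffMap (ℓ : L →ₗ[K] K) (x : LaurentSeries K) :
    mapFun ℓ (coeffMap (algebraMap K L) x) = algebraMap K (LaurentSeries K) (ℓ 1) * x := by
  ext k
  rw [mapFun_coeff, coeffMap_coeff, Fermat.Agent.S24.FFBasics.coeff_algebraMap_mul,
    Algebra.algebraMap_eq_smul_one, map_smul, smul_eq_mul, mul_comm]

/-- The key property, stable under `L`-linear combinations. -/
lemma exists_mapFun_mul_eq (E : IntermediateField K (LaurentSeries K)) {y : LaurentSeries L}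
    (hy : y ∈ Algebra.adjoin L (⇑(coeffMap (algebraMap K L)) '' (E : Set (LaurentSeries K)))) :
    ∀ ℓ : L →ₗ[K] K, ∃ e ∈ E, ∀ x₀ : LaurentSeries K,
      mapFun ℓ (y * coeffMap (algebraMap K L) x₀) = e * x₀ := by
  -- the image of `E` is multiplicatively closed
  have hcl : (Submonoid.closure (⇑(coeffMap (algebraMap K L)) '' (E : Set (LaurentSeries K))) :
      Set (LaurentSeries L)) = ⇑(coeffMap (algebraMap K L)) '' (E : Set (LaurentSeries K)) := by
    have h1 : (⇑(coeffMap (algebraMap K L)) '' (E : Set (LaurentSeries K))) =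
        ((E.toSubring.map (coeffMap (algebraMap K L))).toSubmonoid : Set (LaurentSeries L)) := by
      ext z
      simp
    rw [h1, Submonoid.closure_eq]
  have hy' : y ∈ @Submodule.span L (LaurentSeries L) _ _ Algebra.toModule
      (⇑(coeffMap (algebraMap K L)) '' (E : Set (LaurentSeries K))) := by
    have h2 := Algebra.adjoin_eq_span L
      (⇑(coeffMap (algebraMap K L)) '' (E : Set (LaurentSeries K)))
    rw [hcl] at h2
    have h3 : y ∈ Subalgebra.toSubmodule (Algebra.adjoin L
      (⇑(coeffMap (algebraMap K L)) '' (E : Set (LaurentSeries K)))) := hy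
    rw [h2] at h3
    exact h3
  clear hy
  induction hy' using Submodule.span_induction with
  | mem y hy =>
    obtain ⟨e₀, he₀, rfl⟩ := hy
    intro ℓ
    refine ⟨algebraMap K (LaurentSeries K) (ℓ 1) * e₀, ?_, fun x₀ => ?_⟩
    · exact E.mul_mem (E.algebraMap_mem _) he₀
    · rw [← map_mul, mapFun_coeffMap, mul_assoc]
  | zero =>
    intro ℓ
    exact ⟨0, E.zero_mem, fun x₀ => by rw [zero_mul, zero_mul, mapFun_zero]⟩
  | add y z _ _ hy hz =>
    intro ℓ
    obtain ⟨e₁, he₁, h₁⟩ := hy ℓ
    obtain ⟨e₂, he₂, h₂⟩ := hz ℓ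
    exact ⟨e₁ + e₂, E.add_mem he₁ he₂, fun x₀ => by
      rw [add_mul, mapFun_add, h₁, h₂, add_mul]⟩
  | smul γ y _ hy =>
    intro ℓ
    obtain ⟨e, he, h⟩ := hy (ℓ ∘ₗ LinearMap.mulLeft K γ)
    exact ⟨e, he, fun x₀ => by
      rw [Algebra.smul_def, mul_assoc, mapFun_algebraMap_mul, h]⟩

/-- **Coefficient descent, generic form.** -/
theorem mem_of_coeffMap_mem_adjoin (E : IntermediateField K (LaurentSeries K))
    (g₀ : LaurentSeries K)
    (h : coeffMap (algebraMap K L) g₀ ∈ IntermediateField.adjoin L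
      (⇑(coeffMap (algebraMap K L)) '' (E : Set (LaurentSeries K)))) : g₀ ∈ E := by
  obtain ⟨a, ha, b, hb, hab⟩ := IntermediateField.mem_adjoin_iff_div.1 h
  by_cases hb0 : b = 0
  · rw [hb0, div_zero] at hab
    have : g₀ = 0 := (coeffMap (algebraMap K L)).injective (by rw [hab, map_zero])
    rw [this]
    exact E.zero_mem
  -- a coefficient of `b` which is not zero, and a functional not killing it
  obtain ⟨k, hk⟩ : ∃ k : ℤ, b.coeff k ≠ 0 := by
    by_contra hcon
    push Not at hcon
    exact hb0 (HahnSeries.ext (funext hcon))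
  obtain ⟨ℓ, hℓ⟩ : ∃ ℓ : L →ₗ[K] K, ℓ (b.coeff k) ≠ 0 := by
    by_contra hcon
    push Not at hcon
    exact hk ((Module.forall_dual_apply_eq_zero_iff K (b.coeff k)).1 hcon)
  obtain ⟨ea, hea, h1⟩ := exists_mapFun_mul_eq E ha ℓ
  obtain ⟨eb, heb, h2⟩ := exists_mapFun_mul_eq E hb ℓ
  have hb1 : mapFun ℓ b = eb := by
    have := h2 1
    rwa [map_one, mul_one, mul_one] at this
  have ha1 : mapFun ℓ a = ea := by
    have := h1 1
    rwa [map_one, mul_one, mul_one] at this
  have heb0 : eb ≠ 0 := by
    intro h0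
    apply hℓ
    have := congrArg (fun z : LaurentSeries K => z.coeff k) hb1
    simpa [h0] using this
  -- `a = b * g`
  have hag : a = b * coeffMap (algebraMap K L) g₀ := by
    rw [hab, mul_div_cancel₀ _ hb0]
  have hfin : ea = eb * g₀ := by
    rw [← ha1, hag, h2 g₀]
  have : g₀ = ea / eb := by
    rw [hfin, mul_div_cancel_left₀ _ heb0]
  rw [this]
  exact E.div_mem hea heb

end Generic

section Modular

open Fermat.Agent.S24 Fermat.Agent.S24.FieldIso Fermat.Agent.N4F.Tors.BaseChange

local notation "Qb" => AlgebraicClosure ℚ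

/-- A Laurent series over `L` with coefficients in the range of `j : K →+* L` is a coefficientwise
image. -/
theorem exists_coeffMap_eq {K L : Type*} [Field K] [Field L] (j : K →+* L)
    (g : LaurentSeries L) (hg : ∀ k : ℤ, g.coeff k ∈ j.range) :
    ∃ g₀ : LaurentSeries K, coeffMap j g₀ = g := by
  have hinv : Function.LeftInverse (Function.invFun (j : K → L)) j :=
    Function.leftInverse_invFun j.injective
  let r : ZeroHom L K := ⟨Function.invFun (j : K → L), by
    have := hinv 0
    rwa [map_zero] at this⟩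
  refine ⟨g.map r, ?_⟩
  ext k
  obtain ⟨a, ha⟩ := hg k
  rw [coeffMap_coeff, HahnSeries.map_coeff, ← ha]
  change j (Function.invFun (j : K → L) (j a)) = j a
  rw [hinv a]

/-- **Coefficient descent for `Q̄ · F_N ⊆ ℂ · F_N`** (the Prop `BaseChange.CoeffDescent N`). -/
theorem coeffDescent (N : ℕ) [NeZero N] : BaseChange.CoeffDescent N := by
  intro g hg
  letI : Algebra Qb ℂ := BarToC.algQC BaseChange.ι
  obtain ⟨g₀, hg₀⟩ := exists_coeffMap_eq (BaseChange.ι : Qb →+* ℂ) (g : LaurentSeries ℂ) hg
  have hmem : g₀ ∈ modularFunctionFieldBar N := by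
    apply mem_of_coeffMap_mem_adjoin (L := ℂ) (modularFunctionFieldBar N) g₀
    change coeffMap (BaseChange.ι : Qb →+* ℂ) g₀ ∈ IntermediateField.adjoin ℂ
      (⇑(coeffMap (BaseChange.ι : Qb →+* ℂ)) ''
        (modularFunctionFieldBar N : Set (LaurentSeries Qb)))
    rw [adjoin_coeffMap_image_modularFunctionFieldBar N BaseChange.ι, hg₀]
    exact g.2
  exact ⟨⟨g₀, hmem⟩, Subtype.ext hg₀⟩

/-- The statement requested in the F-DAG. -/
theorem mem_range_barToC_of_coeff (N : ℕ) [NeZero N] (g : FC N)
    (hg : ∀ k : ℤ, (g : LaurentSeries ℂ).coeff k ∈ (BaseChange.ι : Qb →+* ℂ).range) :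
    g ∈ Set.range (barToC N BaseChange.ι) :=
  coeffDescent N g hg

end Modular

end Fermat.Agent.N4F.Tors.CoeffDescent
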