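/-
N4-FULL, block F, node F5c (modular instantiation): the pole divisor `C` of `j` on `ℂ · F_N`
(as the base change of the pole divisor of `j` on `Q̄ · F_N`) and the hypothesis `hC` of
`Tors/Canonical.lean`: for every divisor `D` some `L(D + k C)` is nonzero.
-/
import Mathlib
import Fermat.Prelude.Def_AlgebraicCurve_Repartitions
import Fermat.Agent.N4F.Tors.BaseChangeAut
import Fermat.Agent.N4F.Tors.RRSpace

set_option autoImplicit false
set_option linter.unusedSectionVars false
set_option linter.style.haveILetI false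

namespace Fermat.Agent.N4F.Tors.PoleDivisor

open AlgebraicCurve IsLocalRing ModularCurve IntermediateField
open Fermat.Agent.S24 Fermat.Agent.S24.FieldIso Fermat.Agent.S24.PlaceExtend
open Fermat.Agent.N4F.Tors.BaseChange Fermat.Agent.N4F.A.LevelMaps

local notation "Qb" => AlgebraicClosure ℚ

/-- Generic characteristic-zero wrapper of `S24.exists_poleDivisor`. -/
theorem exists_poleDivisor' {K F : Type*} [Field K] [Field F] [Algebra K F] [CharZero K]
    {h : F} (htr : Transcendental K h) [FiniteDimensional K⟮h⟯ F] :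
    ∃ Z : Divisor K F, (∀ v : Place K F, Z v = max (-v.ord h) 0) ∧
      Divisor.degree Z = (Module.finrank K⟮h⟯ F : ℤ) :=
  Fermat.Agent.S24.exists_poleDivisor htr

variable (N : ℕ) [NeZero N]

instance hasPrincipalDivisors_FC : HasPrincipalDivisors ℂ (FC N) :=
  haveI := CountsFC.finiteDimensional_FC N
  Fermat.Agent.S24.hasPrincipalDivisors (xC N)

theorem barToC_xj : barToC N ι (xj N) = xC N :=
  barToC_jq N ι (coeffEmb_jq_mem N)

/-- The pole divisor of `j` on `Q̄ · F_N`. -/
noncomputable def poleBar : Divisor Qb (modularFunctionFieldBar N) :=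
  (exists_poleDivisor' (transcendental_xj N)).choose

theorem poleBar_apply (v : Place Qb (modularFunctionFieldBar N)) :
    poleBar N v = max (-v.ord (xj N)) 0 :=
  (exists_poleDivisor' (transcendental_xj N)).choose_spec.1 v

/-- The pole divisor of `j` on `ℂ · F_N`. -/
noncomputable def poleC : Divisor ℂ (FC N) := bcDivC N (poleBar N)

theorem poleC_apply (v' : Place ℂ (FC N)) : poleC N v' = max (-v'.ord (xC N)) 0 := by
  by_cases h : v' ∈ Set.range (extC N)
  · obtain ⟨v, rfl⟩ := h
    rw [poleC, bcDivC_apply_extC, poleBar_apply, ← barToC_xj, ord_extC]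
  · rw [poleC, bcDivC_apply_of_notMem N _ v' h]
    have h0 : v'.ord (xC N) = 0 := by
      by_contra hne
      rw [← barToC_xj] at hne
      obtain ⟨v, hv⟩ := exists_eq_extC_of_ord_ne_zero N v' hne
      exact h ⟨v, hv.symm⟩
    rw [h0]; rfl

theorem poleC_nonneg (v' : Place ℂ (FC N)) : 0 ≤ poleC N v' := by
  rw [poleC_apply]; exact le_max_right _ _

theorem gal_smul_poleC {σ : ℂ ≃ₐ[ℚ] ℂ} (hσ : FixesQbar σ) : gal N σ • poleC N = poleC N :=
  gal_smul_bcDivC N hσ _

/-! ### Orders of `j - c` -/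

theorem xC_ne_zero : xC N ≠ 0 := by
  have := CountsFC.xC_sub_ne_zero N 0
  rwa [map_zero, sub_zero] at this

/-- `ord_w (j - c) ≥ - C(w)` at every place. -/
theorem neg_poleC_le_ord_sub (w : Place ℂ (FC N)) (c : ℂ) :
    -poleC N w ≤ w.ord (xC N - algebraMap ℂ (FC N) c) := by
  have hne := CountsFC.xC_sub_ne_zero N c
  rw [poleC_apply]
  rcases le_or_gt 0 (w.ord (xC N)) with h | h
  · -- `j` is regular at `w`
    have hx : xC N ∈ w.toValuationSubring := (PlaceExtend.mem_iff_ord_nonneg w (xC_ne_zero N)).2 h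
    have hmem : xC N - algebraMap ℂ (FC N) c ∈ w.toValuationSubring :=
      sub_mem hx (w.algebraMap_mem' c)
    have := (PlaceExtend.mem_iff_ord_nonneg w hne).1 hmem
    rw [max_eq_right (by omega)]
    omega
  · -- `j` has a pole at `w`
    have hxinv : (xC N)⁻¹ ∈ w.toValuationSubring :=
      (PlaceExtend.mem_iff_ord_nonneg w (inv_ne_zero (xC_ne_zero N))).2 (by rw [w.ord_inv]; omega)
    have hmem : (xC N - algebraMap ℂ (FC N) c) * (xC N)⁻¹ ∈ w.toValuationSubring := by
      have : (xC N - algebraMap ℂ (FC N) c) * (xC N)⁻¹ =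
          1 - algebraMap ℂ (FC N) c * (xC N)⁻¹ := by
        field_simp [xC_ne_zero N]
      rw [this]
      exact sub_mem (one_mem _) (mul_mem (w.algebraMap_mem' c) hxinv)
    have h2 := (PlaceExtend.mem_iff_ord_nonneg w (mul_ne_zero hne (inv_ne_zero (xC_ne_zero N)))).1 hmem
    rw [w.ord_mul hne (inv_ne_zero (xC_ne_zero N)), w.ord_inv] at h2
    rw [max_eq_left (by omega)]
    omega

/-- At a place where `j` is regular, `j - c` vanishes for some constant `c`. -/
theorem exists_ord_sub_pos (w : Place ℂ (FC N)) (h : 0 ≤ w.ord (xC N)) :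
    ∃ c : ℂ, 0 < w.ord (xC N - algebraMap ℂ (FC N) c) := by
  have hx : xC N ∈ w.toValuationSubring := (PlaceExtend.mem_iff_ord_nonneg w (xC_ne_zero N)).2 h
  obtain ⟨c, hc⟩ := residueTrivial_FC N w ⟨xC N, hx⟩
  refine ⟨c, ord_pos_of_mem_nonunits w (CountsFC.xC_sub_ne_zero N c) ?_⟩
  have h1 : ((⟨xC N, hx⟩ - algebraMap ℂ w.toValuationSubring c : w.toValuationSubring) : FC N) =
      xC N - algebraMap ℂ (FC N) c := rfl
  rw [← h1, ValuationSubring.mem_nonunits_iff_exists_mem_maximalIdeal]
  exact ⟨(⟨xC N, hx⟩ - algebraMap ℂ w.toValuationSubring c : w.toValuationSubring).2, hc⟩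

/-! ### `L(D + k C) ≠ 0` for some `k` -/

theorem ord_prod_pow {K F : Type*} [Field K] [Field F] [Algebra K F] (w : Place K F) {ι : Type*}
    (S : Finset ι) (g : ι → F) (hg : ∀ i ∈ S, g i ≠ 0) (n : ι → ℕ) :
    w.ord (∏ i ∈ S, g i ^ n i) = ∑ i ∈ S, (n i : ℤ) * w.ord (g i) := by
  classical
  induction S using Finset.induction_on with
  | empty => simp
  | insert a S ha ih =>
      have hga : g a ≠ 0 := hg a (Finset.mem_insert_self a S)
      have hgS : ∀ i ∈ S, g i ≠ 0 := fun i hi => hg i (Finset.mem_insert_of_mem hi)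
      have hprod : ∏ i ∈ S, g i ^ n i ≠ 0 :=
        Finset.prod_ne_zero_iff.mpr fun i hi => pow_ne_zero _ (hgS i hi)
      rw [Finset.prod_insert ha, Finset.sum_insert ha, w.ord_mul (pow_ne_zero _ hga) hprod,
        ih hgS, ← zpow_natCast, w.ord_zpow]

open Classical in
/-- **The hypothesis `hC` of `Tors/Canonical.lean`** for `C = poleC N`. -/
theorem exists_ne_bot (D : Divisor ℂ (FC N)) :
    ∃ k : ℕ, riemannRochSpace (D + k • poleC N) ≠ ⊥ := by
  set x : FC N := xC N with hx
  -- the finite places where `D` is negative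
  set S : Finset (Place ℂ (FC N)) := D.support.filter (fun v => D v < 0 ∧ 0 ≤ v.ord x) with hS
  -- constants with `ord_v (x - c v) > 0`
  set c : Place ℂ (FC N) → ℂ := fun v =>
    if h : 0 ≤ v.ord x then (exists_ord_sub_pos N v h).choose else 0 with hc
  have hcpos : ∀ v : Place ℂ (FC N), 0 ≤ v.ord x → 0 < v.ord (x - algebraMap ℂ (FC N) (c v)) := by
    intro v hv
    simp only [hc, dif_pos hv]
    exact (exists_ord_sub_pos N v hv).choose_spec
  set n : Place ℂ (FC N) → ℕ := fun v => (-D v).toNat with hn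
  set g : Place ℂ (FC N) → FC N := fun v => x - algebraMap ℂ (FC N) (c v) with hgdef
  have hg0 : ∀ v, g v ≠ 0 := fun v => CountsFC.xC_sub_ne_zero N (c v)
  set f : FC N := ∏ v ∈ S, g v ^ n v with hf
  have hf0 : f ≠ 0 := Finset.prod_ne_zero_iff.mpr fun v _ => pow_ne_zero _ (hg0 v)
  set M : ℕ := ∑ v ∈ S, n v with hM
  set K : ℕ := ∑ w ∈ D.support, (D w).natAbs with hK
  have hord : ∀ w : Place ℂ (FC N), w.ord f = ∑ v ∈ S, (n v : ℤ) * w.ord (g v) := fun w =>
    ord_prod_pow w S g (fun v _ => hg0 v) n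
  have hlow : ∀ w v : Place ℂ (FC N), -poleC N w ≤ w.ord (g v) := fun w v =>
    neg_poleC_le_ord_sub N w (c v)
  have hK : ∀ w : Place ℂ (FC N), -D w ≤ (K : ℤ) := by
    intro w
    by_cases hw : w ∈ D.support
    · have h1 : (D w).natAbs ≤ K := Finset.single_le_sum (f := fun w => (D w).natAbs)
        (fun _ _ => Nat.zero_le _) hw
      have h2 : -D w ≤ ((D w).natAbs : ℤ) := by omega
      exact h2.trans (by exact_mod_cast h1)
    · rw [Finsupp.notMem_support_iff.mp hw]; simp
  refine ⟨M + K, ?_⟩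
  rw [Submodule.ne_bot_iff]
  refine ⟨f, ?_, hf0⟩
  rw [mem_riemannRochSpace_iff]
  intro w
  right
  rw [Finsupp.add_apply, Finsupp.smul_apply, nsmul_eq_mul, hord w]
  have hCw := poleC_nonneg N w
  rcases hCw.eq_or_lt with hC0 | hCpos
  · -- `w` is not a pole of `j`
    rw [← hC0, mul_zero, add_zero]
    have hx0 : 0 ≤ w.ord x := by
      show 0 ≤ w.ord (xC N)
      have := poleC_apply N w
      rw [← hC0] at this
      have h2 : -w.ord (xC N) ≤ max (-w.ord (xC N)) 0 := le_max_left _ _
      rw [← this] at h2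
      omega
    have hterm : ∀ v ∈ S, 0 ≤ (n v : ℤ) * w.ord (g v) := fun v _ =>
      mul_nonneg (Int.natCast_nonneg _) (by have := hlow w v; rw [← hC0] at this; omega)
    rcases le_or_gt 0 (D w) with hD | hD
    · exact (by omega : -D w ≤ 0).trans (Finset.sum_nonneg hterm)
    · have hwS : w ∈ S := by
        rw [hS, Finset.mem_filter, Finsupp.mem_support_iff]
        exact ⟨by omega, hD, hx0⟩
      have h1 : (n w : ℤ) * w.ord (g w) ≤ ∑ v ∈ S, (n v : ℤ) * w.ord (g v) :=
        Finset.single_le_sum (f := fun v => (n v : ℤ) * w.ord (g v)) hterm hwS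
      have h2 : (n w : ℤ) = -D w := by
        simp only [hn]; rw [Int.toNat_of_nonneg (by omega)]
      have h3 : 0 < w.ord (g w) := hcpos w hx0
      have h4 : -D w ≤ (n w : ℤ) * w.ord (g w) := by
        rw [h2]; nlinarith
      exact h4.trans h1
  · -- `w` is a pole of `j`
    have h1 : ∑ v ∈ S, (n v : ℤ) * (-poleC N w) ≤ ∑ v ∈ S, (n v : ℤ) * w.ord (g v) :=
      Finset.sum_le_sum fun v _ => mul_le_mul_of_nonneg_left (hlow w v) (Int.natCast_nonneg _)
    rw [← Finset.sum_mul] at h1
    have h2 : ((∑ v ∈ S, (n v : ℤ)) : ℤ) = (M : ℤ) := by rw [hM]; push_cast; rfl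
    rw [h2] at h1
    have h3 := hK w
    push_cast
    nlinarith

end Fermat.Agent.N4F.Tors.PoleDivisor
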