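/-
N4-FULL, block F, node F5d: DESCENT OF TORSION.  Every `n`-torsion class of `Pic⁰(ℂ · F_N)` is the
base change of an `n`-torsion class of `J_0(N)(Q̄) = Pic⁰(Q̄ · F_N)`.

Method (no Riemann–Roch, no specialisation): the canonical effective divisor `canonPic x` of
`Tors/Canonical.lean` (for `P := extC v₀`, `C := poleC N`) is equivariant under the group `G` of
coefficientwise automorphisms `σ ∈ Aut(ℂ / ι Q̄)`; the `n`-torsion is finite, so `x` and hence every
point of the support of `canonPic x` has a finite `G`-orbit; a place of `ℂ · F_N` with a finite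
`G`-orbit has its `j`-value in `ι(Q̄) ∪ {∞}` (`AutOrbit.infinite_orbit`), hence is the extension
of a place of `Q̄ · F_N`.
-/
import Mathlib
import Fermat.Agent.N4F.Tors.PoleDivisor
import Fermat.Agent.N4F.Tors.Canonical
import Fermat.Agent.N4F.Tors.CoeffDescent

set_option autoImplicit false
set_option linter.unusedSectionVars false
set_option linter.style.haveILetI false

namespace Fermat.Agent.N4F.Tors.Descent

open AlgebraicCurve IsLocalRing ModularCurve IntermediateField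
open Fermat.Agent.S24 Fermat.Agent.S24.FieldIso Fermat.Agent.S24.PlaceExtend
open Fermat.Agent.N4F.Tors.BaseChange Fermat.Agent.N4F.A.LevelMaps
open Fermat.Agent.N4F.Tors.PoleDivisor Fermat.Agent.N4F.Tors

local notation "Qb" => AlgebraicClosure ℚ

variable (N : ℕ) [NeZero N]

/-- The automorphisms of `ℂ` over `ι(Q̄)`. -/
def autQ : Subgroup (ℂ ≃ₐ[ℚ] ℂ) where
  carrier := {σ | FixesQbar σ}
  mul_mem' h h' := h.mul h'
  one_mem' := fixesQbar_one
  inv_mem' h := h.inv

/-- The group of coefficientwise automorphisms of `ℂ · F_N` over `ι(Q̄)`. -/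
noncomputable def G : Subgroup (SemilinearAut ℂ (FC N)) :=
  autQ.map (arithmeticGalois (modularFunctionFieldFull N))

theorem mem_G_iff (g : SemilinearAut ℂ (FC N)) :
    g ∈ G N ↔ ∃ σ : ℂ ≃ₐ[ℚ] ℂ, FixesQbar σ ∧ gal N σ = g := Iff.rfl

/-! ### Places with a finite orbit -/

theorem gal_smul_xC {σ : ℂ ≃ₐ[ℚ] ℂ} (hσ : FixesQbar σ) : gal N σ • xC N = xC N := by
  rw [← barToC_xj, gal_smul_barToC N hσ]

theorem gal_smul_xC_sub {σ : ℂ ≃ₐ[ℚ] ℂ} (hσ : FixesQbar σ) (c : ℂ) :
    gal N σ • (xC N - algebraMap ℂ (FC N) c) = xC N - algebraMap ℂ (FC N) (σ c) := by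
  rw [smul_sub, gal_smul_xC N hσ, SemilinearAut.smul_algebraMap]
  rfl

/-- The values `y` with `j - y` vanishing at a given place form a subsingleton. -/
theorem subsingleton_values (Q : Place ℂ (FC N)) :
    {y : ℂ | 0 < Q.ord (xC N - algebraMap ℂ (FC N) y)}.Subsingleton := by
  intro y₁ h₁ y₂ h₂
  by_contra hne
  have h1 := mem_nonunits_of_ord_pos Q (CountsFC.xC_sub_ne_zero N y₁) h₁
  have h2 := mem_nonunits_of_ord_pos Q (CountsFC.xC_sub_ne_zero N y₂) h₂
  rw [ValuationSubring.mem_nonunits_iff_exists_mem_maximalIdeal] at h1 h2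
  obtain ⟨m1, hm1⟩ := h1
  obtain ⟨m2, hm2⟩ := h2
  have hsub := Ideal.sub_mem _ hm2 hm1
  have hc : algebraMap ℂ (FC N) (y₁ - y₂) ≠ 0 := by
    rw [ne_eq, map_eq_zero, sub_eq_zero]; exact hne
  have hval : (⟨xC N - algebraMap ℂ (FC N) y₂, m2⟩ - ⟨xC N - algebraMap ℂ (FC N) y₁, m1⟩ :
      Q.toValuationSubring) = ⟨algebraMap ℂ (FC N) (y₁ - y₂), Q.algebraMap_mem' _⟩ := by
    apply Subtype.ext
    show (xC N - algebraMap ℂ (FC N) y₂) - (xC N - algebraMap ℂ (FC N) y₁) =
      algebraMap ℂ (FC N) (y₁ - y₂)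
    rw [map_sub]; ring
  rw [hval] at hsub
  have hpos : 0 < Q.ord (algebraMap ℂ (FC N) (y₁ - y₂)) :=
    ord_pos_of_mem_nonunits Q hc (by
      rw [ValuationSubring.mem_nonunits_iff_exists_mem_maximalIdeal]; exact ⟨_, hsub⟩)
  rw [Fermat.Agent.S24.ord_eq_zero_of_isAlgebraic Q (isAlgebraic_algebraMap _)] at hpos
  exact lt_irrefl _ hpos

/-- **A place of `ℂ · F_N` with a finite orbit under `Aut(ℂ / ι Q̄)` is the extension of a place of
`Q̄ · F_N`.** -/
theorem exists_eq_extC_of_finite_orbit (P : Place ℂ (FC N))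
    (hfin : (Set.range fun σ : G N => (σ : SemilinearAut ℂ (FC N)) • P).Finite) :
    ∃ v, P = extC N v := by
  by_cases h0 : P.ord (xC N) = 0
  swap
  · rw [← barToC_xj] at h0
    exact exists_eq_extC_of_ord_ne_zero N P h0
  obtain ⟨c, hc⟩ := exists_ord_sub_pos N P h0.ge
  by_cases hcι : c ∈ (ι : Qb →+* ℂ).range
  · obtain ⟨a, rfl⟩ := hcι
    have hb : barToC N ι (xj N - algebraMap Qb _ a) = xC N - algebraMap ℂ (FC N) (ι a) := by
      rw [map_sub, barToC_xj, barToC_algebraMap]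
    rw [← hb] at hc
    exact exists_eq_extC_of_ord_ne_zero N P hc.ne'
  · exfalso
    have hinf := AutOrbit.infinite_orbit (ι : Qb →+* ℂ) c hcι
    refine hinf (Set.Finite.subset (Set.Finite.biUnion hfin
      (fun Q _ => (subsingleton_values N Q).finite)) ?_)
    rintro y ⟨σ, hσ, rfl⟩
    have hσ' : FixesQbar (toAlgEquivQ σ) := fun a => hσ a
    have hmem : gal N (toAlgEquivQ σ) ∈ G N := ⟨toAlgEquivQ σ, hσ', rfl⟩
    simp only [Set.mem_iUnion, Set.mem_ofPred_eq, exists_prop]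
    refine ⟨gal N (toAlgEquivQ σ) • P, ⟨⟨_, hmem⟩, rfl⟩, ?_⟩
    have h1 := SemilinearAut.ord_smul (gal N (toAlgEquivQ σ)) P (xC N - algebraMap ℂ (FC N) c)
    rw [gal_smul_xC_sub N hσ'] at h1
    rw [toAlgEquivQ_apply] at h1
    rw [h1]
    exact hc

/-! ### Descent of classes with a finite orbit -/

theorem degree_poleBar : Divisor.degree (poleBar N) =
    (Module.finrank Qb⟮xj N⟯ (modularFunctionFieldBar N) : ℤ) :=
  (exists_poleDivisor' (transcendental_xj N)).choose_spec.2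

/-- `Q̄ · F_N` has a place. -/
theorem exists_place_bar : Nonempty (Place Qb (modularFunctionFieldBar N)) := by
  by_contra hne
  rw [not_nonempty_iff] at hne
  have h0 : poleBar N = 0 := Finsupp.ext fun v => (hne.false v).elim
  have hdeg := degree_poleBar N
  rw [h0, map_zero] at hdeg
  have hpos : 0 < Module.finrank Qb⟮xj N⟯ (modularFunctionFieldBar N) := Module.finrank_pos
  omega

/-- **Descent**: a class of `Pic⁰(ℂ · F_N)` with a finite orbit under `Aut(ℂ / ι Q̄)` is the base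
change of a class of `J_0(N)(Q̄)`. -/
theorem exists_bcPicC_eq_of_finite_orbit (x : Pic0 ℂ (FC N))
    (hx : (Set.range fun σ : G N => (σ : SemilinearAut ℂ (FC N)) • x).Finite) :
    ∃ x₀ : JZero N, bcPicC N x₀ = x := by
  classical
  obtain ⟨v₀⟩ := exists_place_bar N
  set P : Place ℂ (FC N) := extC N v₀ with hPdef
  have hP : Function.Bijective (algebraMap ℂ P.ResidueField) := by
    haveI : P.FiniteResidue := ⟨finite_residueField_FC N P⟩
    exact Hurwitz.algebraMap_residue_bijective P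
  have hGP : ∀ σ ∈ G N, σ • P = P := by
    rintro _ ⟨σ, hσ, rfl⟩
    exact gal_smul_extC N hσ v₀
  have hGC : ∀ σ ∈ G N, σ • poleC N = poleC N := by
    rintro _ ⟨σ, hσ, rfl⟩
    exact gal_smul_poleC N hσ
  set E : Divisor ℂ (FC N) := Canonical.canonPic P hP (poleC N) (exists_ne_bot N) x with hE
  set k : ℕ := Canonical.kMinPic (poleC N) (exists_ne_bot N) x with hk
  have hsupp : ∀ v ∈ E.support, v ∈ Set.range (extC N) := by
    intro v hv
    obtain ⟨v₁, rfl⟩ := exists_eq_extC_of_finite_orbit N v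
      (Canonical.finite_orbit_of_mem_support P hP (poleC N) (exists_ne_bot N) (G N) hGP hGC x hx hv)
    exact ⟨v₁, rfl⟩
  set E₀ : Divisor Qb (modularFunctionFieldBar N) :=
    Finsupp.comapDomain (extC N) E (extC_injective N).injOn with hE₀
  have hEE : bcDivC N E₀ = E :=
    Finsupp.mapDomain_comapDomain (extC N) (extC_injective N) E
      (fun v hv => hsupp v (Finset.mem_coe.mp hv))
  have hdiv : bcDivC N (E₀ - k • poleBar N) = E - k • poleC N := by
    rw [map_sub, map_nsmul, hEE]; rfl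
  have hdeg0 : Divisor.degree (E₀ - k • poleBar N) = 0 := by
    rw [← degree_bcDivC, hdiv]
    exact Canonical.degree_canonPic_sub P hP (poleC N) (exists_ne_bot N) x
  refine ⟨Pic0.mk ⟨E₀ - k • poleBar N, Divisor.mem_degZero.mpr hdeg0⟩, ?_⟩
  obtain ⟨h, hmk⟩ := bcPicC_mk N ⟨E₀ - k • poleBar N, Divisor.mem_degZero.mpr hdeg0⟩
  rw [hmk]
  rw [← Canonical.mk_canonPic_sub P hP (poleC N) (exists_ne_bot N) x]
  exact congrArg Pic0.mk (Subtype.ext hdiv)

/-- The orbit of a torsion class is finite as soon as the torsion subgroup is. -/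
theorem finite_orbit_of_mem_torsion {n : ℕ} (hfin : Finite (Pic0.torsion ℂ (FC N) n))
    {x : Pic0 ℂ (FC N)} (hx : x ∈ Pic0.torsion ℂ (FC N) n) :
    (Set.range fun σ : G N => (σ : SemilinearAut ℂ (FC N)) • x).Finite := by
  have hset : (Pic0.torsion ℂ (FC N) n : Set (Pic0 ℂ (FC N))).Finite := Set.toFinite _
  refine hset.subset ?_
  rintro _ ⟨σ, rfl⟩
  exact SemilinearAut.smul_mem_torsion _ hx

/-- **Surjectivity of base change on torsion** (given injectivity of `bcPicC`, i.e. `CoeffDescent`,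
and finiteness of the complex torsion): every `n`-torsion class of `Pic⁰(ℂ · F_N)` is the base change
of an `n`-torsion class of `J_0(N)(Q̄)`. -/
theorem exists_torsion_bcPicC_eq (hdesc : CoeffDescent N) {n : ℕ}
    (hfin : Finite (Pic0.torsion ℂ (FC N) n)) {x : Pic0 ℂ (FC N)}
    (hx : x ∈ Pic0.torsion ℂ (FC N) n) :
    ∃ x₀ ∈ Pic0.torsion Qb (modularFunctionFieldBar N) n, bcPicC N x₀ = x := by
  obtain ⟨x₀, hx₀⟩ := exists_bcPicC_eq_of_finite_orbit N x (finite_orbit_of_mem_torsion N hfin hx)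
  refine ⟨x₀, ?_, hx₀⟩
  rw [Pic0.mem_torsion] at hx ⊢
  apply bcPicC_injective N hdesc
  rw [map_zsmul, hx₀, hx, map_zero]

/-- Base change maps torsion to torsion. -/
theorem bcPicC_mem_torsion {n : ℕ} {x₀ : JZero N}
    (hx₀ : x₀ ∈ Pic0.torsion Qb (modularFunctionFieldBar N) n) :
    bcPicC N x₀ ∈ Pic0.torsion ℂ (FC N) n := by
  rw [Pic0.mem_torsion] at hx₀ ⊢
  rw [← map_zsmul, hx₀, map_zero]

/-- Base change on `n`-torsion. -/
noncomputable def bcTors (n : ℕ) :
    Pic0.torsion Qb (modularFunctionFieldBar N) n →+ Pic0.torsion ℂ (FC N) n where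
  toFun x := ⟨bcPicC N x, bcPicC_mem_torsion N x.2⟩
  map_zero' := Subtype.ext (map_zero _)
  map_add' x y := Subtype.ext (map_add _ _ _)

@[simp]
theorem coe_bcTors (n : ℕ) (x : Pic0.torsion Qb (modularFunctionFieldBar N) n) :
    ((bcTors N n x : Pic0.torsion ℂ (FC N) n) : Pic0 ℂ (FC N)) = bcPicC N (x : JZero N) := rfl

theorem bcTors_injective (hdesc : CoeffDescent N) (n : ℕ) : Function.Injective (bcTors N n) :=
  fun _ _ h => Subtype.ext (bcPicC_injective N hdesc (congrArg Subtype.val h))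

theorem bcTors_surjective (hdesc : CoeffDescent N) {n : ℕ}
    (hfin : Finite (Pic0.torsion ℂ (FC N) n)) : Function.Surjective (bcTors N n) := by
  rintro ⟨x, hx⟩
  obtain ⟨x₀, hx₀, h⟩ := exists_torsion_bcPicC_eq N hdesc hfin hx
  exact ⟨⟨x₀, hx₀⟩, Subtype.ext h⟩

/-- **OUT1 from the complex side**: `J_0(N)(Q̄)[n]` is finite as soon as `Pic⁰(ℂ · F_N)[n]` is. -/
theorem finite_torsion_bar (hdesc : CoeffDescent N) {n : ℕ}
    (hfin : Finite (Pic0.torsion ℂ (FC N) n)) :
    Finite (Pic0.torsion Qb (modularFunctionFieldBar N) n) :=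
  Finite.of_injective _ (bcTors_injective N hdesc n)

/-- Base change on `n`-torsion as an additive equivalence. -/
noncomputable def bcTorsEquiv (hdesc : CoeffDescent N) {n : ℕ}
    (hfin : Finite (Pic0.torsion ℂ (FC N) n)) :
    Pic0.torsion Qb (modularFunctionFieldBar N) n ≃+ Pic0.torsion ℂ (FC N) n :=
  AddEquiv.ofBijective (bcTors N n) ⟨bcTors_injective N hdesc n, bcTors_surjective N hdesc hfin⟩

@[simp]
theorem coe_bcTorsEquiv (hdesc : CoeffDescent N) {n : ℕ}
    (hfin : Finite (Pic0.torsion ℂ (FC N) n)) (x : Pic0.torsion Qb (modularFunctionFieldBar N) n) :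
    ((bcTorsEquiv N hdesc hfin x : Pic0.torsion ℂ (FC N) n) : Pic0 ℂ (FC N)) =
      bcPicC N (x : JZero N) := rfl

/-! ### Unconditional forms (with `CoeffDescent.coeffDescent`) -/

/-- **Base change `J_0(N)(Q̄) → Pic⁰(ℂ · F_N)` is injective.** -/
theorem bcPicC_injective' : Function.Injective (bcPicC N) :=
  bcPicC_injective N (CoeffDescent.coeffDescent N)

/-- **F5 main theorem**: if `Pic⁰(ℂ · F_N)[n]` is finite, base change is an isomorphism
`J_0(N)(Q̄)[n] ≃ Pic⁰(ℂ · F_N)[n]`. -/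
noncomputable def torsEquiv {n : ℕ} (hfin : Finite (Pic0.torsion ℂ (FC N) n)) :
    Pic0.torsion Qb (modularFunctionFieldBar N) n ≃+ Pic0.torsion ℂ (FC N) n :=
  bcTorsEquiv N (CoeffDescent.coeffDescent N) hfin

@[simp]
theorem coe_torsEquiv {n : ℕ} (hfin : Finite (Pic0.torsion ℂ (FC N) n))
    (x : Pic0.torsion Qb (modularFunctionFieldBar N) n) :
    ((torsEquiv N hfin x : Pic0.torsion ℂ (FC N) n) : Pic0 ℂ (FC N)) = bcPicC N (x : JZero N) := rfl

/-- **OUT1**: `J_0(N)(Q̄)[n]` is finite as soon as `Pic⁰(ℂ · F_N)[n]` is. -/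
theorem finite_torsion_bar' {n : ℕ} (hfin : Finite (Pic0.torsion ℂ (FC N) n)) :
    Finite (Pic0.torsion Qb (modularFunctionFieldBar N) n) :=
  finite_torsion_bar N (CoeffDescent.coeffDescent N) hfin

end Fermat.Agent.N4F.Tors.Descent
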