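/-
N4-FULL, block F, row F7: THE FINAL ASSEMBLY of the Kummer package of `J_0(N)(Q̄)`.

* `ComplexKummer N` : what the complex side (F1e `kummerC`, F2b, F3c, K4) delivers, as a `Prop`.
* `KummerPackageAll N` : the Kummer maps `κ n : J_0(N)(Q̄)[n] →+ Hom(Γ_0(N), ℤ/n)`, for ALL `n`:
  (K1) injective, (K2) onto the parabolic-elliptic homomorphisms, (K3) Hecke-equivariant,
  (K4) compatible in `n`.
* `kummerPackageAll : ComplexKummer N → KummerPackageAll N` (base change + descent, `Tors/Descent`)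
  and `kummerPackage : KummerPackageAll N → Outputs.KummerPackage N`.
* generic: division of a principal divisor all of whose orders are divisible by `n`
  (`exists_degZero_nsmul_eq`, `mk_mem_torsion_of_nsmul_eq`).
-/
import Mathlib
import Fermat.Agent.N4F.Tors.Descent
import Fermat.Agent.N4F.Tors.Outputs

set_option autoImplicit false
set_option linter.unusedSectionVars false
set_option linter.style.haveILetI false

open CongruenceSubgroup ModularCurve AlgebraicCurve
open scoped MatrixGroups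

noncomputable section

namespace Fermat.Agent.N4F.Tors.KummerBar

open Fermat.Agent.N4F.Res Fermat.Agent.N4F.Tors.HeckeHom Fermat.Agent.N4F.Tors.Outputs
open Fermat.Agent.N4F.Tors.Descent Fermat.Agent.N4F.Tors.BaseChange
open Fermat.Agent.S24 Fermat.Agent.S24.FieldIso

local notation "Qb" => AlgebraicClosure ℚ

/-! ### Dividing a principal divisor by `n` -/

section Divide

variable {K F : Type*} [Field K] [Field F] [Algebra K F] [HasPrincipalDivisors K F]

/-- If all orders of `u ≠ 0` are divisible by `n > 0`, then `div u = n • D` for a divisor `D` of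
degree zero. -/
theorem exists_degZero_nsmul_eq {n : ℕ} (hn : 0 < n) (u : F)
    (hdiv : ∀ P : Place K F, (n : ℤ) ∣ P.ord u) :
    ∃ D : Divisor.degZero (K := K) (F := F),
      n • (D : Divisor K F) = Canonical.divOf (K := K) u := by
  have hn0 : (n : ℤ) ≠ 0 := by exact_mod_cast hn.ne'
  set D : Divisor K F := Finsupp.mapRange (fun k : ℤ => k / (n : ℤ)) (by simp)
    (Canonical.divOf (K := K) u) with hD
  have hnD : n • D = Canonical.divOf (K := K) u := by
    ext P
    rw [Finsupp.smul_apply, hD, Finsupp.mapRange_apply, Canonical.divOf_apply', nsmul_eq_mul]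
    exact Int.mul_ediv_cancel' (hdiv P)
  have hdeg : Divisor.degree D = 0 := by
    have h := Canonical.degree_divOf (K := K) u
    rw [← hnD, map_nsmul, nsmul_eq_mul] at h
    rcases mul_eq_zero.mp h with h | h
    · exact absurd h hn0
    · exact h
  exact ⟨⟨D, Divisor.mem_degZero.mpr hdeg⟩, hnD⟩

/-- A degree-zero divisor `D` with `n • D` principal defines an `n`-torsion class. -/
theorem mk_mem_torsion_of_nsmul_mem {n : ℕ} (D : Divisor.degZero (K := K) (F := F))
    (h : n • (D : Divisor K F) ∈ Divisor.principal (K := K) (F := F)) :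
    Pic0.mk D ∈ Pic0.torsion K F n := by
  rw [Pic0.mem_torsion, natCast_zsmul]
  have h1 : n • Pic0.mk D = Pic0.mk (n • D) := (map_nsmul (QuotientAddGroup.mk' _) n D).symm
  rw [h1]
  refine (QuotientAddGroup.eq_zero_iff _).mpr ?_
  rw [AddSubgroup.mem_addSubgroupOf]
  simpa using h

theorem mk_mem_torsion_of_nsmul_eq {n : ℕ} (D : Divisor.degZero (K := K) (F := F)) {u : F}
    (hu : u ≠ 0) (h : n • (D : Divisor K F) = Canonical.divOf (K := K) u) :
    Pic0.mk D ∈ Pic0.torsion K F n :=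
  mk_mem_torsion_of_nsmul_mem D (h ▸ Canonical.divOf_mem_principal hu)

end Divide

/-! ### The packages -/

variable (N : ℕ) [NeZero N]

/-- **(K1)–(K4)** the full Kummer package of `J_0(N)(Q̄)`, for all `n`. -/
def KummerPackageAll : Prop :=
  ∃ κ : ∀ n : ℕ, Jtors N n →+ (Additive ↥(Gamma0 N) →+ ZMod n),
    (∀ n : ℕ, 0 < n → Function.Injective (κ n)) ∧
    (∀ n : ℕ, 0 < n → ∀ ψ : Additive ↥(Gamma0 N) →+ ZMod n, ψ ∈ parHomAdd N (ZMod n) →
      ∃ x, κ n x = ψ) ∧
    (∀ n : ℕ, 0 < n → ∀ (ℓ : Nat.Primes) (hℓN : ¬ (ℓ : ℕ) ∣ N) (x : Jtors N n),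
      κ n (heckeTorsAdd N n ℓ x) = heckeAddP N ℓ hℓN (κ n x)) ∧
    (∀ (n n' : ℕ) (h : n ∣ n'), 0 < n' → ∀ (x : Jtors N n')
      (hx : (n' / n) • (x : JZero N) ∈ Jtors N n),
      κ n ⟨(n' / n) • (x : JZero N), hx⟩ =
        (ZMod.castHom h (ZMod n)).toAddMonoidHom.comp (κ n' x))

/-- What the complex side delivers: Kummer maps on `Pic⁰(ℂ · F_N)[n]` with
(C1) injectivity [F1e], (C2) surjectivity onto the parabolic-elliptic homomorphisms [F2b],
(C3) Hecke equivariance on the image of base change [F3c], (C4) compatibility in `n` [K4]. -/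
def ComplexKummer : Prop :=
  ∃ κ : ∀ n : ℕ, Pic0.torsion ℂ (FC N) n →+ (Additive ↥(Gamma0 N) →+ ZMod n),
    (∀ n : ℕ, 0 < n → Function.Injective (κ n)) ∧
    (∀ n : ℕ, 0 < n → ∀ ψ : Additive ↥(Gamma0 N) →+ ZMod n, ψ ∈ parHomAdd N (ZMod n) →
      ∃ x, κ n x = ψ) ∧
    (∀ n : ℕ, 0 < n → ∀ (ℓ : Nat.Primes) (hℓN : ¬ (ℓ : ℕ) ∣ N) (x : Jtors N n),
      κ n (bcTors N n (heckeTorsAdd N n ℓ x)) = heckeAddP N ℓ hℓN (κ n (bcTors N n x))) ∧
    (∀ (n n' : ℕ) (h : n ∣ n'), 0 < n' → ∀ (x : Pic0.torsion ℂ (FC N) n')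
      (hx : (n' / n) • (x : Pic0 ℂ (FC N)) ∈ Pic0.torsion ℂ (FC N) n),
      κ n ⟨(n' / n) • (x : Pic0 ℂ (FC N)), hx⟩ =
        (ZMod.castHom h (ZMod n)).toAddMonoidHom.comp (κ n' x))

variable {N}

/-- The complex torsion is finite (from (C1) and finite generation of `Γ_0(N)`). -/
theorem ComplexKummer.finite (h : ComplexKummer N) {n : ℕ} (hn : 0 < n) :
    Finite (Pic0.torsion ℂ (FC N) n) := by
  obtain ⟨κ, hinj, -⟩ := h
  have := finite_hom_zmod N n hn
  exact Finite.of_injective (κ n) (hinj n hn)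

/-- **The final assembly of block F.** -/
theorem kummerPackageAll (h : ComplexKummer N) : KummerPackageAll N := by
  have hfin : ∀ n : ℕ, 0 < n → Finite (Pic0.torsion ℂ (FC N) n) := fun n hn => h.finite hn
  obtain ⟨κ, hinj, hsurj, hhecke, hcompat⟩ := h
  have hdesc := CoeffDescent.coeffDescent N
  refine ⟨fun n => (κ n).comp (bcTors N n), ?_, ?_, ?_, ?_⟩
  · intro n hn
    exact (hinj n hn).comp (bcTors_injective N hdesc n)
  · intro n hn ψ hψ
    obtain ⟨y, hy⟩ := hsurj n hn ψ hψ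
    obtain ⟨x, rfl⟩ := bcTors_surjective N hdesc (hfin n hn) y
    exact ⟨x, hy⟩
  · intro n hn ℓ hℓN x
    exact hhecke n hn ℓ hℓN x
  · intro n n' hdvd hn' x hx
    have hx' : (n' / n) • ((bcTors N n' x : Pic0.torsion ℂ (FC N) n') : Pic0 ℂ (FC N)) ∈
        Pic0.torsion ℂ (FC N) n := by
      rw [coe_bcTors, ← map_nsmul]
      exact bcPicC_mem_torsion N hx
    have h1 : bcTors N n ⟨(n' / n) • (x : JZero N), hx⟩ =
        ⟨(n' / n) • ((bcTors N n' x : Pic0.torsion ℂ (FC N) n') : Pic0 ℂ (FC N)), hx'⟩ := by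
      apply Subtype.ext
      rw [coe_bcTors]
      show bcPicC N ((n' / n) • (x : JZero N)) = (n' / n) • bcPicC N (x : JZero N)
      rw [map_nsmul]
    show κ n (bcTors N n ⟨(n' / n) • (x : JZero N), hx⟩) = _
    rw [h1, hcompat n n' hdvd hn' (bcTors N n' x) hx']
    rfl

/-- The package consumed by `Tors/Outputs` (S29 / S42). -/
theorem kummerPackage (h : KummerPackageAll N) : KummerPackage N := by
  obtain ⟨κ, hinj, hsurj, hhecke, -⟩ := h
  exact ⟨κ, hinj, fun p hp ψ hψ => hsurj p hp.pos ψ hψ,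
    fun p hp ℓ hℓN x => hhecke p hp.pos ℓ hℓN x⟩

/-- **OUT1** from the complex Kummer package. -/
theorem torsionFinite_of_complexKummer (h : ComplexKummer N) : TorsionFinite N :=
  torsionFinite N (kummerPackage (kummerPackageAll h))

end Fermat.Agent.N4F.Tors.KummerBar
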