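/-
N4-FULL block F, node F2b, FINAL SHAPE (helper23): the `kummerC`-free statement of surjectivity
requested by the block lead (board #1082 (2)):

  `exists_nDiv_eq N n ψ hψ : ∃ (u : FC N) (hu : u ≠ 0) (hdiv : ∀ P : Place ℂ (FC N), (n : ℤ) ∣ P.ord u)
      (hN : NDiv (Gamma0 N) n ((fieldEquiv N).symm u)), kummerChar hN = ψ`

for every `n ≠ 0` and every `ψ ∈ parHomAdd N (ZMod n)`.  It is `EisClass.exists_nDiv_kummerChar_eq`
transported along `fieldEquiv N : WHField (Gamma0 N) ≃+* FC N`.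
-/
import Fermat.Agent.N4F.Tors.EisClass

set_option autoImplicit false

noncomputable section

open UpperHalfPlane Matrix ModularForm CongruenceSubgroup AlgebraicCurve

open scoped MatrixGroups

namespace Fermat.Agent.N4F.Tors.EisSurj

open Fermat.Agent.M2 Fermat.Agent.S24.FieldIso
  Fermat.Agent.N4F.Tors.Kummer Fermat.Agent.N4F.Tors.HeckeHom

/-- **F2b, final `kummerC`-free shape** (all `n ≠ 0`). -/
theorem exists_nDiv_eq (N : ℕ) [NeZero N] (n : ℕ) [NeZero n]
    (ψ : Additive ↥(Gamma0 N) →+ ZMod n) (hψ : ψ ∈ parHomAdd N (ZMod n)) :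
    ∃ (u : FC N) (_hu : u ≠ 0) (_hdiv : ∀ P : Place ℂ (FC N), (n : ℤ) ∣ P.ord u)
      (hN : NDiv (Gamma0 N) n ((fieldEquiv N).symm u)), kummerChar hN = ψ := by
  obtain ⟨u, hu, hχ, hdiv⟩ := EisClass.exists_nDiv_kummerChar_eq (N := N) (n := n) hψ
  have hsymm : (fieldEquiv N).symm (fieldEquiv N u) = u := (fieldEquiv N).symm_apply_apply u
  have hN : NDiv (Gamma0 N) n ((fieldEquiv N).symm (fieldEquiv N u)) := hsymm.symm ▸ hu
  refine ⟨fieldEquiv N u, ?_, hdiv, hN, ?_⟩
  · intro h0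
    exact hu.1 ((fieldEquiv N).injective (h0.trans (map_zero _).symm))
  · have key : ∀ (w : WHField (Gamma0 N)) (hw : w = u) (hNw : NDiv (Gamma0 N) n w),
        kummerChar hNw = ψ := by
      intro w hw hNw
      subst hw
      exact hχ
    exact key _ hsymm hN

end Fermat.Agent.N4F.Tors.EisSurj
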