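/-
N4-FULL block F, clause (C2) of `KummerBar.ComplexKummer` (helper23): SURJECTIVITY of the complex
Kummer map onto the parabolic-elliptic homomorphisms,

  `exists_kummerC_eq N n ψ hψ : ∃ x : Pic0.torsion ℂ (FC N) n, kummerC N n x = ψ`,
  `exists_kummerCAll_eq N n hn ψ hψ : ∃ x, kummerCAll N n x = ψ`   (clause (C2) verbatim),

for every `n ≠ 0` and `ψ ∈ parHomAdd N (ZMod n)`: `EisSurj.exists_nDiv_eq` gives `u` with all orders
divisible by `n` and Kummer character `ψ`; `D := (1/n) div u` has degree `0`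
(`KummerBar.exists_degZero_nsmul_eq`), and `KummerPic.kummerC_mk` computes `kummerC [D]`.
Also (C1) and the first two clauses of `ComplexKummer` packaged (`complexKummer_C1_C2`).
-/
import Fermat.Agent.N4F.Tors.EisSurj
import Fermat.Agent.N4F.Tors.KummerPic
import Fermat.Agent.N4F.Tors.KummerBar

set_option autoImplicit false

noncomputable section

open UpperHalfPlane Matrix ModularForm CongruenceSubgroup AlgebraicCurve ModularCurve

open scoped MatrixGroups

namespace Fermat.Agent.N4F.Tors.EisPic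

open Fermat.Agent.M2 Fermat.Agent.S24.FieldIso
  Fermat.Agent.N4F.Tors.Kummer Fermat.Agent.N4F.Tors.HeckeHom Fermat.Agent.N4F.Tors.KummerPic

/-- **F2b, Pic form**: the complex Kummer map is onto the parabolic-elliptic homomorphisms. -/
theorem exists_kummerC_eq (N : ℕ) [NeZero N] (n : ℕ) [NeZero n]
    (ψ : Additive ↥(Gamma0 N) →+ ZMod n) (hψ : ψ ∈ parHomAdd N (ZMod n)) :
    ∃ x : Pic0.torsion ℂ (FC N) n, kummerC N n x = ψ := by
  obtain ⟨u, hu, hdiv, hN, hχ⟩ := EisSurj.exists_nDiv_eq N n ψ hψ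
  obtain ⟨D, hD⟩ := KummerBar.exists_degZero_nsmul_eq (K := ℂ) (F := FC N)
    (Nat.pos_of_ne_zero (NeZero.ne n)) u hdiv
  have hDv : ∀ v : Place ℂ (FC N), (n : ℤ) * (D : Divisor ℂ (FC N)) v = v.ord u := by
    intro v
    have := congrArg (fun E : Divisor ℂ (FC N) => E v) hD
    simp only [Finsupp.smul_apply, nsmul_eq_mul] at this
    rw [this, Canonical.divOf_apply']
  have hx : Pic0.mk D ∈ Pic0.torsion ℂ (FC N) n := mk_mem_torsion D u hu hDv
  exact ⟨⟨Pic0.mk D, hx⟩, (kummerC_mk D u hu hDv hx hN).trans hχ⟩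

/-- Clause **(C2)** of `KummerBar.ComplexKummer` for `κ := kummerCAll N`, verbatim. -/
theorem exists_kummerCAll_eq (N : ℕ) [NeZero N] (n : ℕ) (hn : 0 < n)
    (ψ : Additive ↥(Gamma0 N) →+ ZMod n) (hψ : ψ ∈ parHomAdd N (ZMod n)) :
    ∃ x, kummerCAll N n x = ψ := by
  haveI : NeZero n := ⟨hn.ne'⟩
  rw [kummerCAll_eq]
  exact exists_kummerC_eq N n ψ hψ

/-- Clauses **(C1)** and **(C2)** of `KummerBar.ComplexKummer` for `κ := kummerCAll N`. -/
theorem complexKummer_C1_C2 (N : ℕ) [NeZero N] :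
    (∀ n : ℕ, 0 < n → Function.Injective (kummerCAll N n)) ∧
    (∀ n : ℕ, 0 < n → ∀ ψ : Additive ↥(Gamma0 N) →+ ZMod n, ψ ∈ parHomAdd N (ZMod n) →
      ∃ x, kummerCAll N n x = ψ) :=
  ⟨fun n hn => kummerCAll_injective N n hn, fun n hn ψ hψ => exists_kummerCAll_eq N n hn ψ hψ⟩

end Fermat.Agent.N4F.Tors.EisPic
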