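import Mathlib

/-!
# N4-FULL / F3b (generic part): the norm as a product over coset representatives

Setting: a finite group `G` acting on a field `L` with `IsGaloisGroup G K L`, a subgroup
`H ≤ G` with `IsGaloisGroup H B L`, and a tower `K → B → L`.  For every family `s : J → G`
of representatives of the left cosets `G / H` (`∀ g, ∃! j, (s j)⁻¹ * g ∈ H`) and `x : B`:

`algebraMap K L (Algebra.norm K x) = ∏ j, s j • algebraMap B L x`.

Also a relative version for two subgroups `H₂ ≤ H₁` of an ambient group.
Mathlib only.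
-/

set_option autoImplicit false

namespace Fermat.Agent.N4F.Tors.GaloisNorm

open Module

section Generic

variable {G K B L : Type*} [Group G] [Finite G] [Field K] [Field B] [Field L]
  [Algebra K B] [Algebra B L] [Algebra K L] [IsScalarTower K B L]
  [MulSemiringAction G L] [IsGaloisGroup G K L]

/-- The `K`-embedding `B → Ω` attached to `g : G` (`Ω` any extension of `L`). -/
noncomputable def embOf (Ω : Type*) [Field Ω] [Algebra L Ω] [Algebra K Ω] [IsScalarTower K L Ω]
    (g : G) : B →ₐ[K] Ω :=
  haveI : SMulCommClass G K L := IsGaloisGroup.commutes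
  (IsScalarTower.toAlgHom K L Ω).comp
    ((MulSemiringAction.toAlgHom K L g).comp (IsScalarTower.toAlgHom K B L))

omit [Finite G] in
lemma embOf_apply (Ω : Type*) [Field Ω] [Algebra L Ω] [Algebra K Ω] [IsScalarTower K L Ω]
    (g : G) (x : B) :
    embOf (K := K) (B := B) (L := L) Ω g x = algebraMap L Ω (g • algebraMap B L x) := rfl

/-- Coset representatives give a bijection `G ≃ J × H`. -/
noncomputable def equivProdOfReps (H : Subgroup G) {J : Type*} (s : J → G)
    (hs : ∀ g : G, ∃! j, (s j)⁻¹ * g ∈ H) : G ≃ J × H where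
  toFun g := ((hs g).choose, ⟨(s (hs g).choose)⁻¹ * g, (hs g).choose_spec.1⟩)
  invFun p := s p.1 * p.2
  left_inv g := by simp
  right_inv p := by
    obtain ⟨j, h⟩ := p
    have hj : (hs (s j * h)).choose = j := by
      refine ((hs (s j * h)).choose_spec.2 j ?_).symm
      simp
    apply Prod.ext
    · exact hj
    · apply Subtype.ext
      show (s (hs (s j * h)).choose)⁻¹ * (s j * h) = h
      rw [hj]; simp

omit [Finite G] in
lemma reps_injective (H : Subgroup G) {J : Type*} (s : J → G)
    (hs : ∀ g : G, ∃! j, (s j)⁻¹ * g ∈ H) {j j' : J} (h : (s j')⁻¹ * s j ∈ H) : j = j' := by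
  obtain ⟨j₀, -, huniq⟩ := hs (s j)
  rw [huniq j (by simp), huniq j' h]

/-- **Norm = product over coset representatives.** -/
theorem algebraMap_norm_eq_prod_smul (H : Subgroup G) [IsGaloisGroup H B L]
    {J : Type*} [Fintype J] (s : J → G) (hs : ∀ g : G, ∃! j, (s j)⁻¹ * g ∈ H) (x : B) :
    algebraMap K L (Algebra.norm K x) = ∏ j, s j • algebraMap B L x := by
  classical
  haveI : IsGalois K L := IsGaloisGroup.isGalois G K L
  haveI : FiniteDimensional K L := IsGaloisGroup.finiteDimensional G K L
  haveI : FiniteDimensional K B := FiniteDimensional.left K B L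
  haveI : FiniteDimensional B L := FiniteDimensional.right K B L
  haveI : Algebra.IsSeparable K B := Algebra.isSeparable_tower_bot_of_isSeparable K B L
  let Ω := AlgebraicClosure L
  -- the map `J → (B →ₐ[K] Ω)`
  let e : J → (B →ₐ[K] Ω) := fun j => embOf (K := K) (B := B) (L := L) Ω (s j)
  have hinj : Function.Injective e := by
    intro j j' hjj'
    apply reps_injective H s hs
    rw [← IsGaloisGroup.fixingSubgroup_range_algebraMap' G K L H B, mem_fixingSubgroup_iff]
    rintro _ ⟨b, rfl⟩
    have h1 := DFunLike.congr_fun hjj' b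
    simp only [e, embOf_apply] at h1
    have h2 := (algebraMap L Ω).injective h1
    rw [mul_smul, h2, inv_smul_smul]
  have hcard : Fintype.card J = Fintype.card (B →ₐ[K] Ω) := by
    rw [AlgHom.card K B Ω]
    have h1 : Nat.card G = Nat.card J * Nat.card H :=
      (Nat.card_congr (equivProdOfReps H s hs)).trans (Nat.card_prod _ _)
    rw [IsGaloisGroup.card_eq_finrank G K L, IsGaloisGroup.card_eq_finrank H B L,
      ← Module.finrank_mul_finrank K B L, Nat.card_eq_fintype_card] at h1
    exact (Nat.eq_of_mul_eq_mul_right Module.finrank_pos h1).symm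
  have hbij : Function.Bijective e :=
    (Fintype.bijective_iff_injective_and_card e).2 ⟨hinj, hcard⟩
  apply (algebraMap L Ω).injective
  rw [← IsScalarTower.algebraMap_apply K L Ω, Algebra.norm_eq_prod_embeddings K Ω x, map_prod,
    ← (Equiv.ofBijective e hbij).prod_comp]
  rfl

end Generic

section Relative

variable {G K B L : Type*} [Group G] [Field K] [Field B] [Field L]
  [Algebra K B] [Algebra B L] [Algebra K L] [IsScalarTower K B L]
  [MulSemiringAction G L]

/-- **Relative version**: `H₂ ≤ H₁` subgroups of an ambient group `G` acting on `L`, with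
`L^{H₁} = K` and `L^{H₂} = B`; `s : J → G` representatives of `H₁ / H₂`. -/
theorem algebraMap_norm_eq_prod_smul_of_le (H₁ H₂ : Subgroup G) [Finite H₁] (hle : H₂ ≤ H₁)
    [IsGaloisGroup H₁ K L] [IsGaloisGroup H₂ B L]
    {J : Type*} [Fintype J] (s : J → G) (hs₁ : ∀ j, s j ∈ H₁)
    (hs : ∀ g ∈ H₁, ∃! j, (s j)⁻¹ * g ∈ H₂) (x : B) :
    algebraMap K L (Algebra.norm K x) = ∏ j, s j • algebraMap B L x := by
  haveI : IsGaloisGroup (H₂.subgroupOf H₁) B L :=
    IsGaloisGroup.of_mulEquiv (G := H₂) (Subgroup.subgroupOfEquivOfLe hle) (fun h x => rfl)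
  have key := algebraMap_norm_eq_prod_smul (G := H₁) (K := K) (B := B) (L := L)
    (H₂.subgroupOf H₁) (fun j => (⟨s j, hs₁ j⟩ : H₁)) (fun g => by
      obtain ⟨j, hj, huniq⟩ := hs g g.2
      refine ⟨j, ?_, fun j' hj' => huniq j' ?_⟩
      · show _ ∈ H₂.subgroupOf H₁
        rw [Subgroup.mem_subgroupOf]; simpa using hj
      · have hj'' : (⟨s j', hs₁ j'⟩ : H₁)⁻¹ * g ∈ H₂.subgroupOf H₁ := hj'
        rw [Subgroup.mem_subgroupOf] at hj''
        show (s j')⁻¹ * (g : G) ∈ H₂
        simpa using hj'') x
  rw [key]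
  rfl

end Relative

end Fermat.Agent.N4F.Tors.GaloisNorm
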