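/-
N4-FULL, block F, node F3c (3a): THE MULTIPLIER OF A HECKE PRODUCT.

`h : ℍ → ℂ` with `h (γ z) = c γ * h z` for `γ ∈ Γ₀(N)`.  Then `H z := ∏_x h (α_x z)`
(`α_x = heckeRep p x`, `x ∈ ℙ¹(𝔽_p)`, the coset representatives of `T_p`) satisfies
`H (γ z) = (∏_x c (heckeCoc γ x)) * H z`; for `c = stdAddChar ∘ ψ` the new multiplier is
`stdAddChar ∘ heckeAdd ψ`.  The same for any family `w_x` of maps `ℍ → ℍ` with
`w_x z = g_x • α_x • z`, `g_x ∈ Γ₀(N)` (e.g. `w_x z = p · δ_x z` for a suitable right transversal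
`δ_x` of `Γ₀(Np)` in `Γ₀(N)`).
-/
import Fermat.Agent.N4F.Tors.PeriodHecke

set_option autoImplicit false

open CongruenceSubgroup UpperHalfPlane
open scoped MatrixGroups Manifold

namespace Fermat.Agent.N4F.Tors.HeckeMultiplier

open Fermat.Agent.N4F.Tors.HeckeHom Fermat.Agent.N4F.Tors.PeriodHecke
open P2MW.S_ModularForm_heckeT_slash_eq_self_of_mem_Gamma0.ModularForm.HeckeSlashInvariance

variable (N : ℕ) (p : ℕ) [Fact p.Prime]

/-- the Hecke product `H z = ∏_x h (α_x z)` -/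
noncomputable def heckeProd (h : ℍ → ℂ) (z : ℍ) : ℂ :=
  ∏ x : OnePoint (ZMod p), h (heckeRep p x • z)

theorem heckeProd_apply (h : ℍ → ℂ) (z : ℍ) :
    heckeProd p h z = ∏ x : OnePoint (ZMod p), h (heckeRep p x • z) := rfl

/-- **Multiplier of the Hecke product, general form.** -/
theorem heckeProd_smul (hpN : ¬ p ∣ N) {h : ℍ → ℂ} {c : ↥(Gamma0 N) → ℂ}
    (hc : ∀ (g : ↥(Gamma0 N)) (z : ℍ), h ((g : SL(2, ℤ)) • z) = c g * h z)
    (g : ↥(Gamma0 N)) (z : ℍ) :
    heckeProd p h ((g : SL(2, ℤ)) • z) =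
      (∏ x : OnePoint (ZMod p), c (heckeCoc N p hpN g x)) * heckeProd p h z := by
  calc heckeProd p h ((g : SL(2, ℤ)) • z)
      = ∏ x : OnePoint (ZMod p), (c (heckeCoc N p hpN g x) *
          h (heckeRep p (redMatrix p (g : SL(2, ℤ)) • x) • z)) := by
        refine Finset.prod_congr rfl fun x _ => ?_
        rw [heckeRep_smul_smul N hpN g x z, hc]
    _ = (∏ x : OnePoint (ZMod p), c (heckeCoc N p hpN g x)) *
          ∏ x : OnePoint (ZMod p), h (heckeRep p (redMatrix p (g : SL(2, ℤ)) • x) • z) :=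
        Finset.prod_mul_distrib
    _ = _ := by
        congr 1
        exact Equiv.prod_comp ((heckeSys N p hpN).permEquiv g) (fun x => h (heckeRep p x • z))

theorem stdAddChar_sum {n : ℕ} [NeZero n] {ι : Type*} (s : Finset ι) (f : ι → ZMod n) :
    (ZMod.stdAddChar (∑ i ∈ s, f i) : ℂ) = ∏ i ∈ s, ZMod.stdAddChar (f i) := by
  classical
  induction s using Finset.induction_on with
  | empty => simp
  | insert a s ha ih => rw [Finset.sum_insert ha, Finset.prod_insert ha, AddChar.map_add_eq_mul, ih]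

/-- **Multiplier of the Hecke product, character form**: if `h` transforms under `Γ₀(N)` by the
character `stdAddChar ∘ ψ`, then `heckeProd p h` transforms by `stdAddChar ∘ heckeAdd ψ`. -/
theorem heckeProd_smul_stdAddChar (hpN : ¬ p ∣ N) {n : ℕ} [NeZero n] {h : ℍ → ℂ}
    (ψ : Additive ↥(Gamma0 N) →+ ZMod n)
    (hψ : ∀ (g : ↥(Gamma0 N)) (z : ℍ),
      h ((g : SL(2, ℤ)) • z) = ZMod.stdAddChar (ψ (Additive.ofMul g)) * h z)
    (g : ↥(Gamma0 N)) (z : ℍ) :
    heckeProd p h ((g : SL(2, ℤ)) • z) =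
      ZMod.stdAddChar (heckeAdd N p hpN ψ (Additive.ofMul g)) * heckeProd p h z := by
  rw [heckeProd_smul N p hpN (c := fun g => ZMod.stdAddChar (ψ (Additive.ofMul g))) hψ g z,
    heckeAdd_apply, stdAddChar_sum]

/-- a family `w_x` which differs from `α_x` by elements of `Γ₀(N)` gives a constant multiple of
the Hecke product -/
theorem prod_eq_mul_heckeProd {h : ℍ → ℂ} {c : ↥(Gamma0 N) → ℂ}
    (hc : ∀ (g : ↥(Gamma0 N)) (z : ℍ), h ((g : SL(2, ℤ)) • z) = c g * h z)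
    (w : OnePoint (ZMod p) → ℍ → ℍ) (γ : OnePoint (ZMod p) → ↥(Gamma0 N))
    (hw : ∀ x z, w x z = (γ x : SL(2, ℤ)) • (heckeRep p x • z)) (z : ℍ) :
    ∏ x : OnePoint (ZMod p), h (w x z) =
      (∏ x : OnePoint (ZMod p), c (γ x)) * heckeProd p h z := by
  rw [heckeProd_apply, ← Finset.prod_mul_distrib]
  refine Finset.prod_congr rfl fun x _ => ?_
  rw [hw, hc]

/-- **Multiplier for a twisted family, general form.** -/
theorem prod_smul (hpN : ¬ p ∣ N) {h : ℍ → ℂ} {c : ↥(Gamma0 N) → ℂ}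
    (hc : ∀ (g : ↥(Gamma0 N)) (z : ℍ), h ((g : SL(2, ℤ)) • z) = c g * h z)
    (w : OnePoint (ZMod p) → ℍ → ℍ)
    (hw : ∀ x, ∃ γ : ↥(Gamma0 N), ∀ z, w x z = (γ : SL(2, ℤ)) • (heckeRep p x • z))
    (g : ↥(Gamma0 N)) (z : ℍ) :
    ∏ x : OnePoint (ZMod p), h (w x ((g : SL(2, ℤ)) • z)) =
      (∏ x : OnePoint (ZMod p), c (heckeCoc N p hpN g x)) *
        ∏ x : OnePoint (ZMod p), h (w x z) := by
  choose γ hγ using hw
  rw [prod_eq_mul_heckeProd N p hc w γ hγ, prod_eq_mul_heckeProd N p hc w γ hγ,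
    heckeProd_smul N p hpN hc g z]
  ring

/-- **Multiplier for a twisted family, character form** (the shape consumed by F3c with
`w x z = scaleH p (δ x • z)`). -/
theorem prod_smul_stdAddChar (hpN : ¬ p ∣ N) {n : ℕ} [NeZero n] {h : ℍ → ℂ}
    (ψ : Additive ↥(Gamma0 N) →+ ZMod n)
    (hψ : ∀ (g : ↥(Gamma0 N)) (z : ℍ),
      h ((g : SL(2, ℤ)) • z) = ZMod.stdAddChar (ψ (Additive.ofMul g)) * h z)
    (w : OnePoint (ZMod p) → ℍ → ℍ)
    (hw : ∀ x, ∃ γ : ↥(Gamma0 N), ∀ z, w x z = (γ : SL(2, ℤ)) • (heckeRep p x • z))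
    (g : ↥(Gamma0 N)) (z : ℍ) :
    ∏ x : OnePoint (ZMod p), h (w x ((g : SL(2, ℤ)) • z)) =
      ZMod.stdAddChar (heckeAdd N p hpN ψ (Additive.ofMul g)) *
        ∏ x : OnePoint (ZMod p), h (w x z) := by
  rw [prod_smul N p hpN (c := fun g => ZMod.stdAddChar (ψ (Additive.ofMul g))) hψ w hw g z,
    heckeAdd_apply, stdAddChar_sum]

/-- holomorphy of the Hecke product -/
theorem mdiff_heckeProd {h : ℍ → ℂ} (hh : MDiff h) : MDiff (heckeProd p h) := by
  have h1 : ∀ x : OnePoint (ZMod p), MDiff (fun z : ℍ => h (heckeRep p x • z)) := fun x =>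
    hh.comp (UpperHalfPlane.mdifferentiable_smul (det_heckeRep_pos' x))
  have h2 : heckeProd p h = fun z => ∏ x : OnePoint (ZMod p), h (heckeRep p x • z) := rfl
  rw [h2]
  classical
  have h3 : ∀ s : Finset (OnePoint (ZMod p)),
      MDiff (fun z : ℍ => ∏ x ∈ s, h (heckeRep p x • z)) := by
    intro s
    induction s using Finset.induction_on with
    | empty =>
      simp only [Finset.prod_empty]
      exact mdifferentiable_const
    | insert a s ha ih =>
      simp only [Finset.prod_insert ha]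
      exact (h1 a).mul ih
  exact h3 Finset.univ

end Fermat.Agent.N4F.Tors.HeckeMultiplier
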