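import Mathlib
import Fermat.Agent.N4F.Tors.KummerPic
import Fermat.Agent.N4F.Tors.KummerCompat

/-!
# N4-FULL, block F, (K4) at the level of `Pic⁰`: compatibility of `kummerC` in `n`

For `n ∣ n'` and `x ∈ Pic⁰(ℂ·F_N)[n']`, the class `(n'/n) • x` is `n`-torsion and
`kummerC n ((n'/n) • x) = (ZMod.castHom) ∘ kummerC n' x`
(the same function `f` works: `n' • D = div f ⇒ n • ((n'/n) • D) = div f`).
-/

set_option autoImplicit false
set_option linter.unusedSectionVars false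

noncomputable section

namespace Fermat.Agent.N4F.Tors.KummerPicCompat

open AlgebraicCurve CongruenceSubgroup MatrixGroups
open Fermat.Agent.S24 Fermat.Agent.S24.FieldIso
open Fermat.Agent.N4F.Tors.Kummer Fermat.Agent.N4F.Tors.KummerPic
open Fermat.Agent.N4F.Tors.KummerCompat

variable {N : ℕ} [NeZero N]

/-- A datum at `n'` for `x` gives a datum at `n` for `(n'/n) • x`, with the same function. -/
theorem IsDatum.of_dvd {n n' : ℕ} (h : n ∣ n') {x : Pic0 ℂ (FC N)}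
    {D : Divisor.degZero (K := ℂ) (F := FC N)} {f : FC N} (hD : IsDatum N n' x D f) :
    IsDatum N n ((n' / n) • x) ((n' / n) • D) f where
  mk_eq := by
    rw [← hD.mk_eq]
    exact map_nsmul (QuotientAddGroup.mk' _) (n' / n) D
  ne_zero := hD.ne_zero
  ord_eq := fun v => by
    rw [← hD.ord_eq v, AddSubgroup.coe_nsmul, Finsupp.smul_apply, nsmul_eq_mul, ← mul_assoc]
    congr 1
    rw [← Nat.cast_mul, Nat.mul_div_cancel' h]

/-- **(K4), `Pic⁰` level.** -/
theorem kummerC_compat {n n' : ℕ} [NeZero n] [NeZero n'] (h : n ∣ n')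
    (x : Pic0.torsion ℂ (FC N) n')
    (hx : (n' / n) • (x : Pic0 ℂ (FC N)) ∈ Pic0.torsion ℂ (FC N) n) :
    kummerC N n ⟨(n' / n) • (x : Pic0 ℂ (FC N)), hx⟩ =
      (ZMod.castHom h (ZMod n)).toAddMonoidHom.comp (kummerC N n' x) := by
  obtain ⟨D, f, hD⟩ := exists_isDatum x.2
  have hD' : IsDatum N n
      ((⟨(n' / n) • (x : Pic0 ℂ (FC N)), hx⟩ : Pic0.torsion ℂ (FC N) n) : Pic0 ℂ (FC N))
      ((n' / n) • D) f := IsDatum.of_dvd h hD
  rw [kummerC_eq_of_isDatum _ hD', kummerC_eq_of_isDatum x hD]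
  exact kummerChar_of_dvd h hD.nDiv hD'.nDiv

/-- **(K4), `Pic⁰` level, total in `n`** = clause (C4) of `KummerBar.ComplexKummer` for
`κ := kummerCAll N`. -/
theorem kummerCAll_compat (N : ℕ) [NeZero N] (n n' : ℕ) (h : n ∣ n') (hn' : 0 < n')
    (x : Pic0.torsion ℂ (FC N) n')
    (hx : (n' / n) • (x : Pic0 ℂ (FC N)) ∈ Pic0.torsion ℂ (FC N) n) :
    kummerCAll N n ⟨(n' / n) • (x : Pic0 ℂ (FC N)), hx⟩ =
      (ZMod.castHom h (ZMod n)).toAddMonoidHom.comp (kummerCAll N n' x) := by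
  have : NeZero n' := ⟨hn'.ne'⟩
  have : NeZero n := ⟨fun h0 => hn'.ne' (by
    obtain ⟨m, rfl⟩ := h
    rw [h0, zero_mul])⟩
  rw [kummerCAll_eq N n, kummerCAll_eq N n']
  exact kummerC_compat h x hx

end Fermat.Agent.N4F.Tors.KummerPicCompat
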