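/-
N4-FULL, block F, rows F4b + F6: `Outputs.LatticeOccurs N hg` UNCONDITIONALLY.

Plug of `Tors/ESHecke.lean` (commutation of the `T_ℓ` on the integral lattice, the eigenvector
`pml N g` of a normalized eigenform) into `Tors/Outputs.latticeOccurs_of_eigen`.  Hence block F's
second output `EigenformOccurs N hg` needs ONLY `Outputs.KummerPackage N`.
-/
import Fermat.Agent.N4F.Tors.Outputs
import Fermat.Agent.N4F.Tors.ESHecke

set_option autoImplicit false

open CongruenceSubgroup ModularFormClass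
open scoped MatrixGroups TensorProduct

namespace Fermat.Agent.N4F.Tors.LatticeOccursInst

open Fermat.Agent.N4F.Tors.HeckeHom Fermat.Agent.N4F.Tors.HomLattice
  Fermat.Agent.N4F.Tors.PeriodHecke Fermat.Agent.M2.ES Fermat.Agent.N4F.Res

variable (N : ℕ) [NeZero N]

/-- **The Hecke operators commute on `Λ = parHomAdd N ℤ`** (in the shape of `Outputs`). -/
theorem heckeLattice_commute (ℓ ℓ' : Nat.Primes) (hℓ : ¬ (ℓ : ℕ) ∣ N) (hℓ' : ¬ (ℓ' : ℕ) ∣ N) :
    Commute (Outputs.heckeLattice N ℓ hℓ) (Outputs.heckeLattice N ℓ' hℓ') := by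
  refine LinearMap.ext fun ψ => Subtype.ext ?_
  have h := LinearMap.congr_fun (ESHecke.TL_commute N ⟨ℓ, hℓ⟩ ⟨ℓ', hℓ'⟩).eq
    ⟨ψ.1, (ESHecke.mem_killing_iff (R := ℤ) N).mpr ψ.2⟩
  exact congrArg Subtype.val h

/-- the `T_ℓ`-eigenvector equation for the period homomorphism of a normalized eigenform, in the
shape of `Outputs.latticeOccurs_of_eigen` -/
theorem heckeAddP_pml {g : CuspForm (Gamma0 N) 2} (hg : g.IsNormalizedEigenform)
    (ℓ : Nat.Primes) (hℓN : ¬ (ℓ : ℕ) ∣ N) :
    Outputs.heckeAddP N ℓ hℓN (pml N g) = qCoeff g ℓ • pml N g :=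
  ESHecke.Tk_pml N hg ⟨ℓ, hℓN⟩

/-- **F4b, in helper4's shape: the eigensystem of a normalized eigenform occurs in the lattice of
integral parabolic homomorphisms, mod every prime.**  UNCONDITIONAL. -/
theorem latticeOccurs {g : CuspForm (Gamma0 N) 2} (hg : g.IsNormalizedEigenform) :
    Outputs.LatticeOccurs N hg :=
  Outputs.latticeOccurs_of_eigen N hg (heckeLattice_commute N) (pml N g)
    ((ESHecke.mem_killing_iff (R := ℂ) N).mp (ESHecke.pml_mem_killing N g))
    (ESHecke.pml_ne_zero N hg) (heckeAddP_pml N hg)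

/-- **OUT2 of block F from the Kummer package alone.** -/
theorem eigenformOccurs_of_kummerPackage (hK : Outputs.KummerPackage N)
    {g : CuspForm (Gamma0 N) 2} (hg : g.IsNormalizedEigenform) : EigenformOccurs N hg :=
  Outputs.eigenformOccurs N hK hg (latticeOccurs N hg)

end Fermat.Agent.N4F.Tors.LatticeOccursInst
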