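/-
N4-FULL block F, for node F1 (helper23): `n`-th ROOTS OF MEROMORPHIC FUNCTIONS.

* `exists_root_of_ne_zero`: a nowhere vanishing holomorphic function on an open disc has a holomorphic
  `n`-th root (primitive of the logarithmic derivative, Mathlib's Morera theorem for discs);
-/
import Mathlib

set_option autoImplicit false

open Metric Set Filter Topology Complex

noncomputable section

namespace Fermat.Agent.N4F.Tors.MeroRoot

/-- A nowhere vanishing holomorphic function on an open disc has a holomorphic `n`-th root. -/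
theorem exists_root_of_ne_zero {n : ℕ} (hn : n ≠ 0) {c : ℂ} {r : ℝ} {g : ℂ → ℂ}
    (hg : DifferentiableOn ℂ g (ball c r)) (hne : ∀ z ∈ ball c r, g z ≠ 0) :
    ∃ ρ : ℂ → ℂ, DifferentiableOn ℂ ρ (ball c r) ∧ (∀ z ∈ ball c r, ρ z ≠ 0) ∧
      ∀ z ∈ ball c r, ρ z ^ n = g z := by
  rcases le_or_gt r 0 with hr | hr
  · refine ⟨g, hg, hne, fun z hz => ?_⟩
    rw [ball_eq_empty.2 hr] at hz
    exact absurd hz (Set.notMem_empty z)
  have hopen : IsOpen (ball c r) := isOpen_ball
  have hc : c ∈ ball c r := mem_ball_self hr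
  -- the logarithmic derivative and its primitive
  have hG : DifferentiableOn ℂ (fun z => deriv g z / g z) (ball c r) :=
    (hg.deriv hopen).div hg hne
  obtain ⟨L, hL⟩ := hG.isExactOn_ball
  -- `g * exp (-L)` is constant
  have hφd : ∀ z ∈ ball c r, HasDerivAt (fun z => g z * Complex.exp (-L z)) 0 z := by
    intro z hz
    have h1 : HasDerivAt g (deriv g z) z := (hg.differentiableAt (hopen.mem_nhds hz)).hasDerivAt
    have h2 : HasDerivAt (fun z => Complex.exp (-L z))
        (Complex.exp (-L z) * -(deriv g z / g z)) z := ((hL z hz).neg).cexp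
    have h3 := h1.mul h2
    have hz0 := hne z hz
    have e : g z * (Complex.exp (-L z) * -(deriv g z / g z)) =
        -(deriv g z * Complex.exp (-L z)) := by
      field_simp
    exact h3.congr_deriv (by rw [e, add_neg_cancel])
  have hφdiff : DifferentiableOn ℂ (fun z => g z * Complex.exp (-L z)) (ball c r) :=
    fun z hz => (hφd z hz).differentiableAt.differentiableWithinAt
  have hconst : ∀ z ∈ ball c r, g z * Complex.exp (-L z) = g c * Complex.exp (-L c) := by
    intro z hz
    exact hopen.is_const_of_deriv_eq_zero (convex_ball c r).isPreconnected hφdiff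
      (fun w hw => (hφd w hw).deriv) hz hc
  set C : ℂ := g c * Complex.exp (-L c) with hC
  have hC0 : C ≠ 0 := mul_ne_zero (hne c hc) (Complex.exp_ne_zero _)
  obtain ⟨C₁, hC₁⟩ := IsAlgClosed.exists_pow_nat_eq C (Nat.pos_of_ne_zero hn)
  have hC₁0 : C₁ ≠ 0 := by
    rintro rfl
    rw [zero_pow hn] at hC₁
    exact hC0 hC₁.symm
  have hgz : ∀ z ∈ ball c r, g z = C * Complex.exp (L z) := by
    intro z hz
    have h := hconst z hz
    rw [← h, mul_assoc, ← Complex.exp_add, neg_add_cancel, Complex.exp_zero, mul_one]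
  refine ⟨fun z => C₁ * Complex.exp (L z / n), ?_, ?_, ?_⟩
  · intro z hz
    have hLd : DifferentiableAt ℂ L z := (hL z hz).differentiableAt
    exact ((hLd.div_const _).cexp.const_mul _).differentiableWithinAt
  · intro z _
    exact mul_ne_zero hC₁0 (Complex.exp_ne_zero _)
  · intro z hz
    rw [mul_pow, hC₁, ← Complex.exp_nat_mul, hgz z hz]
    congr 2
    field_simp

end Fermat.Agent.N4F.Tors.MeroRoot
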