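/-
N4-FULL, row F6a (consumer shape): the abstract occurrence lemma `Tors/Occurrence.lean` in the exact
shape of `Res.Occurs N p 𝔽 lam` (`N4F/Res/Interface.lean`).
-/
import Mathlib
import Fermat.Agent.N4F.Res.Interface
import Fermat.Agent.N4F.Tors.Occurrence

set_option autoImplicit false

open ModularCurve AlgebraicCurve
open scoped TensorProduct

namespace Fermat.Agent.N4F.Tors.OccursJ

open Fermat.Agent.N4F.Res Fermat.Agent.N4F.Tors.Occurrence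

variable (N : ℕ) [NeZero N] (p : ℕ) [Fact p.Prime] (𝔽 : Type) [Field 𝔽] [Algebra (ZMod p) 𝔽]

/-- A finite `ZMod p`-module is a finite module. -/
theorem moduleFinite_Jtors (hfin : Finite (Jtors N p)) : Module.Finite (ZMod p) (Jtors N p) :=
  Module.Finite.of_finite

/-- **Occurrence in `𝔽 ⊗ J_0(N)[p]`, ring-homomorphism form.**  `𝕋` any commutative ring acting
on `J_0(N)[p]` through `act`, `Λ : 𝕋 → 𝔽` a ring homomorphism killing everything that acts as `0`,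
and every `T_ℓ` (`ℓ ∤ N`) is `act P` for some `P` with `Λ P = lam ℓ`. -/
theorem occurs_of_ringHom (lam : Nat.Primes → 𝔽) (hfin : Finite (Jtors N p))
    {𝕋 : Type*} [CommRing 𝕋] (act : 𝕋 →+* Module.End (ZMod p) (Jtors N p)) (Λ : 𝕋 →+* 𝔽)
    (H : ∀ P : 𝕋, act P = 0 → Λ P = 0)
    (hgen : ∀ ℓ : Nat.Primes, ¬ (ℓ : ℕ) ∣ N → ∃ P : 𝕋, act P = heckeTors N p ℓ ∧ Λ P = lam ℓ) :
    Occurs N p 𝔽 lam := by
  have := moduleFinite_Jtors N p hfin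
  obtain ⟨v, hv, hev⟩ := exists_eigenvector_zmod p (𝔽 := 𝔽) act Λ H
  refine ⟨v, hv, fun ℓ hℓ => ?_⟩
  obtain ⟨P, hP, hΛ⟩ := hgen ℓ hℓ
  rw [← hP, ← hΛ]
  exact hev P

/-- **Occurrence in `𝔽 ⊗ J_0(N)[p]`, commuting-family form** (`ℤ`-coefficient polynomials in the
`T_ℓ`, `ℓ ∤ N`). -/
theorem occurs_of_commute (lam : Nat.Primes → 𝔽) (hfin : Finite (Jtors N p))
    (hcomm : ∀ ℓ ℓ' : {ℓ : Nat.Primes // ¬ (ℓ : ℕ) ∣ N},
      Commute (heckeTors N p ℓ.1) (heckeTors N p ℓ'.1))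
    (H : ∀ P : MvPolynomial {ℓ : Nat.Primes // ¬ (ℓ : ℕ) ∣ N} ℤ,
      polyAct (R := ℤ) (fun ℓ : {ℓ : Nat.Primes // ¬ (ℓ : ℕ) ∣ N} => heckeTors N p ℓ.1) hcomm P = 0 →
        MvPolynomial.aeval (fun ℓ : {ℓ : Nat.Primes // ¬ (ℓ : ℕ) ∣ N} => lam ℓ.1) P = 0) :
    Occurs N p 𝔽 lam := by
  have := moduleFinite_Jtors N p hfin
  obtain ⟨v, hv, hev⟩ := exists_common_eigenvector_zmod p (𝔽 := 𝔽)
    (fun ℓ : {ℓ : Nat.Primes // ¬ (ℓ : ℕ) ∣ N} => heckeTors N p ℓ.1) hcomm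
    (fun ℓ => lam ℓ.1) H
  exact ⟨v, hv, fun ℓ hℓ => hev ⟨ℓ, hℓ⟩⟩

end Fermat.Agent.N4F.Tors.OccursJ
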